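import Mathlib
import Fermat.Prelude.Def_CuspForm_HeckeGaloisRepDatum
import Fermat.Prelude.Def_GaloisRep_Flat
import Fermat.Prelude.Def_ModularCurve_ArithmeticGalois

/-!
# S32, top level (helper1215): Spec + assembly

The frozen statement S32 (`H.ρ.IsFlatAt p` for a Hecke--Galois datum `H`) is derived from three
`Prop`s, all stated in the unfolded frozen vocabulary (no shared definitions are needed):

* `Stmt_S19` : the frozen statement S19, verbatim (finite flat model of `J₀(N)[ℓ^k]`);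
* `Stmt_FlatSubquot p` : the frozen flat clause `FrozenFlat p` passes from a Galois module `M` to
  every equivariant additive image of a Galois-stable subgroup of a finite power `Fin r → M`
  (closure of finite flat models under subquotients of finite powers);
* `Stmt_Subquot p H` : for every ideal `I` of finite index, `V ⧸ I V` (with the frozen
  `levelAction`) is an equivariant additive image of a Galois-stable subgroup of a finite power
  of `J₀(N)[p^m]` (the finite-level transfer).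

`Finite (ResidueField T)` is proved here from the datum.
-/

set_option autoImplicit false

namespace Fermat.Agent.S32.helper1215

open ModularCurve

/-- The frozen flat clause (the existential of S19 / of `GaloisRepAdic.IsFlatAt`) for an abstract
module `M` with a family of maps `act σ : M → M` indexed by the absolute Galois group. -/
def FrozenFlat (p : ℕ) (M : Type) [AddCommGroup M]
    (act : (AlgebraicClosure ℚ ≃ₐ[ℚ] AlgebraicClosure ℚ) → M → M) : Prop :=
  ∃ (H : Type) (_ : CommRing H) (_ : HopfAlgebra (GaloisRep.ratLocalizedAt p) H),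
    Module.Finite (GaloisRep.ratLocalizedAt p) H ∧
    Module.Flat (GaloisRep.ratLocalizedAt p) H ∧
    Coalgebra.IsCocomm (GaloisRep.ratLocalizedAt p) H ∧
    ∃ e : WithConv (H →ₐ[GaloisRep.ratLocalizedAt p] AlgebraicClosure ℚ) ≃ M,
      (∀ f g : WithConv (H →ₐ[GaloisRep.ratLocalizedAt p] AlgebraicClosure ℚ),
        e (f * g) = e f + e g) ∧
      ∀ (σ : AlgebraicClosure ℚ ≃ₐ[ℚ] AlgebraicClosure ℚ)
        (f g : WithConv (H →ₐ[GaloisRep.ratLocalizedAt p] AlgebraicClosure ℚ)),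
        (∀ h : H, g h = σ (f h)) → e g = act σ (e f)

/-- The frozen statement S19, verbatim (`p` there is the level, called `N` here). -/
def Stmt_S19 : Prop :=
  ∀ (N : ℕ) [NeZero N] (ℓ : ℕ) [Fact ℓ.Prime] (_ : ¬ ℓ ∣ N) (k : ℕ),
    ∃ (H : Type) (_ : CommRing H) (_ : HopfAlgebra (GaloisRep.ratLocalizedAt ℓ) H),
      Module.Finite (GaloisRep.ratLocalizedAt ℓ) H ∧ Module.Flat (GaloisRep.ratLocalizedAt ℓ) H ∧
      Coalgebra.IsCocomm (GaloisRep.ratLocalizedAt ℓ) H ∧
      ∃ e : WithConv (H →ₐ[GaloisRep.ratLocalizedAt ℓ] AlgebraicClosure ℚ) ≃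
          ↥(Submodule.torsionBy ℤ (JZero N) ((ℓ : ℤ) ^ k)),
        (∀ f g, e (f * g) = e f + e g) ∧
        ∀ (σ : AlgebraicClosure ℚ ≃ₐ[ℚ] AlgebraicClosure ℚ)
          (f g : WithConv (H →ₐ[GaloisRep.ratLocalizedAt ℓ] AlgebraicClosure ℚ)),
          (∀ h : H, g h = σ (f h)) → ((e g : JZero N)) = σ • (e f : JZero N)

/-- Closure of the frozen flat clause under subquotients of finite powers: if `(M, act)` has a
finite flat model, `Nsub` is a subgroup of `Fin r → M` stable under the componentwise action and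
`f : Nsub →+ M'` is a surjection intertwining the componentwise action with `act'`, then
`(M', act')` has a finite flat model. -/
def Stmt_FlatSubquot (p : ℕ) : Prop :=
  ∀ (M M' : Type) [AddCommGroup M] [AddCommGroup M']
    (act : (AlgebraicClosure ℚ ≃ₐ[ℚ] AlgebraicClosure ℚ) → M → M)
    (act' : (AlgebraicClosure ℚ ≃ₐ[ℚ] AlgebraicClosure ℚ) → M' → M')
    (r : ℕ) (Nsub : AddSubgroup (Fin r → M)),
    (∀ (σ : AlgebraicClosure ℚ ≃ₐ[ℚ] AlgebraicClosure ℚ), ∀ x ∈ Nsub,
      (fun i => act σ (x i)) ∈ Nsub) →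
    ∀ f : Nsub →+ M', Function.Surjective f →
      (∀ (σ : AlgebraicClosure ℚ ≃ₐ[ℚ] AlgebraicClosure ℚ) (x y : Nsub),
        (∀ i, (y : Fin r → M) i = act σ ((x : Fin r → M) i)) → f y = act' σ (f x)) →
      FrozenFlat p M act → FrozenFlat p M' act'

section Datum

variable {N : ℕ} [NeZero N] {S : Finset ℕ}
  {𝒪 : Type} [CommRing 𝒪] [IsDomain 𝒪] [IsDiscreteValuationRing 𝒪]
  [IsAdicComplete (IsLocalRing.maximalIdeal 𝒪) 𝒪]
  {θ : CuspForm.heckeAlgebra N 2 (↑S : Set ℕ) →+* IsLocalRing.ResidueField 𝒪}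
  {T : Type} [CommRing T] [IsLocalRing T] [IsNoetherianRing T]
  [IsAdicComplete (IsLocalRing.maximalIdeal T) T] [Algebra 𝒪 T] [IsLocalHom (algebraMap 𝒪 T)]
  [Module.Finite 𝒪 T] [Module.Free 𝒪 T]

/-- The finite-level transfer: every finite quotient `V ⧸ I V` of the representation of the datum
is an equivariant additive image of a Galois-stable subgroup of a finite power of `J₀(N)[p^m]`. -/
def Stmt_Subquot (p : ℕ) (H : CuspForm.HeckeGaloisRepDatum N (↑S : Set ℕ) 𝒪 θ T) : Prop :=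
  ∀ I : Ideal T, Finite (T ⧸ I) →
    ∃ (m r : ℕ) (Nsub : AddSubgroup (Fin r → ↥(Submodule.torsionBy ℤ (JZero N) ((p : ℤ) ^ m)))),
      (∀ (σ : AlgebraicClosure ℚ ≃ₐ[ℚ] AlgebraicClosure ℚ), ∀ x ∈ Nsub,
        ∀ y : Fin r → ↥(Submodule.torsionBy ℤ (JZero N) ((p : ℤ) ^ m)),
          (∀ i, ((y i : JZero N)) = σ • (x i : JZero N)) → y ∈ Nsub) ∧
      ∃ f : Nsub →+ (H.ρ.V ⧸ (I • (⊤ : Submodule T H.ρ.V))), Function.Surjective f ∧
        ∀ (σ : AlgebraicClosure ℚ ≃ₐ[ℚ] AlgebraicClosure ℚ) (x y : Nsub),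
          (∀ i, ((y.1 i : JZero N)) = σ • (x.1 i : JZero N)) →
            f y = H.ρ.levelAction I σ (f x)

/-- The residue field of the coefficient ring of a datum is finite. -/
theorem finite_residueField [Finite (IsLocalRing.ResidueField 𝒪)]
    (H : CuspForm.HeckeGaloisRepDatum N (↑S : Set ℕ) 𝒪 θ T) :
    Finite (IsLocalRing.ResidueField T) := by
  have hsurj : Function.Surjective (IsLocalRing.ResidueField.map (algebraMap 𝒪 T)) := by
    intro y
    obtain ⟨a, ha⟩ := H.residue_surjective y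
    exact ⟨IsLocalRing.residue 𝒪 a, by rw [IsLocalRing.ResidueField.map_residue]; exact ha⟩
  exact Finite.of_surjective _ hsurj

end Datum

/-- The Galois action on the `n`-torsion of `J₀(N)`. -/
noncomputable def torsAct (N : ℕ) (n : ℤ) (σ : AlgebraicClosure ℚ ≃ₐ[ℚ] AlgebraicClosure ℚ)
    (x : ↥(Submodule.torsionBy ℤ (JZero N) n)) : ↥(Submodule.torsionBy ℤ (JZero N) n) :=
  ⟨σ • (x : JZero N), by
    have hx : n • (x : JZero N) = 0 := (Submodule.mem_torsionBy_iff _ _).1 x.2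
    rw [Submodule.mem_torsionBy_iff, smul_comm, hx]
    exact smul_zero (A := JZero N) σ⟩

@[simp]
theorem coe_torsAct (N : ℕ) (n : ℤ) (σ : AlgebraicClosure ℚ ≃ₐ[ℚ] AlgebraicClosure ℚ)
    (x : ↥(Submodule.torsionBy ℤ (JZero N) n)) :
    ((torsAct N n σ x : ↥(Submodule.torsionBy ℤ (JZero N) n)) : JZero N) = σ • (x : JZero N) :=
  rfl

/-- The frozen S19 in `FrozenFlat` form. -/
theorem frozenFlat_torsion (h19 : Stmt_S19) (N : ℕ) [NeZero N] (ℓ : ℕ) (hℓ : ℓ.Prime)
    (hℓN : ¬ ℓ ∣ N) (k : ℕ) :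
    FrozenFlat ℓ ↥(Submodule.torsionBy ℤ (JZero N) ((ℓ : ℤ) ^ k)) (torsAct N ((ℓ : ℤ) ^ k)) := by
  have : Fact ℓ.Prime := ⟨hℓ⟩
  obtain ⟨H, i1, i2, hfin, hflat, hco, e, hadd, hgal⟩ := h19 N ℓ hℓN k
  exact ⟨H, i1, i2, hfin, hflat, hco, e, hadd, fun σ f g hfg => Subtype.ext (hgal σ f g hfg)⟩

section Main

variable {p : ℕ} {N : ℕ} [NeZero N] {S : Finset ℕ}
  {𝒪 : Type} [CommRing 𝒪] [IsDomain 𝒪] [IsDiscreteValuationRing 𝒪]
  [IsAdicComplete (IsLocalRing.maximalIdeal 𝒪) 𝒪]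
  {θ : CuspForm.heckeAlgebra N 2 (↑S : Set ℕ) →+* IsLocalRing.ResidueField 𝒪}
  {T : Type} [CommRing T] [IsLocalRing T] [IsNoetherianRing T]
  [IsAdicComplete (IsLocalRing.maximalIdeal T) T] [Algebra 𝒪 T] [IsLocalHom (algebraMap 𝒪 T)]
  [Module.Finite 𝒪 T] [Module.Free 𝒪 T]

/-- **Assembly.** The frozen S32 from the frozen S19, the closure of the flat clause under
subquotients of finite powers, and the finite-level transfer. -/
theorem s32_of_props [Finite (IsLocalRing.ResidueField 𝒪)]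
    (hp : p.Prime) (hpN : ¬ p ∣ N)
    (H : CuspForm.HeckeGaloisRepDatum N (↑S : Set ℕ) 𝒪 θ T)
    (h19 : Stmt_S19) (hcl : Stmt_FlatSubquot p) (hx : Stmt_Subquot p H) :
    H.ρ.IsFlatAt p := by
  refine ⟨finite_residueField H, fun I hI => ?_⟩
  unfold Stmt_Subquot at hx
  obtain ⟨m, r, Nsub, hstab, f, hf, hfeq⟩ := hx I hI
  have hJ := frozenFlat_torsion h19 N p hp hpN m
  have key : FrozenFlat p (H.ρ.V ⧸ (I • (⊤ : Submodule T H.ρ.V)))
      (fun σ => H.ρ.levelAction I σ) :=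
    hcl _ _ (torsAct N ((p : ℤ) ^ m)) (fun σ => H.ρ.levelAction I σ) r Nsub
      (fun σ x hxN => hstab σ x hxN _ (fun i => rfl)) f hf
      (fun σ x y hxy => hfeq σ x y (fun i => by rw [hxy i]; rfl)) hJ
  exact key

/-- The frozen S32 statement (same binders as the template) from the three `Prop`s. -/
theorem result_of_props [Finite (IsLocalRing.ResidueField 𝒪)] [CharZero 𝒪]
    (hp : p.Prime) (_hp2 : p ≠ 2) (_hp𝒪 : (p : 𝒪) ∈ IsLocalRing.maximalIdeal 𝒪) (hpN : ¬ p ∣ N)
    (_hpS : p ∈ S) (_hNS : ∀ q : ℕ, q.Prime → q ∣ N → q ∈ S)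
    (H : CuspForm.HeckeGaloisRepDatum N (↑S : Set ℕ) 𝒪 θ T)
    (h19 : Stmt_S19) (hcl : Stmt_FlatSubquot p) (hx : Stmt_Subquot p H) :
    H.ρ.IsFlatAt p :=
  s32_of_props hp hpN H h19 hcl hx

end Main

end Fermat.Agent.S32.helper1215
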