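import Mathlib
import Fermat.Prelude.Def_GaloisRep_Flat
import Fermat.Agent.S28.helper508_RatLoc

set_option autoImplicit false

/-!
# Closure properties of finite flat models (function-model form)

`R = GaloisRep.ratLocalizedAt p = ℤ_(p)`, `Qb = AlgebraicClosure ℚ`, `Gal = Qb ≃ₐ[ℚ] Qb`.

A *function model* of a finite abelian group `M` with a Galois action `act` is an
`R`-subalgebra `H` of `M → Qb`, module-finite, made of equivariant functions, separating the
points of `M`, and stable under `φ ↦ ((m, m') ↦ φ (m + m'))` (with values in `H ⊗ H`).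

This file proves:
* the frozen existential shape of `GaloisRepAdic.IsFlatAt` / of the frozen statement S19
  (`HasFlatModel`) gives a function model (`hasFunModel_of_hasFlatModel`);
* function models are stable under equivariant additive isomorphisms, binary products,
  restriction along equivariant injections and push-forward along equivariant surjections.
-/

namespace Fermat.Agent.S32.helper1304

open GaloisRep

local notation "Qb" => AlgebraicClosure ℚ
local notation "Gal" => (AlgebraicClosure ℚ ≃ₐ[ℚ] AlgebraicClosure ℚ)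

/-! ## Basic facts on `ℤ_(p) ⊆ ℚ ⊆ Qb` -/

theorem isAlgClosure_Qb : IsAlgClosure ℚ Qb := ⟨inferInstance, AlgebraicClosure.isAlgebraic ℚ⟩

theorem isGalois_Qb : IsGalois ℚ Qb :=
  haveI := isAlgClosure_Qb
  inferInstance

/-- An element of `Qb` fixed by the whole Galois group is rational. -/
theorem exists_rat_of_fixed (x : Qb) (hx : ∀ σ : Gal, σ x = x) :
    ∃ q : ℚ, algebraMap ℚ Qb q = x :=
  haveI := isGalois_Qb
  (InfiniteGalois.mem_range_algebraMap_iff_fixed (k := ℚ) (K := Qb) x).mpr hx

variable (p : ℕ)

theorem algebraMap_R_Qb_apply (r : ratLocalizedAt p) :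
    algebraMap (ratLocalizedAt p) Qb r = algebraMap ℚ Qb (r : ℚ) := rfl

theorem algebraMap_R_Qb_injective : Function.Injective (algebraMap (ratLocalizedAt p) Qb) := by
  intro a b h
  rw [algebraMap_R_Qb_apply, algebraMap_R_Qb_apply] at h
  exact Subtype.ext ((algebraMap ℚ Qb).injective h)

instance instFaithfulSMul_R_Qb : FaithfulSMul (ratLocalizedAt p) Qb :=
  (faithfulSMul_iff_algebraMap_injective _ _).mpr (algebraMap_R_Qb_injective p)

instance instIsFractionRing_R_Q : IsFractionRing (ratLocalizedAt p) ℚ := by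
  refine IsFractionRing.of_field (ratLocalizedAt p) ℚ ?_
  intro z
  refine ⟨⟨(z.num : ℚ), Fermat.Agent.S28.helper508.intCast_mem p z.num⟩,
    ⟨(z.den : ℚ), Fermat.Agent.S28.helper508.natCast_mem p z.den⟩, ?_⟩
  show z = (z.num : ℚ) / (z.den : ℚ)
  exact (Rat.num_div_den z).symm


/-- A Galois-fixed element of `Qb` that is integral over `ℤ_(p)` lies in `ℤ_(p)`. -/
theorem exists_R_of_fixed_of_isIntegral [Fact p.Prime] (x : Qb) (hx : ∀ σ : Gal, σ x = x)
    (hint : IsIntegral (ratLocalizedAt p) x) :
    ∃ r : ratLocalizedAt p, algebraMap (ratLocalizedAt p) Qb r = x := by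
  obtain ⟨q, rfl⟩ := exists_rat_of_fixed x hx
  have hq : IsIntegral (ratLocalizedAt p) q :=
    (isIntegral_algebraMap_iff (algebraMap ℚ Qb).injective).mp hint
  obtain ⟨r, hr⟩ := IsIntegrallyClosed.isIntegral_iff.mp hq
  exact ⟨r, by rw [algebraMap_R_Qb_apply]; exact congrArg _ hr⟩

/-! ## Function models -/

section Defs

/-- The function `(m, n) ↦ a m * b n`, bilinear in `(a, b)`. -/
noncomputable def tmulₗ (M N : Type) :
    (M → Qb) →ₗ[ratLocalizedAt p] (N → Qb) →ₗ[ratLocalizedAt p] (M × N → Qb) :=
  LinearMap.mk₂ (ratLocalizedAt p) (fun a b x => a x.1 * b x.2)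
    (fun a a' b => by funext x; simp [add_mul])
    (fun r a b => by funext x; simp)
    (fun a b b' => by funext x; simp [mul_add])
    (fun r a b => by funext x; simp)

@[simp] theorem tmulₗ_apply {M N : Type} (a : M → Qb) (b : N → Qb) (x : M × N) :
    tmulₗ p M N a b x = a x.1 * b x.2 := rfl

/-- The image of `H ⊗ K` in the functions on `M × N`. -/
noncomputable def tensorSpan {M N : Type} (H : Submodule (ratLocalizedAt p) (M → Qb))
    (K : Submodule (ratLocalizedAt p) (N → Qb)) : Submodule (ratLocalizedAt p) (M × N → Qb) :=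
  Submodule.map₂ (tmulₗ p M N) H K

theorem tmul_mem_tensorSpan {M N : Type} {H : Submodule (ratLocalizedAt p) (M → Qb)}
    {K : Submodule (ratLocalizedAt p) (N → Qb)} {a : M → Qb} {b : N → Qb} (ha : a ∈ H)
    (hb : b ∈ K) : tmulₗ p M N a b ∈ tensorSpan p H K :=
  Submodule.apply_mem_map₂ _ ha hb

/-- Explicit form of membership in `tensorSpan`. -/
theorem mem_tensorSpan_iff {M N : Type} {H : Submodule (ratLocalizedAt p) (M → Qb)}
    {K : Submodule (ratLocalizedAt p) (N → Qb)} {t : M × N → Qb} :
    t ∈ tensorSpan p H K ↔ ∃ (n : ℕ) (a : Fin n → M → Qb) (b : Fin n → N → Qb),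
      (∀ i, a i ∈ H) ∧ (∀ i, b i ∈ K) ∧ ∀ (m : M) (m' : N), t (m, m') = ∑ i, a i m * b i m' := by
  constructor
  · intro ht
    unfold tensorSpan at ht
    rw [Submodule.map₂_eq_span_image2] at ht
    induction ht using Submodule.span_induction with
    | mem x hx =>
      obtain ⟨a, ha, b, hb, rfl⟩ := hx
      exact ⟨1, fun _ => a, fun _ => b, fun _ => ha, fun _ => hb, fun m m' => by simp⟩
    | zero => exact ⟨0, Fin.elim0, Fin.elim0, fun i => i.elim0, fun i => i.elim0, fun m m' => by simp⟩
    | add x y _ _ hx hy =>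
      obtain ⟨n, a, b, ha, hb, h⟩ := hx
      obtain ⟨n', a', b', ha', hb', h'⟩ := hy
      refine ⟨n + n', Fin.append a a', Fin.append b b', ?_, ?_, ?_⟩
      · intro i
        refine Fin.addCases (fun j => ?_) (fun j => ?_) i
        · simpa using ha j
        · simpa using ha' j
      · intro i
        refine Fin.addCases (fun j => ?_) (fun j => ?_) i
        · simpa using hb j
        · simpa using hb' j
      · intro m m'
        rw [Fin.sum_univ_add]
        simp [h m m', h' m m']
    | smul r x _ hx =>
      obtain ⟨n, a, b, ha, hb, h⟩ := hx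
      refine ⟨n, fun i => r • a i, b, fun i => H.smul_mem r (ha i), hb, fun m m' => ?_⟩
      simp [h m m', Finset.smul_sum]
  · rintro ⟨n, a, b, ha, hb, h⟩
    have : t = ∑ i, tmulₗ p M N (a i) (b i) := by
      funext x
      rw [Finset.sum_apply]
      exact h x.1 x.2
    rw [this]
    exact Submodule.sum_mem _ fun i _ => tmul_mem_tensorSpan p (ha i) (hb i)

/-- Precomposition with a map, as an algebra homomorphism. -/
noncomputable def pull {M N : Type} (f : M → N) : (N → Qb) →ₐ[ratLocalizedAt p] (M → Qb) :=
  AlgHom.pi (fun m => Pi.evalAlgHom _ _ (f m))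

@[simp] theorem pull_apply {M N : Type} (f : M → N) (ψ : N → Qb) (m : M) :
    pull p f ψ m = ψ (f m) := rfl

variable {M : Type} [AddCommGroup M]

/-- A function model of `(M, act)` over `ℤ_(p)`. -/
structure IsFunModel (act : Gal → M → M) (H : Subalgebra (ratLocalizedAt p) (M → Qb)) : Prop where
  fin : Module.Finite (ratLocalizedAt p) H
  eqv : ∀ φ ∈ H, ∀ (σ : Gal) (m : M), φ (act σ m) = σ (φ m)
  sep : ∀ m m' : M, (∀ φ ∈ H, φ m = φ m') → m = m'
  comul : ∀ φ ∈ H, ∃ (n : ℕ) (a b : Fin n → M → Qb), (∀ i, a i ∈ H) ∧ (∀ i, b i ∈ H) ∧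
    ∀ m m' : M, φ (m + m') = ∑ i, a i m * b i m'

/-- `(M, act)` has a function model over `ℤ_(p)`. -/
def HasFunModel (M : Type) [AddCommGroup M] (act : Gal → M → M) : Prop :=
  ∃ H : Subalgebra (ratLocalizedAt p) (M → Qb), IsFunModel p act H

/-- The frozen existential shape of `GaloisRepAdic.IsFlatAt` and of the frozen S19. -/
def HasFlatModel (M : Type) [AddCommGroup M] (act : Gal → M → M) : Prop :=
  ∃ (H : Type) (_ : CommRing H) (_ : HopfAlgebra (ratLocalizedAt p) H),
    Module.Finite (ratLocalizedAt p) H ∧ Module.Flat (ratLocalizedAt p) H ∧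
    Coalgebra.IsCocomm (ratLocalizedAt p) H ∧
    ∃ e : WithConv (H →ₐ[ratLocalizedAt p] Qb) ≃ M,
      (∀ f g : WithConv (H →ₐ[ratLocalizedAt p] Qb), e (f * g) = e f + e g) ∧
      ∀ (σ : Gal) (f g : WithConv (H →ₐ[ratLocalizedAt p] Qb)),
        (∀ h : H, g h = σ (f h)) → e g = act σ (e f)

/-- `IsFlatAt` is literally `HasFlatModel` at every finite level. -/
theorem isFlatAt_iff {A : Type} [CommRing A] [IsLocalRing A] (ρ : GaloisRepAdic A) :
    ρ.IsFlatAt p ↔ Finite (IsLocalRing.ResidueField A) ∧ ∀ I : Ideal A, Finite (A ⧸ I) →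
      HasFlatModel p (ρ.V ⧸ (I • (⊤ : Submodule A ρ.V))) (fun σ => ρ.levelAction I σ) :=
  Iff.rfl

/-- The comultiplication condition in span form. -/
theorem IsFunModel.comul_mem {act : Gal → M → M} {H : Subalgebra (ratLocalizedAt p) (M → Qb)}
    (h : IsFunModel p act H) {φ : M → Qb} (hφ : φ ∈ H) :
    (fun x : M × M => φ (x.1 + x.2)) ∈
      tensorSpan p (Subalgebra.toSubmodule H) (Subalgebra.toSubmodule H) := by
  obtain ⟨n, a, b, ha, hb, hab⟩ := h.comul φ hφ
  exact (mem_tensorSpan_iff p).mpr ⟨n, a, b, ha, hb, fun m m' => hab m m'⟩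

/-- Constructor of function models from the span form of the comultiplication condition. -/
theorem IsFunModel.of_span {act : Gal → M → M} {H : Subalgebra (ratLocalizedAt p) (M → Qb)}
    (fin : Module.Finite (ratLocalizedAt p) H)
    (eqv : ∀ φ ∈ H, ∀ (σ : Gal) (m : M), φ (act σ m) = σ (φ m))
    (sep : ∀ m m' : M, (∀ φ ∈ H, φ m = φ m') → m = m')
    (comul : ∀ φ ∈ H, (fun x : M × M => φ (x.1 + x.2)) ∈
      tensorSpan p (Subalgebra.toSubmodule H) (Subalgebra.toSubmodule H)) :
    IsFunModel p act H where
  fin := fin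
  eqv := eqv
  sep := sep
  comul φ hφ := by
    obtain ⟨n, a, b, ha, hb, hab⟩ := (mem_tensorSpan_iff p).mp (comul φ hφ)
    exact ⟨n, a, b, ha, hb, fun m m' => hab m m'⟩


theorem finite_iff_fg {A : Type} [CommRing A] [Algebra (ratLocalizedAt p) A]
    (H : Subalgebra (ratLocalizedAt p) A) :
    Module.Finite (ratLocalizedAt p) H ↔ (Subalgebra.toSubmodule H).FG :=
  Module.Finite.iff_fg (N := Subalgebra.toSubmodule H)

/-! ## From the frozen shape to a function model -/

theorem hasFunModel_of_hasFlatModel {act : Gal → M → M} (h : HasFlatModel p M act) :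
    HasFunModel p M act := by
  obtain ⟨H, _, _, hfin, _, _, e, hadd, heq⟩ := h
  let ev : H →ₐ[ratLocalizedAt p] (M → Qb) := AlgHom.pi (fun m => (e.symm m).ofConv)
  have hev : ∀ (h : H) (m : M), ev h m = (e.symm m).ofConv h := fun _ _ => rfl
  refine ⟨ev.range, IsFunModel.of_span p ?_ ?_ ?_ ?_⟩
  · exact Module.Finite.of_surjective ev.rangeRestrict.toLinearMap ev.rangeRestrict_surjective
  · rintro φ ⟨h, rfl⟩ σ m
    show (e.symm (act σ m)).ofConv h = σ ((e.symm m).ofConv h)
    let g : WithConv (H →ₐ[ratLocalizedAt p] Qb) :=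
      WithConv.toConv (((σ.restrictScalars (ratLocalizedAt p)) :
        Qb →ₐ[ratLocalizedAt p] Qb).comp (e.symm m).ofConv)
    have hg : e g = act σ (e (e.symm m)) := heq σ (e.symm m) g (fun h => rfl)
    rw [Equiv.apply_symm_apply] at hg
    have hg' : e.symm (act σ m) = g := by rw [← hg, Equiv.symm_apply_apply]
    rw [hg']
    rfl
  · intro m m' hmm
    have : e.symm m = e.symm m' := by
      apply WithConv.ext
      apply AlgHom.ext
      intro h
      exact hmm (ev h) ⟨h, rfl⟩
    exact e.symm.injective this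
  · rintro φ ⟨h, rfl⟩
    have hmul : ∀ m m' : M, e.symm (m + m') = e.symm m * e.symm m' := by
      intro m m'
      apply e.injective
      rw [hadd]
      simp
    have key : ∀ t : TensorProduct (ratLocalizedAt p) H H,
        (fun x : M × M => Algebra.TensorProduct.lift (e.symm x.1).ofConv (e.symm x.2).ofConv
          (fun _ _ => Commute.all _ _) t) ∈
          tensorSpan p (Subalgebra.toSubmodule ev.range) (Subalgebra.toSubmodule ev.range) := by
      intro t
      induction t using TensorProduct.induction_on with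
      | zero =>
        have : (fun x : M × M => Algebra.TensorProduct.lift (e.symm x.1).ofConv
            (e.symm x.2).ofConv (fun _ _ => Commute.all _ _)
            (0 : TensorProduct (ratLocalizedAt p) H H)) = 0 := by
          funext z; simp
        rw [this]
        exact Submodule.zero_mem _
      | tmul x y =>
        have : (fun z : M × M => Algebra.TensorProduct.lift (e.symm z.1).ofConv
            (e.symm z.2).ofConv (fun _ _ => Commute.all _ _) (x ⊗ₜ[ratLocalizedAt p] y)) =
            tmulₗ p M M (ev x) (ev y) := by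
          funext z; simp [hev]
        rw [this]
        exact tmul_mem_tensorSpan p ⟨x, rfl⟩ ⟨y, rfl⟩
      | add x y hx hy =>
        have : (fun z : M × M => Algebra.TensorProduct.lift (e.symm z.1).ofConv
            (e.symm z.2).ofConv (fun _ _ => Commute.all _ _) (x + y)) =
            (fun z : M × M => Algebra.TensorProduct.lift (e.symm z.1).ofConv
              (e.symm z.2).ofConv (fun _ _ => Commute.all _ _) x) +
            (fun z : M × M => Algebra.TensorProduct.lift (e.symm z.1).ofConv
              (e.symm z.2).ofConv (fun _ _ => Commute.all _ _) y) := by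
          funext z; simp
        rw [this]
        exact Submodule.add_mem _ hx hy
    have h2 := key (Coalgebra.comul h)
    have h3 : (fun x : M × M => ev h (x.1 + x.2)) =
        (fun x : M × M => Algebra.TensorProduct.lift (e.symm x.1).ofConv (e.symm x.2).ofConv
          (fun _ _ => Commute.all _ _) (Coalgebra.comul h)) := by
      funext x
      rw [hev, hmul, ← AlgHom.convMul_apply]
    show (fun x : M × M => ev h (x.1 + x.2)) ∈ _
    rw [h3]
    exact h2

/-! ## Restriction along an equivariant injection, isomorphisms -/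

theorem IsFunModel.map_pull {M' : Type} [AddCommGroup M'] {act : Gal → M → M}
    {act' : Gal → M' → M'} {H : Subalgebra (ratLocalizedAt p) (M → Qb)} (h : IsFunModel p act H)
    (ι : M' →+ M) (hι : Function.Injective ι) (hact : ∀ σ x, ι (act' σ x) = act σ (ι x)) :
    IsFunModel p act' (H.map (pull p ι)) := by
  refine IsFunModel.of_span p ?_ ?_ ?_ ?_
  · rw [finite_iff_fg, Subalgebra.map_toSubmodule]
    exact ((finite_iff_fg p H).mp h.fin).map _
  · rintro _ ⟨φ, hφ, rfl⟩ σ x
    show φ (ι (act' σ x)) = σ (φ (ι x))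
    rw [hact, h.eqv φ hφ]
  · intro x x' hxx
    apply hι
    apply h.sep
    intro φ hφ
    exact hxx (pull p ι φ) ⟨φ, hφ, rfl⟩
  · rintro _ ⟨φ, hφ, rfl⟩
    obtain ⟨n, a, b, ha, hb, hab⟩ := h.comul φ hφ
    refine (mem_tensorSpan_iff p).mpr ⟨n, fun i => pull p ι (a i), fun i => pull p ι (b i),
      fun i => ⟨a i, ha i, rfl⟩, fun i => ⟨b i, hb i, rfl⟩, fun m m' => ?_⟩
    show φ (ι (m + m')) = ∑ i, a i (ι m) * b i (ι m')
    rw [map_add]
    exact hab _ _

/-- A Galois-stable subgroup of a group with a function model has a function model. -/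
theorem HasFunModel.of_injective {M' : Type} [AddCommGroup M'] {act : Gal → M → M}
    {act' : Gal → M' → M'} (h : HasFunModel p M act)
    (ι : M' →+ M) (hι : Function.Injective ι) (hact : ∀ σ x, ι (act' σ x) = act σ (ι x)) :
    HasFunModel p M' act' := by
  obtain ⟨H, hH⟩ := h
  exact ⟨_, hH.map_pull p ι hι hact⟩

/-- Transport of a function model along an equivariant additive isomorphism. -/
theorem HasFunModel.of_addEquiv {M' : Type} [AddCommGroup M'] {act : Gal → M → M}
    {act' : Gal → M' → M'} (h : HasFunModel p M act)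
    (f : M ≃+ M') (hact : ∀ σ x, f (act σ x) = act' σ (f x)) :
    HasFunModel p M' act' := by
  refine h.of_injective p f.symm.toAddMonoidHom f.symm.injective ?_
  intro σ x
  show f.symm (act' σ x) = act σ (f.symm x)
  apply f.injective
  rw [hact]
  simp


/-! ## Products -/

/-- The equivariant functions, as a subalgebra. -/
def eqvSubalgebra {M : Type} (act : Gal → M → M) : Subalgebra (ratLocalizedAt p) (M → Qb) where
  carrier := {φ | ∀ (σ : Gal) (m : M), φ (act σ m) = σ (φ m)}
  mul_mem' := by
    intro a b ha hb σ m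
    simp [ha σ m, hb σ m]
  add_mem' := by
    intro a b ha hb σ m
    simp [ha σ m, hb σ m]
  algebraMap_mem' := by
    intro r σ m
    show algebraMap (ratLocalizedAt p) Qb r = σ (algebraMap (ratLocalizedAt p) Qb r)
    rw [algebraMap_R_Qb_apply, AlgEquiv.commutes]

theorem mem_eqvSubalgebra {M : Type} {act : Gal → M → M} {φ : M → Qb} :
    φ ∈ eqvSubalgebra p act ↔ ∀ (σ : Gal) (m : M), φ (act σ m) = σ (φ m) := Iff.rfl

theorem tensorSpan_mul_mem {M N : Type} (H : Subalgebra (ratLocalizedAt p) (M → Qb))
    (K : Subalgebra (ratLocalizedAt p) (N → Qb)) {x y : M × N → Qb}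
    (hx : x ∈ tensorSpan p (Subalgebra.toSubmodule H) (Subalgebra.toSubmodule K))
    (hy : y ∈ tensorSpan p (Subalgebra.toSubmodule H) (Subalgebra.toSubmodule K)) :
    x * y ∈ tensorSpan p (Subalgebra.toSubmodule H) (Subalgebra.toSubmodule K) := by
  have step1 : ∀ a ∈ Subalgebra.toSubmodule H, ∀ b ∈ Subalgebra.toSubmodule K,
      ∀ y ∈ tensorSpan p (Subalgebra.toSubmodule H) (Subalgebra.toSubmodule K),
      tmulₗ p M N a b * y ∈ tensorSpan p (Subalgebra.toSubmodule H) (Subalgebra.toSubmodule K) := by
    intro a ha b hb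
    have hle : tensorSpan p (Subalgebra.toSubmodule H) (Subalgebra.toSubmodule K) ≤
        (tensorSpan p (Subalgebra.toSubmodule H) (Subalgebra.toSubmodule K)).comap
          (LinearMap.mulLeft (ratLocalizedAt p) (tmulₗ p M N a b)) := by
      unfold tensorSpan
      rw [Submodule.map₂_le]
      intro a' ha' b' hb'
      rw [Submodule.mem_comap]
      have : (LinearMap.mulLeft (ratLocalizedAt p) (tmulₗ p M N a b)) (tmulₗ p M N a' b') =
          tmulₗ p M N (a * a') (b * b') := by
        funext z
        simp [mul_mul_mul_comm]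
      rw [this]
      exact Submodule.apply_mem_map₂ _ (H.mul_mem ha ha') (K.mul_mem hb hb')
    intro y hy
    exact hle hy
  have hle : tensorSpan p (Subalgebra.toSubmodule H) (Subalgebra.toSubmodule K) ≤
      (tensorSpan p (Subalgebra.toSubmodule H) (Subalgebra.toSubmodule K)).comap
        (LinearMap.mulRight (ratLocalizedAt p) y) := by
    conv_lhs => unfold tensorSpan
    rw [Submodule.map₂_le]
    intro a ha b hb
    rw [Submodule.mem_comap]
    exact step1 a ha b hb y hy
  exact hle hx

/-- The product subalgebra `H ⊗ K` of functions on `M × N`. -/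
noncomputable def prodSubalgebra {M N : Type} (H : Subalgebra (ratLocalizedAt p) (M → Qb))
    (K : Subalgebra (ratLocalizedAt p) (N → Qb)) : Subalgebra (ratLocalizedAt p) (M × N → Qb) :=
  (tensorSpan p (Subalgebra.toSubmodule H) (Subalgebra.toSubmodule K)).toSubalgebra
    (by
      have : (1 : M × N → Qb) = tmulₗ p M N 1 1 := by funext z; simp
      rw [this]
      exact tmul_mem_tensorSpan p H.one_mem K.one_mem)
    (fun _ _ hx hy => tensorSpan_mul_mem p H K hx hy)

theorem toSubmodule_prodSubalgebra {M N : Type} (H : Subalgebra (ratLocalizedAt p) (M → Qb))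
    (K : Subalgebra (ratLocalizedAt p) (N → Qb)) :
    Subalgebra.toSubmodule (prodSubalgebra p H K) =
      tensorSpan p (Subalgebra.toSubmodule H) (Subalgebra.toSubmodule K) := rfl

theorem mem_prodSubalgebra {M N : Type} {H : Subalgebra (ratLocalizedAt p) (M → Qb)}
    {K : Subalgebra (ratLocalizedAt p) (N → Qb)} {t : M × N → Qb} :
    t ∈ prodSubalgebra p H K ↔
      t ∈ tensorSpan p (Subalgebra.toSubmodule H) (Subalgebra.toSubmodule K) := Iff.rfl

theorem IsFunModel.prod {N : Type} [AddCommGroup N] {act : Gal → M → M} {act' : Gal → N → N}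
    {H : Subalgebra (ratLocalizedAt p) (M → Qb)} {K : Subalgebra (ratLocalizedAt p) (N → Qb)}
    (h : IsFunModel p act H) (k : IsFunModel p act' K) :
    IsFunModel p (fun σ (x : M × N) => (act σ x.1, act' σ x.2)) (prodSubalgebra p H K) := by
  refine IsFunModel.of_span p ?_ ?_ ?_ ?_
  · rw [finite_iff_fg, toSubmodule_prodSubalgebra]
    exact Submodule.FG.map₂ _ ((finite_iff_fg p H).mp h.fin) ((finite_iff_fg p K).mp k.fin)
  · have hle : tensorSpan p (Subalgebra.toSubmodule H) (Subalgebra.toSubmodule K) ≤
        Subalgebra.toSubmodule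
          (eqvSubalgebra p (fun σ (x : M × N) => (act σ x.1, act' σ x.2))) := by
      unfold tensorSpan
      rw [Submodule.map₂_le]
      intro a ha b hb σ x
      simp [h.eqv a ha, k.eqv b hb]
    intro φ hφ
    exact hle hφ
  · rintro ⟨x₁, x₂⟩ ⟨y₁, y₂⟩ hxy
    have h1 : x₁ = y₁ := by
      apply h.sep
      intro φ hφ
      have := hxy (tmulₗ p M N φ 1) (tmul_mem_tensorSpan p hφ K.one_mem)
      simpa using this
    have h2 : x₂ = y₂ := by
      apply k.sep
      intro φ hφ
      have := hxy (tmulₗ p M N 1 φ) (tmul_mem_tensorSpan p H.one_mem hφ)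
      simpa using this
    rw [h1, h2]
  · have hle : tensorSpan p (Subalgebra.toSubmodule H) (Subalgebra.toSubmodule K) ≤
        (tensorSpan p (Subalgebra.toSubmodule (prodSubalgebra p H K))
          (Subalgebra.toSubmodule (prodSubalgebra p H K))).comap
          (LinearMap.funLeft (ratLocalizedAt p) Qb
            (fun z : (M × N) × (M × N) => z.1 + z.2)) := by
      conv_lhs => unfold tensorSpan
      rw [Submodule.map₂_le]
      intro a ha b hb
      rw [Submodule.mem_comap]
      obtain ⟨n, a₁, a₂, ha₁, ha₂, hab⟩ := h.comul a ha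
      obtain ⟨n', b₁, b₂, hb₁, hb₂, hab'⟩ := k.comul b hb
      have : (LinearMap.funLeft (ratLocalizedAt p) Qb
          (fun z : (M × N) × (M × N) => z.1 + z.2)) (tmulₗ p M N a b) =
          ∑ i, ∑ j, tmulₗ p (M × N) (M × N) (tmulₗ p M N (a₁ i) (b₁ j))
            (tmulₗ p M N (a₂ i) (b₂ j)) := by
        funext z
        simp only [LinearMap.funLeft_apply, tmulₗ_apply, Prod.fst_add, Prod.snd_add,
          Finset.sum_apply, hab, hab', Finset.sum_mul_sum]
        refine Finset.sum_congr rfl fun i _ => Finset.sum_congr rfl fun j _ => ?_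
        ring
      rw [this]
      refine Submodule.sum_mem _ fun i _ => Submodule.sum_mem _ fun j _ => ?_
      exact tmul_mem_tensorSpan p (tmul_mem_tensorSpan p (ha₁ i) (hb₁ j))
        (tmul_mem_tensorSpan p (ha₂ i) (hb₂ j))
    intro φ hφ
    exact hle hφ

/-- Binary products of groups with function models have function models. -/
theorem HasFunModel.prod {N : Type} [AddCommGroup N] {act : Gal → M → M} {act' : Gal → N → N}
    (h : HasFunModel p M act) (k : HasFunModel p N act') :
    HasFunModel p (M × N) (fun σ (x : M × N) => (act σ x.1, act' σ x.2)) := by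
  obtain ⟨H, hH⟩ := h
  obtain ⟨K, hK⟩ := k
  exact ⟨_, hH.prod p hK⟩

/-- A trivial group has a function model. -/
theorem HasFunModel.of_subsingleton [Subsingleton M] (act : Gal → M → M) :
    HasFunModel p M act := by
  refine ⟨⊥, ?_, ?_, ?_, ?_⟩
  · infer_instance
  · intro φ hφ σ m
    obtain ⟨r, rfl⟩ := Algebra.mem_bot.mp hφ
    show algebraMap (ratLocalizedAt p) Qb r = σ (algebraMap (ratLocalizedAt p) Qb r)
    rw [algebraMap_R_Qb_apply, AlgEquiv.commutes]
  · intro m m' _
    exact Subsingleton.elim _ _
  · intro φ hφ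
    refine ⟨1, fun _ => φ, fun _ => 1, fun _ => hφ, fun _ => Subalgebra.one_mem _, ?_⟩
    intro m m'
    simp [Subsingleton.elim (m + m') m]

/-- Finite powers of a group with a function model have function models. -/
theorem HasFunModel.pi_fin {act : Gal → M → M} (h : HasFunModel p M act) (n : ℕ) :
    HasFunModel p (Fin n → M) (fun σ f i => act σ (f i)) := by
  induction n with
  | zero => exact HasFunModel.of_subsingleton p _
  | succ n ih =>
    have hprod := h.prod p ih
    let f : M × (Fin n → M) ≃+ (Fin (n + 1) → M) :=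
      { toFun := fun x => Fin.cons x.1 x.2
        invFun := fun g => (g 0, Fin.tail g)
        left_inv := fun x => by simp
        right_inv := fun g => by simp
        map_add' := fun x y => by
          funext i
          refine Fin.cases ?_ (fun j => ?_) i <;> simp }
    refine hprod.of_addEquiv p f ?_
    intro σ x
    funext i
    refine Fin.cases ?_ (fun j => ?_) i <;> simp [f]

end Defs

/-! ## Linear algebra over `Qb`: span and Galois descent -/

section Descent

/-- Finite Stone–Weierstrass: a subalgebra of `M → Qb` separating the points of the finite set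
`M` spans `M → Qb` over `Qb`. -/
theorem span_Qb_eq_top_of_sep {M : Type} [Finite M] (H : Subalgebra (ratLocalizedAt p) (M → Qb))
    (hsep : ∀ m m' : M, (∀ φ ∈ H, φ m = φ m') → m = m') :
    Submodule.span Qb (H : Set (M → Qb)) = ⊤ := by
  classical
  cases nonempty_fintype M
  have hmul : ∀ x ∈ Submodule.span Qb (H : Set (M → Qb)),
      ∀ y ∈ Submodule.span Qb (H : Set (M → Qb)),
      x * y ∈ Submodule.span Qb (H : Set (M → Qb)) := by
    intro x hx y hy
    induction hx, hy using Submodule.span_induction₂ with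
    | mem_mem x y hx hy => exact Submodule.subset_span (H.mul_mem hx hy)
    | zero_left y hy => simp
    | zero_right x hx => simp
    | add_left x y z _ _ _ hx hy => rw [add_mul]; exact Submodule.add_mem _ hx hy
    | add_right x y z _ _ _ hx hy => rw [mul_add]; exact Submodule.add_mem _ hx hy
    | smul_left r x y _ _ h => rw [smul_mul_assoc]; exact Submodule.smul_mem _ r h
    | smul_right r x y _ _ h => rw [mul_smul_comm]; exact Submodule.smul_mem _ r h
  have hone : (1 : M → Qb) ∈ Submodule.span Qb (H : Set (M → Qb)) :=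
    Submodule.subset_span H.one_mem
  let S : Subalgebra Qb (M → Qb) :=
    (Submodule.span Qb (H : Set (M → Qb))).toSubalgebra hone (fun x y hx hy => hmul x hx y hy)
  have hS : ∀ x, x ∈ S ↔ x ∈ Submodule.span Qb (H : Set (M → Qb)) := fun x => Iff.rfl
  have hHS : ∀ φ ∈ H, φ ∈ S := fun φ hφ => Submodule.subset_span hφ
  have hconst : ∀ c : Qb, (fun _ : M => c) ∈ S := fun c => S.algebraMap_mem c
  have hind : ∀ m : M, Pi.single m (1 : Qb) ∈ S := by
    intro m
    have h1 : ∀ m' : M, ∃ g ∈ S, g m = 1 ∧ (m' ≠ m → g m' = 0) := by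
      intro m'
      by_cases hmm : m' = m
      · exact ⟨1, S.one_mem, rfl, fun h => absurd hmm h⟩
      · obtain ⟨φ, hφ, hne⟩ : ∃ φ ∈ H, φ m ≠ φ m' := by
          by_contra hcon
          exact hmm (hsep m m' (fun φ hφ => by_contra fun hne => hcon ⟨φ, hφ, hne⟩)).symm
        refine ⟨(φ m - φ m')⁻¹ • (φ - fun _ => φ m'), ?_, ?_, ?_⟩
        · exact S.smul_mem (S.sub_mem (hHS φ hφ) (hconst _)) _
        · simp [sub_ne_zero.mpr hne]
        · intro _; simp
    choose g hgS hgm hg0 using h1
    have hprod : Pi.single m (1 : Qb) = ∏ m' ∈ Finset.univ.erase m, g m' := by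
      funext x
      rw [Finset.prod_apply]
      by_cases hx : x = m
      · subst hx
        rw [Pi.single_eq_same]
        exact (Finset.prod_eq_one fun m' _ => hgm m').symm
      · rw [Pi.single_eq_of_ne hx]
        exact (Finset.prod_eq_zero (f := fun c => g c x)
          (Finset.mem_erase.mpr ⟨hx, Finset.mem_univ x⟩) (hg0 x hx)).symm
    rw [hprod]
    exact S.prod_mem fun m' _ => hgS m'
  rw [eq_top_iff]
  intro f _
  have hf : f = ∑ m, f m • Pi.single m (1 : Qb) := by
    funext x
    simp [Finset.sum_apply, Pi.single_apply]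
  rw [hf]
  exact Submodule.sum_mem _ fun m _ => Submodule.smul_mem _ _ ((hS _).mp (hind m))

/-- Galois descent: equivariant functions that are `ℚ`-linearly independent are
`Qb`-linearly independent. -/
theorem linearIndependent_Qb_of_eqv {ι : Type} {M : Type} (act : Gal → M → M)
    (b : ι → M → Qb) (hb : ∀ i (σ : Gal) (m : M), b i (act σ m) = σ (b i m))
    (hQ : LinearIndependent ℚ b) : LinearIndependent Qb b := by
  classical
  rw [linearIndependent_iff']
  intro s
  induction s using Finset.strongInduction with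
  | H s ih =>
    intro c hc i hi
    by_contra hci
    have hc'sum : ∑ j ∈ s, (c j / c i) • b j = 0 := by
      have : ∑ j ∈ s, (c j / c i) • b j = (c i)⁻¹ • ∑ j ∈ s, c j • b j := by
        rw [Finset.smul_sum]
        refine Finset.sum_congr rfl fun j _ => ?_
        rw [smul_smul, div_eq_inv_mul]
      rw [this, hc, smul_zero]
    have hc'i : c i / c i = 1 := div_self hci
    have htw : ∀ σ : Gal, ∑ j ∈ s, σ (c j / c i) • b j = 0 := by
      intro σ
      funext m
      have h1 := congrFun hc'sum (act σ.symm m)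
      simp only [Finset.sum_apply, Pi.smul_apply, smul_eq_mul, Pi.zero_apply] at h1 ⊢
      have h2 := congrArg σ h1
      rw [map_sum, map_zero] at h2
      rw [← h2]
      refine Finset.sum_congr rfl fun j _ => ?_
      rw [map_mul, hb j σ.symm m, AlgEquiv.apply_symm_apply]
    have hfix : ∀ σ : Gal, ∀ j ∈ s, σ (c j / c i) = c j / c i := by
      intro σ j hj
      have hd : ∑ j ∈ s.erase i, (σ (c j / c i) - c j / c i) • b j = 0 := by
        have h0 : ∑ j ∈ s, (σ (c j / c i) - c j / c i) • b j = 0 := by
          simp only [sub_smul, Finset.sum_sub_distrib, htw σ, hc'sum, sub_zero]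
        rw [← Finset.add_sum_erase s _ hi] at h0
        simpa [hc'i] using h0
      by_cases hji : j = i
      · rw [hji, hc'i, map_one]
      · have := ih (s.erase i) (Finset.erase_ssubset hi) (fun j => σ (c j / c i) - c j / c i) hd j
          (Finset.mem_erase.mpr ⟨hji, hj⟩)
        exact sub_eq_zero.mp this
    have hrat : ∀ j, ∃ q : ℚ, j ∈ s → algebraMap ℚ Qb q = c j / c i := by
      intro j
      by_cases hj : j ∈ s
      · obtain ⟨q, hq⟩ := exists_rat_of_fixed (c j / c i) (fun σ => hfix σ j hj)
        exact ⟨q, fun _ => hq⟩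
      · exact ⟨0, fun h => absurd h hj⟩
    choose q hq using hrat
    have hqsum : ∑ j ∈ s, q j • b j = 0 := by
      rw [← hc'sum]
      refine Finset.sum_congr rfl fun j hj => ?_
      rw [← hq j hj, algebraMap_smul]
    have hqi := linearIndependent_iff'.mp hQ s q hqsum i hi
    have h1 : c i / c i = 0 := by rw [← hq i hi, hqi, map_zero]
    rw [hc'i] at h1
    exact one_ne_zero h1

end Descent

/-! ## Consequences of the axioms of a function model -/

section Quot

variable {M : Type} [AddCommGroup M]

theorem IsFunModel.finite {act : Gal → M → M} {H : Subalgebra (ratLocalizedAt p) (M → Qb)}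
    (h : IsFunModel p act H) : Finite M := by
  have := h.fin
  let ev : M → (H →ₐ[ratLocalizedAt p] Qb) := fun m =>
    (Pi.evalAlgHom (ratLocalizedAt p) (fun _ : M => Qb) m).comp H.val
  refine Finite.of_injective ev ?_
  intro m m' hmm
  apply h.sep
  intro φ hφ
  exact DFunLike.congr_fun hmm ⟨φ, hφ⟩

theorem IsFunModel.act_add {act : Gal → M → M} {H : Subalgebra (ratLocalizedAt p) (M → Qb)}
    (h : IsFunModel p act H) (σ : Gal) (m m' : M) : act σ (m + m') = act σ m + act σ m' := by
  apply h.sep
  intro φ hφ
  obtain ⟨n, a, b, ha, hb, hab⟩ := h.comul φ hφ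
  rw [h.eqv φ hφ, hab, hab, map_sum]
  refine Finset.sum_congr rfl fun i _ => ?_
  rw [map_mul, h.eqv _ (ha i), h.eqv _ (hb i)]

theorem IsFunModel.act_zero {act : Gal → M → M} {H : Subalgebra (ratLocalizedAt p) (M → Qb)}
    (h : IsFunModel p act H) (σ : Gal) : act σ 0 = 0 := by
  have h1 := h.act_add p σ 0 0
  rw [add_zero] at h1
  exact left_eq_add.mp h1

theorem IsFunModel.act_symm_act {act : Gal → M → M} {H : Subalgebra (ratLocalizedAt p) (M → Qb)}
    (h : IsFunModel p act H) (σ : Gal) (m : M) : act σ.symm (act σ m) = m := by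
  apply h.sep
  intro φ hφ
  rw [h.eqv φ hφ, h.eqv φ hφ, AlgEquiv.symm_apply_apply]

theorem IsFunModel.act_act_symm {act : Gal → M → M} {H : Subalgebra (ratLocalizedAt p) (M → Qb)}
    (h : IsFunModel p act H) (σ : Gal) (m : M) : act σ (act σ.symm m) = m := by
  apply h.sep
  intro φ hφ
  rw [h.eqv φ hφ, h.eqv φ hφ, AlgEquiv.apply_symm_apply]

/-- A module-finite subalgebra of equivariant functions has a `ℤ_(p)`-basis which is
`Qb`-linearly independent. -/
theorem exists_basis_of_fin_eqv [Fact p.Prime] {M : Type} {act : Gal → M → M}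
    {H : Subalgebra (ratLocalizedAt p) (M → Qb)} (hfin : Module.Finite (ratLocalizedAt p) H)
    (heqv : ∀ φ ∈ H, ∀ (σ : Gal) (m : M), φ (act σ m) = σ (φ m)) :
    ∃ (n : ℕ) (b : Fin n → M → Qb), (∀ i, b i ∈ H) ∧ LinearIndependent Qb b ∧
      ∀ φ ∈ H, ∃ r : Fin n → ratLocalizedAt p, φ = ∑ i, r i • b i := by
  have := hfin
  have : Module.Free (ratLocalizedAt p) H := Module.free_of_finite_type_torsion_free'
  let B := Module.finBasis (ratLocalizedAt p) H
  refine ⟨Module.finrank (ratLocalizedAt p) H, fun i => (B i : M → Qb), fun i => (B i).2, ?_, ?_⟩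
  · apply linearIndependent_Qb_of_eqv act
    · intro i σ m
      exact heqv _ (B i).2 σ m
    · have hR : LinearIndependent (ratLocalizedAt p) (fun i => (B i : M → Qb)) :=
        B.linearIndependent.map' (Subalgebra.toSubmodule H).subtype (Submodule.ker_subtype _)
      exact (LinearIndependent.iff_fractionRing (ratLocalizedAt p) ℚ).mp hR
  · intro φ hφ
    refine ⟨fun i => B.repr ⟨φ, hφ⟩ i, ?_⟩
    have h1 := B.sum_repr ⟨φ, hφ⟩
    have h2 := congrArg (Subalgebra.toSubmodule H).subtype h1
    rw [map_sum] at h2
    simpa using h2.symm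

/-- The sum of the values of `φ ∈ H` over the kernel of an equivariant map lies in `ℤ_(p)`. -/
theorem IsFunModel.exists_sum_ker [Fact p.Prime] [Fintype M] {X : Type} [AddCommGroup X]
    [DecidableEq X] {act : Gal → M → M} {H : Subalgebra (ratLocalizedAt p) (M → Qb)}
    (h : IsFunModel p act H) {actX : Gal → X → X} (π : M →+ X)
    (hact : ∀ σ m, π (act σ m) = actX σ (π m)) (hX0 : ∀ σ, actX σ 0 = 0)
    {φ : M → Qb} (hφ : φ ∈ H) :
    ∃ r : ratLocalizedAt p, algebraMap (ratLocalizedAt p) Qb r =
      ∑ k ∈ Finset.univ.filter (fun k => π k = 0), φ k := by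
  apply exists_R_of_fixed_of_isIntegral
  · intro σ
    rw [map_sum]
    have hstab : ∀ (τ : Gal), ∀ k ∈ Finset.univ.filter (fun k => π k = 0),
        act τ k ∈ Finset.univ.filter (fun k => π k = 0) := by
      intro τ k hk
      rw [Finset.mem_filter] at hk ⊢
      exact ⟨Finset.mem_univ _, by rw [hact, hk.2, hX0]⟩
    refine Finset.sum_nbij' (fun k => act σ k) (fun k => act σ.symm k) (hstab σ) (hstab σ.symm)
      (fun k _ => h.act_symm_act p σ k) (fun k _ => h.act_act_symm p σ k) (fun k _ => ?_)
    exact (h.eqv φ hφ σ k).symm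
  · refine IsIntegral.sum _ fun k _ => ?_
    have h1 : IsIntegral (ratLocalizedAt p) φ :=
      IsIntegral.of_mem_of_fg H ((finite_iff_fg p H).mp h.fin) φ hφ
    exact h1.map (Pi.evalAlgHom (ratLocalizedAt p) (fun _ : M => Qb) k)


/-! ## Push-forward along an equivariant surjection (quotients) -/

theorem smul_fun_apply {M : Type} (r : ratLocalizedAt p) (f : M → Qb) (m : M) :
    (r • f) m = algebraMap (ratLocalizedAt p) Qb r * f m := by
  rw [Pi.smul_apply, Algebra.smul_def]

/-- Push-forward of a function model along an equivariant surjection: the functions on the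
quotient whose pull-back lies in `H`. -/
theorem IsFunModel.comap_pull [Fact p.Prime] {X : Type} [AddCommGroup X] {act : Gal → M → M}
    {actX : Gal → X → X} {H : Subalgebra (ratLocalizedAt p) (M → Qb)} (h : IsFunModel p act H)
    (π : M →+ X) (hπ : Function.Surjective π) (hact : ∀ σ m, π (act σ m) = actX σ (π m)) :
    IsFunModel p actX (H.comap (pull p π)) := by
  classical
  have := h.finite p
  cases nonempty_fintype M
  have hX0 : ∀ σ, actX σ 0 = 0 := by
    intro σ
    have h1 := hact σ 0
    rw [h.act_zero p, map_zero] at h1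
    exact h1.symm
  have hmem : ∀ ψ : X → Qb, ψ ∈ H.comap (pull p π) ↔ pull p π ψ ∈ H := fun ψ => Iff.rfl
  -- finiteness
  have hfin : Module.Finite (ratLocalizedAt p) (H.comap (pull p π)) := by
    have := h.fin
    have : IsNoetherian (ratLocalizedAt p) H :=
      isNoetherian_of_isNoetherianRing_of_finite (ratLocalizedAt p) H
    let f : (H.comap (pull p π)) →ₗ[ratLocalizedAt p] H :=
      LinearMap.codRestrict (Subalgebra.toSubmodule H)
        ((pull p π).toLinearMap.comp (Subalgebra.toSubmodule (H.comap (pull p π))).subtype)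
        (fun ψ => ψ.2)
    refine Module.Finite.of_injective f ?_
    intro ψ ψ' hψ
    apply Subtype.ext
    funext x
    obtain ⟨m, rfl⟩ := hπ x
    exact congrArg (fun g : H => (g : M → Qb) m) hψ
  -- equivariance
  have heqv : ∀ ψ ∈ H.comap (pull p π), ∀ (σ : Gal) (x : X), ψ (actX σ x) = σ (ψ x) := by
    intro ψ hψ σ x
    obtain ⟨m, rfl⟩ := hπ x
    rw [← hact]
    exact h.eqv _ hψ σ m
  -- traces along the fibres
  have htr : ∀ φ ∈ H, (fun x : X => ∑ m ∈ Finset.univ.filter (fun m => π m = x), φ m) ∈
      H.comap (pull p π) := by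
    intro φ hφ
    rw [hmem]
    obtain ⟨n, a, b, ha, hb, hab⟩ := h.comul φ hφ
    choose c hc using fun i => h.exists_sum_ker p π hact hX0 (hb i)
    have hsum : pull p π (fun x : X => ∑ m ∈ Finset.univ.filter (fun m => π m = x), φ m) =
        ∑ i, c i • a i := by
      funext m
      rw [pull_apply, Finset.sum_apply]
      have h1 : ∑ m' ∈ Finset.univ.filter (fun m' => π m' = π m), φ m' =
          ∑ k ∈ Finset.univ.filter (fun k => π k = 0), φ (m + k) := by
        refine Finset.sum_nbij' (fun m' => m' - m) (fun k => m + k) ?_ ?_ ?_ ?_ ?_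
        · intro m' hm'
          rw [Finset.mem_filter] at hm' ⊢
          exact ⟨Finset.mem_univ _, by rw [map_sub, hm'.2, sub_self]⟩
        · intro k hk
          rw [Finset.mem_filter] at hk ⊢
          exact ⟨Finset.mem_univ _, by rw [map_add, hk.2, add_zero]⟩
        · intro m' _
          abel
        · intro k _
          abel
        · intro m' _
          congr 1
          abel
      rw [h1]
      simp only [hab, Pi.smul_apply]
      rw [Finset.sum_comm]
      refine Finset.sum_congr rfl fun i _ => ?_
      rw [← Finset.mul_sum, ← hc i, Algebra.smul_def, mul_comm]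
    rw [hsum]
    exact H.sum_mem fun i _ => H.smul_mem (ha i) _
  -- separation
  have hsep : ∀ x y : X, (∀ ψ ∈ H.comap (pull p π), ψ x = ψ y) → x = y := by
    intro x y hxy
    by_contra hne
    let L : (M → Qb) →ₗ[Qb] Qb :=
      (∑ m ∈ Finset.univ.filter (fun m => π m = x), LinearMap.proj m) -
        (∑ m ∈ Finset.univ.filter (fun m => π m = y), LinearMap.proj m)
    have hL : ∀ f : M → Qb, L f = ∑ m ∈ Finset.univ.filter (fun m => π m = x), f m -
        ∑ m ∈ Finset.univ.filter (fun m => π m = y), f m := by
      intro f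
      simp [L]
    have hker : Submodule.span Qb (H : Set (M → Qb)) ≤ LinearMap.ker L := by
      rw [Submodule.span_le]
      intro φ hφ
      rw [SetLike.mem_coe, LinearMap.mem_ker, hL, sub_eq_zero]
      exact hxy _ (htr φ hφ)
    rw [span_Qb_eq_top_of_sep p H h.sep] at hker
    have h0 : L (fun m => if π m = x then 1 else 0) = 0 := hker Submodule.mem_top
    rw [hL] at h0
    have h1 : ∑ m ∈ Finset.univ.filter (fun m => π m = x), (if π m = x then (1 : Qb) else 0) =
        ((Finset.univ.filter (fun m => π m = x)).card : Qb) := by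
      rw [Finset.sum_congr rfl (fun m hm => if_pos (Finset.mem_filter.mp hm).2)]
      simp
    have h2 : ∑ m ∈ Finset.univ.filter (fun m => π m = y), (if π m = x then (1 : Qb) else 0) =
        0 := by
      refine Finset.sum_eq_zero fun m hm => if_neg ?_
      rw [(Finset.mem_filter.mp hm).2]
      exact fun h => hne h.symm
    rw [h1, h2, sub_zero] at h0
    obtain ⟨m, hm⟩ := hπ x
    have hcard : (Finset.univ.filter (fun m => π m = x)).card ≠ 0 :=
      Finset.card_ne_zero.mpr ⟨m, Finset.mem_filter.mpr ⟨Finset.mem_univ _, hm⟩⟩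
    exact hcard (by exact_mod_cast h0)
  refine ⟨hfin, heqv, hsep, ?_⟩
  -- comultiplication
  intro ψ hψ
  obtain ⟨n, b, hbH, hbind, hbspan⟩ := exists_basis_of_fin_eqv p h.fin h.eqv
  obtain ⟨n', c, hcH, hcind, hcspan⟩ := exists_basis_of_fin_eqv p hfin heqv
  have hinv : ∀ A : M → Qb, A ∈ H → (∀ m k, π k = 0 → A (m + k) = A m) →
      ∃ χ ∈ H.comap (pull p π), ∀ m, χ (π m) = A m := by
    intro A hA hAinv
    have hAs : ∀ m, A (Function.surjInv hπ (π m)) = A m := by
      intro m
      have hk : π (Function.surjInv hπ (π m) - m) = 0 := by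
        rw [map_sub, Function.surjInv_eq hπ, sub_self]
      have h1 := hAinv m _ hk
      rw [add_sub_cancel] at h1
      exact h1
    refine ⟨fun x => A (Function.surjInv hπ x), ?_, hAs⟩
    rw [hmem]
    have h2 : pull p π (fun x => A (Function.surjInv hπ x)) = A := by
      funext m
      rw [pull_apply]
      exact hAs m
    rw [h2]
    exact hA
  -- Step 1: expand in the second variable along the basis `b`
  obtain ⟨n0, a, a', ha, ha', haa'⟩ := h.comul (pull p π ψ) hψ
  choose r hr using fun i => hbspan (a' i) (ha' i)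
  let A : Fin n → M → Qb := fun j => ∑ i, r i j • a i
  have hA : ∀ j, A j ∈ H := fun j => H.sum_mem fun i _ => H.smul_mem (ha i) _
  have hexp : ∀ m m', ψ (π m + π m') = ∑ j, A j m * b j m' := by
    intro m m'
    have h0 := haa' m m'
    rw [pull_apply, map_add] at h0
    rw [h0]
    have h1 : ∀ i, a' i m' = ∑ j, algebraMap (ratLocalizedAt p) Qb (r i j) * b j m' := by
      intro i
      have h2 := congrFun (hr i) m'
      rw [h2]
      simp only [Finset.sum_apply, smul_fun_apply]
    simp only [h1, A, Finset.sum_apply, smul_fun_apply, Finset.mul_sum, Finset.sum_mul]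
    rw [Finset.sum_comm]
    refine Finset.sum_congr rfl fun j _ => Finset.sum_congr rfl fun i _ => by ring
  -- Step 2: the coefficients are invariant under the kernel
  have hAinv : ∀ j m k, π k = 0 → A j (m + k) = A j m := by
    intro j m k hk
    have hzero : ∑ j, (A j (m + k) - A j m) • b j = 0 := by
      funext m'
      simp only [Finset.sum_apply, Pi.smul_apply, smul_eq_mul, Pi.zero_apply, sub_mul,
        Finset.sum_sub_distrib]
      rw [← hexp, ← hexp, map_add, hk, add_zero, sub_self]
    exact sub_eq_zero.mp (Fintype.linearIndependent_iff.mp hbind _ hzero j)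
  choose χA hχA hχA' using fun j => hinv (A j) (hA j) (hAinv j)
  have hexp2 : ∀ x m', ψ (x + π m') = ∑ j, χA j x * b j m' := by
    intro x m'
    obtain ⟨m, rfl⟩ := hπ x
    rw [hexp]
    exact Finset.sum_congr rfl fun j _ => by rw [hχA']
  -- Step 3: expand in the first variable along the basis `c`
  choose r' hr' using fun j => hcspan (χA j) (hχA j)
  let B : Fin n' → M → Qb := fun k => ∑ j, r' j k • b j
  have hB : ∀ k, B k ∈ H := fun k => H.sum_mem fun j _ => H.smul_mem (hbH j) _
  have hexp3 : ∀ x m', ψ (x + π m') = ∑ k, c k x * B k m' := by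
    intro x m'
    rw [hexp2]
    have h1 : ∀ j, χA j x = ∑ k, algebraMap (ratLocalizedAt p) Qb (r' j k) * c k x := by
      intro j
      have h2 := congrFun (hr' j) x
      rw [h2]
      simp only [Finset.sum_apply, smul_fun_apply]
    simp only [h1, B, Finset.sum_apply, smul_fun_apply, Finset.mul_sum, Finset.sum_mul]
    rw [Finset.sum_comm]
    refine Finset.sum_congr rfl fun k _ => Finset.sum_congr rfl fun j _ => by ring
  have hBinv : ∀ k m kk, π kk = 0 → B k (m + kk) = B k m := by
    intro k m kk hkk
    have hzero : ∑ k, (B k (m + kk) - B k m) • c k = 0 := by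
      funext x
      simp only [Finset.sum_apply, Pi.smul_apply, smul_eq_mul, Pi.zero_apply, sub_mul,
        Finset.sum_sub_distrib]
      have e1 := hexp3 x (m + kk)
      have e2 := hexp3 x m
      rw [map_add, hkk, add_zero] at e1
      have e3 : ∑ k, B k (m + kk) * c k x = ∑ k, B k m * c k x := by
        rw [show ∑ k, B k (m + kk) * c k x = ∑ k, c k x * B k (m + kk) from
            Finset.sum_congr rfl fun _ _ => mul_comm _ _,
          show ∑ k, B k m * c k x = ∑ k, c k x * B k m from
            Finset.sum_congr rfl fun _ _ => mul_comm _ _, ← e1, ← e2]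
      rw [e3, sub_self]
    exact sub_eq_zero.mp (Fintype.linearIndependent_iff.mp hcind _ hzero k)
  choose χB hχB hχB' using fun k => hinv (B k) (hB k) (hBinv k)
  refine ⟨n', c, χB, hcH, hχB, ?_⟩
  intro x y
  obtain ⟨m', rfl⟩ := hπ y
  rw [hexp3]
  exact Finset.sum_congr rfl fun k _ => by rw [hχB']

/-- A quotient of a group with a function model by a Galois-stable subgroup (in the form of an
equivariant additive surjection) has a function model. -/
theorem HasFunModel.of_surjective [Fact p.Prime] {X : Type} [AddCommGroup X] {act : Gal → M → M}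
    {actX : Gal → X → X} (h : HasFunModel p M act)
    (π : M →+ X) (hπ : Function.Surjective π) (hact : ∀ σ m, π (act σ m) = actX σ (π m)) :
    HasFunModel p X actX := by
  obtain ⟨H, hH⟩ := h
  exact ⟨_, hH.comap_pull p π hπ hact⟩


/-! ## Subquotients of finite powers -/

/-- Function models pass to equivariant additive images of Galois-stable subgroups of finite
powers. -/
theorem HasFunModel.subquot [Fact p.Prime] {M' : Type} [AddCommGroup M'] {act : Gal → M → M}
    {act' : Gal → M' → M'} (h : HasFunModel p M act) (r : ℕ) (Nsub : AddSubgroup (Fin r → M))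
    (hstab : ∀ (σ : Gal), ∀ x ∈ Nsub, (fun i => act σ (x i)) ∈ Nsub)
    (f : Nsub →+ M') (hf : Function.Surjective f)
    (hfeq : ∀ (σ : Gal) (x y : Nsub),
      (∀ i, (y : Fin r → M) i = act σ ((x : Fin r → M) i)) → f y = act' σ (f x)) :
    HasFunModel p M' act' := by
  have h1 : HasFunModel p (Fin r → M) (fun σ g i => act σ (g i)) := h.pi_fin p r
  have h2 : HasFunModel p Nsub (fun σ x => ⟨fun i => act σ ((x : Fin r → M) i), hstab σ x x.2⟩) :=
    h1.of_injective p Nsub.subtype Subtype.val_injective (fun σ x => rfl)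
  exact h2.of_surjective p f hf (fun σ x => hfeq σ x _ (fun i => rfl))

/-- The frozen flat clause passes to equivariant additive images of Galois-stable subgroups of
finite powers, given the constructor "function model ⟹ frozen clause". -/
theorem HasFlatModel.subquot [Fact p.Prime]
    (hc : ∀ (M : Type) [AddCommGroup M] (act : Gal → M → M),
      HasFunModel p M act → HasFlatModel p M act)
    {M' : Type} [AddCommGroup M'] {act : Gal → M → M}
    {act' : Gal → M' → M'} (h : HasFlatModel p M act) (r : ℕ) (Nsub : AddSubgroup (Fin r → M))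
    (hstab : ∀ (σ : Gal), ∀ x ∈ Nsub, (fun i => act σ (x i)) ∈ Nsub)
    (f : Nsub →+ M') (hf : Function.Surjective f)
    (hfeq : ∀ (σ : Gal) (x y : Nsub),
      (∀ i, (y : Fin r → M) i = act σ ((x : Fin r → M) i)) → f y = act' σ (f x)) :
    HasFlatModel p M' act' :=
  hc M' act' ((hasFunModel_of_hasFlatModel p h).subquot p r Nsub hstab f hf hfeq)

end Quot

end Fermat.Agent.S32.helper1304
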