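import Mathlib
import Fermat.Agent.S32.helper1304_HopfClose
import Fermat.Agent.Lib.helper1852_HopfOrder
import Fermat.Agent.S32.helper1215_Top

set_option autoImplicit false

/-!
# HOPF-CLOSE, final form

`Fermat.Agent.S32.helper1215.Stmt_FlatSubquot p` for every prime `p`: the frozen flat clause
passes to equivariant additive images of Galois-stable subgroups of finite powers.

Chain: frozen clause ⟹ function model (`hasFunModel_of_hasFlatModel`) ⟹ closure operations on
function models (`HasFunModel.subquot`) ⟹ frozen clause again, by the constructor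
`Fermat.Agent.Lib.helper1852.FunOrder.exists_hopfAlgebra`.
-/

namespace Fermat.Agent.S32.helper1304

open GaloisRep

local notation "Qb" => AlgebraicClosure ℚ
local notation "Gal" => (AlgebraicClosure ℚ ≃ₐ[ℚ] AlgebraicClosure ℚ)

variable (p : ℕ) [Fact p.Prime] {M : Type} [AddCommGroup M]

/-- A function model is a Hopf order of functions in the sense of `helper1852.FunOrder`. -/
theorem IsFunModel.funOrder {act : Gal → M → M} {H : Subalgebra (ratLocalizedAt p) (M → Qb)}
    (h : IsFunModel p act H) : Fermat.Agent.Lib.helper1852.FunOrder H where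
  inj := algebraMap_R_Qb_injective p
  basis := by
    have := h.fin
    have : Module.Free (ratLocalizedAt p) H := Module.free_of_finite_type_torsion_free'
    refine ⟨_, Module.finBasis (ratLocalizedAt p) H, ?_⟩
    apply linearIndependent_Qb_of_eqv act
    · intro i σ m
      exact h.eqv _ (Module.finBasis (ratLocalizedAt p) H i).2 σ m
    · have hR : LinearIndependent (ratLocalizedAt p)
          (fun i => ((Module.finBasis (ratLocalizedAt p) H i : H) : M → Qb)) :=
        (Module.finBasis (ratLocalizedAt p) H).linearIndependent.map'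
          (Subalgebra.toSubmodule H).subtype (Submodule.ker_subtype _)
      exact (LinearIndependent.iff_fractionRing (ratLocalizedAt p) ℚ).mp hR
  sep := h.sep
  add := by
    intro φ hφ
    obtain ⟨n, a, b, ha, hb, hab⟩ := h.comul φ hφ
    exact ⟨n, fun i => ⟨a i, ha i⟩, fun i => ⟨b i, hb i⟩, hab⟩
  zero := by
    intro φ hφ
    have hint : IsIntegral (ratLocalizedAt p) (φ 0) :=
      (IsIntegral.of_mem_of_fg H ((finite_iff_fg p H).mp h.fin) φ hφ).map
        (Pi.evalAlgHom (ratLocalizedAt p) (fun _ : M => Qb) 0)
    obtain ⟨r, hr⟩ := exists_R_of_fixed_of_isIntegral p (φ 0)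
      (fun σ => by rw [← h.eqv φ hφ, h.act_zero p]) hint
    exact ⟨r, hr⟩

/-- **Constructor.** A function model gives the frozen flat clause. -/
theorem hasFlatModel_of_hasFunModel {act : Gal → M → M} (h : HasFunModel p M act) :
    HasFlatModel p M act := by
  obtain ⟨H, hH⟩ := h
  obtain ⟨H', i1, i2, hfin, hflat, hco, e, hadd, hgal⟩ := (hH.funOrder p).exists_hopfAlgebra
  exact ⟨H', i1, i2, hfin, hflat, hco, e, hadd, fun σ f g hfg =>
    hgal (act σ) σ (fun φ hφ m => hH.eqv φ hφ σ m) f g hfg⟩

/-- The frozen flat clause is equivalent to the existence of a function model. -/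
theorem hasFlatModel_iff_hasFunModel {act : Gal → M → M} :
    HasFlatModel p M act ↔ HasFunModel p M act :=
  ⟨hasFunModel_of_hasFlatModel p, hasFlatModel_of_hasFunModel p⟩

/-- **HOPF-CLOSE.** Closure of the frozen flat clause under subquotients of finite powers. -/
theorem stmt_FlatSubquot : Fermat.Agent.S32.helper1215.Stmt_FlatSubquot p := by
  intro M M' _ _ act act' r Nsub hstab f hf hfeq h
  exact HasFlatModel.subquot p (fun M _ act h => hasFlatModel_of_hasFunModel p h) h r Nsub
    hstab f hf hfeq

end Fermat.Agent.S32.helper1304
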