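import Fermat.Agent.S32.helper1429_HFModular
import Fermat.Agent.S31.helper5307_Spec

/-!
# S32, leaf HF-MODULAR, final form (helper1429)

`stmt_HF` : `helper2559.Stmt_HF p N S 𝒪 T H.π` (the input (HF) of the finite-level transfer) from
the machine Prop `Fermat.Agent.S31.helper5307.Stmt_K5 N p`, taken by name (captain ruling R1 of
team_s32_chat #40).
-/

set_option autoImplicit false

namespace Fermat.Agent.S32.helper1429

variable {N : ℕ} [NeZero N] {S : Finset ℕ}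
  {𝒪 : Type} [CommRing 𝒪] [IsDomain 𝒪] [IsDiscreteValuationRing 𝒪]
  [IsAdicComplete (IsLocalRing.maximalIdeal 𝒪) 𝒪]
  {θ : CuspForm.heckeAlgebra N 2 (↑S : Set ℕ) →+* IsLocalRing.ResidueField 𝒪}
  {T : Type} [CommRing T] [IsLocalRing T] [IsNoetherianRing T]
  [IsAdicComplete (IsLocalRing.maximalIdeal T) T] [Algebra 𝒪 T] [IsLocalHom (algebraMap 𝒪 T)]
  [Module.Finite 𝒪 T] [Module.Free 𝒪 T]

/-- The named S31 machine Prop is the unfolded hypothesis of `stmt_HF_of_k5`. -/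
theorem k5Hyp_of_stmt_K5 {p : ℕ} (hK5 : Fermat.Agent.S31.helper5307.Stmt_K5 N p) : K5Hyp N p :=
  hK5

/-- **(HF)** Hecke faithfulness with `𝒪`-coefficients on `J₀(N)[p^m]` for a Hecke–Galois datum,
from (K5). -/
theorem stmt_HF [CharZero 𝒪] {p : ℕ} (hp : p.Prime)
    (hp𝒪 : (p : 𝒪) ∈ IsLocalRing.maximalIdeal 𝒪)
    (H : CuspForm.HeckeGaloisRepDatum N (↑S : Set ℕ) 𝒪 θ T)
    (hK5 : Fermat.Agent.S31.helper5307.Stmt_K5 N p) :
    Fermat.Agent.S32.helper2559.Stmt_HF p N S 𝒪 T H.π :=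
  stmt_HF_of_k5 hp hp𝒪 H hK5

end Fermat.Agent.S32.helper1429
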