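/-
S32-XFER-LOCAL (helper2036): the local-factor / image-ring device, (D2) of findings #2777.

Input ("global" data): a commutative ring `R` acting on a finite abelian group `M₀`, a surjective
ring hom `π : R →+* T'` onto a local ring, and the faithfulness-up-to-`π` hypothesis
`(∀ x : M₀, r • x = 0) → π r = 0`.

Output: the quotient `LocM π M₀ = M₀ ⧸ K` by the torsion with respect to `R ∖ π⁻¹(𝔪)` and the
image ring `LocB π M₀` of `R` in `End (LocM π M₀)`; `LocB` is a finite local commutative ring
acting faithfully on `LocM`, `π` factors through a surjective local hom `πB : LocB →+* T'`,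
every `R`-linear action on `M₀` descends to a `LocB`-linear action on `LocM`, and per-element
quadratic relations descend.  This is exactly the input shape of FIN-CARAYOL.

Mathlib only.
-/
import Mathlib

namespace Fermat.Agent.S32.helper2036

open IsLocalRing

universe u v w

section Core

variable {R : Type u} [CommRing R] {T' : Type w} [CommRing T'] [IsLocalRing T']
variable (π : R →+* T') (M₀ : Type v) [AddCommGroup M₀] [Module R M₀]

/-- The prime ideal `π⁻¹(𝔪_{T'})` of `R`. -/
def nIdeal : Ideal R := (maximalIdeal T').comap π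

instance nIdeal_isPrime : (nIdeal π).IsPrime :=
  Ideal.comap_isPrime π _

theorem not_mem_nIdeal_iff {s : R} : s ∉ nIdeal π ↔ IsUnit (π s) := by
  rw [nIdeal, Ideal.mem_comap, IsLocalRing.mem_maximalIdeal, mem_nonunits_iff, not_not]

theorem one_not_mem_nIdeal : (1 : R) ∉ nIdeal π := by
  rw [not_mem_nIdeal_iff, map_one]; exact isUnit_one

theorem mul_not_mem_nIdeal {s t : R} (hs : s ∉ nIdeal π) (ht : t ∉ nIdeal π) :
    s * t ∉ nIdeal π := by
  rw [not_mem_nIdeal_iff] at *
  rw [map_mul]; exact hs.mul ht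

/-- The torsion of `M₀` with respect to the complement of `nIdeal π`. -/
def K : Submodule R M₀ where
  carrier := {x | ∃ s : R, s ∉ nIdeal π ∧ s • x = 0}
  zero_mem' := ⟨1, one_not_mem_nIdeal π, smul_zero _⟩
  add_mem' := by
    rintro x y ⟨s, hs, hsx⟩ ⟨t, ht, hty⟩
    refine ⟨s * t, mul_not_mem_nIdeal π hs ht, ?_⟩
    rw [smul_add, mul_comm s t, mul_smul, hsx, smul_zero, mul_comm t s, mul_smul, hty, smul_zero,
      add_zero]
  smul_mem' := by
    rintro r x ⟨s, hs, hsx⟩
    exact ⟨s, hs, by rw [smul_comm, hsx, smul_zero]⟩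

theorem mem_K {x : M₀} : x ∈ K π M₀ ↔ ∃ s : R, s ∉ nIdeal π ∧ s • x = 0 := Iff.rfl

/-- The local factor of the module: `M₀` modulo the `(R ∖ n)`-torsion. -/
def LocM : Type v := M₀ ⧸ K π M₀

instance : AddCommGroup (LocM π M₀) := inferInstanceAs (AddCommGroup (M₀ ⧸ K π M₀))

instance : Module R (LocM π M₀) := inferInstanceAs (Module R (M₀ ⧸ K π M₀))

instance [Finite M₀] : Finite (LocM π M₀) :=
  Finite.of_surjective (K π M₀).mkQ (Submodule.mkQ_surjective _)

/-- The quotient map `M₀ → LocM π M₀`. -/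
def locMk : M₀ →ₗ[R] LocM π M₀ := (K π M₀).mkQ

theorem locMk_surjective : Function.Surjective (locMk π M₀) := Submodule.mkQ_surjective _

theorem locMk_eq_zero_iff {x : M₀} : locMk π M₀ x = 0 ↔ x ∈ K π M₀ :=
  Submodule.Quotient.mk_eq_zero _

/-- Elements outside `n` act injectively on the local factor. -/
theorem smul_eq_zero_of_not_mem {s : R} (hs : s ∉ nIdeal π) {y : LocM π M₀}
    (h : s • y = 0) : y = 0 := by
  obtain ⟨x, rfl⟩ := locMk_surjective π M₀ y
  rw [← map_smul, locMk_eq_zero_iff] at h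
  obtain ⟨s', hs', h'⟩ := h
  rw [locMk_eq_zero_iff]
  exact ⟨s' * s, mul_not_mem_nIdeal π hs' hs, by rw [mul_smul, h']⟩

/-- The image ring of `R` acting on the local factor. -/
def LocB : Type u := R ⧸ Module.annihilator R (LocM π M₀)

instance : CommRing (LocB π M₀) :=
  inferInstanceAs (CommRing (R ⧸ Module.annihilator R (LocM π M₀)))

/-- The canonical surjection `R → LocB π M₀`. -/
def toB : R →+* LocB π M₀ := Ideal.Quotient.mk (Module.annihilator R (LocM π M₀))

theorem toB_surjective : Function.Surjective (toB π M₀) := Ideal.Quotient.mk_surjective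

instance : Module (LocB π M₀) (LocM π M₀) :=
  show Module (R ⧸ Module.annihilator R (LocM π M₀)) (LocM π M₀) from Module.quotientAnnihilator

@[simp] theorem toB_smul (r : R) (y : LocM π M₀) : toB π M₀ r • y = r • y := rfl

theorem toB_eq_zero_iff {r : R} : toB π M₀ r = 0 ↔ ∀ y : LocM π M₀, r • y = 0 := by
  exact (Ideal.Quotient.eq_zero_iff_mem (a := r)
    (I := Module.annihilator R (LocM π M₀))).trans Module.mem_annihilator

/-- `LocB` acts faithfully on `LocM`. -/
theorem locB_faithful (b : LocB π M₀) (h : ∀ y : LocM π M₀, b • y = 0) : b = 0 := by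
  obtain ⟨r, rfl⟩ := toB_surjective π M₀ b
  exact (toB_eq_zero_iff π M₀).mpr h

instance : FaithfulSMul (LocB π M₀) (LocM π M₀) where
  eq_of_smul_eq_smul := by
    intro _ _ h
    rw [← sub_eq_zero]
    refine locB_faithful π M₀ _ fun y => ?_
    rw [sub_smul, h y, sub_self]

instance [Finite M₀] : Finite (LocB π M₀) :=
  Finite.of_injective (fun (b : LocB π M₀) (y : LocM π M₀) => b • y) fun _ _ h =>
    FaithfulSMul.eq_of_smul_eq_smul fun y => congrFun h y

variable {π M₀}

/-- Key step: an element of `R` killing the local factor is killed by `π`. -/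
theorem map_eq_zero_of_mem_annihilator [Finite M₀]
    (hfaith : ∀ r : R, (∀ x : M₀, r • x = 0) → π r = 0)
    {r : R} (hr : r ∈ Module.annihilator R (LocM π M₀)) : π r = 0 := by
  classical
  cases nonempty_fintype M₀
  have h1 : ∀ x : M₀, ∃ s : R, s ∉ nIdeal π ∧ s • (r • x) = 0 := by
    intro x
    have : locMk π M₀ (r • x) = 0 := by
      rw [map_smul]; exact Module.mem_annihilator.mp hr _
    exact (locMk_eq_zero_iff π M₀).mp this
  choose s hs hsx using h1
  have hS : IsUnit (π (∏ x, s x)) := by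
    rw [map_prod]
    exact (IsUnit.prod_univ_iff).mpr fun x => (not_mem_nIdeal_iff π).mp (hs x)
  have h2 : π ((∏ x, s x) * r) = 0 := by
    refine hfaith _ fun x => ?_
    rw [← Finset.prod_erase_mul _ _ (Finset.mem_univ x), mul_assoc, mul_smul, mul_smul, hsx,
      smul_zero]
  rw [map_mul] at h2
  exact (hS.mul_right_eq_zero).mp h2

variable (π M₀)

/-- The induced surjection `LocB π M₀ → T'`. -/
def piB [Finite M₀] (hfaith : ∀ r : R, (∀ x : M₀, r • x = 0) → π r = 0) : LocB π M₀ →+* T' :=
  Ideal.Quotient.lift (Module.annihilator R (LocM π M₀)) π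
    fun _ hr => map_eq_zero_of_mem_annihilator hfaith hr

@[simp] theorem piB_toB [Finite M₀] (hfaith : ∀ r : R, (∀ x : M₀, r • x = 0) → π r = 0) (r : R) :
    piB π M₀ hfaith (toB π M₀ r) = π r :=
  Ideal.Quotient.lift_mk _ _ _

theorem piB_surjective [Finite M₀] (hfaith : ∀ r : R, (∀ x : M₀, r • x = 0) → π r = 0)
    (hπ : Function.Surjective π) : Function.Surjective (piB π M₀ hfaith) := by
  intro t
  obtain ⟨r, rfl⟩ := hπ t
  exact ⟨toB π M₀ r, piB_toB π M₀ hfaith r⟩

/-- `piB` reflects units: `LocB` has no other "local factors". -/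
theorem isUnit_of_isUnit_piB [Finite M₀]
    (hfaith : ∀ r : R, (∀ x : M₀, r • x = 0) → π r = 0) {b : LocB π M₀}
    (hb : IsUnit (piB π M₀ hfaith b)) : IsUnit b := by
  obtain ⟨r, rfl⟩ := toB_surjective π M₀ b
  rw [piB_toB, ← not_mem_nIdeal_iff] at hb
  apply IsArtinianRing.isUnit_of_mem_nonZeroDivisors
  rw [mem_nonZeroDivisors_iff_right]
  intro c hc
  refine locB_faithful π M₀ c fun y => ?_
  apply smul_eq_zero_of_not_mem π M₀ hb
  rw [← toB_smul, ← mul_smul, mul_comm, hc, zero_smul]

instance piB_isLocalHom [Finite M₀] (hfaith : ∀ r : R, (∀ x : M₀, r • x = 0) → π r = 0) :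
    IsLocalHom (piB π M₀ hfaith) :=
  ⟨fun _ hb => isUnit_of_isUnit_piB π M₀ hfaith hb⟩

/-- `LocB π M₀` is a local ring. -/
theorem locB_isLocalRing [Finite M₀] (hfaith : ∀ r : R, (∀ x : M₀, r • x = 0) → π r = 0) :
    IsLocalRing (LocB π M₀) :=
  (piB π M₀ hfaith).domain_isLocalRing

end Core

section Action

variable {R : Type u} [CommRing R] {T' : Type w} [CommRing T'] [IsLocalRing T']
variable (π : R →+* T') (M₀ : Type v) [AddCommGroup M₀] [Module R M₀]
variable {G : Type*} [Monoid G] (ρ₀ : G →* Module.End R M₀)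

theorem K_le_comap (f : Module.End R M₀) : K π M₀ ≤ (K π M₀).comap f := by
  rintro x ⟨s, hs, hsx⟩
  exact ⟨s, hs, by rw [← map_smul, hsx, map_zero]⟩

/-- An `R`-linear endomorphism of `M₀` descends to the local factor. -/
def locEndR (f : Module.End R M₀) : Module.End R (LocM π M₀) :=
  Submodule.mapQ (K π M₀) (K π M₀) f (K_le_comap π M₀ f)

@[simp] theorem locEndR_locMk (f : Module.End R M₀) (x : M₀) :
    locEndR π M₀ f (locMk π M₀ x) = locMk π M₀ (f x) := rfl

/-- An `R`-linear endomorphism of `M₀` descends to a `LocB`-linear endomorphism of `LocM`. -/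
def locEnd (f : Module.End R M₀) : Module.End (LocB π M₀) (LocM π M₀) where
  toFun := locEndR π M₀ f
  map_add' := map_add _
  map_smul' := by
    intro b y
    obtain ⟨r, rfl⟩ := toB_surjective π M₀ b
    simp only [toB_smul, map_smul, RingHom.id_apply]

@[simp] theorem locEnd_locMk (f : Module.End R M₀) (x : M₀) :
    locEnd π M₀ f (locMk π M₀ x) = locMk π M₀ (f x) := rfl

/-- The descended action `G →* End_{LocB}(LocM)`. -/
def locRho : G →* Module.End (LocB π M₀) (LocM π M₀) where
  toFun g := locEnd π M₀ (ρ₀ g)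
  map_one' := by
    refine LinearMap.ext fun y => ?_
    obtain ⟨x, rfl⟩ := locMk_surjective π M₀ y
    rw [locEnd_locMk, map_one]; rfl
  map_mul' g h := by
    refine LinearMap.ext fun y => ?_
    obtain ⟨x, rfl⟩ := locMk_surjective π M₀ y
    rw [locEnd_locMk, map_mul]; rfl

@[simp] theorem locRho_locMk (g : G) (x : M₀) :
    locRho π M₀ ρ₀ g (locMk π M₀ x) = locMk π M₀ (ρ₀ g x) := rfl

/-- Quadratic relations descend to the local factor. -/
theorem quad_descend (g : G) (t d : R)
    (h : ∀ x : M₀, ρ₀ g (ρ₀ g x) - t • ρ₀ g x + d • x = 0) (y : LocM π M₀) :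
    locRho π M₀ ρ₀ g (locRho π M₀ ρ₀ g y) - toB π M₀ t • locRho π M₀ ρ₀ g y
      + toB π M₀ d • y = 0 := by
  obtain ⟨x, rfl⟩ := locMk_surjective π M₀ y
  rw [locRho_locMk, locRho_locMk, toB_smul, toB_smul]
  have h' := congrArg (locMk π M₀) (h x)
  rw [map_add, map_sub, LinearMap.map_smul, LinearMap.map_smul, map_zero] at h'
  exact h'

/-- Existential form of `quad_descend`, in the hypothesis shape of FIN-CARAYOL. -/
theorem exists_quad_descend [Finite M₀] (hfaith : ∀ r : R, (∀ x : M₀, r • x = 0) → π r = 0)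
    (g : G) (a b : T')
    (h : ∃ t d : R, (∀ x : M₀, ρ₀ g (ρ₀ g x) - t • ρ₀ g x + d • x = 0) ∧ π t = a ∧ π d = b) :
    ∃ t d : LocB π M₀, (∀ y : LocM π M₀,
        locRho π M₀ ρ₀ g (locRho π M₀ ρ₀ g y) - t • locRho π M₀ ρ₀ g y + d • y = 0) ∧
      piB π M₀ hfaith t = a ∧ piB π M₀ hfaith d = b := by
  obtain ⟨t, d, h, rfl, rfl⟩ := h
  exact ⟨toB π M₀ t, toB π M₀ d, quad_descend π M₀ ρ₀ g t d h, piB_toB _ _ _ _, piB_toB _ _ _ _⟩

end Action

section Subquot

/-- `V` is an equivariant additive quotient of an `actM`-stable subgroup of a finite power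
of `M`.  The actions are plain functions so that every concrete action plugs in. -/
def IsSubquotOfPow {G : Type*} (M : Type*) (V : Type*) [AddCommGroup M] [AddCommGroup V]
    (actM : G → M → M) (actV : G → V → V) : Prop :=
  ∃ (k : ℕ) (N : AddSubgroup (Fin k → M)),
    (∀ g, ∀ x ∈ N, (fun i => actM g (x i)) ∈ N) ∧
    ∃ f : N →+ V, Function.Surjective f ∧
      ∀ (g : G) (x y : N), (∀ i, (y : Fin k → M) i = actM g ((x : Fin k → M) i)) →
        f y = actV g (f x)

variable {G : Type*} {M M' V : Type*} [AddCommGroup M] [AddCommGroup M'] [AddCommGroup V]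

/-- Pull back a subquotient presentation along an equivariant additive surjection. -/
theorem IsSubquotOfPow.of_surjective {actM : G → M → M} {actM' : G → M' → M'}
    {actV : G → V → V} (q : M →+ M') (hq : Function.Surjective q)
    (hqe : ∀ g x, q (actM g x) = actM' g (q x))
    (h : IsSubquotOfPow M' V actM' actV) : IsSubquotOfPow M V actM actV := by
  obtain ⟨k, N', hN', f', hf', hf'e⟩ := h
  -- the componentwise map
  let Q : (Fin k → M) →+ (Fin k → M') :=
    { toFun := fun x i => q (x i)
      map_zero' := by funext i; simp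
      map_add' := by intro x y; funext i; simp }
  have hQ : Function.Surjective Q := by
    intro y
    choose x hx using fun i => hq (y i)
    exact ⟨x, funext hx⟩
  refine ⟨k, N'.comap Q, ?_, ?_⟩
  · intro g x hx
    have : Q (fun i => actM g (x i)) = fun i => actM' g (Q x i) := by
      funext i; exact hqe g (x i)
    rw [AddSubgroup.mem_comap, this]
    exact hN' g _ hx
  · let F : (N'.comap Q) →+ N' :=
      { toFun := fun x => ⟨Q x, x.2⟩
        map_zero' := by ext; simp
        map_add' := by intro x y; ext; simp }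
    refine ⟨f'.comp F, ?_, ?_⟩
    · intro v
      obtain ⟨⟨y, hy⟩, rfl⟩ := hf' v
      obtain ⟨x, rfl⟩ := hQ y
      exact ⟨⟨x, hy⟩, rfl⟩
    · intro g x y hxy
      refine hf'e g (F x) (F y) fun i => ?_
      show q ((y : Fin k → M) i) = actM' g (q ((x : Fin k → M) i))
      rw [hxy i, hqe]

/-- A surjective equivariant additive map from a finite power is a subquotient presentation. -/
theorem IsSubquotOfPow.of_pow_surjective {actM : G → M → M} {actV : G → V → V} (d : ℕ)
    (q : (Fin d → M) →+ V) (hq : Function.Surjective q)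
    (hqe : ∀ g x, q (fun i => actM g (x i)) = actV g (q x)) :
    IsSubquotOfPow M V actM actV := by
  refine ⟨d, ⊤, fun _ _ _ => AddSubgroup.mem_top _, q.comp (⊤ : AddSubgroup (Fin d → M)).subtype,
    ?_, ?_⟩
  · intro v
    obtain ⟨x, rfl⟩ := hq v
    exact ⟨⟨x, AddSubgroup.mem_top _⟩, rfl⟩
  · intro g x y hxy
    have : (y : Fin d → M) = fun i => actM g ((x : Fin d → M) i) := funext hxy
    show q (y : Fin d → M) = actV g (q (x : Fin d → M))
    rw [this, hqe]

/-- Transitivity: a subquotient of a power of a subquotient of a power is a subquotient of a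
power. -/
theorem IsSubquotOfPow.trans {actM : G → M → M} {actM' : G → M' → M'} {actV : G → V → V}
    (h₁ : IsSubquotOfPow M M' actM actM') (h₂ : IsSubquotOfPow M' V actM' actV) :
    IsSubquotOfPow M V actM actV := by
  obtain ⟨k₁, N₁, hN₁, f₁, hf₁, hf₁e⟩ := h₁
  obtain ⟨k₂, N₂, hN₂, f₂, hf₂, hf₂e⟩ := h₂
  -- rows of a `k₂ × k₁` array
  let row : (Fin (k₂ * k₁) → M) → Fin k₂ → Fin k₁ → M := fun x j i => x (finProdFinEquiv (j, i))
  have row_add : ∀ x y j, row (x + y) j = row x j + row y j := fun _ _ _ => rfl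
  have row_neg : ∀ x j, row (-x) j = -row x j := fun _ _ => rfl
  have row_zero : ∀ j, row 0 j = 0 := fun _ => rfl
  -- the subgroup
  let N : AddSubgroup (Fin (k₂ * k₁) → M) :=
    { carrier := {x | ∃ h : ∀ j, row x j ∈ N₁, (fun j => f₁ ⟨row x j, h j⟩) ∈ N₂}
      zero_mem' := by
        refine ⟨fun j => by rw [row_zero]; exact N₁.zero_mem, ?_⟩
        have : (fun j => f₁ ⟨row 0 j, by rw [row_zero]; exact N₁.zero_mem⟩) = (0 : Fin k₂ → M') := by
          funext j
          exact map_zero f₁
        rw [this]; exact N₂.zero_mem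
      add_mem' := by
        rintro x y ⟨hx, hx'⟩ ⟨hy, hy'⟩
        refine ⟨fun j => by rw [row_add]; exact N₁.add_mem (hx j) (hy j), ?_⟩
        have : (fun j => f₁ ⟨row (x + y) j, by rw [row_add]; exact N₁.add_mem (hx j) (hy j)⟩)
            = (fun j => f₁ ⟨row x j, hx j⟩) + (fun j => f₁ ⟨row y j, hy j⟩) := by
          funext j
          exact map_add f₁ ⟨row x j, hx j⟩ ⟨row y j, hy j⟩
        rw [this]; exact N₂.add_mem hx' hy'
      neg_mem' := by
        rintro x ⟨hx, hx'⟩
        refine ⟨fun j => by rw [row_neg]; exact N₁.neg_mem (hx j), ?_⟩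
        have : (fun j => f₁ ⟨row (-x) j, by rw [row_neg]; exact N₁.neg_mem (hx j)⟩)
            = -(fun j => f₁ ⟨row x j, hx j⟩) := by
          funext j
          exact map_neg f₁ ⟨row x j, hx j⟩
        rw [this]; exact N₂.neg_mem hx' }
  have memN : ∀ x : N, ∃ h : ∀ j, row (x : Fin (k₂ * k₁) → M) j ∈ N₁,
      (fun j => f₁ ⟨row (x : Fin (k₂ * k₁) → M) j, h j⟩) ∈ N₂ := fun x => x.2
  -- the intermediate map `N → N₂`
  let F : N → N₂ := fun x => ⟨fun j => f₁ ⟨row (x : Fin (k₂ * k₁) → M) j, (memN x).1 j⟩,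
    (memN x).2⟩
  have F_apply : ∀ (x : N) (j : Fin k₂),
      (F x : Fin k₂ → M') j = f₁ ⟨row (x : Fin (k₂ * k₁) → M) j, (memN x).1 j⟩ := fun _ _ => rfl
  let f : N →+ V :=
    { toFun := fun x => f₂ (F x)
      map_zero' := by
        have : F 0 = 0 := by
          apply Subtype.ext
          funext j
          rw [F_apply]
          exact map_zero f₁
        rw [this, map_zero]
      map_add' := by
        intro x y
        have : F (x + y) = F x + F y := by
          apply Subtype.ext
          funext j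
          rw [F_apply]
          exact map_add f₁ ⟨row (x : Fin (k₂ * k₁) → M) j, (memN x).1 j⟩
            ⟨row (y : Fin (k₂ * k₁) → M) j, (memN y).1 j⟩
        rw [this, map_add] }
  have f_apply : ∀ x : N, f x = f₂ (F x) := fun _ => rfl
  -- stability and equivariance share one computation
  have key : ∀ (g : G) (x : N) (y : Fin (k₂ * k₁) → M),
      (∀ n, y n = actM g ((x : Fin (k₂ * k₁) → M) n)) →
      ∃ hy : ∀ j, row y j ∈ N₁, ∀ j, f₁ ⟨row y j, hy j⟩ = actM' g ((F x : Fin k₂ → M') j) := by
    intro g x y hxy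
    have hrow : ∀ j, row y j = fun i => actM g (row (x : Fin (k₂ * k₁) → M) j i) :=
      fun j => funext fun i => hxy _
    have hy : ∀ j, row y j ∈ N₁ := fun j => by
      rw [hrow]; exact hN₁ g _ ((memN x).1 j)
    refine ⟨hy, fun j => ?_⟩
    rw [F_apply]
    exact hf₁e g ⟨row (x : Fin (k₂ * k₁) → M) j, (memN x).1 j⟩ ⟨row y j, hy j⟩
      fun i => congrFun (hrow j) i
  refine ⟨k₂ * k₁, N, ?_, f, ?_, ?_⟩
  · intro g x hx
    obtain ⟨hy, hy'⟩ := key g ⟨x, hx⟩ (fun n => actM g (x n)) fun _ => rfl
    refine ⟨hy, ?_⟩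
    have : (fun j => f₁ ⟨row (fun n => actM g (x n)) j, hy j⟩)
        = fun j => actM' g ((F ⟨x, hx⟩ : Fin k₂ → M') j) := funext hy'
    rw [this]
    exact hN₂ g _ (F ⟨x, hx⟩).2
  · intro v
    obtain ⟨y, rfl⟩ := hf₂ v
    choose z hz using fun j => hf₁ ((y : Fin k₂ → M') j)
    let x : Fin (k₂ * k₁) → M := fun n => (z (finProdFinEquiv.symm n).1 : Fin k₁ → M)
      (finProdFinEquiv.symm n).2
    have hrow : ∀ j, row x j = (z j : Fin k₁ → M) := by
      intro j
      funext i
      show (z (finProdFinEquiv.symm (finProdFinEquiv (j, i))).1 : Fin k₁ → M)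
        (finProdFinEquiv.symm (finProdFinEquiv (j, i))).2 = _
      rw [Equiv.symm_apply_apply]
    have hx1 : ∀ j, row x j ∈ N₁ := fun j => by rw [hrow]; exact (z j).2
    have hx2 : ∀ j, f₁ ⟨row x j, hx1 j⟩ = (y : Fin k₂ → M') j := by
      intro j
      rw [← hz j]
      congr 1
      exact Subtype.ext (hrow j)
    have hxN : x ∈ N := ⟨hx1, by
      have : (fun j => f₁ ⟨row x j, hx1 j⟩) = (y : Fin k₂ → M') := funext hx2
      rw [this]; exact y.2⟩
    refine ⟨⟨x, hxN⟩, ?_⟩
    rw [f_apply]
    congr 1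
    apply Subtype.ext
    funext j
    rw [F_apply]
    exact hx2 j
  · intro g x y hxy
    obtain ⟨hy, hy'⟩ := key g x (y : Fin (k₂ * k₁) → M) hxy
    rw [f_apply, f_apply]
    refine hf₂e g (F x) (F y) fun j => ?_
    rw [F_apply, ← hy' j]

/-- Enlarge the ambient group: a subquotient presentation over an equivariantly embedded
subobject `M ↪ M'` is one over `M'`. -/
theorem IsSubquotOfPow.of_injective {actM : G → M → M} {actM' : G → M' → M'}
    {actV : G → V → V} (j : M →+ M') (hj : Function.Injective j)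
    (hje : ∀ g x, j (actM g x) = actM' g (j x))
    (h : IsSubquotOfPow M V actM actV) : IsSubquotOfPow M' V actM' actV := by
  obtain ⟨k, N, hN, f, hf, hfe⟩ := h
  let J : (Fin k → M) →+ (Fin k → M') :=
    { toFun := fun x i => j (x i)
      map_zero' := by funext i; simp
      map_add' := by intro x y; funext i; simp }
  have hJ : Function.Injective J := by
    intro x y hxy
    funext i
    exact hj (congrFun hxy i)
  let e : N ≃+ N.map J := N.equivMapOfInjective J hJ
  have he : ∀ (x : N) (i : Fin k), ((e x : N.map J) : Fin k → M') i = j ((x : Fin k → M) i) :=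
    fun _ _ => rfl
  refine ⟨k, N.map J, ?_, f.comp e.symm.toAddMonoidHom, ?_, ?_⟩
  · rintro g _ ⟨x, hx, rfl⟩
    refine ⟨fun i => actM g (x i), hN g x hx, ?_⟩
    funext i
    exact hje g (x i)
  · exact hf.comp e.symm.surjective
  · intro g x' y' hxy
    obtain ⟨x, rfl⟩ := e.surjective x'
    obtain ⟨y, rfl⟩ := e.surjective y'
    show f (e.symm (e y)) = actV g (f (e.symm (e x)))
    rw [AddEquiv.symm_apply_apply, AddEquiv.symm_apply_apply]
    refine hfe g x y fun i => hj ?_
    rw [hje, ← he x i, ← he y i]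
    exact hxy i

/-- Compose with an equivariant additive surjection on the target. -/
theorem IsSubquotOfPow.comp_surjective {V' : Type*} [AddCommGroup V'] {actM : G → M → M}
    {actV : G → V → V} {actV' : G → V' → V'} (q : V →+ V') (hq : Function.Surjective q)
    (hqe : ∀ g v, q (actV g v) = actV' g (q v))
    (h : IsSubquotOfPow M V actM actV) : IsSubquotOfPow M V' actM actV' := by
  obtain ⟨k, N, hN, f, hf, hfe⟩ := h
  refine ⟨k, N, hN, q.comp f, hq.comp hf, fun g x y hxy => ?_⟩
  show q (f y) = actV' g (q (f x))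
  rw [hfe g x y hxy, hqe]

end Subquot

section Wrapper

variable {R : Type u} [CommRing R] {T' : Type w} [CommRing T'] [IsLocalRing T']
variable (π : R →+* T') (M₀ : Type v) [AddCommGroup M₀] [Module R M₀]
variable {G : Type*} [Monoid G] (ρ₀ : G →* Module.End R M₀)

/-- What XFER consumes: a subquotient presentation of `V` over the local factor pulls back to
a subquotient presentation over `M₀` itself. -/
theorem isSubquotOfPow_of_loc {V : Type*} [AddCommGroup V] (actV : G → V → V)
    (h : IsSubquotOfPow (LocM π M₀) V (fun g y => locRho π M₀ ρ₀ g y) actV) :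
    IsSubquotOfPow M₀ V (fun g x => ρ₀ g x) actV :=
  IsSubquotOfPow.of_surjective (locMk π M₀).toAddMonoidHom (locMk_surjective π M₀)
    (fun _ _ => rfl) h

/-- The whole pull-back in one step: if `M₀` is an equivariant quotient of `U^d` (e.g.
`M₀ = U ⊗ 𝒪` with `𝒪 / n` generated by `d` elements), a subquotient presentation of `V` over
the local factor of `M₀` gives one over `U`. -/
theorem isSubquotOfPow_of_loc_of_pow {V : Type*} [AddCommGroup V] (actV : G → V → V)
    {U : Type*} [AddCommGroup U] (actU : G → U → U) (d : ℕ) (q : (Fin d → U) →+ M₀)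
    (hq : Function.Surjective q) (hqe : ∀ g x, q (fun i => actU g (x i)) = ρ₀ g (q x))
    (h : IsSubquotOfPow (LocM π M₀) V (fun g y => locRho π M₀ ρ₀ g y) actV) :
    IsSubquotOfPow U V actU actV :=
  (IsSubquotOfPow.of_pow_surjective (actV := fun g x => ρ₀ g x) d q hq hqe).trans
    (isSubquotOfPow_of_loc π M₀ ρ₀ actV h)

end Wrapper

end Fermat.Agent.S32.helper2036
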