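import Mathlib
import Fermat.Agent.S32.helper2036_XferLocal

/-!
# S32-XFER, abstract part (helper2559): the finite-level transfer for an abstract Galois module

`U` is a finite abelian group with an action of a group `G` (`gU : G →* End_ℤ U`) and
operators `τ i ∈ End_ℤ U` (the Hecke operators) commuting with `G`.  For "Frobenius" pairs
`(i, s)` the Eichler–Shimura relation `s² - τ_i s + c_i = 0` holds on `U`.

* `map_eval_dickson_eq`, `dickson_quad` : if `S² - t S + c = 0` with `t` commuting with `S`, then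
  `D_a(t, c) = S^a + (t - S)^a` and `(S^a)² - D_a(t, c) S^a + c^a = 0` (Dickson polynomials of the
  first kind; no inverse of `S` is needed).
* `commute_of_quad` : two operators commuting with a unit `S` commute with each other as soon as
  one of them satisfies a quadratic relation with `S` (so the `τ i` commute on `U` for free).
* `resTors`, `galEnd`, `galTors` : restriction to the `n`-torsion of an abelian group with a group
  action, as ring / monoid homomorphisms.
* `evHom` : the `𝒪`-algebra homomorphism `𝒪[X_i] → End_𝒪 (𝒪 ⊗ U)`, `X_i ↦ τ_i ⊗ 1`.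
* `isSubquotOfPow_of_transfer` : the wiring.  From the local-factor device of `helper2036`, a
  FIN-CARAYOL statement (`FinCarayol`) and the faithfulness-up-to-`π` hypothesis, the module
  `Fin 2 → T'` with the action of `ρ' : G →* M₂(T')` is an equivariant subquotient of a finite
  power of `U`.

Mathlib + `helper2036_XferLocal` only.
-/

set_option autoImplicit false

namespace Fermat.Agent.S32.helper2559

open scoped TensorProduct

/-! ### Dickson bookkeeping in a (noncommutative) ring -/

section Dickson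

variable {E : Type*} [Ring E]

/-- If `Φ x = S + r` with `S r = r S = c`, then `Φ (D_a(x, c)) = S^a + r^a` for the Dickson
polynomials `D_a` of the first kind. -/
theorem map_eval_dickson_eq_aux {R : Type*} [CommRing R] (Φ : R →+* E) (x : R) (S r : E) (c : ℤ)
    (hx : Φ x = S + r) (hSr : S * r = (c : E)) (hrS : r * S = (c : E)) (a : ℕ) :
    Φ ((Polynomial.dickson 1 (c : R) a).eval x) = S ^ a + r ^ a := by
  induction a using Nat.twoStepInduction with
  | zero =>
    rw [Polynomial.dickson_zero, pow_zero, pow_zero]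
    simp only [Nat.cast_one, Polynomial.eval_sub, Polynomial.eval_ofNat, Polynomial.eval_one,
      map_sub, map_ofNat, map_one]
    norm_num
  | one =>
    rw [Polynomial.dickson_one, Polynomial.eval_X, pow_one, pow_one, hx]
  | more a ih0 ih1 =>
    rw [Polynomial.dickson_add_two, Polynomial.eval_sub, Polynomial.eval_mul, Polynomial.eval_mul,
      Polynomial.eval_X, Polynomial.eval_C, map_sub, map_mul, map_mul, ih0, ih1, map_intCast, hx]
    have e1 : S * r ^ (a + 1) = (c : E) * r ^ a := by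
      rw [pow_succ', ← mul_assoc, hSr]
    have e2 : r * S ^ (a + 1) = (c : E) * S ^ a := by
      rw [pow_succ', ← mul_assoc, hrS]
    rw [add_mul, mul_add, mul_add, e1, e2, ← pow_succ', ← pow_succ', mul_add]
    abel

/-- If `S² - Φ x S + c = 0` and `Φ x` commutes with `S`, then `Φ (D_a(x, c)) = S^a + (Φ x - S)^a`
for the Dickson polynomials `D_a` of the first kind. -/
theorem map_eval_dickson_eq {R : Type*} [CommRing R] (Φ : R →+* E) (x : R) (S : E) (c : ℤ)
    (hcomm : Φ x * S = S * Φ x) (hrel : S * S - Φ x * S + (c : E) = 0) (a : ℕ) :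
    Φ ((Polynomial.dickson 1 (c : R) a).eval x) = S ^ a + (Φ x - S) ^ a := by
  have hc : (c : E) = Φ x * S - S * S := by
    rw [← sub_eq_zero, ← hrel]; abel
  have hSr : S * (Φ x - S) = (c : E) := by rw [mul_sub, ← hcomm, hc]
  have hrS : (Φ x - S) * S = (c : E) := by rw [sub_mul, hc]
  exact map_eval_dickson_eq_aux Φ x S (Φ x - S) c (by abel) hSr hrS a

/-- **Quadratic relation for powers**: if `S² - Φ x S + c = 0` and `Φ x` commutes with `S`, then
`(S^a)² - Φ (D_a(x, c)) S^a + c^a = 0`. -/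
theorem dickson_quad {R : Type*} [CommRing R] (Φ : R →+* E) (x : R) (S : E) (c : ℤ)
    (hcomm : Φ x * S = S * Φ x) (hrel : S * S - Φ x * S + (c : E) = 0) (a : ℕ) :
    S ^ a * S ^ a - Φ ((Polynomial.dickson 1 (c : R) a).eval x) * S ^ a + (c : E) ^ a = 0 := by
  have hc : (c : E) = Φ x * S - S * S := by
    rw [← sub_eq_zero, ← hrel]; abel
  have hSr : S * (Φ x - S) = (c : E) := by rw [mul_sub, ← hcomm, hc]
  have hrS : (Φ x - S) * S = (c : E) := by rw [sub_mul, hc]
  have hcm : Commute (Φ x - S) S := by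
    show (Φ x - S) * S = S * (Φ x - S)
    rw [hSr, hrS]
  have h1 : (Φ x - S) ^ a * S ^ a = (c : E) ^ a := by
    rw [← hcm.mul_pow, hrS]
  rw [map_eval_dickson_eq Φ x S c hcomm hrel a, add_mul, h1]
  abel

/-- A ring homomorphism between commutative rings commutes with the evaluation of Dickson
polynomials. -/
theorem map_eval_dickson_comm {R R' : Type*} [CommRing R] [CommRing R'] (φ : R →+* R') (t d : R)
    (a : ℕ) :
    φ ((Polynomial.dickson 1 d a).eval t) = (Polynomial.dickson 1 (φ d) a).eval (φ t) := by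
  rw [← Polynomial.map_dickson, Polynomial.eval_map, Polynomial.eval₂_at_apply]

/-- Two elements commuting with a unit `S` commute with each other as soon as one of them
satisfies a quadratic relation `S² - t S + c = 0` (then `t = S + c S⁻¹`). -/
theorem commute_of_quad (S : Eˣ) (t t' : E) (c : ℤ)
    (hcomm' : t' * S = S * t') (hrel : (S : E) * S - t * S + (c : E) = 0) : t * t' = t' * t := by
  have hc : (c : E) = t * S - S * S := by
    rw [← sub_eq_zero, ← hrel]; abel
  have ht : t = S + (c : E) * (↑S⁻¹ : E) := by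
    rw [hc, sub_mul, mul_assoc, Units.mul_inv, mul_one, mul_assoc, Units.mul_inv, mul_one]
    abel
  have h1 : Commute t' (S : E) := hcomm'
  have h2 : Commute t' (↑S⁻¹ : E) := h1.units_inv_right
  have h3 : Commute t' ((c : E) * (↑S⁻¹ : E)) := (Int.cast_commute c t').symm.mul_right h2
  have h4 : Commute t' t := by
    rw [ht]
    exact h1.add_right h3
  exact h4.symm.eq

end Dickson

/-! ### Restriction to torsion -/

section Torsion

variable {J : Type*} [AddCommGroup J] (n : ℤ)

/-- Restriction of the endomorphisms of an abelian group to its `n`-torsion, as a ring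
homomorphism. -/
def resTors : Module.End ℤ J →+* Module.End ℤ (Submodule.torsionBy ℤ J n) where
  toFun f := f.restrict (p := Submodule.torsionBy ℤ J n) (q := Submodule.torsionBy ℤ J n)
    (fun x hx => by
      rw [Submodule.mem_torsionBy_iff] at hx ⊢
      rw [← map_zsmul, hx, map_zero])
  map_one' := rfl
  map_mul' _ _ := rfl
  map_zero' := rfl
  map_add' _ _ := rfl

@[simp]
theorem coe_resTors (f : Module.End ℤ J) (x : Submodule.torsionBy ℤ J n) :
    ((resTors n f x : Submodule.torsionBy ℤ J n) : J) = f (x : J) := rfl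

end Torsion

section Galois

variable (G : Type*) [Group G] (J : Type*) [AddCommGroup J] [DistribMulAction G J] (n : ℤ)

/-- A distributive action of `G` on an abelian group `J`, as a monoid homomorphism into
`End_ℤ J`. -/
def galEnd : G →* Module.End ℤ J :=
  (addMonoidEndRingEquivInt J : AddMonoid.End J →* Module.End ℤ J).comp
    (DistribMulAction.toAddMonoidEnd G J)

@[simp]
theorem galEnd_apply (σ : G) (x : J) : galEnd G J σ x = σ • x := rfl

/-- The action of `G` on the `n`-torsion of `J`. -/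
def galTors : G →* Module.End ℤ (Submodule.torsionBy ℤ J n) :=
  (resTors (J := J) n).toMonoidHom.comp (galEnd G J)

@[simp]
theorem coe_galTors (σ : G) (x : Submodule.torsionBy ℤ J n) :
    ((galTors G J n σ x : Submodule.torsionBy ℤ J n) : J) = σ • (x : J) := rfl

variable {J}

/-- An operator commuting with the action of `G` on `J` commutes with it on the torsion. -/
theorem resTors_mul_galTors (f : Module.End ℤ J) (hf : ∀ (σ : G) (x : J), σ • f x = f (σ • x))
    (σ : G) : resTors n f * galTors G J n σ = galTors G J n σ * resTors n f := by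
  refine LinearMap.ext fun x => Subtype.ext ?_
  show f (σ • (x : J)) = σ • f (x : J)
  exact (hf σ x).symm

end Galois

/-! ### The polynomial ring acting on `𝒪 ⊗ U` -/

section Ev

variable (𝒪 : Type*) [CommRing 𝒪] {U : Type*} [AddCommGroup U] {ι : Type*}
  (τ : ι → Module.End ℤ U) (hτ : ∀ i j, τ i * τ j = τ j * τ i)

theorem baseChange_comm_of_mem_range (hτ : ∀ i j, τ i * τ j = τ j * τ i) :
    ∀ x ∈ Set.range (fun i => (τ i).baseChange 𝒪),
      ∀ y ∈ Set.range (fun i => (τ i).baseChange 𝒪), x * y = y * x := by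
  rintro _ ⟨i, rfl⟩ _ ⟨j, rfl⟩
  show (τ i).baseChange 𝒪 * (τ j).baseChange 𝒪 = (τ j).baseChange 𝒪 * (τ i).baseChange 𝒪
  rw [← LinearMap.baseChange_mul, ← LinearMap.baseChange_mul, hτ]

open scoped IsMulCommutative in
/-- The `𝒪`-algebra homomorphism `𝒪[X_i] → End_𝒪 (𝒪 ⊗ U)` sending `X_i` to `τ_i ⊗ 1`, for
pairwise commuting endomorphisms `τ_i` of `U`. -/
noncomputable def evHom : MvPolynomial ι 𝒪 →ₐ[𝒪] Module.End 𝒪 (𝒪 ⊗[ℤ] U) :=
  haveI := Algebra.isMulCommutative_adjoin 𝒪 (baseChange_comm_of_mem_range 𝒪 τ hτ)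
  (Algebra.adjoin 𝒪 (Set.range fun i => (τ i).baseChange 𝒪)).val.comp
    (MvPolynomial.aeval fun i =>
      (⟨(τ i).baseChange 𝒪, Algebra.subset_adjoin ⟨i, rfl⟩⟩ :
        Algebra.adjoin 𝒪 (Set.range fun i => (τ i).baseChange 𝒪)))

@[simp]
theorem evHom_X (i : ι) : evHom 𝒪 τ hτ (MvPolynomial.X i) = (τ i).baseChange 𝒪 := by
  unfold evHom
  simp

/-- An endomorphism commuting with all `τ_i ⊗ 1` commutes with the image of `evHom`. -/
theorem evHom_commute (f : Module.End 𝒪 (𝒪 ⊗[ℤ] U))
    (hf : ∀ i, f * (τ i).baseChange 𝒪 = (τ i).baseChange 𝒪 * f) (P : MvPolynomial ι 𝒪) :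
    f * evHom 𝒪 τ hτ P = evHom 𝒪 τ hτ P * f := by
  induction P using MvPolynomial.induction_on with
  | C a =>
    rw [MvPolynomial.algHom_C]
    exact (Algebra.commutes a f).symm
  | add P Q hP hQ => rw [map_add, mul_add, add_mul, hP, hQ]
  | mul_X P i hP =>
    rw [map_mul, evHom_X, ← mul_assoc, hP, mul_assoc, hf i, mul_assoc]

end Ev

/-! ### The wiring -/

/-- **FIN-CARAYOL**, in the shape consumed by the transfer (route (D1) of findings #2777):
`B` a finite local commutative ring acting faithfully on a finite module `M'` with a `B`-linear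
action of `G`; `π' : B → T'` surjective; `ρ' : G → GL₂(T')` with `T'[G] → M₂(T')` onto; for every
`g` there are `t, d ∈ B` with `g² - t g + d = 0` on `M'`, `π' t = tr ρ' g`, `π' d = det ρ' g`.
Then `T'²` is an equivariant additive quotient of a `G`-stable subgroup of a finite power of
`M'`. -/
def FinCarayol : Prop :=
  ∀ (G : Type) [Group G] (B : Type) [CommRing B] [IsLocalRing B] [Finite B]
    (M' : Type) [AddCommGroup M'] [Module B M'] [Finite M']
    (_ : ∀ b : B, (∀ y : M', b • y = 0) → b = 0)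
    (ρM : G →* Module.End B M')
    (T' : Type) [CommRing T'] [IsLocalRing T'] (π' : B →+* T') (_ : Function.Surjective π')
    (ρ' : G →* Matrix (Fin 2) (Fin 2) T')
    (_ : Function.Surjective (MonoidAlgebra.lift T' (Matrix (Fin 2) (Fin 2) T') G ρ'))
    (_ : ∀ g, ∃ t d : B, (∀ y : M', ρM g (ρM g y) - t • ρM g y + d • y = 0) ∧
      π' t = (ρ' g).trace ∧ π' d = (ρ' g).det),
    helper2036.IsSubquotOfPow M' (Fin 2 → T') (fun g y => ρM g y) (fun g v => (ρ' g).mulVec v)

section Main

variable {G : Type} [Group G] {U : Type} [AddCommGroup U] [Finite U]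
  (𝒪 : Type) [CommRing 𝒪] (gU : G →* Module.End ℤ U)
  {ι : Type} (τ : ι → Module.End ℤ U) (c : ι → ℤ)
  (hτ : ∀ i j, τ i * τ j = τ j * τ i)

/-- **The abstract finite-level transfer.**  `U` a finite abelian group with an action `gU` of
`G` and pairwise commuting operators `τ i` commuting with `G`; `Frob i s` a relation such that
`s² - τ_i s + c_i = 0` on `U`; `T'` a local `𝒪`-algebra generated by elements `a i`, such that
every polynomial in the `τ i ⊗ 1` killing `𝒪 ⊗ U` is killed by `X_i ↦ a i`; `ρ' : G → GL₂(T')`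
with `T'[G] → M₂(T')` onto, such that every `g` acts on `U` as a power `s ^ k` of a Frobenius
`s` at some `i` with `tr ρ' g = D_k(a_i, c_i)`, `det ρ' g = c_i ^ k`.  Then `T'²` (with `ρ'`) is
an equivariant additive quotient of a `G`-stable subgroup of a finite power of `U`. -/
theorem isSubquotOfPow_of_transfer (hFC : FinCarayol)
    (hτg : ∀ i g, τ i * gU g = gU g * τ i)
    (Frob : ι → G → Prop)
    (hES : ∀ i s, Frob i s → gU s * gU s - τ i * gU s + ((c i : ℤ) : Module.End ℤ U) = 0)
    (hD3 : ∃ (d : ℕ) (q : (Fin d → U) →+ 𝒪 ⊗[ℤ] U), Function.Surjective q ∧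
      ∀ (f : Module.End ℤ U) (x : Fin d → U), q (fun i => f (x i)) = f.baseChange 𝒪 (q x))
    {T' : Type} [CommRing T'] [IsLocalRing T'] [Algebra 𝒪 T'] (a : ι → T')
    (hsurjπ : Function.Surjective (MvPolynomial.aeval a : MvPolynomial ι 𝒪 →ₐ[𝒪] T'))
    (hfaith : ∀ P : MvPolynomial ι 𝒪, evHom 𝒪 τ hτ P = 0 → MvPolynomial.aeval a P = 0)
    (ρ' : G →* Matrix (Fin 2) (Fin 2) T')
    (hsurj : Function.Surjective (MonoidAlgebra.lift T' (Matrix (Fin 2) (Fin 2) T') G ρ'))
    (hg : ∀ g, ∃ i s k, Frob i s ∧ gU g = gU s ^ k ∧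
      (ρ' g).trace = (Polynomial.dickson 1 ((c i : ℤ) : T') k).eval (a i) ∧
      (ρ' g).det = ((c i : ℤ) : T') ^ k) :
    helper2036.IsSubquotOfPow U (Fin 2 → T') (fun g x => gU g x)
      (fun g v => (ρ' g).mulVec v) := by
  classical
  obtain ⟨d, q, hq, hqe⟩ := hD3
  have hfinM : Finite (𝒪 ⊗[ℤ] U) := Finite.of_surjective q hq
  -- the polynomial ring and its action on `𝒪 ⊗ U`
  let modR : Module (MvPolynomial ι 𝒪) (𝒪 ⊗[ℤ] U) :=
    Module.compHom _ (evHom 𝒪 τ hτ).toRingHom
  have smul_def : ∀ (P : MvPolynomial ι 𝒪) (x : 𝒪 ⊗[ℤ] U), P • x = evHom 𝒪 τ hτ P x :=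
    fun _ _ => rfl
  have hcommg : ∀ (g : G) (i : ι),
      (gU g).baseChange 𝒪 * (τ i).baseChange 𝒪 = (τ i).baseChange 𝒪 * (gU g).baseChange 𝒪 := by
    intro g i
    rw [← LinearMap.baseChange_mul, ← LinearMap.baseChange_mul, hτg]
  -- the Galois action is linear over the polynomial ring
  let ρ₀ : G →* Module.End (MvPolynomial ι 𝒪) (𝒪 ⊗[ℤ] U) :=
    { toFun := fun g =>
        { toFun := fun x => (gU g).baseChange 𝒪 x
          map_add' := fun x y => map_add _ x y
          map_smul' := fun P x => by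
            rw [RingHom.id_apply, smul_def, smul_def]
            exact congrArg (fun f : Module.End 𝒪 (𝒪 ⊗[ℤ] U) => f x)
              (evHom_commute 𝒪 τ hτ _ (hcommg g) P) }
      map_one' := by
        refine LinearMap.ext fun x => ?_
        show (gU 1).baseChange 𝒪 x = x
        rw [map_one, LinearMap.baseChange_one, Module.End.one_apply]
      map_mul' := fun g h => by
        refine LinearMap.ext fun x => ?_
        show (gU (g * h)).baseChange 𝒪 x = (gU g).baseChange 𝒪 ((gU h).baseChange 𝒪 x)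
        rw [map_mul, LinearMap.baseChange_mul, Module.End.mul_apply] }
  have ρ₀_apply : ∀ (g : G) (x : 𝒪 ⊗[ℤ] U), ρ₀ g x = (gU g).baseChange 𝒪 x := fun _ _ => rfl
  let π : MvPolynomial ι 𝒪 →+* T' := (MvPolynomial.aeval a : MvPolynomial ι 𝒪 →ₐ[𝒪] T').toRingHom
  have π_apply : ∀ P, π P = MvPolynomial.aeval a P := fun _ => rfl
  have hfaith' : ∀ r : MvPolynomial ι 𝒪, (∀ x : 𝒪 ⊗[ℤ] U, r • x = 0) → π r = 0 :=
    fun r hr => hfaith r (LinearMap.ext hr)
  have hloc := helper2036.locB_isLocalRing π (𝒪 ⊗[ℤ] U) hfaith'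
  -- the quadratic relations
  have hquad : ∀ g, ∃ t d : MvPolynomial ι 𝒪,
      (∀ x : 𝒪 ⊗[ℤ] U, ρ₀ g (ρ₀ g x) - t • ρ₀ g x + d • x = 0) ∧
        π t = (ρ' g).trace ∧ π d = (ρ' g).det := by
    intro g
    obtain ⟨i, s, k, hF, hgs, htr, hdet⟩ := hg g
    refine ⟨(Polynomial.dickson 1 ((c i : ℤ) : MvPolynomial ι 𝒪) k).eval (MvPolynomial.X i),
      ((c i : ℤ) : MvPolynomial ι 𝒪) ^ k, ?_, ?_, ?_⟩
    · intro x
      have hrel : (gU s).baseChange 𝒪 * (gU s).baseChange 𝒪
          - (evHom 𝒪 τ hτ).toRingHom (MvPolynomial.X i) * (gU s).baseChange 𝒪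
          + ((c i : ℤ) : Module.End 𝒪 (𝒪 ⊗[ℤ] U)) = 0 := by
        have h1 := congrArg (Module.End.baseChangeHom ℤ 𝒪 U) (hES i s hF)
        rw [map_add, map_sub, map_mul, map_mul, map_intCast, map_zero] at h1
        rw [AlgHom.toRingHom_eq_coe, RingHom.coe_coe, evHom_X]
        exact h1
      have hcomm : (evHom 𝒪 τ hτ).toRingHom (MvPolynomial.X i) * (gU s).baseChange 𝒪
          = (gU s).baseChange 𝒪 * (evHom 𝒪 τ hτ).toRingHom (MvPolynomial.X i) := by
        rw [AlgHom.toRingHom_eq_coe, RingHom.coe_coe, evHom_X]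
        exact (hcommg s i).symm
      have key := dickson_quad (evHom 𝒪 τ hτ).toRingHom (MvPolynomial.X i)
        ((gU s).baseChange 𝒪) (c i) hcomm hrel k
      have hpow : (gU g).baseChange 𝒪 = (gU s).baseChange 𝒪 ^ k := by
        rw [hgs]
        exact map_pow (Module.End.baseChangeHom ℤ 𝒪 U) (gU s) k
      have hd : evHom 𝒪 τ hτ (((c i : ℤ) : MvPolynomial ι 𝒪) ^ k)
          = ((c i : ℤ) : Module.End 𝒪 (𝒪 ⊗[ℤ] U)) ^ k := by
        rw [map_pow, map_intCast]
      rw [ρ₀_apply, ρ₀_apply, smul_def, smul_def, hd, hpow]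
      have key' := congrArg (fun f : Module.End 𝒪 (𝒪 ⊗[ℤ] U) => f x) key
      simpa using key'
    · have h1 : π (MvPolynomial.X i) = a i := MvPolynomial.aeval_X a i
      rw [htr, map_eval_dickson_comm π, h1, map_intCast]
    · rw [hdet, π_apply, map_pow, map_intCast]
  have hres := hFC G (helper2036.LocB π (𝒪 ⊗[ℤ] U)) (helper2036.LocM π (𝒪 ⊗[ℤ] U))
    (helper2036.locB_faithful π (𝒪 ⊗[ℤ] U)) (helper2036.locRho π (𝒪 ⊗[ℤ] U) ρ₀) T'
    (helper2036.piB π (𝒪 ⊗[ℤ] U) hfaith')
    (helper2036.piB_surjective π (𝒪 ⊗[ℤ] U) hfaith' hsurjπ) ρ' hsurj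
    (fun g => helper2036.exists_quad_descend π (𝒪 ⊗[ℤ] U) ρ₀ hfaith' g _ _ (hquad g))
  exact helper2036.isSubquotOfPow_of_loc_of_pow π (𝒪 ⊗[ℤ] U) ρ₀ _ (fun g x => gU g x) d q hq
    (fun g x => hqe (gU g) x) hres

end Main

end Fermat.Agent.S32.helper2559
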