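import Mathlib
import Fermat.Prelude.Def_CuspForm_HeckeAlgebra
import Fermat.Prelude.Def_ModularCurve_HeckeModule

/-!
# S32-XFER, shared vocabulary (helper2559)

The two external inputs of the finite-level transfer, as `Prop`s in Prelude vocabulary:

* `Stmt_FQ N p` : the Eichler–Shimura relation `s² - T_ℓ s + ℓ = 0` on the `p`-power torsion of
  `J₀(N)`, for every Frobenius lift `s` at a prime `ℓ ∤ N p` (operator-wise; shape of `hFQ` of
  `S29/helper405.eig_of_operatorwise`).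
* `Stmt_HF p N S 𝒪 T π` : Hecke faithfulness with `𝒪`-coefficients at all finite levels.  There
  is `c` such that for every `m`, every polynomial `P ∈ 𝒪[X_ℓ]` (`ℓ` good) whose value at the
  operators `T_ℓ ⊗ 1` kills `𝒪 ⊗ J₀(N)[p^m]` satisfies `P(π T_ℓ) ∈ p^(m - c) T`.  The restricted
  operators `τ` and the evaluation map `ev` are universally quantified, so the statement does
  not depend on who defines them.
-/

set_option autoImplicit false

namespace Fermat.Agent.S32.helper2559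

open scoped TensorProduct
open ModularCurve

/-- The good primes: `ℓ ∤ N`, `ℓ ∉ S`. -/
abbrev GoodPrime (N : ℕ) (S : Finset ℕ) : Type :=
  {ℓ : ℕ // ℓ.Prime ∧ ¬ ℓ ∣ N ∧ ℓ ∉ (↑S : Set ℕ)}

/-- The Hecke operator `T_ℓ` of the anemic Hecke algebra at a good prime. -/
noncomputable abbrev heckeT {N : ℕ} [NeZero N] {S : Finset ℕ} (i : GoodPrime N S) :
    CuspForm.heckeAlgebra N 2 (↑S : Set ℕ) :=
  CuspForm.heckeAlgebra.T i.2.1 i.2.2.1 i.2.2.2

/-- **(FQ)** The Eichler–Shimura relation on the `p`-power torsion of `J₀(N)`, operator-wise,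
for every Frobenius lift at a prime `ℓ ∤ N p`. -/
def Stmt_FQ (N : ℕ) [NeZero N] (p : ℕ) : Prop :=
  ∀ (ℓ : ℕ) (hℓ : ℓ.Prime), ¬ ℓ ∣ N * p →
    ∀ A : ValuationSubring (AlgebraicClosure ℚ), A.LiesOverPrime ℓ →
      ∀ σ : AlgebraicClosure ℚ ≃ₐ[ℚ] AlgebraicClosure ℚ, A.IsFrobeniusAt σ ℓ →
        ∀ x : JZero N, (∃ k : ℕ, p ^ k • x = 0) →
          σ • σ • x - heckeOperatorBar N ⟨ℓ, hℓ⟩ (σ • x) + ℓ • x = 0

/-- **(HF)** Hecke faithfulness with `𝒪`-coefficients at all finite levels `p ^ m`. -/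
def Stmt_HF (p : ℕ) (N : ℕ) [NeZero N] (S : Finset ℕ) (𝒪 : Type) [CommRing 𝒪]
    (T : Type) [CommRing T] [Algebra 𝒪 T]
    (π : CuspForm.heckeAlgebra N 2 (↑S : Set ℕ) →+* T) : Prop :=
  ∃ c : ℕ, ∀ (m : ℕ)
    (τ : GoodPrime N S → Module.End ℤ ↥(Submodule.torsionBy ℤ (JZero N) ((p : ℤ) ^ m))),
    (∀ (i : GoodPrime N S) (x : ↥(Submodule.torsionBy ℤ (JZero N) ((p : ℤ) ^ m))),
      ((τ i x : ↥(Submodule.torsionBy ℤ (JZero N) ((p : ℤ) ^ m))) : JZero N) =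
        heckeOperatorBar N ⟨i.1, i.2.1⟩ (x : JZero N)) →
    ∀ ev : MvPolynomial (GoodPrime N S) 𝒪 →ₐ[𝒪]
        Module.End 𝒪 (𝒪 ⊗[ℤ] ↥(Submodule.torsionBy ℤ (JZero N) ((p : ℤ) ^ m))),
      (∀ i, ev (MvPolynomial.X i) = (τ i).baseChange 𝒪) →
      ∀ P : MvPolynomial (GoodPrime N S) 𝒪, ev P = 0 →
        MvPolynomial.aeval (fun i => π (heckeT i)) P ∈ Ideal.span {(p : T) ^ (m - c)}

end Fermat.Agent.S32.helper2559
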