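import Mathlib
import Fermat.Prelude.Def_CuspForm_HeckeGaloisRepDatum
import Fermat.Prelude.Def_GaloisRep_Flat
import Fermat.Agent.S53.helper3173_Burnside
import Fermat.Agent.S31.helper8024_Core
import Fermat.Agent.S31.helper74_GenCheb

/-!
# S32-LEVELREP: the matrix model of the level-`I` representation `(V ⧸ I V, levelAction I)`

For `ρ : GaloisRepAdic T` (`T` local) and an ideal `I` of `T` this file provides the finite-level
representation in the shape consumed by the pure-algebra leaves UNIV / FIN-CARAYOL of S32: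

* `lvl ρ I : G_ℚ →* Matrix (Fin 2) (Fin 2) (T ⧸ I)`;
* `coord ρ I : (ρ.V ⧸ I • ⊤) ≃+ (Fin 2 → T ⧸ I)` intertwining the frozen `levelAction I` with
  `lvl ρ I` (`coord_levelAction`);
* trace and determinant (`trace_lvl`, `det_lvl`);
* surjectivity of the group algebra onto the matrix algebra when the residual representation is
  absolutely irreducible (`lvl_lift_surjective`);
* finite level (`exists_level_field`);
* for a Hecke–Galois datum: trace and determinant at powers of Frobenius lifts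
  (`trace_lvl_frob_pow`, `det_lvl_frob_pow`) and the generator-Chebotarev consequence
  (`exists_frob_pow_lvl`, unconditional; `exists_frob_pow_lvl_of_genCheb`, general form);
* open ideals (`exists_pow_maximalIdeal_le`, `exists_natCast_pow_mem`) and
  `finite_residueField`.
-/

set_option autoImplicit false

namespace Fermat.Agent.S32.helper2804

open scoped TensorProduct
open Polynomial

section Basis

variable {T : Type*} [CommRing T] {V : Type*} [AddCommGroup V] [Module T V]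
  {ι : Type*}

/-- Coordinates of an element of `I • ⊤` lie in `I`. -/
theorem repr_mem_of_mem_smul_top (b : Module.Basis ι T V) (I : Ideal T) {v : V}
    (hv : v ∈ I • (⊤ : Submodule T V)) (i : ι) : b.repr v i ∈ I := by
  refine Submodule.smul_induction_on (p := fun w => b.repr w i ∈ I) hv ?_ ?_
  · intro r hr w _
    rw [map_smul, Finsupp.smul_apply, smul_eq_mul]
    exact Ideal.mul_mem_right _ _ hr
  · intro x y hx hy
    rw [map_add, Finsupp.add_apply]
    exact Ideal.add_mem _ hx hy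

/-- An element all of whose coordinates lie in `I` lies in `I • ⊤`. -/
theorem mem_smul_top_of_repr_mem [Fintype ι] (b : Module.Basis ι T V) (I : Ideal T) {v : V}
    (hv : ∀ i, b.repr v i ∈ I) : v ∈ I • (⊤ : Submodule T V) := by
  rw [← b.sum_repr v]
  exact Submodule.sum_mem _ fun i _ => Submodule.smul_mem_smul (hv i) Submodule.mem_top

/-- Membership in `I • ⊤` in coordinates. -/
theorem mem_smul_top_iff_repr [Fintype ι] (b : Module.Basis ι T V) (I : Ideal T) {v : V} :
    v ∈ I • (⊤ : Submodule T V) ↔ ∀ i, b.repr v i ∈ I :=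
  ⟨fun h i => repr_mem_of_mem_smul_top b I h i, mem_smul_top_of_repr_mem b I⟩

/-- The reduction-of-coordinates map `V → (ι → T ⧸ I)`. -/
noncomputable def coordHom [Fintype ι] (b : Module.Basis ι T V) (I : Ideal T) :
    V →ₗ[T] (ι → T ⧸ I) where
  toFun v i := Ideal.Quotient.mk I (b.repr v i)
  map_add' x y := by
    funext i
    simp
  map_smul' r x := by
    funext i
    simp [Algebra.smul_def]

@[simp]
theorem coordHom_apply [Fintype ι] (b : Module.Basis ι T V) (I : Ideal T) (v : V) (i : ι) :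
    coordHom b I v i = Ideal.Quotient.mk I (b.repr v i) := rfl

theorem coordHom_surjective [Fintype ι] (b : Module.Basis ι T V) (I : Ideal T) :
    Function.Surjective (coordHom b I) := by
  intro f
  choose g hg using fun i => Ideal.Quotient.mk_surjective (f i)
  refine ⟨b.equivFun.symm g, ?_⟩
  funext i
  rw [coordHom_apply, ← hg i]
  congr 1
  show b.equivFun (b.equivFun.symm g) i = g i
  rw [LinearEquiv.apply_symm_apply]

theorem ker_coordHom [Fintype ι] (b : Module.Basis ι T V) (I : Ideal T) :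
    LinearMap.ker (coordHom b I) = I • (⊤ : Submodule T V) := by
  ext v
  rw [LinearMap.mem_ker, mem_smul_top_iff_repr b I]
  constructor
  · intro h i
    have := congrFun h i
    rwa [coordHom_apply, Pi.zero_apply, Ideal.Quotient.eq_zero_iff_mem] at this
  · intro h
    funext i
    rw [coordHom_apply, Pi.zero_apply, Ideal.Quotient.eq_zero_iff_mem]
    exact h i

/-- Coordinates on `V ⧸ I V`. -/
noncomputable def coordEquiv [Fintype ι] (b : Module.Basis ι T V) (I : Ideal T) :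
    (V ⧸ I • (⊤ : Submodule T V)) ≃ₗ[T] (ι → T ⧸ I) :=
  (Submodule.quotEquivOfEq _ _ (ker_coordHom b I).symm).trans
    ((coordHom b I).quotKerEquivOfSurjective (coordHom_surjective b I))

theorem coordEquiv_mk [Fintype ι] (b : Module.Basis ι T V) (I : Ideal T) (v : V) (i : ι) :
    coordEquiv b I (Submodule.Quotient.mk v) i = Ideal.Quotient.mk I (b.repr v i) := rfl

end Basis

section Level

variable {T : Type} [CommRing T] [IsLocalRing T]

/-- The fixed basis of the rank 2 module of `ρ`. -/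
noncomputable def rbasis (ρ : GaloisRepAdic T) : Module.Basis (Fin 2) T ρ.V :=
  Module.finBasisOfFinrankEq T ρ.V ρ.finrank_eq

/-- The matrix of `ρ` in the fixed basis. -/
noncomputable def mat (ρ : GaloisRepAdic T) :
    (AlgebraicClosure ℚ ≃ₐ[ℚ] AlgebraicClosure ℚ) →* Matrix (Fin 2) (Fin 2) T where
  toFun σ := LinearMap.toMatrix (rbasis ρ) (rbasis ρ) (ρ.ρ σ)
  map_one' := by rw [map_one, LinearMap.toMatrix_one]
  map_mul' σ τ := by rw [map_mul, LinearMap.toMatrix_mul]

theorem mat_apply (ρ : GaloisRepAdic T) (σ : AlgebraicClosure ℚ ≃ₐ[ℚ] AlgebraicClosure ℚ) :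
    mat ρ σ = LinearMap.toMatrix (rbasis ρ) (rbasis ρ) (ρ.ρ σ) := rfl

/-- **The level-`I` representation**: the matrix of `ρ` in the fixed basis, reduced modulo `I`. -/
noncomputable def lvl (ρ : GaloisRepAdic T) (I : Ideal T) :
    (AlgebraicClosure ℚ ≃ₐ[ℚ] AlgebraicClosure ℚ) →* Matrix (Fin 2) (Fin 2) (T ⧸ I) :=
  ((Ideal.Quotient.mk I).mapMatrix :
    Matrix (Fin 2) (Fin 2) T →+* Matrix (Fin 2) (Fin 2) (T ⧸ I)).toMonoidHom.comp (mat ρ)

theorem lvl_apply (ρ : GaloisRepAdic T) (I : Ideal T)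
    (σ : AlgebraicClosure ℚ ≃ₐ[ℚ] AlgebraicClosure ℚ) (i j : Fin 2) :
    lvl ρ I σ i j =
      Ideal.Quotient.mk I (LinearMap.toMatrix (rbasis ρ) (rbasis ρ) (ρ.ρ σ) i j) := rfl

theorem lvl_eq_map (ρ : GaloisRepAdic T) (I : Ideal T)
    (σ : AlgebraicClosure ℚ ≃ₐ[ℚ] AlgebraicClosure ℚ) :
    lvl ρ I σ = (mat ρ σ).map (Ideal.Quotient.mk I) := rfl

/-- **Coordinates** on `V ⧸ I V`. -/
noncomputable def coord (ρ : GaloisRepAdic T) (I : Ideal T) :
    (ρ.V ⧸ I • (⊤ : Submodule T ρ.V)) ≃+ (Fin 2 → T ⧸ I) :=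
  (coordEquiv (rbasis ρ) I).toAddEquiv

theorem coord_mk (ρ : GaloisRepAdic T) (I : Ideal T) (v : ρ.V) (i : Fin 2) :
    coord ρ I (Submodule.Quotient.mk v) i = Ideal.Quotient.mk I ((rbasis ρ).repr v i) := rfl

/-- The coordinates are semilinear along `T → T ⧸ I`. -/
theorem coord_smul (ρ : GaloisRepAdic T) (I : Ideal T) (t : T)
    (x : ρ.V ⧸ I • (⊤ : Submodule T ρ.V)) :
    coord ρ I (t • x) = Ideal.Quotient.mk I t • coord ρ I x := by
  induction x using Submodule.Quotient.induction_on with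
  | H v =>
    funext i
    rw [← Submodule.Quotient.mk_smul, coord_mk, Pi.smul_apply, coord_mk, map_smul,
      Finsupp.smul_apply, smul_eq_mul, smul_eq_mul, map_mul]

/-- The coordinates are linear for the `T ⧸ I`-module structure of `V ⧸ I V`. -/
theorem coord_quot_smul (ρ : GaloisRepAdic T) (I : Ideal T) (c : T ⧸ I)
    (x : ρ.V ⧸ I • (⊤ : Submodule T ρ.V)) :
    coord ρ I (c • x) = c • coord ρ I x := by
  obtain ⟨t, rfl⟩ := Ideal.Quotient.mk_surjective c
  rw [← coord_smul]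
  induction x using Submodule.Quotient.induction_on with
  | H v => rw [Module.Quotient.mk_smul_mk, Submodule.Quotient.mk_smul]

/-- **The coordinates intertwine the frozen `levelAction` with `lvl`.** -/
theorem coord_levelAction (ρ : GaloisRepAdic T) (I : Ideal T)
    (σ : AlgebraicClosure ℚ ≃ₐ[ℚ] AlgebraicClosure ℚ)
    (x : ρ.V ⧸ I • (⊤ : Submodule T ρ.V)) :
    coord ρ I (ρ.levelAction I σ x) = (lvl ρ I σ).mulVec (coord ρ I x) := by
  induction x using Submodule.Quotient.induction_on with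
  | H v =>
    funext i
    have h1 : ρ.levelAction I σ (Submodule.Quotient.mk v) =
        Submodule.Quotient.mk (ρ.ρ σ v) := Submodule.mapQ_apply _ _ _ _
    rw [h1, coord_mk, ← LinearMap.toMatrix_mulVec_repr (rbasis ρ) (rbasis ρ) (ρ.ρ σ) v]
    simp only [Matrix.mulVec, dotProduct, map_sum, map_mul, lvl_apply, coord_mk]

/-- Trace of the level representation. -/
theorem trace_lvl (ρ : GaloisRepAdic T) (I : Ideal T)
    (σ : AlgebraicClosure ℚ ≃ₐ[ℚ] AlgebraicClosure ℚ) :
    (lvl ρ I σ).trace = Ideal.Quotient.mk I (LinearMap.trace T ρ.V (ρ.ρ σ)) := by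
  rw [LinearMap.trace_eq_matrix_trace T (rbasis ρ), lvl_eq_map, mat_apply,
    AddMonoidHom.map_trace]

/-- Determinant of the level representation. -/
theorem det_lvl (ρ : GaloisRepAdic T) (I : Ideal T)
    (σ : AlgebraicClosure ℚ ≃ₐ[ℚ] AlgebraicClosure ℚ) :
    (lvl ρ I σ).det = Ideal.Quotient.mk I (LinearMap.det (ρ.ρ σ)) := by
  rw [← LinearMap.det_toMatrix (rbasis ρ), RingHom.map_det]
  rfl

/-- The matrices of `ρ` span the matrix algebra over `T` when the residual representation is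
absolutely irreducible (Burnside + matrix Nakayama). -/
theorem span_range_mat (ρ : GaloisRepAdic T) (habs : ρ.residual.IsAbsolutelyIrreducible) :
    Submodule.span T (Set.range (mat ρ)) = ⊤ := by
  classical
  let b : Module.Basis (Fin 2) T ρ.V := rbasis ρ
  let bk : Module.Basis (Fin 2) (IsLocalRing.ResidueField T)
      (IsLocalRing.ResidueField T ⊗[T] ρ.V) :=
    Algebra.TensorProduct.basis (IsLocalRing.ResidueField T) b
  have h := Fermat.Agent.S53.helper3173.span_range_toMatrix_eq_top ρ.residual habs bk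
  apply Fermat.Agent.S31.helper8024.span_eq_top_of_residue
  have hset : (fun M : Matrix (Fin 2) (Fin 2) T => M.map (IsLocalRing.residue T)) ''
      (Set.range (mat ρ)) =
      Set.range fun σ => LinearMap.toMatrix bk bk (ρ.residual.ρ σ) := by
    rw [← Set.range_comp]
    congr 1
    funext σ
    exact (LinearMap.toMatrix_baseChange (IsLocalRing.ResidueField T) (ρ.ρ σ) b b).symm
  rw [hset]
  exact h

/-- The matrices of the level representation span the matrix algebra over `T ⧸ I`. -/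
theorem span_range_lvl (ρ : GaloisRepAdic T) (habs : ρ.residual.IsAbsolutelyIrreducible)
    (I : Ideal T) : Submodule.span (T ⧸ I) (Set.range (lvl ρ I)) = ⊤ := by
  have key : ∀ M ∈ Submodule.span T (Set.range (mat ρ)),
      M.map (Ideal.Quotient.mk I) ∈ Submodule.span (T ⧸ I) (Set.range (lvl ρ I)) := by
    intro M hM
    induction hM using Submodule.span_induction with
    | mem x hx =>
      obtain ⟨σ, rfl⟩ := hx
      exact Submodule.subset_span ⟨σ, rfl⟩
    | zero =>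
      have : (0 : Matrix (Fin 2) (Fin 2) T).map (Ideal.Quotient.mk I) = 0 := by
        ext i j; simp
      rw [this]; exact Submodule.zero_mem _
    | add x y _ _ hx hy =>
      have : (x + y).map (Ideal.Quotient.mk I) =
          x.map (Ideal.Quotient.mk I) + y.map (Ideal.Quotient.mk I) := by
        ext i j; simp
      rw [this]; exact Submodule.add_mem _ hx hy
    | smul c x _ hx =>
      have : (c • x).map (Ideal.Quotient.mk I) =
          Ideal.Quotient.mk I c • x.map (Ideal.Quotient.mk I) := by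
        ext i j; simp
      rw [this]; exact Submodule.smul_mem _ _ hx
  rw [eq_top_iff]
  intro M' _
  have hlift : ∃ M : Matrix (Fin 2) (Fin 2) T, M.map (Ideal.Quotient.mk I) = M' := by
    choose g hg using fun i j => Ideal.Quotient.mk_surjective (M' i j)
    exact ⟨Matrix.of g, by ext i j; exact hg i j⟩
  obtain ⟨M, rfl⟩ := hlift
  exact key M (by rw [span_range_mat ρ habs]; exact Submodule.mem_top)

/-- **Surjectivity of the group algebra onto the matrix algebra at level `I`** (the hypothesis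
`hsurj` of UNIV / FIN-CARAYOL over `T ⧸ I`). -/
theorem lvl_lift_surjective (ρ : GaloisRepAdic T) (habs : ρ.residual.IsAbsolutelyIrreducible)
    (I : Ideal T) :
    Function.Surjective (MonoidAlgebra.lift (T ⧸ I) (Matrix (Fin 2) (Fin 2) (T ⧸ I))
      (AlgebraicClosure ℚ ≃ₐ[ℚ] AlgebraicClosure ℚ) (lvl ρ I)) := by
  intro M
  have hM : M ∈ Submodule.span (T ⧸ I) (Set.range (lvl ρ I)) := by
    rw [span_range_lvl ρ habs I]; exact Submodule.mem_top
  induction hM using Submodule.span_induction with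
  | mem x hx =>
    obtain ⟨σ, rfl⟩ := hx
    exact ⟨MonoidAlgebra.single σ 1, by rw [MonoidAlgebra.lift_single, one_smul]⟩
  | zero => exact ⟨0, map_zero _⟩
  | add x y _ _ hx hy =>
    obtain ⟨a, rfl⟩ := hx
    obtain ⟨b, rfl⟩ := hy
    exact ⟨a + b, map_add _ _ _⟩
  | smul c x _ hx =>
    obtain ⟨a, rfl⟩ := hx
    exact ⟨c • a, map_smul _ _ _⟩

/-- An element acting trivially modulo `I V` has trivial level matrix. -/
theorem lvl_eq_one_of_forall_mem (ρ : GaloisRepAdic T) (I : Ideal T)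
    (σ : AlgebraicClosure ℚ ≃ₐ[ℚ] AlgebraicClosure ℚ)
    (h : ∀ v : ρ.V, ρ.ρ σ v - v ∈ I • (⊤ : Submodule T ρ.V)) : lvl ρ I σ = 1 := by
  ext i j
  rw [lvl_apply, LinearMap.toMatrix_apply, Matrix.one_apply]
  have h1 := repr_mem_of_mem_smul_top (rbasis ρ) I (h (rbasis ρ j)) i
  rw [map_sub, Finsupp.sub_apply, ← Ideal.Quotient.eq, Module.Basis.repr_self,
    Finsupp.single_apply] at h1
  rw [h1]
  by_cases hij : i = j
  · simp [hij]
  · have hji : ¬ j = i := fun h => hij h.symm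
    simp [hij, hji]

/-- **Finite level**: the level-`I` representation factors through a finite extension of `ℚ` as
soon as `I` contains a power of the maximal ideal. -/
theorem exists_level_field (ρ : GaloisRepAdic T) (I : Ideal T) (n : ℕ)
    (hn : IsLocalRing.maximalIdeal T ^ n ≤ I) :
    ∃ L : IntermediateField ℚ (AlgebraicClosure ℚ), FiniteDimensional ℚ L ∧
      (∀ σ : AlgebraicClosure ℚ ≃ₐ[ℚ] AlgebraicClosure ℚ, (∀ x ∈ L, σ x = x) → lvl ρ I σ = 1) ∧
      ∀ g h : AlgebraicClosure ℚ ≃ₐ[ℚ] AlgebraicClosure ℚ, (∀ x ∈ L, g x = h x) →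
        lvl ρ I g = lvl ρ I h := by
  obtain ⟨L, hLfin, hL⟩ := ρ.isAdicContinuous n
  have h1 : ∀ σ : AlgebraicClosure ℚ ≃ₐ[ℚ] AlgebraicClosure ℚ, (∀ x ∈ L, σ x = x) →
      lvl ρ I σ = 1 := fun σ hσ =>
    lvl_eq_one_of_forall_mem ρ I σ fun v => Submodule.smul_mono_left hn (hL σ hσ v)
  refine ⟨L, hLfin, h1, fun g h hgh => ?_⟩
  have hu : ∀ x ∈ L, (h⁻¹ * g) x = x := by
    intro x hx
    rw [AlgEquiv.mul_apply, hgh x hx, AlgEquiv.aut_inv, AlgEquiv.symm_apply_apply]
  have hg : g = h * (h⁻¹ * g) := by group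
  rw [hg, map_mul, h1 _ hu, mul_one]

/-- Level action in the language of `lvl`: elements with the same level matrix act in the same
way on `V ⧸ I V`. -/
theorem levelAction_eq_of_lvl_eq (ρ : GaloisRepAdic T) (I : Ideal T)
    {g h : AlgebraicClosure ℚ ≃ₐ[ℚ] AlgebraicClosure ℚ} (hgh : lvl ρ I g = lvl ρ I h) :
    ρ.levelAction I g = ρ.levelAction I h := by
  refine LinearMap.ext fun x => (coord ρ I).injective ?_
  rw [coord_levelAction, coord_levelAction, hgh]

end Level

section OpenIdeal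

variable {T : Type*} [CommRing T] [IsLocalRing T]

/-- An ideal of finite index in a local ring contains a power of the maximal ideal. -/
theorem exists_pow_maximalIdeal_le (I : Ideal T) [Finite (T ⧸ I)] :
    ∃ n : ℕ, IsLocalRing.maximalIdeal T ^ n ≤ I := by
  obtain ⟨n, hn⟩ := IsArtinianRing.isNilpotent_jacobson_bot (R := T ⧸ I)
  refine ⟨n, fun x hx => ?_⟩
  have hle : (IsLocalRing.maximalIdeal T).map (Ideal.Quotient.mk I) ≤
      (⊥ : Ideal (T ⧸ I)).jacobson := by
    rw [Ideal.map_le_iff_le_comap]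
    intro y hy
    rw [Ideal.mem_comap, Ideal.mem_jacobson_bot]
    intro z
    obtain ⟨z, rfl⟩ := Ideal.Quotient.mk_surjective z
    have hu : IsUnit (y * z + 1) := by
      have hmem : -(y * z) ∈ IsLocalRing.maximalIdeal T :=
        neg_mem (Ideal.mul_mem_right _ _ hy)
      have := IsLocalRing.isUnit_one_sub_self_of_mem_nonunits _
        ((IsLocalRing.mem_maximalIdeal _).mp hmem)
      have h2 : 1 - -(y * z) = y * z + 1 := by ring
      rwa [h2] at this
    have := hu.map (Ideal.Quotient.mk I)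
    simpa using this
  have h1 : Ideal.Quotient.mk I x ∈ ((IsLocalRing.maximalIdeal T).map (Ideal.Quotient.mk I)) ^ n := by
    rw [← Ideal.map_pow]
    exact Ideal.mem_map_of_mem _ hx
  have h2 := Ideal.pow_right_mono hle n h1
  rw [hn] at h2
  exact Ideal.Quotient.eq_zero_iff_mem.mp h2

/-- A natural number in the maximal ideal has a power in every ideal of finite index. -/
theorem exists_natCast_pow_mem {p : ℕ} (hp : (p : T) ∈ IsLocalRing.maximalIdeal T)
    (I : Ideal T) [Finite (T ⧸ I)] : ∃ j : ℕ, (p : T) ^ j ∈ I := by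
  obtain ⟨n, hn⟩ := exists_pow_maximalIdeal_le I
  exact ⟨n, hn (Ideal.pow_mem_pow hp n)⟩

end OpenIdeal

section Datum

open Fermat.Agent.S31.helper8024

variable {N : ℕ} [NeZero N] {S : Finset ℕ}
  {𝒪 : Type} [CommRing 𝒪] [IsDomain 𝒪] [IsDiscreteValuationRing 𝒪]
  [IsAdicComplete (IsLocalRing.maximalIdeal 𝒪) 𝒪]
  {θ : CuspForm.heckeAlgebra N 2 (↑S : Set ℕ) →+* IsLocalRing.ResidueField 𝒪}
  {T : Type} [CommRing T] [IsLocalRing T] [IsNoetherianRing T]
  [IsAdicComplete (IsLocalRing.maximalIdeal T) T] [Algebra 𝒪 T] [IsLocalHom (algebraMap 𝒪 T)]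
  [Module.Finite 𝒪 T] [Module.Free 𝒪 T]

/-- The residue field of the coefficient ring of a datum is finite. -/
theorem finite_residueField [Finite (IsLocalRing.ResidueField 𝒪)]
    (H : CuspForm.HeckeGaloisRepDatum N (↑S : Set ℕ) 𝒪 θ T) :
    Finite (IsLocalRing.ResidueField T) := by
  refine Finite.of_surjective (IsLocalRing.ResidueField.map (algebraMap 𝒪 T)) fun y => ?_
  obtain ⟨x, hx⟩ := H.residue_surjective y
  exact ⟨IsLocalRing.residue 𝒪 x, by rw [IsLocalRing.ResidueField.map_residue]; exact hx⟩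

/-- The determinant of a Frobenius lift at a good prime `ℓ ∉ S` is `ℓ`. -/
theorem det_frob (H : CuspForm.HeckeGaloisRepDatum N (↑S : Set ℕ) 𝒪 θ T)
    {ℓ : ℕ} (hℓ : ℓ.Prime) (hℓN : ¬ ℓ ∣ N) (hℓS : ℓ ∉ (↑S : Set ℕ))
    (A : ValuationSubring (AlgebraicClosure ℚ)) (hA : A.LiesOverPrime ℓ)
    (s : AlgebraicClosure ℚ ≃ₐ[ℚ] AlgebraicClosure ℚ) (hs : A.IsFrobeniusAt s ℓ) :
    LinearMap.det (H.ρ.ρ s) = (ℓ : T) := by
  rw [LinearMap.det_eq_sign_charpoly_coeff, H.ρ.finrank_eq,
    H.charpoly_frob ℓ hℓ hℓN hℓS A hA s hs]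
  simp [coeff_C]

/-- Trace of the level representation at a power of a Frobenius lift: the Dickson element
`D_a(T_ℓ, ℓ)` of the Hecke algebra (S31 `heckeDickson`). -/
theorem trace_lvl_frob_pow (H : CuspForm.HeckeGaloisRepDatum N (↑S : Set ℕ) 𝒪 θ T) (I : Ideal T)
    {ℓ : ℕ} (hℓ : ℓ.Prime) (hℓN : ¬ ℓ ∣ N) (hℓS : ℓ ∉ (↑S : Set ℕ))
    (A : ValuationSubring (AlgebraicClosure ℚ)) (hA : A.LiesOverPrime ℓ)
    (s : AlgebraicClosure ℚ ≃ₐ[ℚ] AlgebraicClosure ℚ) (hs : A.IsFrobeniusAt s ℓ) (a : ℕ) :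
    (lvl H.ρ I (s ^ a)).trace = Ideal.Quotient.mk I (H.π (heckeDickson hℓ hℓN hℓS a)) := by
  rw [trace_lvl, trace_frob_pow H hℓ hℓN hℓS A hA s hs a]

/-- Determinant of the level representation at a power of a Frobenius lift. -/
theorem det_lvl_frob_pow (H : CuspForm.HeckeGaloisRepDatum N (↑S : Set ℕ) 𝒪 θ T) (I : Ideal T)
    {ℓ : ℕ} (hℓ : ℓ.Prime) (hℓN : ¬ ℓ ∣ N) (hℓS : ℓ ∉ (↑S : Set ℕ))
    (A : ValuationSubring (AlgebraicClosure ℚ)) (hA : A.LiesOverPrime ℓ)
    (s : AlgebraicClosure ℚ ≃ₐ[ℚ] AlgebraicClosure ℚ) (hs : A.IsFrobeniusAt s ℓ) (a : ℕ) :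
    (lvl H.ρ I (s ^ a)).det = (ℓ : T ⧸ I) ^ a := by
  rw [det_lvl, map_pow, map_pow, det_frob H hℓ hℓN hℓS A hA s hs, map_pow, map_natCast]

/-- **Per-element Frobenius witnesses** (generator-Chebotarev + finite level), general form: for
every `g` there are a good prime `ℓ ∉ S ∪ S'`, a Frobenius lift `s` at `ℓ` and an exponent `a`
with `g = s ^ a` on a prescribed finite extension `L₀`, such that the level-`I` matrix of `g` is
that of `s ^ a`; in particular its trace is the image of the Dickson element `D_a(T_ℓ, ℓ)` and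
its determinant is `ℓ ^ a`. -/
theorem exists_frob_pow_lvl_of_genCheb (hCheb : GenCheb)
    (H : CuspForm.HeckeGaloisRepDatum N (↑S : Set ℕ) 𝒪 θ T) (I : Ideal T) [Finite (T ⧸ I)]
    (S' : Finset ℕ) (L₀ : IntermediateField ℚ (AlgebraicClosure ℚ)) (hL₀ : FiniteDimensional ℚ L₀)
    (g : AlgebraicClosure ℚ ≃ₐ[ℚ] AlgebraicClosure ℚ) :
    ∃ (ℓ : ℕ) (hℓ : ℓ.Prime) (hℓN : ¬ ℓ ∣ N) (hℓS : ℓ ∉ (↑S : Set ℕ))
      (A : ValuationSubring (AlgebraicClosure ℚ))
      (s : AlgebraicClosure ℚ ≃ₐ[ℚ] AlgebraicClosure ℚ) (a : ℕ),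
      ℓ ∉ S' ∧ A.LiesOverPrime ℓ ∧ A.IsFrobeniusAt s ℓ ∧ (∀ x ∈ L₀, g x = (s ^ a) x) ∧
      lvl H.ρ I g = lvl H.ρ I (s ^ a) ∧
      (lvl H.ρ I g).trace = Ideal.Quotient.mk I (H.π (heckeDickson hℓ hℓN hℓS a)) ∧
      (lvl H.ρ I g).det = (ℓ : T ⧸ I) ^ a := by
  obtain ⟨n, hn⟩ := exists_pow_maximalIdeal_le I
  obtain ⟨L₁, hL₁fin, -, hL₁⟩ := exists_level_field H.ρ I n hn
  have hLfin : FiniteDimensional ℚ (L₀ ⊔ L₁ : IntermediateField ℚ (AlgebraicClosure ℚ)) :=
    IntermediateField.finiteDimensional_sup L₀ L₁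
  have hN0 : N ≠ 0 := NeZero.ne N
  obtain ⟨ℓ, A, s, a, hℓ, hℓS', hA, hs, hsg⟩ := hCheb _ hLfin (S ∪ N.primeFactors ∪ S') g
  rw [Finset.mem_union, Finset.mem_union, not_or, not_or] at hℓS'
  have hℓS : ℓ ∉ (↑S : Set ℕ) := fun h => hℓS'.1.1 (Finset.mem_coe.mp h)
  have hℓN : ¬ ℓ ∣ N := fun h => hℓS'.1.2 (Nat.mem_primeFactors.mpr ⟨hℓ, h, hN0⟩)
  have hle₀ : L₀ ≤ L₀ ⊔ L₁ := le_sup_left
  have hle₁ : L₁ ≤ L₀ ⊔ L₁ := le_sup_right
  have heq : lvl H.ρ I g = lvl H.ρ I (s ^ a) :=
    hL₁ g (s ^ a) fun x hx => (hsg x (hle₁ hx)).symm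
  refine ⟨ℓ, hℓ, hℓN, hℓS, A, s, a, hℓS'.2, hA, hs, fun x hx => (hsg x (hle₀ hx)).symm, heq,
    ?_, ?_⟩
  · rw [heq, trace_lvl_frob_pow H I hℓ hℓN hℓS A hA s hs a]
  · rw [heq, det_lvl_frob_pow H I hℓ hℓN hℓS A hA s hs a]

/-- **Per-element Frobenius witnesses**, unconditional (generator-Chebotarev is the landed
`S31.helper74.genCheb_8024`), in the shape consumed by XFER. -/
theorem exists_frob_pow_lvl
    (H : CuspForm.HeckeGaloisRepDatum N (↑S : Set ℕ) 𝒪 θ T) (I : Ideal T) [Finite (T ⧸ I)]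
    (L₀ : IntermediateField ℚ (AlgebraicClosure ℚ)) (hL₀ : FiniteDimensional ℚ L₀)
    (g : AlgebraicClosure ℚ ≃ₐ[ℚ] AlgebraicClosure ℚ) :
    ∃ (ℓ : ℕ) (hℓ : ℓ.Prime) (hℓN : ¬ ℓ ∣ N) (hℓS : ℓ ∉ (↑S : Set ℕ))
      (A : ValuationSubring (AlgebraicClosure ℚ))
      (s : AlgebraicClosure ℚ ≃ₐ[ℚ] AlgebraicClosure ℚ) (a : ℕ),
      A.LiesOverPrime ℓ ∧ A.IsFrobeniusAt s ℓ ∧ (∀ x ∈ L₀, g x = (s ^ a) x) ∧
      (lvl H.ρ I g).trace = Ideal.Quotient.mk I (H.π (heckeDickson hℓ hℓN hℓS a)) ∧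
      (lvl H.ρ I g).det = (ℓ : T ⧸ I) ^ a := by
  obtain ⟨ℓ, hℓ, hℓN, hℓS, A, s, a, -, hA, hs, hg, -, htr, hdet⟩ :=
    exists_frob_pow_lvl_of_genCheb Fermat.Agent.S31.helper74.genCheb_8024 H I ∅ L₀ hL₀ g
  exact ⟨ℓ, hℓ, hℓN, hℓS, A, s, a, hA, hs, hg, htr, hdet⟩

end Datum

end Fermat.Agent.S32.helper2804
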