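import Mathlib
import Fermat.Agent.S32.helper2559_Transfer
import Fermat.Agent.S32.helper2559_TransferSpec
import Fermat.Agent.S32.helper2804_LevelRep
import Fermat.Agent.S32.helper1215_Top

/-!
# S32-XFER, the instance for `J₀(N)` (helper2559)

`stmt_subquot_of` : for a Hecke–Galois datum `H` over `T`, the finite-level transfer
`helper1215.Stmt_Subquot p H` (every `V ⧸ I V` of finite index is an equivariant additive
quotient of a Galois-stable subgroup of a finite power of `J₀(N)[p^m]`) from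

* `Stmt_FQ N p` (Eichler–Shimura on `p`-power torsion) and `Stmt_HF p N S 𝒪 T H.π` (Hecke
  faithfulness with `𝒪`-coefficients), the two external inputs;
* facts that are theorems on main, taken here as hypotheses in Prelude vocabulary so that this
  file stays light: FIN-CARAYOL (`FinCarayol`), finiteness of the torsion of `J₀(N)`, finite
  level of its points, commutation of the Hecke operators with the Galois action, existence of
  Frobenius elements, and the presentation `U^d ↠ 𝒪 ⊗ U` of `𝒪 ⊗ U` for a finite `p`-group `U`.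

The abstract transfer is `isSubquotOfPow_of_transfer` (`helper2559_Transfer`); the level-`I`
representation and the per-element Frobenius witnesses come from `helper2804_LevelRep`.
-/

set_option autoImplicit false

namespace Fermat.Agent.S32.helper2559

open scoped TensorProduct
open ModularCurve

/-! ### Generation of the coefficient ring by the good Hecke operators -/

section Generation

variable {N : ℕ} [NeZero N] {S : Finset ℕ}

/-- Under `primes of N ⊆ S`, the image of the anemic Hecke algebra under a ring homomorphism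
into an `𝒪`-algebra lies in the `𝒪`-subalgebra generated by the images of the `T_ℓ`, `ℓ` good. -/
theorem map_mem_adjoin_heckeT (hNS : ∀ q : ℕ, q.Prime → q ∣ N → q ∈ S)
    {𝒪 : Type} [CommRing 𝒪] {T : Type} [CommRing T] [Algebra 𝒪 T]
    (π : CuspForm.heckeAlgebra N 2 (↑S : Set ℕ) →+* T)
    (t : CuspForm.heckeAlgebra N 2 (↑S : Set ℕ)) :
    π t ∈ Algebra.adjoin 𝒪 (Set.range fun i : GoodPrime N S => π (heckeT i)) := by
  obtain ⟨x, hx⟩ := t
  refine Algebra.adjoin_induction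
    (p := fun x hx => π ⟨x, hx⟩ ∈ Algebra.adjoin 𝒪 (Set.range fun i : GoodPrime N S => π (heckeT i)))
    ?_ ?_ ?_ ?_ hx
  · rintro x (⟨ℓ, hℓ, hℓN, hℓS, rfl⟩ | ⟨q, hqN, hq, hqS, rfl⟩)
    · exact Algebra.subset_adjoin ⟨⟨ℓ, hℓ, hℓN, hℓS⟩, rfl⟩
    · exact absurd (Finset.mem_coe.mpr (hNS q hq hqN)) hqS
  · intro r
    have h1 : (⟨algebraMap ℤ _ r, Subalgebra.algebraMap_mem _ r⟩ :
        CuspForm.heckeAlgebra N 2 (↑S : Set ℕ)) = (r : CuspForm.heckeAlgebra N 2 (↑S : Set ℕ)) := by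
      apply Subtype.ext
      simp
    rw [h1, map_intCast]
    have h2 : ((r : ℤ) : T) = algebraMap 𝒪 T (r : 𝒪) := by simp
    rw [h2]
    exact Subalgebra.algebraMap_mem _ _
  · intro x y hx hy hpx hpy
    have h1 : (⟨x + y, add_mem hx hy⟩ : CuspForm.heckeAlgebra N 2 (↑S : Set ℕ)) =
        ⟨x, hx⟩ + ⟨y, hy⟩ := rfl
    rw [h1, map_add]
    exact Subalgebra.add_mem _ hpx hpy
  · intro x y hx hy hpx hpy
    have h1 : (⟨x * y, mul_mem hx hy⟩ : CuspForm.heckeAlgebra N 2 (↑S : Set ℕ)) =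
        ⟨x, hx⟩ * ⟨y, hy⟩ := rfl
    rw [h1, map_mul]
    exact Subalgebra.mul_mem _ hpx hpy

/-- The coefficient ring of a datum is generated over `𝒪` by the images of the good `T_ℓ`. -/
theorem aeval_heckeT_surjective (hNS : ∀ q : ℕ, q.Prime → q ∣ N → q ∈ S)
    {𝒪 : Type} [CommRing 𝒪] {T : Type} [CommRing T] [Algebra 𝒪 T]
    (π : CuspForm.heckeAlgebra N 2 (↑S : Set ℕ) →+* T)
    (hπ : Algebra.adjoin 𝒪 (Set.range π) = ⊤) :
    Function.Surjective
      (MvPolynomial.aeval (fun i : GoodPrime N S => π (heckeT i)) :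
        MvPolynomial (GoodPrime N S) 𝒪 →ₐ[𝒪] T) := by
  rw [← AlgHom.range_eq_top, ← Algebra.adjoin_range_eq_range_aeval, eq_top_iff, ← hπ]
  refine Algebra.adjoin_le ?_
  rintro _ ⟨t, rfl⟩
  exact map_mem_adjoin_heckeT hNS π t

end Generation

/-! ### The torsion of `J₀(N)` as a Galois module with Hecke operators -/

section Torsion

variable (N : ℕ) [NeZero N] (S : Finset ℕ) (n : ℤ)

/-- The Hecke operator `T_ℓ` (`ℓ` good) restricted to the `n`-torsion of `J₀(N)`. -/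
noncomputable def tauJ (i : GoodPrime N S) : Module.End ℤ ↥(Submodule.torsionBy ℤ (JZero N) n) :=
  resTors n (heckeOperatorBar N ⟨i.1, i.2.1⟩)

@[simp]
theorem coe_tauJ (i : GoodPrime N S) (x : ↥(Submodule.torsionBy ℤ (JZero N) n)) :
    ((tauJ N S n i x : ↥(Submodule.torsionBy ℤ (JZero N) n)) : JZero N) =
      heckeOperatorBar N ⟨i.1, i.2.1⟩ (x : JZero N) := rfl

variable {N S}

/-- The restricted Hecke operators commute with the Galois action. -/
theorem tauJ_mul_galTors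
    (hGH : ∀ (ℓ : Nat.Primes) (σ : AlgebraicClosure ℚ ≃ₐ[ℚ] AlgebraicClosure ℚ) (x : JZero N),
      σ • heckeOperatorBar N ℓ x = heckeOperatorBar N ℓ (σ • x))
    (i : GoodPrime N S) (σ : AlgebraicClosure ℚ ≃ₐ[ℚ] AlgebraicClosure ℚ) :
    tauJ N S n i * galTors (AlgebraicClosure ℚ ≃ₐ[ℚ] AlgebraicClosure ℚ) (JZero N) n σ =
      galTors (AlgebraicClosure ℚ ≃ₐ[ℚ] AlgebraicClosure ℚ) (JZero N) n σ * tauJ N S n i :=
  resTors_mul_galTors _ n _ (fun σ x => hGH ⟨i.1, i.2.1⟩ σ x) σ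

/-- The Eichler–Shimura relation on `J₀(N)[p^m]`, in `End (J₀(N)[p^m])`. -/
theorem frob_quad_tors {p : ℕ} (hp : p.Prime) (hpS : p ∈ S) (hFQ : Stmt_FQ N p) (m : ℕ)
    (i : GoodPrime N S) (A : ValuationSubring (AlgebraicClosure ℚ)) (hA : A.LiesOverPrime i.1)
    (s : AlgebraicClosure ℚ ≃ₐ[ℚ] AlgebraicClosure ℚ) (hs : A.IsFrobeniusAt s i.1) :
    galTors (AlgebraicClosure ℚ ≃ₐ[ℚ] AlgebraicClosure ℚ) (JZero N) ((p : ℤ) ^ m) s *
        galTors (AlgebraicClosure ℚ ≃ₐ[ℚ] AlgebraicClosure ℚ) (JZero N) ((p : ℤ) ^ m) s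
      - tauJ N S ((p : ℤ) ^ m) i *
        galTors (AlgebraicClosure ℚ ≃ₐ[ℚ] AlgebraicClosure ℚ) (JZero N) ((p : ℤ) ^ m) s
      + (((i.1 : ℕ) : ℤ) : Module.End ℤ ↥(Submodule.torsionBy ℤ (JZero N) ((p : ℤ) ^ m))) = 0 := by
  have hℓp : ¬ i.1 ∣ N * p := by
    intro hdvd
    rcases (Nat.Prime.dvd_mul i.2.1).mp hdvd with h | h
    · exact i.2.2.1 h
    · have : i.1 = p := (Nat.prime_dvd_prime_iff_eq i.2.1 hp).mp h
      exact i.2.2.2 (this ▸ Finset.mem_coe.mpr hpS)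
  refine LinearMap.ext fun x => Subtype.ext ?_
  have hx : ∃ k : ℕ, p ^ k • (x : JZero N) = 0 := by
    refine ⟨m, ?_⟩
    have h := (Submodule.mem_torsionBy_iff _ _).1 x.2
    rw [← natCast_zsmul, Nat.cast_pow]
    exact h
  have h := hFQ i.1 i.2.1 hℓp A hA s hs (x : JZero N) hx
  rw [← natCast_zsmul] at h
  exact h

/-- The restricted Hecke operators at good primes commute with each other (no hypothesis on
the Hecke operators of `J₀(N)` themselves: each `T_ℓ` is `s + ℓ s⁻¹` on the torsion for a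
Frobenius lift `s` at `ℓ`). -/
theorem tauJ_comm {p : ℕ} (hp : p.Prime) (hpS : p ∈ S) (hFQ : Stmt_FQ N p)
    (hGH : ∀ (ℓ : Nat.Primes) (σ : AlgebraicClosure ℚ ≃ₐ[ℚ] AlgebraicClosure ℚ) (x : JZero N),
      σ • heckeOperatorBar N ℓ x = heckeOperatorBar N ℓ (σ • x))
    (hFrobEx : ∀ ℓ : ℕ, ℓ.Prime → ∃ (A : ValuationSubring (AlgebraicClosure ℚ))
      (σ : AlgebraicClosure ℚ ≃ₐ[ℚ] AlgebraicClosure ℚ), A.LiesOverPrime ℓ ∧ A.IsFrobeniusAt σ ℓ)
    (m : ℕ) (i j : GoodPrime N S) :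
    tauJ N S ((p : ℤ) ^ m) i * tauJ N S ((p : ℤ) ^ m) j =
      tauJ N S ((p : ℤ) ^ m) j * tauJ N S ((p : ℤ) ^ m) i := by
  obtain ⟨A, s, hA, hs⟩ := hFrobEx i.1 i.2.1
  have hrel := frob_quad_tors hp hpS hFQ m i A hA s hs
  exact commute_of_quad
    ((galTors (AlgebraicClosure ℚ ≃ₐ[ℚ] AlgebraicClosure ℚ) (JZero N) ((p : ℤ) ^ m)).toHomUnits s)
    (tauJ N S ((p : ℤ) ^ m) i) (tauJ N S ((p : ℤ) ^ m) j) (i.1 : ℤ)
    (tauJ_mul_galTors ((p : ℤ) ^ m) hGH j s) hrel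

end Torsion

/-! ### Finiteness and finite level of the torsion -/

section Level

variable {J : Type*} [AddCommGroup J]

/-- The `n`-torsion submodule is finite as soon as the set of `n`-torsion points is. -/
theorem finite_torsionBy_of_finite {n : ℕ} (h : Set.Finite {x : J | n • x = 0}) :
    Finite ↥(Submodule.torsionBy ℤ J (n : ℤ)) := by
  have h' : ((Submodule.torsionBy ℤ J (n : ℤ) : Submodule ℤ J) : Set J).Finite := by
    refine h.subset fun x hx => ?_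
    have hx' : (n : ℤ) • x = 0 := (Submodule.mem_torsionBy_iff _ _).1 hx
    show n • x = 0
    rwa [natCast_zsmul] at hx'
  exact h'.to_subtype

variable [DistribMulAction (AlgebraicClosure ℚ ≃ₐ[ℚ] AlgebraicClosure ℚ) J]

/-- A common finite level for finitely many points with open stabilisers. -/
theorem exists_common_level (s : Set J) (hs : s.Finite)
    (hlev : ∀ x : J, ∃ L : IntermediateField ℚ (AlgebraicClosure ℚ), FiniteDimensional ℚ L ∧
      ∀ σ : AlgebraicClosure ℚ ≃ₐ[ℚ] AlgebraicClosure ℚ, (∀ y ∈ L, σ y = y) → σ • x = x) :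
    ∃ L : IntermediateField ℚ (AlgebraicClosure ℚ), FiniteDimensional ℚ L ∧
      ∀ σ : AlgebraicClosure ℚ ≃ₐ[ℚ] AlgebraicClosure ℚ, (∀ y ∈ L, σ y = y) →
        ∀ x ∈ s, σ • x = x := by
  induction s, hs using Set.Finite.induction_on with
  | empty => exact ⟨⊥, inferInstance, fun _ _ x hx => (Set.notMem_empty x hx).elim⟩
  | @insert a s _ _ ih =>
    obtain ⟨L₁, hL₁, h₁⟩ := ih
    obtain ⟨L₂, hL₂, h₂⟩ := hlev a
    refine ⟨L₁ ⊔ L₂, IntermediateField.finiteDimensional_sup L₁ L₂, fun σ hσ x hx => ?_⟩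
    rcases Set.mem_insert_iff.mp hx with rfl | hx
    · exact h₂ σ fun y hy => hσ y ((le_sup_right : L₂ ≤ L₁ ⊔ L₂) hy)
    · exact h₁ σ (fun y hy => hσ y ((le_sup_left : L₁ ≤ L₁ ⊔ L₂) hy)) x hx

/-- A finite torsion submodule with pointwise open stabilisers has a finite level: the Galois
action on it factors through a finite extension. -/
theorem exists_level_galTors (n : ℤ) [Finite ↥(Submodule.torsionBy ℤ J n)]
    (hlev : ∀ x : J, ∃ L : IntermediateField ℚ (AlgebraicClosure ℚ), FiniteDimensional ℚ L ∧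
      ∀ σ : AlgebraicClosure ℚ ≃ₐ[ℚ] AlgebraicClosure ℚ, (∀ y ∈ L, σ y = y) → σ • x = x) :
    ∃ L : IntermediateField ℚ (AlgebraicClosure ℚ), FiniteDimensional ℚ L ∧
      ∀ g h : AlgebraicClosure ℚ ≃ₐ[ℚ] AlgebraicClosure ℚ, (∀ y ∈ L, g y = h y) →
        galTors (AlgebraicClosure ℚ ≃ₐ[ℚ] AlgebraicClosure ℚ) J n g =
          galTors (AlgebraicClosure ℚ ≃ₐ[ℚ] AlgebraicClosure ℚ) J n h := by
  have hfin : ((Submodule.torsionBy ℤ J n : Submodule ℤ J) : Set J).Finite :=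
    Set.toFinite _
  obtain ⟨L, hL, hLσ⟩ := exists_common_level _ hfin hlev
  refine ⟨L, hL, fun g h hgh => ?_⟩
  have hu : ∀ y ∈ L, (h⁻¹ * g) y = y := by
    intro y hy
    rw [AlgEquiv.mul_apply, hgh y hy, AlgEquiv.aut_inv, AlgEquiv.symm_apply_apply]
  have h1 : galTors (AlgebraicClosure ℚ ≃ₐ[ℚ] AlgebraicClosure ℚ) J n (h⁻¹ * g) = 1 := by
    refine LinearMap.ext fun x => Subtype.ext ?_
    exact hLσ _ hu (x : J) x.2
  have hg : g = h * (h⁻¹ * g) := by group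
  rw [hg, map_mul, h1, mul_one]

end Level

/-! ### The transfer for `J₀(N)` -/

section Main

variable {p : ℕ} {N : ℕ} [NeZero N] {S : Finset ℕ}
  {𝒪 : Type} [CommRing 𝒪] [IsDomain 𝒪] [IsDiscreteValuationRing 𝒪]
  [IsAdicComplete (IsLocalRing.maximalIdeal 𝒪) 𝒪]
  {θ : CuspForm.heckeAlgebra N 2 (↑S : Set ℕ) →+* IsLocalRing.ResidueField 𝒪}
  {T : Type} [CommRing T] [IsLocalRing T] [IsNoetherianRing T]
  [IsAdicComplete (IsLocalRing.maximalIdeal T) T] [Algebra 𝒪 T] [IsLocalHom (algebraMap 𝒪 T)]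
  [Module.Finite 𝒪 T] [Module.Free 𝒪 T]

/-- **The transfer at a fixed level `m`**: if every polynomial in the `T_ℓ ⊗ 1` killing
`𝒪 ⊗ J₀(N)[p^m]` has its value at the `π T_ℓ` in `I`, then `(T ⧸ I)²` with the level-`I`
representation is an equivariant subquotient of a finite power of `J₀(N)[p^m]`. -/
theorem isSubquotOfPow_lvl (hp : p.Prime) (hpS : p ∈ S)
    (hNS : ∀ q : ℕ, q.Prime → q ∣ N → q ∈ S)
    (H : CuspForm.HeckeGaloisRepDatum N (↑S : Set ℕ) 𝒪 θ T)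
    (hFC : FinCarayol)
    (hfin : ∀ n : ℕ, n ≠ 0 → Set.Finite {x : JZero N | n • x = 0})
    (hFL : ∀ x : JZero N, ∃ L : IntermediateField ℚ (AlgebraicClosure ℚ),
      FiniteDimensional ℚ L ∧
        ∀ σ : AlgebraicClosure ℚ ≃ₐ[ℚ] AlgebraicClosure ℚ, (∀ y ∈ L, σ y = y) → σ • x = x)
    (hGH : ∀ (ℓ : Nat.Primes) (σ : AlgebraicClosure ℚ ≃ₐ[ℚ] AlgebraicClosure ℚ) (x : JZero N),
      σ • heckeOperatorBar N ℓ x = heckeOperatorBar N ℓ (σ • x))
    (hFrobEx : ∀ ℓ : ℕ, ℓ.Prime → ∃ (A : ValuationSubring (AlgebraicClosure ℚ))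
      (σ : AlgebraicClosure ℚ ≃ₐ[ℚ] AlgebraicClosure ℚ), A.LiesOverPrime ℓ ∧ A.IsFrobeniusAt σ ℓ)
    (hFQ : Stmt_FQ N p) (I : Ideal T) [Finite (T ⧸ I)] (hI : I ≠ ⊤) (m : ℕ)
    (hD3 : ∃ (d : ℕ) (q : (Fin d → ↥(Submodule.torsionBy ℤ (JZero N) ((p : ℤ) ^ m))) →+
        𝒪 ⊗[ℤ] ↥(Submodule.torsionBy ℤ (JZero N) ((p : ℤ) ^ m))), Function.Surjective q ∧
      ∀ (f : Module.End ℤ ↥(Submodule.torsionBy ℤ (JZero N) ((p : ℤ) ^ m)))
        (x : Fin d → ↥(Submodule.torsionBy ℤ (JZero N) ((p : ℤ) ^ m))),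
        q (fun i => f (x i)) = f.baseChange 𝒪 (q x))
    (hfaith : ∀ (hτ : ∀ i j : GoodPrime N S, tauJ N S ((p : ℤ) ^ m) i * tauJ N S ((p : ℤ) ^ m) j =
        tauJ N S ((p : ℤ) ^ m) j * tauJ N S ((p : ℤ) ^ m) i)
      (P : MvPolynomial (GoodPrime N S) 𝒪), evHom 𝒪 (tauJ N S ((p : ℤ) ^ m)) hτ P = 0 →
        MvPolynomial.aeval (fun i : GoodPrime N S => H.π (heckeT i)) P ∈ I) :
    helper2036.IsSubquotOfPow ↥(Submodule.torsionBy ℤ (JZero N) ((p : ℤ) ^ m)) (Fin 2 → T ⧸ I)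
      (fun g x => galTors (AlgebraicClosure ℚ ≃ₐ[ℚ] AlgebraicClosure ℚ) (JZero N) ((p : ℤ) ^ m) g x)
      (fun g v => (helper2804.lvl H.ρ I g).mulVec v) := by
  have hτ := tauJ_comm hp hpS hFQ hGH hFrobEx m
  have hfinU : Finite ↥(Submodule.torsionBy ℤ (JZero N) ((p : ℤ) ^ m)) := by
    have h := finite_torsionBy_of_finite (J := JZero N) (n := p ^ m)
      (hfin (p ^ m) (pow_ne_zero m hp.ne_zero))
    rwa [Nat.cast_pow] at h
  have hnt : Nontrivial (T ⧸ I) := Ideal.Quotient.nontrivial_iff.mpr hI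
  have hloc : IsLocalRing (T ⧸ I) :=
    IsLocalRing.of_surjective' (Ideal.Quotient.mk I) Ideal.Quotient.mk_surjective
  obtain ⟨L₀, hL₀, hL₀g⟩ := exists_level_galTors (J := JZero N) ((p : ℤ) ^ m) hFL
  have hcomp : (Ideal.Quotient.mkₐ 𝒪 I).comp
      (MvPolynomial.aeval fun i : GoodPrime N S => H.π (heckeT i)) =
      MvPolynomial.aeval fun i : GoodPrime N S => Ideal.Quotient.mk I (H.π (heckeT i)) :=
    MvPolynomial.comp_aeval _ _
  refine isSubquotOfPow_of_transfer 𝒪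
    (galTors (AlgebraicClosure ℚ ≃ₐ[ℚ] AlgebraicClosure ℚ) (JZero N) ((p : ℤ) ^ m))
    (tauJ N S ((p : ℤ) ^ m)) (fun i => (i.1 : ℤ)) hτ hFC
    (fun i g => tauJ_mul_galTors _ hGH i g)
    (fun i s => ∃ A : ValuationSubring (AlgebraicClosure ℚ),
      A.LiesOverPrime i.1 ∧ A.IsFrobeniusAt s i.1)
    (fun i s hF => ?_) hD3
    (fun i => Ideal.Quotient.mk I (H.π (heckeT i))) ?_ ?_ (helper2804.lvl H.ρ I)
    (helper2804.lvl_lift_surjective H.ρ H.residual_absIrr I) ?_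
  · obtain ⟨A, hA, hs⟩ := hF
    exact frob_quad_tors hp hpS hFQ m i A hA s hs
  · rw [← hcomp]
    exact (Ideal.Quotient.mkₐ_surjective 𝒪 I).comp
      (aeval_heckeT_surjective hNS H.π H.adjoin_range_π)
  · intro P hP
    rw [← hcomp]
    exact Ideal.Quotient.eq_zero_iff_mem.mpr (hfaith hτ P hP)
  · intro g
    obtain ⟨ℓ, hℓ, hℓN, hℓS, A, s, a, hA, hs, hgs, htr, hdet⟩ :=
      helper2804.exists_frob_pow_lvl H I L₀ hL₀ g
    refine ⟨⟨ℓ, hℓ, hℓN, hℓS⟩, s, a, ⟨A, hA, hs⟩, ?_, ?_, ?_⟩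
    · rw [hL₀g g (s ^ a) hgs, map_pow]
    · rw [htr]
      have h1 := map_eval_dickson_comm ((Ideal.Quotient.mk I).comp H.π)
        (CuspForm.heckeAlgebra.T hℓ hℓN hℓS : CuspForm.heckeAlgebra N 2 (↑S : Set ℕ))
        ((ℓ : ℕ) : CuspForm.heckeAlgebra N 2 (↑S : Set ℕ)) a
      rw [RingHom.comp_apply, RingHom.comp_apply, RingHom.comp_apply, map_natCast,
        map_natCast] at h1
      rw [Int.cast_natCast]
      exact h1
    · rw [hdet, Int.cast_natCast]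

/-- **S32-XFER.**  The finite-level transfer `helper1215.Stmt_Subquot p H` from the
Eichler–Shimura relation (`Stmt_FQ`), Hecke faithfulness with `𝒪`-coefficients (`Stmt_HF`), and
facts which are theorems on main (taken as hypotheses, see the module docstring). -/
theorem stmt_subquot_of (hp : p.Prime) (hp𝒪 : (p : 𝒪) ∈ IsLocalRing.maximalIdeal 𝒪)
    (hpS : p ∈ S) (hNS : ∀ q : ℕ, q.Prime → q ∣ N → q ∈ S)
    (H : CuspForm.HeckeGaloisRepDatum N (↑S : Set ℕ) 𝒪 θ T)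
    (hFC : FinCarayol)
    (hfin : ∀ n : ℕ, n ≠ 0 → Set.Finite {x : JZero N | n • x = 0})
    (hFL : ∀ x : JZero N, ∃ L : IntermediateField ℚ (AlgebraicClosure ℚ),
      FiniteDimensional ℚ L ∧
        ∀ σ : AlgebraicClosure ℚ ≃ₐ[ℚ] AlgebraicClosure ℚ, (∀ y ∈ L, σ y = y) → σ • x = x)
    (hGH : ∀ (ℓ : Nat.Primes) (σ : AlgebraicClosure ℚ ≃ₐ[ℚ] AlgebraicClosure ℚ) (x : JZero N),
      σ • heckeOperatorBar N ℓ x = heckeOperatorBar N ℓ (σ • x))
    (hFrobEx : ∀ ℓ : ℕ, ℓ.Prime → ∃ (A : ValuationSubring (AlgebraicClosure ℚ))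
      (σ : AlgebraicClosure ℚ ≃ₐ[ℚ] AlgebraicClosure ℚ), A.LiesOverPrime ℓ ∧ A.IsFrobeniusAt σ ℓ)
    (hD3 : ∀ m : ℕ, ∃ (d : ℕ)
      (q : (Fin d → ↥(Submodule.torsionBy ℤ (JZero N) ((p : ℤ) ^ m))) →+
        𝒪 ⊗[ℤ] ↥(Submodule.torsionBy ℤ (JZero N) ((p : ℤ) ^ m))), Function.Surjective q ∧
      ∀ (f : Module.End ℤ ↥(Submodule.torsionBy ℤ (JZero N) ((p : ℤ) ^ m)))
        (x : Fin d → ↥(Submodule.torsionBy ℤ (JZero N) ((p : ℤ) ^ m))),
        q (fun i => f (x i)) = f.baseChange 𝒪 (q x))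
    (hFQ : Stmt_FQ N p) (hHF : Stmt_HF p N S 𝒪 T H.π) :
    helper1215.Stmt_Subquot p H := by
  intro I hI
  by_cases hItop : I = ⊤
  · -- `V ⧸ I V` is trivial
    subst hItop
    have hsub : Subsingleton (H.ρ.V ⧸ ((⊤ : Ideal T) • (⊤ : Submodule T H.ρ.V))) := by
      rw [Submodule.top_smul]
      exact Submodule.Quotient.subsingleton_iff.mpr rfl
    refine ⟨0, 0, ⊥, fun _ _ _ y _ => ?_, 0, fun v => ⟨0, Subsingleton.elim _ _⟩,
      fun _ _ _ _ => Subsingleton.elim _ _⟩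
    rw [AddSubgroup.mem_bot]
    exact Subsingleton.elim _ _
  · obtain ⟨c, hc⟩ := hHF
    have hpT : (p : T) ∈ IsLocalRing.maximalIdeal T :=
      Fermat.Agent.S31.helper8024.natCast_mem_maximalIdeal hp𝒪
    obtain ⟨j, hj⟩ := helper2804.exists_natCast_pow_mem hpT I
    have key := isSubquotOfPow_lvl hp hpS hNS H hFC hfin hFL hGH hFrobEx hFQ I hItop (c + j)
      (hD3 (c + j)) (fun hτ P hP => by
        have h := hc (c + j) (tauJ N S ((p : ℤ) ^ (c + j))) (fun i x => rfl)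
          (evHom 𝒪 (tauJ N S ((p : ℤ) ^ (c + j))) hτ) (fun i => evHom_X 𝒪 _ hτ i) P hP
        rw [Nat.add_sub_cancel_left] at h
        exact (Ideal.span_singleton_le_iff_mem I).mpr hj h)
    obtain ⟨k, Nsub, hstab, f, hf, hfe⟩ := key
    refine ⟨c + j, k, Nsub, ?_, (helper2804.coord H.ρ I).symm.toAddMonoidHom.comp f, ?_, ?_⟩
    · intro σ x hx y hy
      have hyx : y = fun i => galTors (AlgebraicClosure ℚ ≃ₐ[ℚ] AlgebraicClosure ℚ) (JZero N)
          ((p : ℤ) ^ (c + j)) σ (x i) := funext fun i => Subtype.ext (hy i)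
      rw [hyx]
      exact hstab σ x hx
    · exact (helper2804.coord H.ρ I).symm.surjective.comp hf
    · intro σ x y hxy
      have h1 := hfe σ x y (fun i => Subtype.ext (hxy i))
      show (helper2804.coord H.ρ I).symm (f y) =
        H.ρ.levelAction I σ ((helper2804.coord H.ρ I).symm (f x))
      rw [AddEquiv.symm_apply_eq, helper2804.coord_levelAction, AddEquiv.apply_symm_apply, h1]

end Main

end Fermat.Agent.S32.helper2559
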