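import Fermat.Agent.S32.helper929_FinCarayol
import Fermat.Agent.S32.helper2036_XferLocal

/-!
# S32-FINCARAYOL (helper929): consumer form

`fin_carayol_isSubquotOfPow` is FIN-CARAYOL in the shape agreed in `team_s32_chat` #17/#22:
`B` finite local, `M'` finite faithful, conclusion `helper2036.IsSubquotOfPow`.
It is a thin adapter on top of `helper929.fin_carayol` (which needs neither locality nor
finiteness, only a nilpotent kernel and a finitely generated faithful module).
-/

set_option autoImplicit false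

namespace Fermat.Agent.S32.helper929

open Matrix

/-- In an artinian local ring the kernel of a ring hom to a nontrivial ring is nilpotent. -/
theorem exists_pow_ker_eq_bot {B : Type*} [CommRing B] [IsLocalRing B] [IsArtinianRing B]
    {T' : Type*} [CommRing T'] [Nontrivial T'] (π' : B →+* T') :
    ∃ n : ℕ, RingHom.ker π' ^ n = ⊥ := by
  have hle : RingHom.ker π' ≤ IsLocalRing.maximalIdeal B :=
    IsLocalRing.le_maximalIdeal (RingHom.ker_ne_top π')
  have hnil : IsNilpotent (IsLocalRing.maximalIdeal B) := by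
    have := IsArtinianRing.isNilpotent_jacobson_bot (R := B)
    rwa [IsLocalRing.jacobson_eq_maximalIdeal ⊥ bot_ne_top] at this
  obtain ⟨n, hn⟩ := hnil
  refine ⟨n, le_bot_iff.mp ?_⟩
  calc RingHom.ker π' ^ n ≤ IsLocalRing.maximalIdeal B ^ n := Ideal.pow_right_mono hle n
    _ = ⊥ := hn

/-- Surjectivity of `T'[G] → M₂(T')` gives the span condition. -/
theorem span_range_eq_top_of_lift_surjective {G : Type*} [Group G] {T' : Type*} [CommRing T']
    (ρ' : G →* Matrix (Fin 2) (Fin 2) T')
    (hsurj : Function.Surjective (MonoidAlgebra.lift T' (Matrix (Fin 2) (Fin 2) T') G ρ')) :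
    Submodule.span T' (Set.range ρ') = ⊤ := by
  rw [eq_top_iff]
  rintro X -
  obtain ⟨x, rfl⟩ := hsurj X
  induction x using MonoidAlgebra.induction_on with
  | of g =>
    rw [MonoidAlgebra.lift_of]
    exact Submodule.subset_span ⟨g, rfl⟩
  | add x y hx hy =>
    rw [map_add]
    exact Submodule.add_mem _ hx hy
  | smul c x hx =>
    rw [map_smul]
    exact Submodule.smul_mem _ c hx

/-- **FIN-CARAYOL**, consumer form (`team_s32_chat` #17 (3) / #22 (4)). -/
theorem fin_carayol_isSubquotOfPow {G : Type*} [Group G] {B : Type*} [CommRing B]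
    [IsLocalRing B] [Finite B] {M' : Type*} [AddCommGroup M'] [Module B M'] [Finite M']
    (hfaith : ∀ b : B, (∀ y : M', b • y = 0) → b = 0) (ρM : G →* Module.End B M')
    {T' : Type*} [CommRing T'] (π' : B →+* T') (hπ' : Function.Surjective π')
    (ρ' : G →* Matrix (Fin 2) (Fin 2) T')
    (hsurj : Function.Surjective (MonoidAlgebra.lift T' (Matrix (Fin 2) (Fin 2) T') G ρ'))
    (hquad : ∀ g, ∃ t d : B, (∀ y : M', ρM g (ρM g y) - t • ρM g y + d • y = 0) ∧
      π' t = (ρ' g).trace ∧ π' d = (ρ' g).det) :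
    helper2036.IsSubquotOfPow M' (Fin 2 → T') (fun g y => ρM g y)
      (fun g v => (ρ' g).mulVec v) := by
  rcases subsingleton_or_nontrivial T' with hT | hT
  · -- degenerate case: `T'` is the zero ring
    refine ⟨0, ⊤, fun _ _ _ => AddSubgroup.mem_top _, 0, fun v => ⟨0, Subsingleton.elim _ _⟩,
      fun _ _ _ _ => Subsingleton.elim _ _⟩
  · have hnil := exists_pow_ker_eq_bot π'
    have hquad' : ∀ g, ∃ t d : B, ρM g * ρM g - t • ρM g + d • (1 : Module.End B M') = 0 ∧
        π' t = (ρ' g).trace ∧ π' d = (ρ' g).det := by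
      intro g
      obtain ⟨t, d, h, ht, hd⟩ := hquad g
      refine ⟨t, d, ?_, ht, hd⟩
      ext y
      simpa using h y
    obtain ⟨k, N, hN, Λ, hΛsurj, -, hΛeq⟩ :=
      fin_carayol hfaith ρM π' hπ' hnil ρ' (span_range_eq_top_of_lift_surjective ρ' hsurj) hquad'
    refine ⟨k, N.toAddSubgroup, hN, Λ, hΛsurj, ?_⟩
    intro g x y hxy
    have hy : (fun i => ρM g ((x : Fin k → M') i)) ∈ N := hN g _ x.2
    have hyx : y = ⟨_, hy⟩ := Subtype.ext (funext hxy)
    rw [hyx]
    exact hΛeq g x hy

end Fermat.Agent.S32.helper929
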