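import Mathlib
import Fermat.Agent.S32.helper2559_TransferJ
import Fermat.Agent.S32.helper929_FinCarayolSubquot
import Fermat.Agent.S29.helper288_FinTorsion
import Fermat.Agent.S29.helper8527_FiniteLevel
import Fermat.Agent.S29.helper5500_GalHecke
import Fermat.Agent.Lib.helper54_Frobenius

/-!
# S32-XFER, final form (helper2559)

`stmt_subquot` : for a Hecke–Galois datum `H`,

  `Stmt_FQ N p → Stmt_HF p N S 𝒪 T H.π → helper1215.Stmt_Subquot p H`,

i.e. `stmt_subquot_of` (`helper2559_TransferJ`) with all its side hypotheses discharged from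
theorems on main:

* FIN-CARAYOL : `helper929.fin_carayol_isSubquotOfPow`;
* finiteness of the torsion of `J₀(N)` : `S29.helper288.finite_torsion_JZero`;
* finite level of the points of `J₀(N)` : `S29.helper8527.exists_finiteLevel_point`;
* Galois and Hecke commute : `S29.helper5500.galois_smul_heckeOperatorBar`;
* existence of Frobenius elements : `Lib.helper54.exists_liesOverPrime_isFrobeniusAt`;
* `U^d ↠ 𝒪 ⊗ U` for a group `U` killed by `n` with `𝒪 ⧸ n𝒪` finite : proved here
  (`exists_pow_surjective_tensor`).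

No hypothesis `¬ p ∣ N` is used.
-/

set_option autoImplicit false

namespace Fermat.Agent.S32.helper2559

open scoped TensorProduct
open ModularCurve

/-! ### `𝒪 ⊗ U` as a quotient of a finite power of `U` -/

section Tensor

/-- If `n • U = 0` and `𝒪 ⧸ n𝒪` is finite, then `𝒪 ⊗[ℤ] U` is an additive quotient of a finite
power `U^d`, naturally in the endomorphisms of `U`. -/
theorem exists_pow_surjective_tensor (𝒪 : Type*) [CommRing 𝒪] (n : ℤ)
    [Finite (𝒪 ⧸ Ideal.span {(n : 𝒪)})] (U : Type*) [AddCommGroup U] (hU : ∀ x : U, n • x = 0) :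
    ∃ (d : ℕ) (q : (Fin d → U) →+ 𝒪 ⊗[ℤ] U), Function.Surjective q ∧
      ∀ (f : Module.End ℤ U) (x : Fin d → U), q (fun i => f (x i)) = f.baseChange 𝒪 (q x) := by
  classical
  obtain ⟨d, ⟨e⟩⟩ := Finite.exists_equiv_fin (𝒪 ⧸ Ideal.span {(n : 𝒪)})
  choose rep hrep using Ideal.Quotient.mk_surjective (I := Ideal.span {(n : 𝒪)})
  let q : (Fin d → U) →+ 𝒪 ⊗[ℤ] U :=
    ∑ i, ((TensorProduct.mk ℤ 𝒪 U (rep (e.symm i))).toAddMonoidHom).comp
      (Pi.evalAddMonoidHom (fun _ : Fin d => U) i)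
  have hq : ∀ x : Fin d → U, q x = ∑ i, rep (e.symm i) ⊗ₜ[ℤ] x i := by
    intro x
    simp [q]
  refine ⟨d, q, ?_, ?_⟩
  · intro y
    induction y using TensorProduct.induction_on with
    | zero => exact ⟨0, map_zero _⟩
    | tmul a x =>
      have hmem : a - rep (e.symm (e (Ideal.Quotient.mk _ a))) ∈ Ideal.span {(n : 𝒪)} := by
        rw [← Ideal.Quotient.eq, hrep, Equiv.symm_apply_apply]
      obtain ⟨a', ha'⟩ := Ideal.mem_span_singleton'.mp hmem
      have ha : a = rep (e.symm (e (Ideal.Quotient.mk _ a))) + n • a' := by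
        rw [zsmul_eq_mul, mul_comm, ha']
        ring
      refine ⟨Pi.single (e (Ideal.Quotient.mk _ a)) x, ?_⟩
      rw [hq, Finset.sum_eq_single (e (Ideal.Quotient.mk _ a))]
      · rw [Pi.single_eq_same]
        conv_rhs => rw [ha]
        rw [TensorProduct.add_tmul, TensorProduct.smul_tmul, hU, TensorProduct.tmul_zero, add_zero]
      · intro i _ hi
        rw [Pi.single_eq_of_ne hi, TensorProduct.tmul_zero]
      · intro hi
        exact absurd (Finset.mem_univ _) hi
    | add y z hy hz =>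
      obtain ⟨y', rfl⟩ := hy
      obtain ⟨z', rfl⟩ := hz
      exact ⟨y' + z', map_add _ _ _⟩
  · intro f x
    rw [hq, hq, map_sum]
    refine Finset.sum_congr rfl fun i _ => ?_
    rw [LinearMap.baseChange_tmul]

/-- A nonzero principal ideal of a discrete valuation ring with finite residue field has finite
index. -/
theorem finite_quotient_span_singleton {𝒪 : Type*} [CommRing 𝒪] [IsDomain 𝒪]
    [IsDiscreteValuationRing 𝒪] [Finite (IsLocalRing.ResidueField 𝒪)] {x : 𝒪} (hx : x ≠ 0) :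
    Finite (𝒪 ⧸ Ideal.span {x}) := by
  obtain ⟨ϖ, hϖ⟩ := IsDiscreteValuationRing.exists_irreducible 𝒪
  obtain ⟨k, hk⟩ := IsDiscreteValuationRing.ideal_eq_span_pow_irreducible
    (s := Ideal.span {x}) (by simpa using hx) hϖ
  rw [IsLocalRing.finite_quotient_iff]
  refine ⟨k, ?_⟩
  rw [hk, hϖ.maximalIdeal_eq, Ideal.span_singleton_pow]

end Tensor

/-! ### The transfer -/

section Main

variable {p : ℕ} {N : ℕ} [NeZero N] {S : Finset ℕ}
  {𝒪 : Type} [CommRing 𝒪] [IsDomain 𝒪] [IsDiscreteValuationRing 𝒪]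
  [IsAdicComplete (IsLocalRing.maximalIdeal 𝒪) 𝒪]
  {θ : CuspForm.heckeAlgebra N 2 (↑S : Set ℕ) →+* IsLocalRing.ResidueField 𝒪}
  {T : Type} [CommRing T] [IsLocalRing T] [IsNoetherianRing T]
  [IsAdicComplete (IsLocalRing.maximalIdeal T) T] [Algebra 𝒪 T] [IsLocalHom (algebraMap 𝒪 T)]
  [Module.Finite 𝒪 T] [Module.Free 𝒪 T]

/-- FIN-CARAYOL, as a theorem (`helper929`). -/
theorem finCarayol : FinCarayol :=
  fun _ _ _ _ _ _ _ _ _ _ hfaith ρM _ _ _ π' hπ' ρ' hsurj hquad =>
    Fermat.Agent.S32.helper929.fin_carayol_isSubquotOfPow hfaith ρM π' hπ' ρ' hsurj hquad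

/-- **S32-XFER, final form.**  For a Hecke–Galois datum `H` over `T`: every `V ⧸ I V` of finite
index, with the frozen level action, is an equivariant additive quotient of a Galois-stable
subgroup of a finite power of `J₀(N)[p^m]`, as soon as the Eichler–Shimura relation holds on the
`p`-power torsion (`Stmt_FQ`) and the Hecke algebra acts faithfully with `𝒪`-coefficients at
finite levels (`Stmt_HF`). -/
theorem stmt_subquot [Finite (IsLocalRing.ResidueField 𝒪)] [CharZero 𝒪]
    (hp : p.Prime) (hp𝒪 : (p : 𝒪) ∈ IsLocalRing.maximalIdeal 𝒪)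
    (hpS : p ∈ S) (hNS : ∀ q : ℕ, q.Prime → q ∣ N → q ∈ S)
    (H : CuspForm.HeckeGaloisRepDatum N (↑S : Set ℕ) 𝒪 θ T)
    (hFQ : Stmt_FQ N p) (hHF : Stmt_HF p N S 𝒪 T H.π) :
    Fermat.Agent.S32.helper1215.Stmt_Subquot p H := by
  refine stmt_subquot_of hp hp𝒪 hpS hNS H finCarayol
    (fun n hn => Fermat.Agent.S29.helper288.finite_torsion_JZero N hn)
    (fun x => Fermat.Agent.S29.helper8527.exists_finiteLevel_point N x)
    (fun ℓ σ x => Fermat.Agent.S29.helper5500.galois_smul_heckeOperatorBar N ℓ σ x)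
    (fun ℓ hℓ => Fermat.Agent.Lib.helper54.exists_liesOverPrime_isFrobeniusAt hℓ)
    (fun m => ?_) hFQ hHF
  have hne : (((p : ℤ) ^ m : ℤ) : 𝒪) ≠ 0 := by
    rw [Int.cast_pow, Int.cast_natCast]
    exact pow_ne_zero m (Nat.cast_ne_zero.mpr hp.ne_zero)
  have hfinq : Finite (𝒪 ⧸ Ideal.span {(((p : ℤ) ^ m : ℤ) : 𝒪)}) :=
    finite_quotient_span_singleton hne
  exact exists_pow_surjective_tensor 𝒪 ((p : ℤ) ^ m) _
    (fun x => Subtype.ext ((Submodule.mem_torsionBy_iff _ _).1 x.2))

end Main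

end Fermat.Agent.S32.helper2559
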