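import Fermat.Agent.S32.helper1215_Top
import Fermat.Agent.S32.helper1304_FlatSubquot
import Fermat.Agent.S32.helper2559_TransferAsm
import Fermat.Agent.S32.helper1429_HFFinal
import Fermat.Agent.S31.helper5307_Spec
import Fermat.Agent.S31.helper2756_MultMer
import Fermat.Agent.S30.helper831_Wiring
import Fermat.Agent.S29.helper405_ESFinal
import Fermat.Agent.S18.helper789_KF0All

/-!
# S32, assembly (helper1215)

The frozen statement S32 (`H.ρ.IsFlatAt p`, template binders) from the frozen S19 (`Stmt_S19`,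
a hypothesis) and the Eichler–Shimura relation on `p`-power torsion, in each of the shapes in
which the machine may deliver it.  Everything else is discharged here from landed modules:

* closure of the flat clause under subquotients of finite powers:
  `Fermat.Agent.S32.helper1304.stmt_FlatSubquot`;
* the finite-level transfer: `Fermat.Agent.S32.helper2559.stmt_subquot`, with Hecke faithfulness
  `Fermat.Agent.S32.helper1429.stmt_HF`;
* (K5) at every modulus `p ^ m`: `Fermat.Agent.S31.helper2756.exists_multSpec_all` (unconditional)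
  through `Fermat.Agent.S31.helper5307.stmt_K5_of_mult`.

Main statements:

* `result_of_subquot` : from `Stmt_S19` and `Stmt_Subquot p H`;
* `result_of` : from `Stmt_S19`, `S31.helper5307.Stmt_Frob N p`, `S31.helper5307.Stmt_K5 N p`;
* `result_of_frob` : from `Stmt_S19` and `S31.helper5307.Stmt_Frob N p`;
* `result_of_coreHom`, `result_of_esMod`, `result_of_kf0` : the same with the Eichler–Shimura
  relation taken from the S37 back end, from `S30.helper831.Stmt_ESMod`, or from the S18 export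
  `S29.helper405.Stmt_KF0All`;
* `result_of_s19` : from `Stmt_S19` alone (the S18 export is on main:
  `Fermat.Agent.S18.helper789.stmt_KF0_all`).
-/

set_option autoImplicit false

namespace Fermat.Agent.S32.helper1215

/-- **(K5)** at every modulus `p ^ m`, unconditionally. -/
theorem stmt_K5 (N p : ℕ) [NeZero N] (hp : p ≠ 0) : Fermat.Agent.S31.helper5307.Stmt_K5 N p :=
  Fermat.Agent.S31.helper5307.stmt_K5_of_mult hp
    (fun m => Fermat.Agent.S31.helper2756.exists_multSpec_all N (pow_ne_zero m hp))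

/-- (ES) at every modulus gives (FQ) on `p`-power torsion. -/
theorem stmt_Frob_of_esMod (hES : Fermat.Agent.S30.helper831.Stmt_ESMod) (N p : ℕ) [NeZero N] :
    Fermat.Agent.S31.helper5307.Stmt_Frob N p := by
  intro ℓ hℓ hℓNp A hA σ hσ x hx
  obtain ⟨k, hk⟩ := hx
  exact hES N (p ^ k) ℓ hℓ (fun h => hℓNp (Dvd.dvd.mul_right h p))
    (Fermat.Agent.S30.helper831.not_dvd_pow_of_not_dvd_mul hℓ hℓNp k) A hA σ hσ x hk

/-- The S18 export (KF0) gives (FQ) on `p`-power torsion. -/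
theorem stmt_Frob_of_kf0 (hKF : Fermat.Agent.S29.helper405.Stmt_KF0All) (N p : ℕ) [NeZero N] :
    Fermat.Agent.S31.helper5307.Stmt_Frob N p :=
  stmt_Frob_of_esMod (Fermat.Agent.S29.helper405.stmt_ESMod_of_kf0 hKF) N p

/-- The S18 export (KF0) at every level and every good prime. -/
theorem stmt_KF0All : Fermat.Agent.S29.helper405.Stmt_KF0All :=
  fun N _ ℓ hℓ hℓN => Fermat.Agent.S18.helper789.stmt_KF0_all N ℓ hℓ hℓN

section Asm

variable {p : ℕ} {N : ℕ} [NeZero N] {S : Finset ℕ}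
  {𝒪 : Type} [CommRing 𝒪] [IsDomain 𝒪] [IsDiscreteValuationRing 𝒪]
  [IsAdicComplete (IsLocalRing.maximalIdeal 𝒪) 𝒪]
  {θ : CuspForm.heckeAlgebra N 2 (↑S : Set ℕ) →+* IsLocalRing.ResidueField 𝒪}
  {T : Type} [CommRing T] [IsLocalRing T] [IsNoetherianRing T]
  [IsAdicComplete (IsLocalRing.maximalIdeal T) T] [Algebra 𝒪 T] [IsLocalHom (algebraMap 𝒪 T)]
  [Module.Finite 𝒪 T] [Module.Free 𝒪 T]

/-- The frozen S32 statement (same binders as the template) from the frozen S19 and the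
finite-level transfer. -/
theorem result_of_subquot [Finite (IsLocalRing.ResidueField 𝒪)] [CharZero 𝒪]
    (hp : p.Prime) (hp2 : p ≠ 2) (hp𝒪 : (p : 𝒪) ∈ IsLocalRing.maximalIdeal 𝒪) (hpN : ¬ p ∣ N)
    (hpS : p ∈ S) (hNS : ∀ q : ℕ, q.Prime → q ∣ N → q ∈ S)
    (H : CuspForm.HeckeGaloisRepDatum N (↑S : Set ℕ) 𝒪 θ T)
    (h19 : Stmt_S19) (hx : Stmt_Subquot p H) :
    H.ρ.IsFlatAt p := by
  have : Fact p.Prime := ⟨hp⟩
  exact result_of_props hp hp2 hp𝒪 hpN hpS hNS H h19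
    (Fermat.Agent.S32.helper1304.stmt_FlatSubquot p) hx

/-- **S32 from the frozen S19, (FQ) and (K5).** -/
theorem result_of [Finite (IsLocalRing.ResidueField 𝒪)] [CharZero 𝒪]
    (hp : p.Prime) (hp2 : p ≠ 2) (hp𝒪 : (p : 𝒪) ∈ IsLocalRing.maximalIdeal 𝒪) (hpN : ¬ p ∣ N)
    (hpS : p ∈ S) (hNS : ∀ q : ℕ, q.Prime → q ∣ N → q ∈ S)
    (H : CuspForm.HeckeGaloisRepDatum N (↑S : Set ℕ) 𝒪 θ T)
    (h19 : Stmt_S19) (hFQ : Fermat.Agent.S31.helper5307.Stmt_Frob N p)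
    (hK5 : Fermat.Agent.S31.helper5307.Stmt_K5 N p) :
    H.ρ.IsFlatAt p :=
  result_of_subquot hp hp2 hp𝒪 hpN hpS hNS H h19
    (Fermat.Agent.S32.helper2559.stmt_subquot hp hp𝒪 hpS hNS H hFQ
      (Fermat.Agent.S32.helper1429.stmt_HF hp hp𝒪 H hK5))

/-- **S32 from the frozen S19 and (FQ)** ((K5) is unconditional). -/
theorem result_of_frob [Finite (IsLocalRing.ResidueField 𝒪)] [CharZero 𝒪]
    (hp : p.Prime) (hp2 : p ≠ 2) (hp𝒪 : (p : 𝒪) ∈ IsLocalRing.maximalIdeal 𝒪) (hpN : ¬ p ∣ N)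
    (hpS : p ∈ S) (hNS : ∀ q : ℕ, q.Prime → q ∣ N → q ∈ S)
    (H : CuspForm.HeckeGaloisRepDatum N (↑S : Set ℕ) 𝒪 θ T)
    (h19 : Stmt_S19) (hFQ : Fermat.Agent.S31.helper5307.Stmt_Frob N p) :
    H.ρ.IsFlatAt p :=
  result_of hp hp2 hp𝒪 hpN hpS hNS H h19 hFQ (stmt_K5 N p hp.ne_zero)

/-- **S32 from the frozen S19 and the S37 back end.** -/
theorem result_of_coreHom [Finite (IsLocalRing.ResidueField 𝒪)] [CharZero 𝒪]
    (hp : p.Prime) (hp2 : p ≠ 2) (hp𝒪 : (p : 𝒪) ∈ IsLocalRing.maximalIdeal 𝒪) (hpN : ¬ p ∣ N)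
    (hpS : p ∈ S) (hNS : ∀ q : ℕ, q.Prime → q ∣ N → q ∈ S)
    (H : CuspForm.HeckeGaloisRepDatum N (↑S : Set ℕ) 𝒪 θ T)
    (h19 : Stmt_S19) (hCore : Fermat.Agent.S37.helper8353.Stmt_CoreHom N p) :
    H.ρ.IsFlatAt p :=
  result_of_frob hp hp2 hp𝒪 hpN hpS hNS H h19
    (Fermat.Agent.S31.helper5307.stmt_Frob_of_coreHom hCore)

/-- **S32 from the frozen S19 and (ES) at every modulus.** -/
theorem result_of_esMod [Finite (IsLocalRing.ResidueField 𝒪)] [CharZero 𝒪]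
    (hp : p.Prime) (hp2 : p ≠ 2) (hp𝒪 : (p : 𝒪) ∈ IsLocalRing.maximalIdeal 𝒪) (hpN : ¬ p ∣ N)
    (hpS : p ∈ S) (hNS : ∀ q : ℕ, q.Prime → q ∣ N → q ∈ S)
    (H : CuspForm.HeckeGaloisRepDatum N (↑S : Set ℕ) 𝒪 θ T)
    (h19 : Stmt_S19) (hES : Fermat.Agent.S30.helper831.Stmt_ESMod) :
    H.ρ.IsFlatAt p :=
  result_of_frob hp hp2 hp𝒪 hpN hpS hNS H h19 (stmt_Frob_of_esMod hES N p)

/-- **S32 from the frozen S19 and the S18 export (KF0).** -/
theorem result_of_kf0 [Finite (IsLocalRing.ResidueField 𝒪)] [CharZero 𝒪]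
    (hp : p.Prime) (hp2 : p ≠ 2) (hp𝒪 : (p : 𝒪) ∈ IsLocalRing.maximalIdeal 𝒪) (hpN : ¬ p ∣ N)
    (hpS : p ∈ S) (hNS : ∀ q : ℕ, q.Prime → q ∣ N → q ∈ S)
    (H : CuspForm.HeckeGaloisRepDatum N (↑S : Set ℕ) 𝒪 θ T)
    (h19 : Stmt_S19) (hKF : Fermat.Agent.S29.helper405.Stmt_KF0All) :
    H.ρ.IsFlatAt p :=
  result_of_frob hp hp2 hp𝒪 hpN hpS hNS H h19 (stmt_Frob_of_kf0 hKF N p)

/-- **S32 from the frozen S19 alone.** -/
theorem result_of_s19 [Finite (IsLocalRing.ResidueField 𝒪)] [CharZero 𝒪]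
    (hp : p.Prime) (hp2 : p ≠ 2) (hp𝒪 : (p : 𝒪) ∈ IsLocalRing.maximalIdeal 𝒪) (hpN : ¬ p ∣ N)
    (hpS : p ∈ S) (hNS : ∀ q : ℕ, q.Prime → q ∣ N → q ∈ S)
    (H : CuspForm.HeckeGaloisRepDatum N (↑S : Set ℕ) 𝒪 θ T)
    (h19 : Stmt_S19) :
    H.ρ.IsFlatAt p :=
  result_of_kf0 hp hp2 hp𝒪 hpN hpS hNS H h19 stmt_KF0All

end Asm

end Fermat.Agent.S32.helper1215
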