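import Mathlib

set_option autoImplicit false

/-!
# S32 / UNIV: quadratic relations force factorisation through `M₂(T)`

`T` a commutative ring, `ρ : G →* M₂(T)` with `T[G] → M₂(T)` onto, `R` any `T`-algebra and
`ψ : G →* R` a monoid hom satisfying the Cayley–Hamilton relations
`ψ g * ψ g - tr (ρ g) • ψ g + det (ρ g) • 1 = 0` for all `g`.  Then the kernel of
`T[G] → M₂(T)` is contained in the kernel of `T[G] → R` (`QuadRel.ker_le`), so there is a
unique `T`-algebra hom `M₂(T) → R` with `ρ g ↦ ψ g` (`QuadRel.existsUnique_algHom`).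
The same for `End_T(V)` with `V` free of rank two (`QuadRelEnd.*`).
No division by two, no trace function on `R`, any commutative base ring.
-/

namespace Fermat.Agent.S32.helper1146

open Matrix

section TwoByTwo

variable {T : Type*} [CommRing T]

theorem det_add_fin_two (A B : Matrix (Fin 2) (Fin 2) T) :
    (A + B).det = A.det + B.det + A.trace * B.trace - (A * B).trace := by
  simp only [Matrix.det_fin_two, Matrix.trace_fin_two, Matrix.mul_apply, Fin.sum_univ_two,
    Matrix.add_apply]
  ring

theorem det_smul_fin_two (c : T) (A : Matrix (Fin 2) (Fin 2) T) :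
    (c • A).det = c ^ 2 * A.det := by
  simp only [Matrix.det_fin_two, Matrix.smul_apply, smul_eq_mul]
  ring

end TwoByTwo

section Univ

variable {T : Type*} [CommRing T] {G : Type*} [Group G] {R : Type*} [Ring R] [Algebra T R]

/-- The Cayley–Hamilton relations of `ρ` hold for `ψ`. -/
def QuadRel (ρ : G →* Matrix (Fin 2) (Fin 2) T) (ψ : G →* R) : Prop :=
  ∀ g : G, ψ g * ψ g - (ρ g).trace • ψ g + (ρ g).det • (1 : R) = 0

variable {ρ : G →* Matrix (Fin 2) (Fin 2) T} {ψ : G →* R}

theorem QuadRel.sq (h : QuadRel ρ ψ) (g : G) :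
    ψ g * ψ g = (ρ g).trace • ψ g - (ρ g).det • (1 : R) := by
  have := h g
  rw [sub_add, sub_eq_zero] at this
  exact this

/-- Polar identity on group elements. -/
theorem QuadRel.polar_group (h : QuadRel ρ ψ) (g k : G) :
    ψ g * ψ k + ψ k * ψ g = (ρ g).trace • ψ k + (ρ k).trace • ψ g
      - ((ρ g).trace * (ρ k).trace - (ρ (g * k)).trace) • (1 : R) := by
  have h1 : ψ g * ((ρ g).trace • (1 : R) - ψ g) = (ρ g).det • (1 : R) := by
    rw [mul_sub, mul_smul_comm, mul_one, h.sq g]; abel
  have h2 : ψ k * ((ρ k).trace • (1 : R) - ψ k) = (ρ k).det • (1 : R) := by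
    rw [mul_sub, mul_smul_comm, mul_one, h.sq k]; abel
  have h3 : (ψ k * ψ g) * (((ρ g).trace • (1 : R) - ψ g) * ((ρ k).trace • (1 : R) - ψ k))
      = ((ρ k).det * (ρ g).det) • (1 : R) := by
    calc (ψ k * ψ g) * (((ρ g).trace • (1 : R) - ψ g) * ((ρ k).trace • (1 : R) - ψ k))
        = ψ k * (ψ g * ((ρ g).trace • (1 : R) - ψ g)) * ((ρ k).trace • (1 : R) - ψ k) := by
          simp only [mul_assoc]
      _ = (ρ g).det • (ψ k * ((ρ k).trace • (1 : R) - ψ k)) := by
          rw [h1, mul_smul_comm, mul_one, smul_mul_assoc]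
      _ = ((ρ k).det * (ρ g).det) • (1 : R) := by
          rw [h2, smul_smul, mul_comm]
  have h4 : (ψ k * ψ g) * ((ρ (k * g)).trace • (1 : R) - ψ k * ψ g)
      = ((ρ k).det * (ρ g).det) • (1 : R) := by
    have h5 := h.sq (k * g)
    rw [map_mul ψ] at h5
    rw [mul_sub, mul_smul_comm, mul_one, h5, map_mul ρ, Matrix.det_mul]; abel
  have h6 : ψ (k * g)⁻¹ * (ψ k * ψ g) = 1 := by
    rw [← map_mul, ← map_mul, inv_mul_cancel, map_one]
  have h7 : ((ρ g).trace • (1 : R) - ψ g) * ((ρ k).trace • (1 : R) - ψ k)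
      = (ρ (k * g)).trace • (1 : R) - ψ k * ψ g := by
    have h8 := h3.trans h4.symm
    have h9 := congrArg (fun z => ψ (k * g)⁻¹ * z) h8
    simp only [← mul_assoc, h6, one_mul] at h9
    exact h9
  have h10 : (ρ (k * g)).trace = (ρ (g * k)).trace := by
    rw [map_mul, map_mul, Matrix.trace_mul_comm]
  rw [h10] at h7
  simp only [sub_mul, mul_sub, smul_mul_assoc, mul_smul_comm, one_mul, mul_one] at h7
  linear_combination (norm := module) h7

/-- The algebra map `T[G] → M₂(T)` induced by `ρ`. -/
local notation "Pm" => MonoidAlgebra.lift T (Matrix (Fin 2) (Fin 2) T) G ρ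
/-- The algebra map `T[G] → R` induced by `ψ`. -/
local notation "Lm" => MonoidAlgebra.lift T R G ψ

/-- Polar identity on the whole group algebra. -/
theorem QuadRel.polar (h : QuadRel ρ ψ) (x y : MonoidAlgebra T G) :
    Lm x * Lm y + Lm y * Lm x = (Pm x).trace • Lm y + (Pm y).trace • Lm x
      - ((Pm x).trace * (Pm y).trace - (Pm x * Pm y).trace) • (1 : R) := by
  induction x using MonoidAlgebra.induction_on with
  | of g =>
    induction y using MonoidAlgebra.induction_on with
    | of k =>
      simp only [MonoidAlgebra.lift_of]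
      rw [← map_mul ρ]
      exact h.polar_group g k
    | add y1 y2 h1 h2 =>
      simp only [map_add, mul_add, add_mul, Matrix.trace_add, add_smul, smul_add, sub_smul] at h1 h2 ⊢
      linear_combination (norm := module) h1 + h2
    | smul c y hy =>
      simp only [map_smul, mul_smul_comm, smul_mul_assoc, Matrix.trace_smul, smul_eq_mul] at hy ⊢
      linear_combination (norm := module) c • hy
  | add x1 x2 h1 h2 =>
    simp only [map_add, mul_add, add_mul, Matrix.trace_add, add_smul, smul_add, sub_smul] at h1 h2 ⊢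
    linear_combination (norm := module) h1 + h2
  | smul c x hx =>
    simp only [map_smul, mul_smul_comm, smul_mul_assoc, Matrix.trace_smul, smul_eq_mul] at hx ⊢
    linear_combination (norm := module) c • hx

/-- Cayley–Hamilton on the whole group algebra. -/
theorem QuadRel.sq_lift (h : QuadRel ρ ψ) (x : MonoidAlgebra T G) :
    Lm x * Lm x = (Pm x).trace • Lm x - (Pm x).det • (1 : R) := by
  induction x using MonoidAlgebra.induction_on with
  | of g =>
    simp only [MonoidAlgebra.lift_of]
    exact h.sq g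
  | add x y hx hy =>
    have hp := h.polar x y
    simp only [map_add, mul_add, add_mul, Matrix.trace_add, add_smul, smul_add, det_add_fin_two,
      sub_smul] at hx hy hp ⊢
    linear_combination (norm := module) hx + hy + hp
  | smul c x hx =>
    simp only [map_smul, mul_smul_comm, smul_mul_assoc, Matrix.trace_smul, det_smul_fin_two,
      smul_eq_mul] at hx ⊢
    linear_combination (norm := module) (c ^ 2) • hx

/-- Polar identity against an element of the kernel of `T[G] → M₂(T)`. -/
theorem QuadRel.polar_ker (h : QuadRel ρ ψ) (z y : MonoidAlgebra T G) (hz : Pm z = 0) :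
    Lm z * Lm y + Lm y * Lm z = (Pm y).trace • Lm z := by
  have := h.polar z y
  rw [hz] at this
  simpa using this

/-- **UNIV**: the kernel of `T[G] → M₂(T)` is killed by `T[G] → R`. -/
theorem QuadRel.ker_le (h : QuadRel ρ ψ) (hsurj : Function.Surjective Pm)
    (x : MonoidAlgebra T G) (hx : Pm x = 0) : Lm x = 0 := by
  obtain ⟨e, he⟩ := hsurj !![1, 0; 0, 0]
  obtain ⟨u, hu⟩ := hsurj !![0, 1; 0, 0]
  obtain ⟨v, hv⟩ := hsurj !![0, 0; 1, 0]
  have ee : Lm e * Lm e = Lm e := by
    have := h.sq_lift e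
    rw [he] at this
    simpa [Matrix.trace_fin_two_of, Matrix.det_fin_two_of] using this
  have uu : Lm u * Lm u = 0 := by
    have := h.sq_lift u
    rw [hu] at this
    simpa [Matrix.trace_fin_two_of, Matrix.det_fin_two_of] using this
  have vv : Lm v * Lm v = 0 := by
    have := h.sq_lift v
    rw [hv] at this
    simpa [Matrix.trace_fin_two_of, Matrix.det_fin_two_of] using this
  have uv : Lm u * Lm v + Lm v * Lm u = 1 := by
    have := h.polar u v
    rw [hu, hv, Matrix.mul_fin_two] at this
    simpa [Matrix.trace_fin_two_of] using this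
  have eu : Lm e * Lm u + Lm u * Lm e = Lm u := by
    have := h.polar e u
    rw [he, hu, Matrix.mul_fin_two] at this
    simpa [Matrix.trace_fin_two_of] using this
  have ev : Lm e * Lm v + Lm v * Lm e = Lm v := by
    have := h.polar e v
    rw [he, hv, Matrix.mul_fin_two] at this
    simpa [Matrix.trace_fin_two_of] using this
  -- `u * e` lies in the kernel
  have h1 : Lm u * Lm e * Lm v + Lm v * (Lm u * Lm e) = 0 := by
    have hz : Pm (u * e) = 0 := by
      rw [map_mul, hu, he, Matrix.mul_fin_two]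
      ext i j; fin_cases i <;> fin_cases j <;> simp
    have := h.polar_ker (u * e) v hz
    rw [hv, map_mul] at this
    simpa [Matrix.trace_fin_two_of] using this
  have hE : Lm e = Lm u * (Lm v * Lm e - Lm e * Lm v) := by
    calc Lm e = (Lm u * Lm v + Lm v * Lm u) * Lm e := by rw [uv, one_mul]
      _ = Lm u * (Lm v * Lm e - Lm e * Lm v) + (Lm u * Lm e * Lm v + Lm v * (Lm u * Lm e)) := by
          noncomm_ring
      _ = _ := by rw [h1, add_zero]
  have UE : Lm u * Lm e = 0 := by
    calc Lm u * Lm e = Lm u * (Lm u * (Lm v * Lm e - Lm e * Lm v)) := by rw [← hE]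
      _ = (Lm u * Lm u) * (Lm v * Lm e - Lm e * Lm v) := by rw [mul_assoc]
      _ = 0 := by rw [uu, zero_mul]
  -- `e * v` lies in the kernel
  have h2 : Lm e * Lm v * Lm u + Lm u * (Lm e * Lm v) = 0 := by
    have hz : Pm (e * v) = 0 := by
      rw [map_mul, he, hv, Matrix.mul_fin_two]
      ext i j; fin_cases i <;> fin_cases j <;> simp
    have := h.polar_ker (e * v) u hz
    rw [hu, map_mul] at this
    simpa [Matrix.trace_fin_two_of] using this
  have hE' : Lm e = (Lm e * Lm u - Lm u * Lm e) * Lm v := by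
    calc Lm e = Lm e * (Lm u * Lm v + Lm v * Lm u) := by rw [uv, mul_one]
      _ = (Lm e * Lm u - Lm u * Lm e) * Lm v + (Lm e * Lm v * Lm u + Lm u * (Lm e * Lm v)) := by
          noncomm_ring
      _ = _ := by rw [h2, add_zero]
  have EV : Lm e * Lm v = 0 := by
    calc Lm e * Lm v = ((Lm e * Lm u - Lm u * Lm e) * Lm v) * Lm v := by rw [← hE']
      _ = (Lm e * Lm u - Lm u * Lm e) * (Lm v * Lm v) := by rw [mul_assoc]
      _ = 0 := by rw [vv, mul_zero]
  have VE : Lm v * Lm e = Lm v := by
    rw [EV, zero_add] at ev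
    exact ev
  have E_eq : Lm e = Lm u * Lm v := by
    rw [VE, EV, sub_zero] at hE
    exact hE
  have F_eq : 1 - Lm e = Lm v * Lm u := by
    rw [E_eq, ← uv]; abel
  -- now the general element of the kernel
  have xe : Lm x * Lm e + Lm e * Lm x = Lm x := by
    have := h.polar_ker x e hx
    rw [he] at this
    simpa [Matrix.trace_fin_two_of] using this
  have xu : Lm x * Lm u + Lm u * Lm x = 0 := by
    have := h.polar_ker x u hx
    rw [hu] at this
    simpa [Matrix.trace_fin_two_of] using this
  have xv : Lm x * Lm v + Lm v * Lm x = 0 := by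
    have := h.polar_ker x v hx
    rw [hv] at this
    simpa [Matrix.trace_fin_two_of] using this
  have EXE : Lm e * Lm x * Lm e = 0 := by
    have h3 : Lm e * Lm x * Lm e + Lm e * Lm x = Lm e * Lm x := by
      calc Lm e * Lm x * Lm e + Lm e * Lm x
          = Lm e * Lm x * Lm e + (Lm e * Lm e) * Lm x := by rw [ee]
        _ = Lm e * (Lm x * Lm e + Lm e * Lm x) := by noncomm_ring
        _ = Lm e * Lm x := by rw [xe]
    exact add_eq_right.mp h3
  have vx : Lm v * Lm x = -(Lm x * Lm v) := by
    rw [eq_neg_iff_add_eq_zero, add_comm]; exact xv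
  have ux : Lm u * Lm x = -(Lm x * Lm u) := by
    rw [eq_neg_iff_add_eq_zero, add_comm]; exact xu
  have EXF : (Lm u * Lm v) * Lm x * (Lm v * Lm u) = 0 := by
    calc (Lm u * Lm v) * Lm x * (Lm v * Lm u)
        = Lm u * (Lm v * Lm x) * Lm v * Lm u := by simp only [mul_assoc]
      _ = -(Lm u * Lm x * (Lm v * Lm v) * Lm u) := by rw [vx]; noncomm_ring
      _ = 0 := by rw [vv]; simp
  have FXE : (Lm v * Lm u) * Lm x * (Lm u * Lm v) = 0 := by
    calc (Lm v * Lm u) * Lm x * (Lm u * Lm v)
        = Lm v * (Lm u * Lm x) * Lm u * Lm v := by simp only [mul_assoc]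
      _ = -(Lm v * Lm x * (Lm u * Lm u) * Lm v) := by rw [ux]; noncomm_ring
      _ = 0 := by rw [uu]; simp
  have key : Lm x = Lm e * Lm x * Lm e + (Lm u * Lm v) * Lm x * (Lm v * Lm u)
      + (Lm v * Lm u) * Lm x * (Lm u * Lm v)
      + (Lm x - (Lm x * Lm e + Lm e * Lm x) + Lm e * Lm x * Lm e) := by
    rw [← E_eq, ← F_eq]; noncomm_ring
  rw [key, EXE, EXF, FXE, xe]; simp

/-- Two elements of `T[G]` with the same image in `M₂(T)` have the same image in `R`. -/
theorem QuadRel.lift_eq_of_eq (h : QuadRel ρ ψ) (hsurj : Function.Surjective Pm)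
    {x y : MonoidAlgebra T G} (hxy : Pm x = Pm y) : Lm x = Lm y := by
  have := h.ker_le hsurj (x - y) (by rw [map_sub, hxy, sub_self])
  rwa [map_sub, sub_eq_zero] at this

/-- The `T`-algebra hom `M₂(T) → R` through which `ψ` factors. -/
noncomputable def QuadRel.algHom (h : QuadRel ρ ψ) (hsurj : Function.Surjective Pm) :
    Matrix (Fin 2) (Fin 2) T →ₐ[T] R where
  toFun A := Lm (Function.surjInv hsurj A)
  map_one' := by
    rw [← map_one Lm]
    exact h.lift_eq_of_eq hsurj (by rw [Function.surjInv_eq hsurj, map_one])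
  map_mul' A B := by
    rw [← map_mul Lm]
    exact h.lift_eq_of_eq hsurj (by simp only [map_mul, Function.surjInv_eq hsurj])
  map_zero' := by
    rw [← map_zero Lm]
    exact h.lift_eq_of_eq hsurj (by rw [Function.surjInv_eq hsurj, map_zero])
  map_add' A B := by
    rw [← map_add Lm]
    exact h.lift_eq_of_eq hsurj (by simp only [map_add, Function.surjInv_eq hsurj])
  commutes' t := by
    rw [← AlgHom.commutes Lm t]
    exact h.lift_eq_of_eq hsurj (by rw [Function.surjInv_eq hsurj, AlgHom.commutes])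

theorem QuadRel.algHom_lift (h : QuadRel ρ ψ) (hsurj : Function.Surjective Pm)
    (x : MonoidAlgebra T G) : h.algHom hsurj (Pm x) = Lm x :=
  h.lift_eq_of_eq hsurj (Function.surjInv_eq hsurj _)

theorem QuadRel.algHom_apply (h : QuadRel ρ ψ) (hsurj : Function.Surjective Pm) (g : G) :
    h.algHom hsurj (ρ g) = ψ g := by
  have := h.algHom_lift hsurj (MonoidAlgebra.of T G g)
  rwa [MonoidAlgebra.lift_of, MonoidAlgebra.lift_of] at this

/-- Uniqueness: a `T`-algebra hom out of `M₂(T)` is determined by its values on `ρ g`. -/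
theorem algHom_ext_of_surjective (hsurj : Function.Surjective Pm)
    {φ₁ φ₂ : Matrix (Fin 2) (Fin 2) T →ₐ[T] R} (hφ : ∀ g, φ₁ (ρ g) = φ₂ (ρ g)) : φ₁ = φ₂ := by
  have key : ∀ x : MonoidAlgebra T G, φ₁ (Pm x) = φ₂ (Pm x) := by
    intro x
    induction x using MonoidAlgebra.induction_on with
    | of g => simp only [MonoidAlgebra.lift_of, hφ]
    | add x y hx hy => simp only [map_add, hx, hy]
    | smul c x hx => simp only [map_smul, hx]
  refine AlgHom.ext fun A => ?_
  obtain ⟨x, rfl⟩ := hsurj A
  exact key x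

/-- **UNIV**, factorisation form. -/
theorem QuadRel.existsUnique_algHom (h : QuadRel ρ ψ) (hsurj : Function.Surjective Pm) :
    ∃! φ : Matrix (Fin 2) (Fin 2) T →ₐ[T] R, ∀ g, φ (ρ g) = ψ g :=
  ⟨h.algHom hsurj, h.algHom_apply hsurj, fun φ hφ =>
    algHom_ext_of_surjective hsurj fun g => by rw [hφ g, h.algHom_apply hsurj g]⟩

/-- If moreover `T[G] → R` is onto, so is the induced map `M₂(T) → R`. -/
theorem QuadRel.algHom_surjective (h : QuadRel ρ ψ) (hsurj : Function.Surjective Pm)
    (hL : Function.Surjective Lm) : Function.Surjective (h.algHom hsurj) := by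
  intro r
  obtain ⟨x, rfl⟩ := hL r
  exact ⟨Pm x, h.algHom_lift hsurj x⟩

end Univ

section EndVersion

variable {T : Type*} [CommRing T] {G : Type*} [Group G] {R : Type*} [Ring R] [Algebra T R]
  {V : Type*} [AddCommGroup V] [Module T V]

/-- The Cayley–Hamilton relations of `ρ : G →* End_T(V)` hold for `ψ`. -/
def QuadRelEnd (ρ : G →* Module.End T V) (ψ : G →* R) : Prop :=
  ∀ g : G, ψ g * ψ g - LinearMap.trace T V (ρ g) • ψ g + LinearMap.det (ρ g) • (1 : R) = 0

variable {ρ : G →* Module.End T V} {ψ : G →* R}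

/-- The matrix representation attached to `ρ` and a basis. -/
noncomputable def matRep (b : Module.Basis (Fin 2) T V) (ρ : G →* Module.End T V) :
    G →* Matrix (Fin 2) (Fin 2) T :=
  ((LinearMap.toMatrixAlgEquiv b : Module.End T V ≃ₐ[T] Matrix (Fin 2) (Fin 2) T) :
    Module.End T V →* Matrix (Fin 2) (Fin 2) T).comp ρ

theorem matRep_apply (b : Module.Basis (Fin 2) T V) (ρ : G →* Module.End T V) (g : G) :
    matRep b ρ g = LinearMap.toMatrixAlgEquiv b (ρ g) := rfl

theorem lift_matRep (b : Module.Basis (Fin 2) T V) (ρ : G →* Module.End T V)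
    (x : MonoidAlgebra T G) :
    MonoidAlgebra.lift T (Matrix (Fin 2) (Fin 2) T) G (matRep b ρ) x
      = LinearMap.toMatrixAlgEquiv b (MonoidAlgebra.lift T (Module.End T V) G ρ x) := by
  induction x using MonoidAlgebra.induction_on with
  | of g => simp only [MonoidAlgebra.lift_of, matRep_apply]
  | add x y hx hy => simp only [map_add, hx, hy]
  | smul c x hx => simp only [map_smul, hx]

theorem QuadRelEnd.quadRel (b : Module.Basis (Fin 2) T V) (h : QuadRelEnd ρ ψ) :
    QuadRel (matRep b ρ) ψ := by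
  intro g
  have h1 : (matRep b ρ g).trace = LinearMap.trace T V (ρ g) :=
    (LinearMap.trace_eq_matrix_trace T b (ρ g)).symm
  have h2 : (matRep b ρ g).det = LinearMap.det (ρ g) :=
    LinearMap.det_toMatrix b (ρ g)
  rw [h1, h2]
  exact h g

theorem lift_matRep_surjective (b : Module.Basis (Fin 2) T V)
    (hsurj : Function.Surjective (MonoidAlgebra.lift T (Module.End T V) G ρ)) :
    Function.Surjective (MonoidAlgebra.lift T (Matrix (Fin 2) (Fin 2) T) G (matRep b ρ)) := by
  intro A
  obtain ⟨x, hx⟩ := hsurj ((LinearMap.toMatrixAlgEquiv b).symm A)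
  exact ⟨x, by rw [lift_matRep, hx, AlgEquiv.apply_symm_apply]⟩

/-- **UNIV** for `End_T(V)`, `V` free of rank two: kernel form. -/
theorem QuadRelEnd.ker_le (b : Module.Basis (Fin 2) T V) (h : QuadRelEnd ρ ψ)
    (hsurj : Function.Surjective (MonoidAlgebra.lift T (Module.End T V) G ρ))
    (x : MonoidAlgebra T G) (hx : MonoidAlgebra.lift T (Module.End T V) G ρ x = 0) :
    MonoidAlgebra.lift T R G ψ x = 0 :=
  (h.quadRel b).ker_le (lift_matRep_surjective b hsurj) x (by rw [lift_matRep, hx, map_zero])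

/-- **UNIV** for `End_T(V)`, `V` free of rank two: factorisation form. -/
theorem QuadRelEnd.existsUnique_algHom (b : Module.Basis (Fin 2) T V) (h : QuadRelEnd ρ ψ)
    (hsurj : Function.Surjective (MonoidAlgebra.lift T (Module.End T V) G ρ)) :
    ∃! φ : Module.End T V →ₐ[T] R, ∀ g, φ (ρ g) = ψ g := by
  obtain ⟨φ', hφ', huniq⟩ := (h.quadRel b).existsUnique_algHom (lift_matRep_surjective b hsurj)
  refine ⟨φ'.comp (LinearMap.toMatrixAlgEquiv b).toAlgHom, fun g => hφ' g, fun φ hφ => ?_⟩
  have h1 : φ.comp (LinearMap.toMatrixAlgEquiv b).symm.toAlgHom = φ' := by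
    apply huniq
    intro g
    rw [AlgHom.comp_apply, matRep_apply]
    exact (congrArg φ ((LinearMap.toMatrixAlgEquiv b).symm_apply_apply (ρ g))).trans (hφ g)
  rw [← h1]
  ext v
  simp

/-- The factorisation `End_T(V) → R` satisfies `φ (lift ρ x) = lift ψ x`, and is onto as soon as
`T[G] → R` is. -/
theorem QuadRelEnd.exists_algHom_lift (b : Module.Basis (Fin 2) T V) (h : QuadRelEnd ρ ψ)
    (hsurj : Function.Surjective (MonoidAlgebra.lift T (Module.End T V) G ρ)) :
    ∃ φ : Module.End T V →ₐ[T] R, (∀ g, φ (ρ g) = ψ g) ∧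
      (∀ x : MonoidAlgebra T G, φ (MonoidAlgebra.lift T (Module.End T V) G ρ x)
        = MonoidAlgebra.lift T R G ψ x) ∧
      (Function.Surjective (MonoidAlgebra.lift T R G ψ) → Function.Surjective φ) := by
  obtain ⟨φ, hφ, -⟩ := h.existsUnique_algHom b hsurj
  have key : ∀ x : MonoidAlgebra T G, φ (MonoidAlgebra.lift T (Module.End T V) G ρ x)
      = MonoidAlgebra.lift T R G ψ x := by
    intro x
    induction x using MonoidAlgebra.induction_on with
    | of g => simp only [MonoidAlgebra.lift_of, hφ]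
    | add x y hx hy => simp only [map_add, hx, hy]
    | smul c x hx => simp only [map_smul, hx]
  refine ⟨φ, hφ, key, fun hL r => ?_⟩
  obtain ⟨x, rfl⟩ := hL r
  exact ⟨_, key x⟩

end EndVersion

end Fermat.Agent.S32.helper1146
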