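import Mathlib
import Fermat.Agent.S32.helper1146_Univ

set_option autoImplicit false

/-!
# S32 / FIN-CARAYOL (finite-level Carayol lemma), on top of UNIV

`B` a commutative ring, `π' : B → T'` onto with nilpotent kernel `𝔞` (e.g. `B` finite local,
`T' ≠ 0`), `M` a finite faithful `B`-module with a `B`-linear action `ρM` of a group `G`,
`ρ' : G →* M₂(T')` with `T'[G] → M₂(T')` onto, and for every `g` elements `t d : B` with
`g² - t g + d = 0` on `M`, `π' t = tr ρ' g`, `π' d = det ρ' g`.  Then `T'²` with the action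
of `G` through `ρ'` is an equivariant additive quotient of a `G`-stable `B`-submodule of a
finite power of `M` (`exists_submodule_of_quad`, `exists_addSubgroup_of_quad`).

Route: `E :=` the `B`-subalgebra of `End_B M` spanned by `G`; `J := 𝔞 E` is a two-sided ideal
with nilpotent elements; `E ⧸ J` is a `T'`-algebra and UNIV gives a surjection
`φ : M₂(T') → E ⧸ J`.  Lifting the single idempotent `φ E₁₁` to `e ∈ E` one gets
`e E e = B e` and `b e = 0 → b = 0`, whence `φ` is injective; the first column of `φ⁻¹`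
is the equivariant surjection `E → T'²`, and `E` embeds in `M^k` by evaluation on generators.
-/

namespace Fermat.Agent.S32.helper1146

open Matrix

section ExtIdeal

variable {B : Type*} [CommRing B] {E : Type*} [Ring E] [Algebra B E]

/-- The two-sided ideal `𝔞E` of a `B`-algebra `E`. -/
def extIdeal (E : Type*) [Ring E] [Algebra B E] (𝔞 : Ideal B) : Ideal E where
  carrier := {x | x ∈ 𝔞 • (⊤ : Submodule B E)}
  add_mem' := fun {x y} hx hy =>
    show x + y ∈ 𝔞 • (⊤ : Submodule B E) from Submodule.add_mem _ hx hy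
  zero_mem' := show (0 : E) ∈ 𝔞 • (⊤ : Submodule B E) from Submodule.zero_mem _
  smul_mem' := by
    intro c x hx
    show c * x ∈ 𝔞 • (⊤ : Submodule B E)
    refine Submodule.smul_induction_on hx ?_ ?_
    · intro a ha y _
      rw [mul_smul_comm]
      exact Submodule.smul_mem_smul ha Submodule.mem_top
    · intro y z hy hz
      rw [mul_add]
      exact Submodule.add_mem _ hy hz

theorem mem_extIdeal {𝔞 : Ideal B} {x : E} :
    x ∈ extIdeal E 𝔞 ↔ x ∈ 𝔞 • (⊤ : Submodule B E) := ⟨fun h => h, fun h => h⟩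

instance extIdeal_isTwoSided (𝔞 : Ideal B) : (extIdeal E 𝔞).IsTwoSided :=
  ⟨by
    intro x c hx
    rw [mem_extIdeal] at hx ⊢
    refine Submodule.smul_induction_on hx ?_ ?_
    · intro a ha y _
      rw [smul_mul_assoc]
      exact Submodule.smul_mem_smul ha Submodule.mem_top
    · intro y z hy hz
      rw [add_mul]
      exact Submodule.add_mem _ hy hz⟩

theorem smul_mem_extIdeal {𝔞 : Ideal B} {a : B} (ha : a ∈ 𝔞) (x : E) : a • x ∈ extIdeal E 𝔞 :=
  mem_extIdeal.mpr (Submodule.smul_mem_smul ha Submodule.mem_top)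

/-- Products: `(I E) (I' E) ⊆ (I I') E`. -/
theorem mul_mem_smul_top {I I' : Ideal B} {x y : E} (hx : x ∈ I • (⊤ : Submodule B E))
    (hy : y ∈ I' • (⊤ : Submodule B E)) : x * y ∈ (I * I') • (⊤ : Submodule B E) := by
  refine Submodule.smul_induction_on hx ?_ ?_
  · intro a ha x' _
    refine Submodule.smul_induction_on hy ?_ ?_
    · intro a' ha' y' _
      rw [smul_mul_smul_comm]
      exact Submodule.smul_mem_smul (Ideal.mul_mem_mul ha ha') Submodule.mem_top
    · intro y' z' hy' hz'
      rw [mul_add]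
      exact Submodule.add_mem _ hy' hz'
  · intro x' z' hx' hz'
    rw [add_mul]
    exact Submodule.add_mem _ hx' hz'

theorem pow_mem_smul_top {𝔞 : Ideal B} {x : E} (hx : x ∈ 𝔞 • (⊤ : Submodule B E)) (n : ℕ) :
    x ^ n ∈ (𝔞 ^ n) • (⊤ : Submodule B E) := by
  induction n with
  | zero => simp
  | succ n ih =>
    rw [pow_succ, pow_succ]
    exact mul_mem_smul_top ih hx

/-- Elements of `𝔞E` are nilpotent when `𝔞` is. -/
theorem isNilpotent_of_mem_extIdeal {𝔞 : Ideal B} (hnil : IsNilpotent 𝔞) {x : E}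
    (hx : x ∈ extIdeal E 𝔞) : IsNilpotent x := by
  obtain ⟨n, hn⟩ := hnil
  refine ⟨n, ?_⟩
  have := pow_mem_smul_top (mem_extIdeal.mp hx) n
  rw [hn] at this
  simpa using this

end ExtIdeal

section Descend

variable {B : Type*} [CommRing B] {T' : Type*} [CommRing T'] (π' : B →+* T')
  (hπ' : Function.Surjective π') (R : Type*) [Ring R] [Algebra B R]

/-- Descend a `B`-algebra structure along a surjection `B → T'` whose kernel acts trivially. -/
@[reducible] noncomputable def algebraOfSurjective
    (hker : ∀ b : B, π' b = 0 → algebraMap B R b = 0) : Algebra T' R :=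
  RingHom.toAlgebra'
    (RingHom.liftOfSurjective π' hπ'
      ⟨algebraMap B R, fun b hb => RingHom.mem_ker.mpr (hker b (RingHom.mem_ker.mp hb))⟩)
    (by
      intro t x
      obtain ⟨b, rfl⟩ := hπ' t
      rw [RingHom.liftOfSurjective_comp_apply]
      exact Algebra.commutes b x)

theorem algebraOfSurjective_smul (hker : ∀ b : B, π' b = 0 → algebraMap B R b = 0)
    (b : B) (r : R) :
    letI := algebraOfSurjective π' hπ' R hker
    (π' b) • r = b • r := by
  let _ := algebraOfSurjective π' hπ' R hker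
  rw [Algebra.smul_def, Algebra.smul_def]
  congr 1
  exact RingHom.liftOfSurjective_comp_apply π' hπ' _ b

end Descend

section Abstract

variable {B : Type*} [CommRing B] {T' : Type*} [CommRing T'] {E : Type*} [Ring E] [Algebra B E]
  {R : Type*} [Ring R] [Algebra B R] [Algebra T' R] {G : Type*} [Group G]

theorem exists_addHom_of_quad_aux
    (π' : B →+* T') (hπ' : Function.Surjective π') (hnil : IsNilpotent (RingHom.ker π'))
    (hsmul : ∀ (b : B) (r : R), π' b • r = b • r)
    (mk : E →ₐ[B] R) (hmk : Function.Surjective mk)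
    (hmkker : ∀ x, mk x = 0 → x ∈ (RingHom.ker π') • (⊤ : Submodule B E))
    (hinj : Function.Injective (algebraMap B E))
    (ρE : G →* E) (hspan : Function.Surjective (MonoidAlgebra.lift B E G ρE))
    (ρ' : G →* Matrix (Fin 2) (Fin 2) T')
    (hsurj : Function.Surjective (MonoidAlgebra.lift T' (Matrix (Fin 2) (Fin 2) T') G ρ'))
    (hquad : ∀ g, ∃ t d : B, ρE g * ρE g - t • ρE g + d • (1 : E) = 0 ∧
      π' t = (ρ' g).trace ∧ π' d = (ρ' g).det) :
    ∃ Λ : E →+ (Fin 2 → T'), Function.Surjective Λ ∧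
      (∀ g x, Λ (ρE g * x) = (ρ' g) *ᵥ Λ x) ∧ (∀ (b : B) x, Λ (b • x) = π' b • Λ x) := by
  classical
  -- the representation into `R`
  let ψ : G →* R := (mk : E →* R).comp ρE
  have hψapp : ∀ g, ψ g = mk (ρE g) := fun g => rfl
  have hψ : QuadRel ρ' ψ := by
    intro g
    obtain ⟨t, d, h1, h2, h3⟩ := hquad g
    rw [← h2, ← h3, hsmul, hsmul, hψapp]
    have := congrArg mk h1
    rw [map_add, map_sub, map_mul, map_smul, map_smul, map_one, map_zero] at this
    exact this
  have hL : Function.Surjective (MonoidAlgebra.lift T' R G ψ) := by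
    intro r
    obtain ⟨x, rfl⟩ := hmk r
    obtain ⟨y, rfl⟩ := hspan x
    induction y using MonoidAlgebra.induction_on with
    | of g =>
      exact ⟨MonoidAlgebra.of T' G g, by
        rw [MonoidAlgebra.lift_of, MonoidAlgebra.lift_of]; exact hψapp g⟩
    | add y z hy hz =>
      obtain ⟨a, ha⟩ := hy
      obtain ⟨b, hb⟩ := hz
      exact ⟨a + b, by rw [map_add, ha, hb, map_add, map_add]⟩
    | smul c y hy =>
      obtain ⟨a, ha⟩ := hy
      exact ⟨π' c • a, by rw [map_smul, ha, hsmul, map_smul, map_smul]⟩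
  let φ : Matrix (Fin 2) (Fin 2) T' →ₐ[T'] R := hψ.algHom hsurj
  have hφsurj : Function.Surjective φ := hψ.algHom_surjective hsurj hL
  have hφρ : ∀ g, φ (ρ' g) = mk (ρE g) := hψ.algHom_apply hsurj
  -- elements of the kernel of `mk` are nilpotent
  have hkernil : ∀ x : E, mk x = 0 → IsNilpotent x := by
    intro x hx
    obtain ⟨n, hn⟩ := hnil
    refine ⟨n, ?_⟩
    have := pow_mem_smul_top (hmkker x hx) n
    rw [hn] at this
    simpa using this
  -- lift the idempotent `φ E11`
  have hid : IsIdempotentElem (φ (Matrix.single 0 0 1)) := by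
    unfold IsIdempotentElem
    rw [← map_mul, Matrix.single_mul_single_same, mul_one]
  obtain ⟨e, he, hemk⟩ := exists_isIdempotentElem_eq_of_ker_isNilpotent (mk : E →+* R)
    (fun x hx => hkernil x (RingHom.mem_ker.mp hx)) (φ (Matrix.single 0 0 1))
    (by obtain ⟨x, hx⟩ := hmk (φ (Matrix.single 0 0 1)); exact ⟨x, hx⟩) hid
  have hemk' : mk e = φ (Matrix.single 0 0 1) := hemk
  obtain ⟨u, hu⟩ := hmk (φ (Matrix.single 0 1 1))
  obtain ⟨v, hv⟩ := hmk (φ (Matrix.single 1 0 1))
  -- (1) `b • e = 0 → b = 0`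
  have hj : mk (1 - e - v * e * u) = 0 := by
    rw [map_sub, map_sub, map_mul, map_mul, map_one, hemk', hu, hv, ← map_mul, ← map_mul,
      ← map_one φ, ← map_sub, ← map_sub]
    have : (1 : Matrix (Fin 2) (Fin 2) T') - Matrix.single 0 0 1
        - Matrix.single 1 0 1 * Matrix.single 0 0 1 * Matrix.single 0 1 1 = 0 := by
      ext i j
      fin_cases i <;> fin_cases j <;> simp
    rw [this, map_zero]
  have h1 : ∀ b : B, b • e = 0 → b = 0 := by
    intro b hb
    obtain ⟨n, hn⟩ := hkernil _ hj
    have h2 : b • (1 : E) = b • (1 - e - v * e * u) := by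
      have h3 : b • (v * e * u) = v * (b • e) * u := by
        rw [mul_smul_comm, smul_mul_assoc]
      rw [smul_sub, smul_sub, hb, h3, hb, mul_zero, zero_mul, sub_zero, sub_zero]
    have key : ∀ k : ℕ, b • (1 : E) = b • (1 - e - v * e * u) ^ k := by
      intro k
      induction k with
      | zero => rw [pow_zero]
      | succ k ih =>
        calc b • (1 : E) = b • (1 - e - v * e * u) ^ k := ih
          _ = (b • (1 : E)) * (1 - e - v * e * u) ^ k := by rw [smul_mul_assoc, one_mul]
          _ = (b • (1 - e - v * e * u)) * (1 - e - v * e * u) ^ k := by rw [← h2]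
          _ = b • (1 - e - v * e * u) ^ (k + 1) := by rw [smul_mul_assoc, ← pow_succ']
    have h4 : b • (1 : E) = 0 := by rw [key n, hn, smul_zero]
    apply hinj
    rw [map_zero, Algebra.algebraMap_eq_smul_one]
    exact h4
  -- (2) `e E e = B e`
  let Θ : E →ₗ[B] E := (LinearMap.mulLeft B e).comp (LinearMap.mulRight B e)
  have hΘ : ∀ y, Θ y = e * (y * e) := fun y => rfl
  have F1 : ∀ x : E, mk x = 0 → Θ x ∈ (RingHom.ker π') • (LinearMap.range Θ) := by
    intro x hx
    refine Submodule.smul_induction_on (hmkker x hx) ?_ ?_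
    · intro a ha y _
      rw [map_smul]
      exact Submodule.smul_mem_smul ha (LinearMap.mem_range_self Θ y)
    · intro y z hy hz
      rw [map_add]
      exact Submodule.add_mem _ hy hz
  have F2 : ∀ y : E, ∃ b : B, mk (Θ y - b • e) = 0 := by
    intro y
    obtain ⟨A, hA⟩ := hφsurj (mk y)
    obtain ⟨b, hb⟩ := hπ' (A 0 0)
    refine ⟨b, ?_⟩
    rw [hΘ, map_sub, map_mul, map_mul, map_smul, hemk', ← hA, ← hsmul, hb, ← map_mul, ← map_mul,
      ← map_smul, ← map_sub, ← mul_assoc, Matrix.single_mul_mul_single, Matrix.smul_single]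
    simp
  have F3 : LinearMap.range Θ ≤ Submodule.span B {e} ⊔ (RingHom.ker π') • (LinearMap.range Θ) := by
    rintro w ⟨y, rfl⟩
    obtain ⟨b, hb⟩ := F2 y
    have h5 := F1 _ hb
    have h4 : Θ (Θ y - b • e) = Θ y - b • e := by
      have a1 : Θ (Θ y) = Θ y := by
        rw [hΘ, hΘ]
        calc e * (e * (y * e) * e) = (e * e) * (y * (e * e)) := by simp only [mul_assoc]
          _ = e * (y * e) := by rw [he.eq]
      have a2 : Θ e = e := by rw [hΘ, he.eq, he.eq]
      rw [map_sub, map_smul, a1, a2]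
    rw [h4] at h5
    have h6 : Θ y = b • e + (Θ y - b • e) := by abel
    rw [h6]
    exact Submodule.add_mem_sup (Submodule.smul_mem _ _ (Submodule.mem_span_singleton_self e)) h5
  have F4 : ∀ k : ℕ, LinearMap.range Θ ≤
      Submodule.span B {e} ⊔ ((RingHom.ker π') ^ k) • (LinearMap.range Θ) := by
    intro k
    induction k with
    | zero => simp
    | succ k ih =>
      calc LinearMap.range Θ
          ≤ Submodule.span B {e} ⊔ ((RingHom.ker π') ^ k) • (LinearMap.range Θ) := ih
        _ ≤ Submodule.span B {e} ⊔ ((RingHom.ker π') ^ k) •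
              (Submodule.span B {e} ⊔ (RingHom.ker π') • (LinearMap.range Θ)) :=
            sup_le_sup_left (Submodule.smul_mono le_rfl F3) _
        _ ≤ Submodule.span B {e} ⊔ ((RingHom.ker π') ^ (k + 1)) • (LinearMap.range Θ) := by
            rw [Submodule.smul_sup, pow_succ, Submodule.mul_smul]
            exact sup_le le_sup_left
              (sup_le (le_sup_of_le_left Submodule.smul_le_right) le_sup_right)
  have F5 : LinearMap.range Θ ≤ Submodule.span B {e} := by
    obtain ⟨n, hn⟩ := hnil
    have := F4 n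
    rw [hn] at this
    simpa using this
  -- (3) `φ` is injective
  have hent : ∀ t' : T', φ (Matrix.single 0 0 t') = 0 → t' = 0 := by
    intro t' ht
    obtain ⟨b, rfl⟩ := hπ' t'
    have h7 : mk (b • e) = 0 := by
      rw [map_smul, hemk', ← hsmul, ← map_smul, Matrix.smul_single, smul_eq_mul, mul_one]
      exact ht
    have h8 := F1 _ h7
    have h9 : Θ (b • e) = b • e := by rw [map_smul, hΘ, he.eq, he.eq]
    rw [h9] at h8
    have h10 : b • e ∈ (RingHom.ker π') • Submodule.span B {e} :=
      Submodule.smul_mono le_rfl F5 h8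
    rw [Submodule.mem_smul_span_singleton] at h10
    obtain ⟨a, ha, hae⟩ := h10
    have h11 : (b - a) • e = 0 := by rw [sub_smul, hae, sub_self]
    have h12 := h1 _ h11
    rw [sub_eq_zero] at h12
    rw [h12]
    exact RingHom.mem_ker.mp ha
  have hφinj : Function.Injective φ := by
    rw [injective_iff_map_eq_zero]
    intro A hA
    ext i j
    have h13 : φ (Matrix.single 0 0 (A i j)) = 0 := by
      have h14 : Matrix.single (0 : Fin 2) i (1 : T') * A * Matrix.single j (0 : Fin 2) (1 : T')
          = Matrix.single (0 : Fin 2) (0 : Fin 2) (A i j) := by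
        rw [Matrix.single_mul_mul_single, one_mul, mul_one]
      rw [← h14, map_mul, map_mul, hA, mul_zero, zero_mul]
    simpa using hent _ h13
  -- the equivariant surjection
  let φe : Matrix (Fin 2) (Fin 2) T' ≃ₐ[T'] R := AlgEquiv.ofBijective φ ⟨hφinj, hφsurj⟩
  have hφe : ∀ A, φe A = φ A := fun A => rfl
  let Λ : E →+ (Fin 2 → T') :=
    { toFun := fun x i => φe.symm (mk x) i 0
      map_zero' := by funext i; simp
      map_add' := by intro x y; funext i; simp }
  have hΛ : ∀ x i, Λ x i = φe.symm (mk x) i 0 := fun x i => rfl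
  refine ⟨Λ, ?_, ?_, ?_⟩
  · intro w
    obtain ⟨x, hx⟩ := hmk (φ (Matrix.of fun i _ => w i))
    refine ⟨x, ?_⟩
    funext i
    rw [hΛ, hx, ← hφe, AlgEquiv.symm_apply_apply]
    rfl
  · intro g x
    funext i
    have h15 : mk (ρE g * x) = φe (ρ' g * φe.symm (mk x)) := by
      rw [map_mul, map_mul, AlgEquiv.apply_symm_apply, hφe, hφρ]
    rw [hΛ, h15, AlgEquiv.symm_apply_apply, Matrix.mul_apply]
    rfl
  · intro b x
    funext i
    rw [hΛ, map_smul, ← hsmul, map_smul]
    rfl

/-- **FIN-CARAYOL, abstract form.**  `E` a `B`-algebra containing `B`, spanned over `B` by the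
image of `ρE : G →* E`; `π' : B → T'` onto with nilpotent kernel; `ρ' : G →* M₂(T')` with
`T'[G] → M₂(T')` onto; for every `g` the element `ρE g` satisfies a quadratic relation with
coefficients in `B` lifting the characteristic polynomial of `ρ' g`.  Then `E / (ker π') E` is
`M₂(T')`, and the first column gives an equivariant additive surjection `E → T'²`. -/
theorem exists_addHom_of_quad {B : Type*} [CommRing B] {T' : Type*} [CommRing T']
    {E : Type*} [Ring E] [Algebra B E] {G : Type*} [Group G]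
    (π' : B →+* T') (hπ' : Function.Surjective π') (hnil : IsNilpotent (RingHom.ker π'))
    (hinj : Function.Injective (algebraMap B E))
    (ρE : G →* E) (hspan : Function.Surjective (MonoidAlgebra.lift B E G ρE))
    (ρ' : G →* Matrix (Fin 2) (Fin 2) T')
    (hsurj : Function.Surjective (MonoidAlgebra.lift T' (Matrix (Fin 2) (Fin 2) T') G ρ'))
    (hquad : ∀ g, ∃ t d : B, ρE g * ρE g - t • ρE g + d • (1 : E) = 0 ∧
      π' t = (ρ' g).trace ∧ π' d = (ρ' g).det) :
    ∃ Λ : E →+ (Fin 2 → T'), Function.Surjective Λ ∧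
      (∀ g x, Λ (ρE g * x) = (ρ' g) *ᵥ Λ x) ∧ (∀ (b : B) x, Λ (b • x) = π' b • Λ x) := by
  have hker : ∀ b : B, π' b = 0 →
      algebraMap B (E ⧸ extIdeal E (RingHom.ker π')) b = 0 := by
    intro b hb
    show Ideal.Quotient.mk (extIdeal E (RingHom.ker π')) (algebraMap B E b) = 0
    rw [Ideal.Quotient.eq_zero_iff_mem, Algebra.algebraMap_eq_smul_one]
    exact smul_mem_extIdeal (RingHom.mem_ker.mpr hb) 1
  let _ : Algebra T' (E ⧸ extIdeal E (RingHom.ker π')) := algebraOfSurjective π' hπ' _ hker
  exact exists_addHom_of_quad_aux π' hπ' hnil (algebraOfSurjective_smul π' hπ' _ hker)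
    (Ideal.Quotient.mkₐ B (extIdeal E (RingHom.ker π')))
    (Ideal.Quotient.mkₐ_surjective B (extIdeal E (RingHom.ker π')))
    (fun x hx => mem_extIdeal.mp (Ideal.Quotient.eq_zero_iff_mem.mp hx))
    hinj ρE hspan ρ' hsurj hquad

end Abstract

section Concrete

variable {B : Type*} [CommRing B] {T' : Type*} [CommRing T'] {M : Type*} [AddCommGroup M]
  [Module B M] {G : Type*} [Group G]

/-- **FIN-CARAYOL, module form.**  `M` a finite faithful `B`-module with a `B`-linear action of
`G`; `π' : B → T'` onto with nilpotent kernel; `ρ' : G →* M₂(T')` with `T'[G] → M₂(T')` onto;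
every `g` satisfies on `M` a quadratic relation with coefficients in `B` lifting the
characteristic polynomial of `ρ' g`.  Then `T'²` (with `G` acting through `ρ'`) is an
equivariant quotient of a `G`-stable `B`-submodule of a finite power of `M`. -/
theorem exists_submodule_of_quad [Module.Finite B M]
    (hfaith : ∀ b : B, (∀ y : M, b • y = 0) → b = 0)
    (ρM : G →* Module.End B M)
    (π' : B →+* T') (hπ' : Function.Surjective π') (hnil : IsNilpotent (RingHom.ker π'))
    (ρ' : G →* Matrix (Fin 2) (Fin 2) T')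
    (hsurj : Function.Surjective (MonoidAlgebra.lift T' (Matrix (Fin 2) (Fin 2) T') G ρ'))
    (hquad : ∀ g, ∃ t d : B, (∀ y, ρM g (ρM g y) - t • ρM g y + d • y = 0) ∧
      π' t = (ρ' g).trace ∧ π' d = (ρ' g).det) :
    ∃ (k : ℕ) (N : Submodule B (Fin k → M)),
      (∀ g, ∀ x ∈ N, (fun i => ρM g (x i)) ∈ N) ∧
      ∃ f : N →+ (Fin 2 → T'), Function.Surjective f ∧
        (∀ (b : B) (x : N), f (b • x) = π' b • f x) ∧
        ∀ (g : G) (x y : N), (∀ i, (y : Fin k → M) i = ρM g ((x : Fin k → M) i)) →
          f y = (ρ' g) *ᵥ (f x) := by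
  classical
  -- the `B`-algebra generated by the image of `G`
  let P : MonoidAlgebra B G →ₐ[B] Module.End B M := MonoidAlgebra.lift B (Module.End B M) G ρM
  let E : Subalgebra B (Module.End B M) := P.range
  let ρE : G →* E := ρM.codRestrict E
    (fun g => ⟨MonoidAlgebra.of B G g, MonoidAlgebra.lift_of _ _⟩)
  have hρE : ∀ g, ((ρE g : E) : Module.End B M) = ρM g := fun g => rfl
  have hliftE : ∀ y : MonoidAlgebra B G,
      ((MonoidAlgebra.lift B E G ρE y : E) : Module.End B M) = P y := by
    intro y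
    induction y using MonoidAlgebra.induction_on with
    | of g => rw [MonoidAlgebra.lift_of, hρE]; exact (MonoidAlgebra.lift_of _ _).symm
    | add y z hy hz => rw [map_add, map_add, Subalgebra.coe_add, hy, hz]
    | smul c y hy => rw [map_smul, map_smul, Subalgebra.coe_smul, hy]
  have hspan : Function.Surjective (MonoidAlgebra.lift B E G ρE) := by
    rintro ⟨x, y, rfl⟩
    exact ⟨y, Subtype.ext (hliftE y)⟩
  have hinj : Function.Injective (algebraMap B E) := by
    rw [injective_iff_map_eq_zero]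
    intro b hb
    apply hfaith
    intro y
    have h1 : ((algebraMap B E b : E) : Module.End B M) = 0 := by rw [hb]; rfl
    have h2 : ((algebraMap B E b : E) : Module.End B M) y = b • y := by
      rw [Subalgebra.coe_algebraMap, Module.algebraMap_end_apply]
    rw [← h2, h1]
    rfl
  have hquadE : ∀ g, ∃ t d : B, ρE g * ρE g - t • ρE g + d • (1 : E) = 0 ∧
      π' t = (ρ' g).trace ∧ π' d = (ρ' g).det := by
    intro g
    obtain ⟨t, d, h1, h2, h3⟩ := hquad g
    refine ⟨t, d, ?_, h2, h3⟩
    apply Subtype.ext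
    apply LinearMap.ext
    intro y
    exact h1 y
  obtain ⟨Λ, hΛsurj, hΛg, hΛb⟩ :=
    exists_addHom_of_quad π' hπ' hnil hinj ρE hspan ρ' hsurj hquadE
  -- embed `E` into a power of `M`
  obtain ⟨k, s, hs⟩ := Module.Finite.exists_fin (R := B) (M := M)
  let ev : E →ₗ[B] (Fin k → M) :=
    { toFun := fun x i => (x : Module.End B M) (s i)
      map_add' := fun x y => by funext i; rfl
      map_smul' := fun b x => by funext i; rfl }
  have hev : ∀ (x : E) (i : Fin k), ev x i = (x : Module.End B M) (s i) := fun _ _ => rfl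
  have hevinj : Function.Injective ev := by
    intro x y hxy
    apply Subtype.ext
    apply LinearMap.ext_on hs
    rintro _ ⟨i, rfl⟩
    exact congrFun hxy i
  let eqv : E ≃ₗ[B] LinearMap.range ev := LinearEquiv.ofInjective ev hevinj
  have heqv : ∀ x : E, ((eqv x : LinearMap.range ev) : Fin k → M) = ev x := fun _ => rfl
  have hact : ∀ (g : G) (z : E), (fun i => ρM g (ev z i)) = ev (ρE g * z) := by
    intro g z
    funext i
    rfl
  refine ⟨k, LinearMap.range ev, ?_, (Λ.comp (eqv.symm : LinearMap.range ev →+ E)), ?_, ?_, ?_⟩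
  · rintro g _ ⟨z, rfl⟩
    exact ⟨ρE g * z, (hact g z).symm⟩
  · intro w
    obtain ⟨x, hx⟩ := hΛsurj w
    exact ⟨eqv x, by simp [hx]⟩
  · intro b x
    simp [hΛb]
  · intro g x y hxy
    have h1 : y = eqv (ρE g * eqv.symm x) := by
      apply Subtype.ext
      rw [heqv, ← hact]
      funext i
      rw [hxy i, ← heqv, LinearEquiv.apply_symm_apply]
    have h2 : eqv.symm y = ρE g * eqv.symm x := by rw [h1, LinearEquiv.symm_apply_apply]
    show Λ (eqv.symm y) = (ρ' g) *ᵥ Λ (eqv.symm x)
    rw [h2, hΛg]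

/-- The same with an additive subgroup, in the shape of a "subquotient of a power". -/
theorem exists_addSubgroup_of_quad [Module.Finite B M]
    (hfaith : ∀ b : B, (∀ y : M, b • y = 0) → b = 0)
    (ρM : G →* Module.End B M)
    (π' : B →+* T') (hπ' : Function.Surjective π') (hnil : IsNilpotent (RingHom.ker π'))
    (ρ' : G →* Matrix (Fin 2) (Fin 2) T')
    (hsurj : Function.Surjective (MonoidAlgebra.lift T' (Matrix (Fin 2) (Fin 2) T') G ρ'))
    (hquad : ∀ g, ∃ t d : B, (∀ y, ρM g (ρM g y) - t • ρM g y + d • y = 0) ∧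
      π' t = (ρ' g).trace ∧ π' d = (ρ' g).det) :
    ∃ (k : ℕ) (N : AddSubgroup (Fin k → M)),
      (∀ g, ∀ x ∈ N, (fun i => ρM g (x i)) ∈ N) ∧
      ∃ f : N →+ (Fin 2 → T'), Function.Surjective f ∧
        ∀ (g : G) (x y : N), (∀ i, (y : Fin k → M) i = ρM g ((x : Fin k → M) i)) →
          f y = (ρ' g) *ᵥ (f x) := by
  obtain ⟨k, N, hN, f, hf, -, hfe⟩ :=
    exists_submodule_of_quad hfaith ρM π' hπ' hnil ρ' hsurj hquad
  let f' : N.toAddSubgroup →+ (Fin 2 → T') :=
    { toFun := fun x => f ⟨x.1, x.2⟩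
      map_zero' := map_zero f
      map_add' := fun x y => map_add f ⟨x.1, x.2⟩ ⟨y.1, y.2⟩ }
  refine ⟨k, N.toAddSubgroup, hN, f', ?_, ?_⟩
  · intro w
    obtain ⟨x, hx⟩ := hf w
    exact ⟨⟨x.1, x.2⟩, hx⟩
  · intro g x y hxy
    exact hfe g ⟨x.1, x.2⟩ ⟨y.1, y.2⟩ hxy

/-- The kernel of a ring hom from a finite local ring to a nontrivial ring is nilpotent. -/
theorem isNilpotent_ker_of_finite_local [IsLocalRing B] [Finite B] [Nontrivial T']
    (π' : B →+* T') : IsNilpotent (RingHom.ker π') := by
  have h1 : RingHom.ker π' ≤ IsLocalRing.maximalIdeal B :=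
    IsLocalRing.le_maximalIdeal (RingHom.ker_ne_top π')
  have h2 : IsNilpotent (IsLocalRing.maximalIdeal B) := by
    have := IsArtinianRing.isNilpotent_jacobson_bot (R := B)
    rwa [IsLocalRing.jacobson_eq_maximalIdeal ⊥ bot_ne_top] at this
  obtain ⟨n, hn⟩ := h2
  refine ⟨n, ?_⟩
  have h3 := Ideal.pow_right_mono h1 n
  rw [hn] at h3
  exact le_bot_iff.mp h3

end Concrete

end Fermat.Agent.S32.helper1146
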