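import Mathlib
import Fermat.Agent.S32.helper1146_FinCarayol
import Fermat.Agent.S32.helper2036_XferLocal

set_option autoImplicit false

/-!
# S32 / FIN-CARAYOL in the consumer shape of XFER

The finite-level Carayol lemma (`helper1146_FinCarayol`) restated with the conclusion
`helper2036.IsSubquotOfPow` and the hypotheses "finite local" of the transfer step.
-/

namespace Fermat.Agent.S32.helper1146

open Matrix

/-- **FIN-CARAYOL**, consumer shape: `B` finite local, `M'` a finite faithful `B`-module with a
`B`-linear `G`-action, `π' : B → T'` onto a local ring, `ρ' : G →* M₂(T')` with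
`T'[G] → M₂(T')` onto, per-element quadratic relations lifting the characteristic polynomials.
Then `T'²` is an equivariant subquotient of a finite power of `M'`. -/
theorem fin_carayol {G : Type*} [Group G] {B : Type*} [CommRing B] [IsLocalRing B] [Finite B]
    {M' : Type*} [AddCommGroup M'] [Module B M'] [Finite M']
    (hfaith : ∀ b : B, (∀ y : M', b • y = 0) → b = 0) (ρM : G →* Module.End B M')
    {T' : Type*} [CommRing T'] [IsLocalRing T'] (π' : B →+* T')
    (hπ' : Function.Surjective π') (ρ' : G →* Matrix (Fin 2) (Fin 2) T')
    (hsurj : Function.Surjective (MonoidAlgebra.lift T' (Matrix (Fin 2) (Fin 2) T') G ρ'))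
    (hquad : ∀ g, ∃ t d : B, (∀ y, ρM g (ρM g y) - t • ρM g y + d • y = 0) ∧
      π' t = (ρ' g).trace ∧ π' d = (ρ' g).det) :
    Fermat.Agent.S32.helper2036.IsSubquotOfPow M' (Fin 2 → T') (fun g y => ρM g y)
      (fun g v => (ρ' g).mulVec v) :=
  exists_addSubgroup_of_quad hfaith ρM π' hπ' (isNilpotent_ker_of_finite_local π') ρ' hsurj hquad

end Fermat.Agent.S32.helper1146
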