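import Fermat.Agent.S32.helper1429_HeckeFaithful
import Fermat.Agent.S32.helper2559_TransferSpec
import Fermat.Agent.S31.helper6356_LatticeHom
import Fermat.Prelude.Def_CuspForm_HeckeGaloisRepDatum
import Fermat.Prelude.Def_ModularCurve_HeckeModule

/-!
# S32, leaf HF-MODULAR (helper1429): Hecke faithfulness with `𝒪`-coefficients on `J₀(N)[p^m]`

The modular instance of the pure-algebra theorem `exists_pow_bound_aeval`
(`helper1429_HeckeFaithful`), i.e. the input `(HF)` of the finite-level transfer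
(`helper2559.Stmt_HF`, route #2777 (D4)):

  there is `c` such that for every `m`, every family `τ` of endomorphisms of
  `U_m = J₀(N)[p^m]` restricting the Hecke operators `T_ℓ` (`ℓ ∤ N`, `ℓ ∉ S`), every
  `𝒪`-algebra map `ev : 𝒪[X_ℓ] → End_𝒪 (𝒪 ⊗ U_m)` with `ev X_ℓ = τ_ℓ ⊗ 𝒪` and every `P` with
  `ev P = 0`:  `P (π (T_ℓ)) ∈ p^(m - c) T`.

Inputs:

* (K6) the landed `S31/helper6356.heckeLatticeHom` (injective, lattice finitely generated);
* (K5) for every `m` a Hecke-equivariant additive map `Λ → J₀(N)[p^m]` with kernel inside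
  `p^m Λ`, as a hypothesis in the unfolded shape of `S31/helper5307.Stmt_K5 N p`.
-/

set_option autoImplicit false

namespace Fermat.Agent.S32.helper1429

open ModularCurve CongruenceSubgroup TensorProduct
open Fermat.Agent.S16.helper2138 Fermat.Agent.S31.helper6356

/-- (K5) for the level `N` and the prime `p`, unfolded: literally the body of
`Fermat.Agent.S31.helper5307.Stmt_K5 N p`. -/
def K5Hyp (N p : ℕ) [NeZero N] : Prop :=
  ∀ m : ℕ, ∃ ι : Lam N →+ JZero N,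
    (∀ ψ, p ^ m • ι ψ = 0) ∧
    (∀ ψ, ι ψ = 0 → ∃ φ : Lam N, ψ = (p ^ m) • φ) ∧
    (∀ (ℓ : ℕ) (hℓ : ℓ.Prime) (hℓN : ¬ ℓ ∣ N) (ψ ψ' : Lam N),
      (ψ' : Additive (Gamma0 N) →+ ℤ) =
        (haveI : Fact ℓ.Prime := ⟨hℓ⟩;
          heckeHomT N ℓ hℓN ℤ (ψ : Additive (Gamma0 N) →+ ℤ)) →
      ι ψ' = heckeOperatorBar N ⟨ℓ, hℓ⟩ (ι ψ))

/-- The index set of the good Hecke operators (`S` any set of primes). -/
abbrev GoodPrimeSet (N : ℕ) (S : Set ℕ) : Type := {ℓ : ℕ // ℓ.Prime ∧ ¬ ℓ ∣ N ∧ ℓ ∉ S}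

/-- **HF-MODULAR, abstract coefficient form.**  From (K6) (landed) and (K5) at all `p ^ m`:
one constant `c` (depending on `N`, `S`, `p` only) works for all coefficient rings `𝒪` flat over
`ℤ`, all `𝒪`-algebras `T'` in which `p` is a non-zero-divisor and the integers prime to `p` are
units, and all ring homs `π` from the Hecke algebra to `T'`. -/
theorem exists_hf_of_k5 (N : ℕ) [NeZero N] (S : Set ℕ) (p : ℕ) (hp : p.Prime)
    (hK5 : K5Hyp N p) :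
    ∃ c : ℕ, ∀ (𝒪 : Type) [CommRing 𝒪] [Module.Flat ℤ 𝒪]
      (T' : Type) [CommRing T'] [Algebra 𝒪 T'] (π : CuspForm.heckeAlgebra N 2 S →+* T')
      (_hreg : ∀ x : T', (p : T') * x = 0 → x = 0)
      (_hunit : ∀ k : ℕ, ¬ p ∣ k → IsUnit (k : T'))
      (m : ℕ)
      (τ : GoodPrimeSet N S → Module.End ℤ ↥(Submodule.torsionBy ℤ (JZero N) ((p : ℤ) ^ m))),
      (∀ i x, ((τ i x : ↥(Submodule.torsionBy ℤ (JZero N) ((p : ℤ) ^ m))) : JZero N) =
        heckeOperatorBar N ⟨i.1, i.2.1⟩ (x : JZero N)) →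
      ∀ (ev : MvPolynomial (GoodPrimeSet N S) 𝒪 →ₐ[𝒪]
          Module.End 𝒪 (𝒪 ⊗[ℤ] ↥(Submodule.torsionBy ℤ (JZero N) ((p : ℤ) ^ m)))),
        (∀ i, ev (MvPolynomial.X i) = (τ i).baseChange 𝒪) →
        ∀ P : MvPolynomial (GoodPrimeSet N S) 𝒪, ev P = 0 →
          MvPolynomial.aeval
            (fun i : GoodPrimeSet N S => π (CuspForm.heckeAlgebra.T i.2.1 i.2.2.1 i.2.2.2)) P ∈
            Ideal.span {(p : T') ^ (m - c)} := by
  obtain ⟨c, hc⟩ := exists_pow_bound_aeval.{0, 0, 0, 0} (heckeLatticeHom N S)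
    (heckeLatticeHom_injective N S) p hp
  refine ⟨c, ?_⟩
  intro 𝒪 _ _ T' _ _ π hreg hunit m τ hτ ev hev P hP
  obtain ⟨ι, htors, hker, hheck⟩ := hK5 m
  -- corestriction of `ι` to the `p^m`-torsion
  let j : Lam N →+ ↥(Submodule.torsionBy ℤ (JZero N) ((p : ℤ) ^ m)) :=
    { toFun := fun ψ => ⟨ι ψ, by
        rw [Submodule.mem_torsionBy_iff]
        have := htors ψ
        rw [← natCast_zsmul] at this
        exact_mod_cast this⟩
      map_zero' := Subtype.ext (map_zero ι)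
      map_add' := fun a b => Subtype.ext (map_add ι a b) }
  have hj : ∀ ψ, ((j ψ : ↥(Submodule.torsionBy ℤ (JZero N) ((p : ℤ) ^ m))) : JZero N) = ι ψ :=
    fun _ => rfl
  refine hc 𝒪 _ j m ?_ (GoodPrimeSet N S)
    (fun i => CuspForm.heckeAlgebra.T i.2.1 i.2.2.1 i.2.2.2) τ ?_ ev hev P ?_ T' π hreg hunit
  · intro ψ hψ
    have h0 : ι ψ = 0 := by rw [← hj, hψ]; rfl
    obtain ⟨φ, hφ⟩ := hker ψ h0
    refine ⟨φ, ?_⟩
    rw [hφ, ← natCast_zsmul]
    push_cast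
    rfl
  · intro i ψ
    apply Subtype.ext
    rw [hτ, hj, hj]
    exact hheck i.1 i.2.1 i.2.2.1 ψ _ (coe_heckeLatticeHom_T N S i.2.1 i.2.2.1 i.2.2.2 ψ)
  · intro x
    rw [hP, LinearMap.zero_apply]

section Datum

variable {N : ℕ} [NeZero N] {S : Finset ℕ}
  {𝒪 : Type} [CommRing 𝒪] [IsDomain 𝒪] [IsDiscreteValuationRing 𝒪]
  [IsAdicComplete (IsLocalRing.maximalIdeal 𝒪) 𝒪]
  {θ : CuspForm.heckeAlgebra N 2 (↑S : Set ℕ) →+* IsLocalRing.ResidueField 𝒪}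
  {T : Type} [CommRing T] [IsLocalRing T] [IsNoetherianRing T]
  [IsAdicComplete (IsLocalRing.maximalIdeal T) T] [Algebra 𝒪 T] [IsLocalHom (algebraMap 𝒪 T)]
  [Module.Finite 𝒪 T] [Module.Free 𝒪 T]

omit [IsDiscreteValuationRing 𝒪] [IsAdicComplete (IsLocalRing.maximalIdeal 𝒪) 𝒪]
  [IsLocalRing T] [IsNoetherianRing T] [IsAdicComplete (IsLocalRing.maximalIdeal T) T]
  [IsLocalHom (algebraMap 𝒪 T)] [Module.Finite 𝒪 T] in
/-- `p` is a non-zero-divisor on `T` (free over the characteristic-zero domain `𝒪`). -/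
theorem natCast_mul_eq_zero_datum [CharZero 𝒪] {p : ℕ} (hp : p ≠ 0) (x : T)
    (hx : (p : T) * x = 0) : x = 0 := by
  have h1 : (p : 𝒪) • x = 0 := by
    rw [Nat.cast_smul_eq_nsmul, nsmul_eq_mul, hx]
  have h2 : (p : 𝒪) ≠ 0 := Nat.cast_ne_zero.mpr hp
  exact (smul_eq_zero.mp h1).resolve_left h2

omit [IsDomain 𝒪] [IsAdicComplete (IsLocalRing.maximalIdeal 𝒪) 𝒪]
  [IsNoetherianRing T] [IsAdicComplete (IsLocalRing.maximalIdeal T) T]
  [Module.Finite 𝒪 T] [Module.Free 𝒪 T] in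
/-- `p` lies in the maximal ideal of `T`. -/
theorem natCast_mem_maximalIdeal_datum [IsLocalRing 𝒪] {p : ℕ}
    (hp𝒪 : (p : 𝒪) ∈ IsLocalRing.maximalIdeal 𝒪) : (p : T) ∈ IsLocalRing.maximalIdeal T := by
  rw [IsLocalRing.mem_maximalIdeal, mem_nonunits_iff]
  intro hu
  have h1 : IsUnit (algebraMap 𝒪 T (p : 𝒪)) := by rwa [map_natCast]
  exact ((IsLocalRing.mem_maximalIdeal _).mp hp𝒪) (IsLocalHom.map_nonunit _ h1)

/-- **HF-MODULAR** : `helper2559.Stmt_HF` for a Hecke–Galois datum, from (K6) (landed) and (K5)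
at all moduli `p ^ m`. -/
theorem stmt_HF_of_k5 [CharZero 𝒪] {p : ℕ} (hp : p.Prime)
    (hp𝒪 : (p : 𝒪) ∈ IsLocalRing.maximalIdeal 𝒪)
    (H : CuspForm.HeckeGaloisRepDatum N (↑S : Set ℕ) 𝒪 θ T)
    (hK5 : K5Hyp N p) :
    Fermat.Agent.S32.helper2559.Stmt_HF p N S 𝒪 T H.π := by
  obtain ⟨c, hc⟩ := exists_hf_of_k5 N (↑S : Set ℕ) p hp hK5
  refine ⟨c, fun m τ hτ ev hev P hP => ?_⟩
  exact hc 𝒪 T H.π (natCast_mul_eq_zero_datum (𝒪 := 𝒪) hp.ne_zero)
    (isUnit_natCast_of_not_dvd p hp (natCast_mem_maximalIdeal_datum hp𝒪)) m τ hτ ev hev P hP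

end Datum

end Fermat.Agent.S32.helper1429
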