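import Mathlib

/-!
# S32-HF-ALG: saturation of a Hecke ring after a flat base change (helper1429)

Pure algebra behind `Stmt_HeckeFaithful` with `O`-coefficients ((D4) of findings #2777).

* `exists_sat_bound_of_injective`: for an injective `ℤ`-linear map `φ : A → E` into a finitely
  generated `ℤ`-module there is `c₀ > 0` such that for EVERY flat `ℤ`-module `O`, every `n` and
  every `a : O ⊗ A` whose image in `O ⊗ E` is divisible by `n`, the element `c₀ • a` is divisible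
  by `n` in `O ⊗ A`.
* `exists_sat_bound_end`: the same for a ring `h` acting faithfully on a finitely generated
  `ℤ`-module `Λ`, divisibility being tested on the vectors `1 ⊗ v`.
-/

set_option autoImplicit false

namespace Fermat.Agent.S32.helper1429

open scoped TensorProduct
open LinearMap

universe w v₁ v₂ v₃

section General

variable {A E : Type*} [AddCommGroup A] [AddCommGroup E]

/-- The saturation of the range of `φ`. -/
def satRange (φ : A →ₗ[ℤ] E) : Submodule ℤ E where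
  carrier := {e | ∃ k : ℤ, k ≠ 0 ∧ k • e ∈ LinearMap.range φ}
  add_mem' := by
    rintro x y ⟨k, hk, hx⟩ ⟨l, hl, hy⟩
    refine ⟨k * l, mul_ne_zero hk hl, ?_⟩
    have h1 : (k * l) • x = l • (k • x) := by rw [mul_comm, mul_smul]
    have h2 : (k * l) • y = k • (l • y) := by rw [mul_smul]
    rw [smul_add, h1, h2]
    exact add_mem (Submodule.smul_mem _ _ hx) (Submodule.smul_mem _ _ hy)
  zero_mem' := ⟨1, one_ne_zero, by simp⟩
  smul_mem' := by
    rintro c x ⟨k, hk, hx⟩
    refine ⟨k, hk, ?_⟩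
    rw [smul_comm]
    exact Submodule.smul_mem _ _ hx

lemma mem_satRange {φ : A →ₗ[ℤ] E} {e : E} :
    e ∈ satRange φ ↔ ∃ k : ℤ, k ≠ 0 ∧ k • e ∈ LinearMap.range φ := Iff.rfl

lemma range_le_satRange (φ : A →ₗ[ℤ] E) : LinearMap.range φ ≤ satRange φ := by
  intro e he
  exact ⟨1, one_ne_zero, by simpa using he⟩

/-- A common denominator for the saturation. -/
lemma exists_bound_satRange [Module.Finite ℤ E] (φ : A →ₗ[ℤ] E) :
    ∃ c₀ : ℕ, 0 < c₀ ∧ ∀ e ∈ satRange φ, (c₀ : ℤ) • e ∈ LinearMap.range φ := by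
  classical
  have hfg : (satRange φ).FG := IsNoetherian.noetherian _
  obtain ⟨s, hs⟩ := hfg
  have hmem : ∀ e ∈ s, ∃ k : ℤ, k ≠ 0 ∧ k • e ∈ LinearMap.range φ := by
    intro e he
    have : e ∈ satRange φ := by
      rw [← hs]; exact Submodule.subset_span he
    exact this
  choose! k hk0 hk using hmem
  refine ⟨(∏ e ∈ s, k e).natAbs, ?_, ?_⟩
  · rw [Int.natAbs_pos, Finset.prod_ne_zero_iff]
    exact fun e he => hk0 e he
  · intro e he
    rw [← hs] at he
    have key : ∀ e ∈ s, (∏ e ∈ s, k e) • e ∈ LinearMap.range φ := by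
      intro e he
      rw [← Finset.mul_prod_erase s k he, mul_comm, mul_smul]
      exact Submodule.smul_mem _ _ (hk e he)
    have key' : ∀ e ∈ Submodule.span ℤ (s : Set E), (∏ e ∈ s, k e) • e ∈ LinearMap.range φ := by
      intro e he
      induction he using Submodule.span_induction with
      | mem x hx => exact key x hx
      | zero => simp
      | add x y _ _ hx hy => rw [smul_add]; exact add_mem hx hy
      | smul c x _ hx => rw [smul_comm]; exact Submodule.smul_mem _ _ hx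
    have h1 := key' e he
    rcases Int.natAbs_eq (∏ e ∈ s, k e) with h | h
    · rw [← h]; exact h1
    · have : ((∏ e ∈ s, k e).natAbs : ℤ) • e = -((∏ e ∈ s, k e) • e) := by
        rw [← neg_smul]; congr 1; omega
      rw [this]; exact neg_mem h1

/-- Multiplication by a nonzero integer is injective on `E ⧸ satRange φ`. -/
lemma smul_mkQ_satRange_injective (φ : A →ₗ[ℤ] E) (n : ℤ) (hn : n ≠ 0) :
    Function.Injective (n • (LinearMap.id : (E ⧸ satRange φ) →ₗ[ℤ] (E ⧸ satRange φ))) := by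
  rw [← LinearMap.ker_eq_bot, LinearMap.ker_eq_bot']
  intro x hx
  obtain ⟨e, rfl⟩ := Submodule.mkQ_surjective _ x
  rw [LinearMap.smul_apply, LinearMap.id_apply, ← map_smul, Submodule.mkQ_apply,
    Submodule.Quotient.mk_eq_zero] at hx
  obtain ⟨k, hk, hx⟩ := hx
  rw [Submodule.mkQ_apply, Submodule.Quotient.mk_eq_zero]
  exact ⟨k * n, mul_ne_zero hk hn, by rwa [mul_smul]⟩

/-- **Saturation bound, general form.**  `φ : A → E` injective and `ℤ`-linear, `E` finitely
generated.  There is `c₀ > 0`, depending only on `φ`, such that for every flat `ℤ`-module `O`: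
if the image of `a : O ⊗ A` in `O ⊗ E` is `n • y`, then `c₀ • a = n • a'` for some `a'`. -/
theorem exists_sat_bound_of_injective [Module.Finite ℤ E] (φ : A →ₗ[ℤ] E)
    (hφ : Function.Injective φ) :
    ∃ c₀ : ℕ, 0 < c₀ ∧ ∀ (O : Type w) [AddCommGroup O] [Module.Flat ℤ O] (n : ℕ)
      (a : O ⊗[ℤ] A) (y : O ⊗[ℤ] E), φ.lTensor O a = n • y →
        ∃ a' : O ⊗[ℤ] A, c₀ • a = n • a' := by
  obtain ⟨c₀, hc₀, hc⟩ := exists_bound_satRange φ
  refine ⟨c₀, hc₀, ?_⟩
  intro O _ _ n a y hay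
  have hinj : Function.Injective (φ.lTensor O) :=
    Module.Flat.lTensor_preserves_injective_linearMap (M := O) φ hφ
  rcases Nat.eq_zero_or_pos n with rfl | hn
  · refine ⟨0, ?_⟩
    have : a = 0 := by
      apply hinj
      rw [hay, map_zero, zero_smul]
    rw [this, smul_zero, smul_zero]
  -- the image of `y` in `O ⊗ (E ⧸ Sat)` vanishes
  set Sat := satRange φ with hSat
  have hcomp : Sat.mkQ.comp φ = 0 := by
    ext x
    simp only [LinearMap.comp_apply, Submodule.mkQ_apply, LinearMap.zero_apply,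
      Submodule.Quotient.mk_eq_zero]
    exact range_le_satRange φ (LinearMap.mem_range_self φ x)
  have h1 : Sat.mkQ.lTensor O (n • y) = 0 := by
    rw [← hay, ← LinearMap.comp_apply, ← LinearMap.lTensor_comp, hcomp, LinearMap.lTensor_zero,
      LinearMap.zero_apply]
  have hninj : Function.Injective (((n : ℤ) • (LinearMap.id : (E ⧸ Sat) →ₗ[ℤ] (E ⧸ Sat))).lTensor O) :=
    Module.Flat.lTensor_preserves_injective_linearMap (M := O) _
      (smul_mkQ_satRange_injective φ (n : ℤ) (by exact_mod_cast hn.ne'))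
  have h2 : Sat.mkQ.lTensor O y = 0 := by
    apply hninj
    rw [map_zero, LinearMap.lTensor_smul, LinearMap.lTensor_id, LinearMap.smul_apply,
      LinearMap.id_apply, ← map_smul]
    rw [Nat.cast_smul_eq_nsmul]
    exact h1
  -- so `y` comes from `O ⊗ Sat`
  have hex : Function.Exact (Sat.subtype.lTensor O) (Sat.mkQ.lTensor O) :=
    lTensor_exact O (LinearMap.exact_subtype_mkQ Sat) (Submodule.mkQ_surjective Sat)
  obtain ⟨z, hz⟩ := (hex y).mp h2
  -- `c₀ • Sat ⊆ range φ` gives `ψ : Sat → A` with `φ ∘ ψ = c₀ • incl`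
  let g : Sat →ₗ[ℤ] LinearMap.range φ :=
    LinearMap.codRestrict (LinearMap.range φ) ((c₀ : ℤ) • Sat.subtype) (fun s => hc s s.2)
  let ψ : Sat →ₗ[ℤ] A := (LinearEquiv.ofInjective φ hφ).symm.toLinearMap.comp g
  have hψ : φ.comp ψ = (c₀ : ℤ) • Sat.subtype := by
    ext s
    have : φ (ψ s) = ((LinearEquiv.ofInjective φ hφ) ((LinearEquiv.ofInjective φ hφ).symm (g s)) :
        E) := rfl
    rw [LinearMap.comp_apply, this, LinearEquiv.apply_symm_apply]
    rfl
  refine ⟨ψ.lTensor O z, ?_⟩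
  apply hinj
  rw [map_nsmul, map_nsmul, ← LinearMap.comp_apply, ← LinearMap.lTensor_comp, hψ,
    LinearMap.lTensor_smul, LinearMap.smul_apply, hz, hay, Nat.cast_smul_eq_nsmul]
  rw [smul_comm]

end General

section Ring

variable {h Λ U : Type*} [Ring h] [AddCommGroup Λ] [AddCommGroup U]

/-- `t ↦ Φ t v` as a `ℤ`-linear map `h → Λ`. -/
def evalLin (Φ : h →+* Module.End ℤ Λ) (v : Λ) : h →ₗ[ℤ] Λ :=
  (LinearMap.applyₗ v).comp Φ.toAddMonoidHom.toIntLinearMap

@[simp] lemma evalLin_apply (Φ : h →+* Module.End ℤ Λ) (v : Λ) (t : h) :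
    evalLin Φ v t = Φ t v := rfl

lemma piRight_apply_eq_lTensor_proj {O : Type*} [AddCommGroup O] {r : ℕ}
    (z : O ⊗[ℤ] (Fin r → Λ)) (j : Fin r) :
    TensorProduct.piRight ℤ ℤ O (fun _ : Fin r => Λ) z j =
      (LinearMap.proj (R := ℤ) (φ := fun _ : Fin r => Λ) j).lTensor O z := by
  induction z using TensorProduct.induction_on with
  | zero => simp
  | tmul x f => simp
  | add x y hx hy => simp only [map_add, Pi.add_apply, hx, hy]

/-- **Saturation bound for a ring acting faithfully on a finitely generated `ℤ`-module.**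
Divisibility by `n` is tested on the vectors `1 ⊗ v` (`v : Λ`). -/
theorem exists_sat_bound_end [Module.Finite ℤ Λ] (Φ : h →+* Module.End ℤ Λ)
    (hΦ : Function.Injective Φ) :
    ∃ c₀ : ℕ, 0 < c₀ ∧ ∀ (O : Type w) [AddCommGroup O] [Module.Flat ℤ O] (n : ℕ)
      (Q : O ⊗[ℤ] h), (∀ v : Λ, ∃ y : O ⊗[ℤ] Λ, (evalLin Φ v).lTensor O Q = n • y) →
        ∃ Q' : O ⊗[ℤ] h, c₀ • Q = n • Q' := by
  obtain ⟨r, b, hb⟩ := Module.Finite.exists_fin (R := ℤ) (M := Λ)
  let φ : h →ₗ[ℤ] (Fin r → Λ) := LinearMap.pi (fun j => evalLin Φ (b j))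
  have hφ : Function.Injective φ := by
    rw [← LinearMap.ker_eq_bot, LinearMap.ker_eq_bot']
    intro t ht
    apply hΦ
    rw [map_zero]
    apply LinearMap.ext_on_range hb
    intro j
    have := congrFun ht j
    simpa [φ] using this
  obtain ⟨c₀, hc₀, hc⟩ := exists_sat_bound_of_injective.{w} φ hφ
  refine ⟨c₀, hc₀, ?_⟩
  intro O _ _ n Q hQ
  choose y hy using fun j => hQ (b j)
  refine hc O n Q ((TensorProduct.piRight ℤ ℤ O (fun _ : Fin r => Λ)).symm y) ?_
  apply (TensorProduct.piRight ℤ ℤ O (fun _ : Fin r => Λ)).injective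
  rw [map_nsmul, LinearEquiv.apply_symm_apply]
  funext j
  rw [piRight_apply_eq_lTensor_proj, ← LinearMap.comp_apply, ← LinearMap.lTensor_comp,
    LinearMap.proj_pi, hy j]
  rfl

end Ring

section Action

variable {h Λ U : Type*} [Ring h] [AddCommGroup Λ] [AddCommGroup U]
variable (O : Type*) [CommRing O]

/-- The `O`-algebra action of `O ⊗[ℤ] h` on `O ⊗[ℤ] U` induced by an action `Ψ` of `h` on `U`:
`o ⊗ t` acts as `o • (Ψ t).baseChange O`. -/
noncomputable def tAct (Ψ : h →+* Module.End ℤ U) :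
    O ⊗[ℤ] h →ₐ[O] Module.End O (O ⊗[ℤ] U) :=
  (LinearMap.tensorProductEnd ℤ O U).comp
    (Algebra.TensorProduct.map (AlgHom.id O O) Ψ.toIntAlgHom)

lemma tAct_tmul (Ψ : h →+* Module.End ℤ U) (o : O) (t : h) :
    tAct O Ψ (o ⊗ₜ[ℤ] t) = o • (Ψ t).baseChange O := by
  simp only [tAct, AlgHom.comp_apply, Algebra.TensorProduct.map_tmul, AlgHom.id_apply]
  rfl

lemma tAct_tmul_apply (Ψ : h →+* Module.End ℤ U) (o o' : O) (t : h) (u : U) :
    tAct O Ψ (o ⊗ₜ[ℤ] t) (o' ⊗ₜ[ℤ] u) = (o * o') ⊗ₜ[ℤ] (Ψ t u) := by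
  rw [tAct_tmul, LinearMap.smul_apply, LinearMap.baseChange_tmul, TensorProduct.smul_tmul',
    smul_eq_mul]

/-- On the vectors `1 ⊗ u` the action is computed by `evalLin`. -/
lemma tAct_apply_one_tmul (Ψ : h →+* Module.End ℤ U) (Q : O ⊗[ℤ] h) (u : U) :
    tAct O Ψ Q ((1 : O) ⊗ₜ[ℤ] u) = (evalLin Ψ u).lTensor O Q := by
  induction Q using TensorProduct.induction_on with
  | zero => simp
  | tmul o t => rw [tAct_tmul_apply, mul_one, LinearMap.lTensor_tmul, evalLin_apply]
  | add x y hx hy => rw [map_add, LinearMap.add_apply, hx, hy, map_add]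

end Action

section Consumer

variable {R Λ : Type*} [CommRing R] [AddCommGroup Λ]

/-- The element of `O ⊗[ℤ] R` attached to a polynomial `P ∈ O[x_i]` and elements `t i : R`. -/
noncomputable def polyElt (O : Type*) [CommRing O] {ι : Type*} (t : ι → R)
    (P : MvPolynomial ι O) : O ⊗[ℤ] R :=
  MvPolynomial.aeval (fun i => (1 : O) ⊗ₜ[ℤ] t i) P

/-- Any ring hom `π : R → T'` into an `O`-algebra extends to `O ⊗[ℤ] R`, and sends `polyElt`
to the evaluation of the polynomial at the `π (t i)`. -/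
lemma lift_polyElt (O : Type*) [CommRing O] {ι : Type*} (t : ι → R) (P : MvPolynomial ι O)
    {T' : Type*} [CommRing T'] [Algebra O T'] (π : R →+* T') :
    Algebra.TensorProduct.lift (Algebra.ofId O T') π.toIntAlgHom (fun _ _ => Commute.all _ _)
      (polyElt O t P) = MvPolynomial.aeval (fun i => π (t i)) P := by
  unfold polyElt
  rw [← AlgHom.comp_apply, MvPolynomial.comp_aeval]
  congr 2
  funext i
  simp

/-- Compatibility of the two actions through an intertwining map `j : Λ → U`. -/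
lemma tAct_polyElt_compat (O : Type*) [CommRing O] (Φ : R →+* Module.End ℤ Λ)
    {U : Type*} [AddCommGroup U] (j : Λ →+ U) {ι : Type*} (t : ι → R)
    (τ : ι → Module.End ℤ U) (hτ : ∀ i x, j (Φ (t i) x) = τ i (j x))
    (ev : MvPolynomial ι O →ₐ[O] Module.End O (O ⊗[ℤ] U))
    (hev : ∀ i, ev (MvPolynomial.X i) = (τ i).baseChange O)
    (P : MvPolynomial ι O) (x : O ⊗[ℤ] Λ) :
    j.toIntLinearMap.baseChange O (tAct O Φ (polyElt O t P) x) =
      ev P (j.toIntLinearMap.baseChange O x) := by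
  induction P using MvPolynomial.induction_on generalizing x with
  | C o =>
    have h1 : polyElt O t (MvPolynomial.C o) = algebraMap O (O ⊗[ℤ] R) o := by
      unfold polyElt; rw [MvPolynomial.aeval_C]
    have h2 : (MvPolynomial.C o : MvPolynomial ι O) = algebraMap O (MvPolynomial ι O) o := rfl
    rw [h1, AlgHom.commutes, h2, AlgHom.commutes, Module.algebraMap_end_apply,
      Module.algebraMap_end_apply, map_smul]
  | add P₁ P₂ h₁ h₂ =>
    have : polyElt O t (P₁ + P₂) = polyElt O t P₁ + polyElt O t P₂ := by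
      unfold polyElt; rw [map_add]
    rw [this, map_add, map_add, LinearMap.add_apply, LinearMap.add_apply, map_add, h₁, h₂]
  | mul_X P i hP =>
    have h1 : polyElt O t (P * MvPolynomial.X i) = polyElt O t P * ((1 : O) ⊗ₜ[ℤ] t i) := by
      unfold polyElt; rw [map_mul, MvPolynomial.aeval_X]
    have h3 : j.toIntLinearMap.baseChange O ((Φ (t i)).baseChange O x) =
        (τ i).baseChange O (j.toIntLinearMap.baseChange O x) := by
      rw [← LinearMap.comp_apply, ← LinearMap.comp_apply, ← LinearMap.baseChange_comp,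
        ← LinearMap.baseChange_comp]
      congr 2
      ext v
      exact hτ i v
    rw [h1, map_mul, map_mul, Module.End.mul_apply, Module.End.mul_apply, tAct_tmul, one_smul,
      hP, h3, hev]

/-- Flat base change of `ker j ⊆ M • Λ`: the kernel of `j ⊗ O` is contained in `M • (O ⊗ Λ)`. -/
lemma exists_eq_zsmul_of_baseChange_eq_zero (O : Type*) [CommRing O] [Module.Flat ℤ O]
    {U : Type*} [AddCommGroup U] (j : Λ →+ U) (M : ℤ) (hker : ∀ x, j x = 0 → ∃ z, x = M • z)
    (y : O ⊗[ℤ] Λ) (hy : j.toIntLinearMap.baseChange O y = 0) : ∃ z : O ⊗[ℤ] Λ, y = M • z := by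
  have hex : Function.Exact ((LinearMap.ker j.toIntLinearMap).subtype.lTensor O)
      (j.toIntLinearMap.lTensor O) :=
    Module.Flat.lTensor_exact O (LinearMap.exact_subtype_ker_map _)
  have hy' : j.toIntLinearMap.lTensor O y = 0 := by
    rw [← LinearMap.baseChange_eq_ltensor]; exact hy
  obtain ⟨w, rfl⟩ := (hex y).mp hy'
  clear hy hy'
  induction w using TensorProduct.induction_on with
  | zero => exact ⟨0, by rw [map_zero, smul_zero]⟩
  | tmul o k =>
    obtain ⟨z, hz⟩ := hker k (LinearMap.mem_ker.mp k.2)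
    refine ⟨o ⊗ₜ[ℤ] z, ?_⟩
    rw [LinearMap.lTensor_tmul, Submodule.subtype_apply, hz, TensorProduct.tmul_smul]
  | add a b ha hb =>
    obtain ⟨za, hza⟩ := ha
    obtain ⟨zb, hzb⟩ := hb
    exact ⟨za + zb, by rw [map_add, hza, hzb, smul_add]⟩

/-- **HF-ALG, tensor form.**  `Φ : R → End_ℤ Λ` injective, `Λ` finitely generated.  There is
`c₀ > 0` such that for every flat `ℤ`-algebra `O`, every abelian group `U` with operators `τ i`
and every `j : Λ → U` with `ker j ⊆ M • Λ` intertwining `Φ (t i)` and `τ i`: if a polynomial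
`P ∈ O[x_i]`, evaluated at the `τ i ⊗ O` (through ANY `O`-algebra hom `ev` with
`ev (X i) = (τ i).baseChange O`), kills the image of `O ⊗ Λ` in `O ⊗ U`, then
`c₀ • P(1 ⊗ t) ∈ M • (O ⊗ R)`. -/
theorem exists_bound_polyElt [Module.Finite ℤ Λ] (Φ : R →+* Module.End ℤ Λ)
    (hΦ : Function.Injective Φ) :
    ∃ c₀ : ℕ, 0 < c₀ ∧ ∀ (O : Type w) [CommRing O] [Module.Flat ℤ O]
      (U : Type v₁) [AddCommGroup U] (j : Λ →+ U) (M : ℤ)
      (_hker : ∀ x, j x = 0 → ∃ z, x = M • z)
      (ι : Type v₂) (t : ι → R) (τ : ι → Module.End ℤ U)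
      (_hτ : ∀ i x, j (Φ (t i) x) = τ i (j x))
      (ev : MvPolynomial ι O →ₐ[O] Module.End O (O ⊗[ℤ] U))
      (_hev : ∀ i, ev (MvPolynomial.X i) = (τ i).baseChange O)
      (P : MvPolynomial ι O)
      (_hP : ∀ x : O ⊗[ℤ] Λ, ev P (j.toIntLinearMap.baseChange O x) = 0),
      ∃ Q' : O ⊗[ℤ] R, c₀ • polyElt O t P = M • Q' := by
  obtain ⟨c₀, hc₀, hc⟩ := exists_sat_bound_end.{w} Φ hΦ
  refine ⟨c₀, hc₀, ?_⟩
  intro O _ _ U _ j M hker ι t τ hτ ev hev P hP
  have hM : (M.natAbs : ℤ) = M ∨ (M.natAbs : ℤ) = -M := by omega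
  have key : ∀ v : Λ, ∃ y : O ⊗[ℤ] Λ,
      (evalLin Φ v).lTensor O (polyElt O t P) = M.natAbs • y := by
    intro v
    have h0 : j.toIntLinearMap.baseChange O (tAct O Φ (polyElt O t P) ((1 : O) ⊗ₜ[ℤ] v)) = 0 := by
      rw [tAct_polyElt_compat O Φ j t τ hτ ev hev, hP]
    obtain ⟨z, hz⟩ := exists_eq_zsmul_of_baseChange_eq_zero O j M hker _ h0
    rw [tAct_apply_one_tmul] at hz
    rcases hM with h | h
    · refine ⟨z, ?_⟩
      rw [hz, ← Nat.cast_smul_eq_nsmul ℤ, h]
    · refine ⟨-z, ?_⟩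
      rw [hz, ← Nat.cast_smul_eq_nsmul ℤ, h, neg_smul, smul_neg, neg_neg]
  obtain ⟨Q', hQ'⟩ := hc O M.natAbs (polyElt O t P) key
  rcases hM with h | h
  · refine ⟨Q', ?_⟩
    rw [hQ', ← Nat.cast_smul_eq_nsmul ℤ, h]
  · refine ⟨-Q', ?_⟩
    rw [hQ', ← Nat.cast_smul_eq_nsmul ℤ, h, neg_smul, smul_neg]

/-- **HF-ALG, consumer form** (= (D4) of #2777).  Same hypotheses; for every `O`-algebra `T'` and
ring hom `π : R → T'`:  `c₀ • P(π (t i)) ∈ M • T'`. -/
theorem exists_bound_aeval [Module.Finite ℤ Λ] (Φ : R →+* Module.End ℤ Λ)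
    (hΦ : Function.Injective Φ) :
    ∃ c₀ : ℕ, 0 < c₀ ∧ ∀ (O : Type w) [CommRing O] [Module.Flat ℤ O]
      (U : Type v₁) [AddCommGroup U] (j : Λ →+ U) (M : ℤ)
      (_hker : ∀ x, j x = 0 → ∃ z, x = M • z)
      (ι : Type v₂) (t : ι → R) (τ : ι → Module.End ℤ U)
      (_hτ : ∀ i x, j (Φ (t i) x) = τ i (j x))
      (ev : MvPolynomial ι O →ₐ[O] Module.End O (O ⊗[ℤ] U))
      (_hev : ∀ i, ev (MvPolynomial.X i) = (τ i).baseChange O)
      (P : MvPolynomial ι O)
      (_hP : ∀ x : O ⊗[ℤ] Λ, ev P (j.toIntLinearMap.baseChange O x) = 0)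
      (T' : Type v₃) [CommRing T'] [Algebra O T'] (π : R →+* T'),
      ∃ r : T', c₀ • MvPolynomial.aeval (fun i => π (t i)) P = M • r := by
  obtain ⟨c₀, hc₀, hc⟩ := exists_bound_polyElt.{w, v₁, v₂} Φ hΦ
  refine ⟨c₀, hc₀, ?_⟩
  intro O _ _ U _ j M hker ι t τ hτ ev hev P hP T' _ _ π
  obtain ⟨Q', hQ'⟩ := hc O U j M hker ι t τ hτ ev hev P hP
  refine ⟨Algebra.TensorProduct.lift (Algebra.ofId O T') π.toIntAlgHom
    (fun _ _ => Commute.all _ _) Q', ?_⟩
  rw [← lift_polyElt O t P π, ← map_nsmul, hQ', map_zsmul]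

end Consumer

section Local

variable {T' : Type*} [CommRing T']

/-- In a local ring whose maximal ideal contains `p`, every natural number prime to `p` is a
unit. -/
lemma isUnit_natCast_of_not_dvd [IsLocalRing T'] (p : ℕ) (hp : p.Prime)
    (hpT : (p : T') ∈ IsLocalRing.maximalIdeal T') (k : ℕ) (hk : ¬ p ∣ k) : IsUnit (k : T') := by
  have hcop : Nat.Coprime k p := (Nat.Prime.coprime_iff_not_dvd hp).mpr hk |>.symm
  have hb := Int.gcd_eq_gcd_ab (k : ℤ) (p : ℤ)
  have hg : Int.gcd (k : ℤ) (p : ℤ) = 1 := by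
    rw [Int.gcd_natCast_natCast]; exact hcop
  rw [hg] at hb
  have hb' : (k : T') * ((Int.gcdA k p : ℤ) : T') =
      1 - (p : T') * ((Int.gcdB k p : ℤ) : T') := by
    have := congrArg (Int.cast : ℤ → T') hb
    push_cast at this
    rw [eq_sub_iff_add_eq, ← this]
  have hu : IsUnit (1 - (p : T') * ((Int.gcdB k p : ℤ) : T')) :=
    IsLocalRing.isUnit_one_sub_self_of_mem_nonunits _
      ((IsLocalRing.mem_maximalIdeal _).mp (Ideal.mul_mem_right _ _ hpT))
  rw [← hb'] at hu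
  exact isUnit_of_mul_isUnit_left hu

/-- From `c₀ • x ∈ p^m • T'` to `x ∈ (p^(m - c))`, `c` the `p`-adic valuation of `c₀`. -/
lemma exists_pow_sub_of_smul_eq (p : ℕ) (hp : p.Prime) (c₀ : ℕ) (hc₀ : 0 < c₀) :
    ∃ c : ℕ, ∀ (T' : Type v₃) [CommRing T'] (_hreg : ∀ x : T', (p : T') * x = 0 → x = 0)
      (_hunit : ∀ k : ℕ, ¬ p ∣ k → IsUnit (k : T')) (m : ℕ) (x r : T'),
      c₀ • x = ((p : ℤ) ^ m) • r → x ∈ Ideal.span {(p : T') ^ (m - c)} := by
  obtain ⟨c, c₁, hc₁, rfl⟩ := Nat.exists_eq_pow_mul_and_not_dvd hc₀.ne' p hp.ne_one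
  refine ⟨c, ?_⟩
  intro T' _ hreg hunit m x r h
  rcases le_or_gt m c with hmc | hmc
  · rw [Nat.sub_eq_zero_of_le hmc, pow_zero, Ideal.span_singleton_one]
    exact Submodule.mem_top
  have hregpow : ∀ (e : ℕ) (y : T'), (p : T') ^ e * y = 0 → y = 0 := by
    intro e
    induction e with
    | zero => intro y hy; simpa using hy
    | succ e ih =>
      intro y hy
      apply ih
      apply hreg
      rw [← mul_assoc, ← pow_succ']
      exact hy
  have h' : (p : T') ^ c * ((c₁ : T') * x - (p : T') ^ (m - c) * r) = 0 := by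
    have e1 : (p ^ c * c₁) • x = (p : T') ^ c * ((c₁ : T') * x) := by
      rw [nsmul_eq_mul]; push_cast; ring
    have e2 : ((p : ℤ) ^ m) • r = (p : T') ^ c * ((p : T') ^ (m - c) * r) := by
      rw [zsmul_eq_mul, ← mul_assoc, ← pow_add, Nat.add_sub_cancel' hmc.le]; push_cast; ring
    rw [mul_sub, ← e1, ← e2, h, sub_self]
  have h2 : (c₁ : T') * x = (p : T') ^ (m - c) * r := sub_eq_zero.mp (hregpow c _ h')
  obtain ⟨u, hu⟩ := hunit c₁ hc₁
  rw [Ideal.mem_span_singleton]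
  refine ⟨↑u⁻¹ * r, ?_⟩
  have : x = ↑u⁻¹ * ((c₁ : T') * x) := by
    rw [← hu, ← mul_assoc, Units.inv_mul, one_mul]
  rw [this, h2]
  ring

end Local

section Final

variable {R Λ : Type*} [CommRing R] [AddCommGroup Λ]

/-- **HF-ALG, `p`-adic consumer form** ((D4) of #2777).  `Φ : R → End_ℤ Λ` injective, `Λ`
finitely generated, `p` prime.  There is `c` such that for all `m`, every flat `ℤ`-algebra `O`,
every `U`, `j : Λ → U` with `ker j ⊆ p^m Λ` intertwining `Φ (t i)` with `τ i`, every polynomial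
`P ∈ O[x_i]` killing the image of `O ⊗ Λ` in `O ⊗ U`, and every ring hom `π : R → T'` to an
`O`-algebra in which `p` is a non-zero-divisor and the integers prime to `p` are units:
`P(π (t i)) ∈ p^(m - c) T'`. -/
theorem exists_pow_bound_aeval [Module.Finite ℤ Λ] (Φ : R →+* Module.End ℤ Λ)
    (hΦ : Function.Injective Φ) (p : ℕ) (hp : p.Prime) :
    ∃ c : ℕ, ∀ (O : Type w) [CommRing O] [Module.Flat ℤ O]
      (U : Type v₁) [AddCommGroup U] (j : Λ →+ U) (m : ℕ)
      (_hker : ∀ x, j x = 0 → ∃ z, x = ((p : ℤ) ^ m) • z)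
      (ι : Type v₂) (t : ι → R) (τ : ι → Module.End ℤ U)
      (_hτ : ∀ i x, j (Φ (t i) x) = τ i (j x))
      (ev : MvPolynomial ι O →ₐ[O] Module.End O (O ⊗[ℤ] U))
      (_hev : ∀ i, ev (MvPolynomial.X i) = (τ i).baseChange O)
      (P : MvPolynomial ι O)
      (_hP : ∀ x : O ⊗[ℤ] Λ, ev P (j.toIntLinearMap.baseChange O x) = 0)
      (T' : Type v₃) [CommRing T'] [Algebra O T'] (π : R →+* T')
      (_hreg : ∀ x : T', (p : T') * x = 0 → x = 0)
      (_hunit : ∀ k : ℕ, ¬ p ∣ k → IsUnit (k : T')),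
      MvPolynomial.aeval (fun i => π (t i)) P ∈ Ideal.span {(p : T') ^ (m - c)} := by
  obtain ⟨c₀, hc₀, hc⟩ := exists_bound_aeval.{w, v₁, v₂, v₃} Φ hΦ
  obtain ⟨c, hcc⟩ := exists_pow_sub_of_smul_eq.{v₃} p hp c₀ hc₀
  refine ⟨c, ?_⟩
  intro O _ _ U _ j m hker ι t τ hτ ev hev P hP T' _ _ π hreg hunit
  obtain ⟨r, hr⟩ := hc O U j ((p : ℤ) ^ m) hker ι t τ hτ ev hev P hP T' π
  exact hcc T' hreg hunit m _ r hr

end Final

end Fermat.Agent.S32.helper1429
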