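import Mathlib
import Fermat.Prelude.Def_GaloisRep_Flat
import Fermat.Agent.S28.helper508_RatLoc

set_option autoImplicit false

/-!
# S32-FLATCLOSE-QUOT (board row 1519): quotient closure of function models

A *function model* of a finite Galois module `M` over `R = ℤ_(ℓ)` is an `R`-subalgebra `H` of
`Map(M, Ω)` (`Ω = ℚ̄`) which is a finite `R`-module, consists of Galois-equivariant functions,
separates the points of `M` and is closed under `φ ↦ ((m, m') ↦ φ (m + m'))`
(`φ (m + m') = ∑ a i m * b i m'` with `a i, b i ∈ H`).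

This file proves that for a surjective equivariant additive map `f : M → M'` the subalgebra
`H' = {ψ | ψ ∘ f ∈ H}` is a function model of `M'` (all four properties).

Everything is stated for an abstract principal ideal domain `R` with fraction field `F` and a
field extension `Ω / F` whose automorphism group has fixed field `F`; a wrapper specialises to
`R = GaloisRep.ratLocalizedAt ℓ`, `F = ℚ`, `Ω = AlgebraicClosure ℚ`.
-/

namespace Fermat.Agent.S32.helper1596

section Descent

variable {F Om : Type*} [Field F] [Field Om] [Algebra F Om]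
variable {M : Type*}

/-- Galois descent for linear independence (minimal-support argument): equivariant functions
which are independent over the fixed field are independent over the big field. -/
theorem linearIndependent_of_equivariant
    (hfix : ∀ x : Om, (∀ s : Om ≃ₐ[F] Om, s x = x) → x ∈ Set.range (algebraMap F Om))
    (act : (Om ≃ₐ[F] Om) → M → M) (hsurj : ∀ s, Function.Surjective (act s))
    {ι : Type*} [Fintype ι] (v : ι → M → Om)
    (hv : ∀ i s m, v i (act s m) = s (v i m))
    (hF : LinearIndependent F v) : LinearIndependent Om v := by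
  classical
  rw [Fintype.linearIndependent_iff]
  have key : ∀ (k : ℕ) (c : ι → Om), (Finset.univ.filter (fun i => c i ≠ 0)).card ≤ k →
      (∑ i, c i • v i = 0) → ∀ i, c i = 0 := by
    intro k
    induction k with
    | zero =>
      intro c hc _ i
      by_contra hi
      have hmem : i ∈ Finset.univ.filter (fun i => c i ≠ 0) := by simp [hi]
      have h0 : (Finset.univ.filter (fun i => c i ≠ 0)) = ∅ :=
        Finset.card_eq_zero.mp (Nat.le_zero.mp hc)
      rw [h0] at hmem
      exact absurd hmem (Finset.notMem_empty i)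
    | succ k ih =>
      intro c hc hrel
      by_contra hne
      push Not at hne
      obtain ⟨i₀, hi₀⟩ := hne
      have hrel' : ∑ i, (c i / c i₀) • v i = 0 := by
        have h1 : ∑ i, (c i / c i₀) • v i = (c i₀)⁻¹ • ∑ i, c i • v i := by
          rw [Finset.smul_sum]
          refine Finset.sum_congr rfl fun i _ => ?_
          rw [smul_smul, div_eq_inv_mul]
        rw [h1, hrel, smul_zero]
      have hpt : ∀ m, ∑ i, (c i / c i₀) * v i m = 0 := by
        intro m
        have h1 := congrFun hrel' m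
        simpa only [Finset.sum_apply, Pi.smul_apply, smul_eq_mul, Pi.zero_apply] using h1
      have hfixed : ∀ (s : Om ≃ₐ[F] Om) (i : ι), s (c i / c i₀) = c i / c i₀ := by
        intro s
        have hd := ih (fun i => s (c i / c i₀) - c i / c i₀) ?_ ?_
        · intro i; exact sub_eq_zero.mp (hd i)
        · have hsub : Finset.univ.filter (fun i => s (c i / c i₀) - c i / c i₀ ≠ 0) ⊆
              (Finset.univ.filter (fun i => c i ≠ 0)).erase i₀ := by
            intro i hi
            simp only [Finset.mem_filter, Finset.mem_univ, true_and] at hi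
            simp only [Finset.mem_erase, Finset.mem_filter, Finset.mem_univ, true_and]
            refine ⟨?_, ?_⟩
            · rintro rfl
              apply hi
              rw [div_self hi₀, map_one, sub_self]
            · intro h0
              apply hi
              rw [h0, zero_div, map_zero, sub_self]
          have h1 := Finset.card_le_card hsub
          have h2 : ((Finset.univ.filter (fun i => c i ≠ 0)).erase i₀).card =
              (Finset.univ.filter (fun i => c i ≠ 0)).card - 1 :=
            Finset.card_erase_of_mem (by simp [hi₀])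
          omega
        · funext m
          obtain ⟨m₀, rfl⟩ := hsurj s m
          simp only [Finset.sum_apply, Pi.smul_apply, smul_eq_mul, Pi.zero_apply, sub_mul,
            Finset.sum_sub_distrib]
          rw [hpt (act s m₀), sub_zero]
          have h3 : ∑ i, s (c i / c i₀) * v i (act s m₀) = s (∑ i, (c i / c i₀) * v i m₀) := by
            rw [map_sum]
            refine Finset.sum_congr rfl fun i _ => ?_
            rw [map_mul, hv]
          rw [h3, hpt m₀, map_zero]
      have hq : ∀ i, ∃ q : F, algebraMap F Om q = c i / c i₀ := fun i =>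
        hfix _ (fun s => hfixed s i)
      choose q hq using hq
      have hqrel : ∑ i, q i • v i = 0 := by
        funext m
        have h1 := hpt m
        simp only [Finset.sum_apply, Pi.smul_apply, Pi.zero_apply]
        simp only [Algebra.smul_def, hq]
        exact h1
      have hq0 := (Fintype.linearIndependent_iff.mp hF) q hqrel i₀
      have h1 := hq i₀
      rw [hq0, map_zero, div_self hi₀] at h1
      exact zero_ne_one h1
  intro c hrel i
  exact key _ c le_rfl hrel i

end Descent

section Quot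

variable {R F Om : Type*} [CommRing R] [IsDomain R] [IsPrincipalIdealRing R]
  [Field F] [Field Om] [Algebra R F] [IsFractionRing R F] [Algebra F Om] [Algebra R Om]
  [IsScalarTower R F Om]
variable {M M' : Type*}

omit [IsPrincipalIdealRing R] [IsDomain R] in
/-- A Galois-fixed element of `Ω` which is integral over `R` comes from `R`. -/
theorem exists_algebraMap_eq_of_fixed_of_isIntegral [IsIntegrallyClosed R]
    (hfix : ∀ x : Om, (∀ s : Om ≃ₐ[F] Om, s x = x) → x ∈ Set.range (algebraMap F Om))
    (x : Om) (hx : ∀ s : Om ≃ₐ[F] Om, s x = x) (hint : IsIntegral R x) :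
    ∃ r : R, algebraMap R Om r = x := by
  obtain ⟨q, rfl⟩ := hfix x hx
  have hq : IsIntegral R q := (isIntegral_algebraMap_iff (algebraMap F Om).injective).mp hint
  obtain ⟨r, rfl⟩ := IsIntegrallyClosed.isIntegral_iff.mp hq
  exact ⟨r, IsScalarTower.algebraMap_apply R F Om r⟩

/-- A finitely generated `R`-module of equivariant functions has a finite `R`-spanning family
which is linearly independent over `Ω`. -/
theorem exists_indep_spanning
    (hfix : ∀ x : Om, (∀ s : Om ≃ₐ[F] Om, s x = x) → x ∈ Set.range (algebraMap F Om))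
    (act : (Om ≃ₐ[F] Om) → M → M) (hsurj : ∀ s, Function.Surjective (act s))
    (P : Submodule R (M → Om)) (hP : P.FG)
    (heqv : ∀ φ ∈ P, ∀ s m, φ (act s m) = s (φ m)) :
    ∃ (r : ℕ) (u : Fin r → (M → Om)), (∀ j, u j ∈ P) ∧ LinearIndependent Om u ∧
      ∀ φ ∈ P, ∃ t : Fin r → R, φ = ∑ j, t j • u j := by
  have : Module.Finite R P := Module.Finite.of_fg hP
  have hinj : Function.Injective (algebraMap R Om) := by
    rw [IsScalarTower.algebraMap_eq R F Om]
    exact (algebraMap F Om).injective.comp (IsFractionRing.injective R F)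
  have : Module.IsTorsionFree R Om := Module.isTorsionFree_iff_algebraMap_injective.mpr hinj
  have : Module.IsTorsionFree R (M → Om) := inferInstance
  have : Module.IsTorsionFree R P := inferInstance
  obtain ⟨r, b⟩ := Module.basisOfFiniteTypeTorsionFree' (R := R) (M := P)
  refine ⟨r, fun j => (b j : M → Om), fun j => (b j).2, ?_, ?_⟩
  · apply linearIndependent_of_equivariant hfix act hsurj _ (fun i s m => heqv _ (b i).2 s m)
    have h1 : LinearIndependent R (fun j => (b j : M → Om)) :=
      b.linearIndependent.map' P.subtype P.ker_subtype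
    exact h1.localization F (nonZeroDivisors R)
  · intro φ hφ
    refine ⟨fun j => b.repr ⟨φ, hφ⟩ j, ?_⟩
    have h1 := b.sum_repr ⟨φ, hφ⟩
    have h2 : ∑ j, (b.repr ⟨φ, hφ⟩) j • (b j : M → Om) = φ := by
      have h3 := congrArg (Subtype.val) h1
      simpa only [AddSubmonoidClass.coe_finset_sum, Submodule.coe_smul] using h3
    exact h2.symm

section Act

variable [AddCommGroup M] (act : (Om ≃ₐ[F] Om) → M → M) (H : Subalgebra R (M → Om))

omit [IsDomain R] [IsPrincipalIdealRing R] [Algebra R F] [IsFractionRing R F]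
  [IsScalarTower R F Om] in
/-- In a function model the Galois action is automatically additive. -/
theorem act_add
    (heqv : ∀ φ ∈ H, ∀ s m, φ (act s m) = s (φ m))
    (hsep : ∀ m m', (∀ φ ∈ H, φ m = φ m') → m = m')
    (hcomul : ∀ φ ∈ H, ∃ (n : ℕ) (a b : Fin n → (M → Om)), (∀ i, a i ∈ H) ∧ (∀ i, b i ∈ H) ∧
        ∀ m m', φ (m + m') = ∑ i, a i m * b i m')
    (s : Om ≃ₐ[F] Om) (m m' : M) : act s (m + m') = act s m + act s m' := by
  apply hsep
  intro φ hφ
  obtain ⟨n, a, b, ha, hb, hab⟩ := hcomul φ hφ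
  rw [heqv φ hφ, hab, hab, map_sum]
  refine Finset.sum_congr rfl fun i _ => ?_
  rw [map_mul, heqv _ (ha i), heqv _ (hb i)]

omit [IsDomain R] [IsPrincipalIdealRing R] [Algebra R F] [IsFractionRing R F]
  [IsScalarTower R F Om] [AddCommGroup M] in
theorem act_symm_cancel
    (heqv : ∀ φ ∈ H, ∀ s m, φ (act s m) = s (φ m))
    (hsep : ∀ m m', (∀ φ ∈ H, φ m = φ m') → m = m')
    (s : Om ≃ₐ[F] Om) (m : M) : act s (act s.symm m) = m := by
  apply hsep
  intro φ hφ
  rw [heqv φ hφ, heqv φ hφ, AlgEquiv.apply_symm_apply]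

omit [IsDomain R] [IsPrincipalIdealRing R] [Algebra R F] [IsFractionRing R F]
  [IsScalarTower R F Om] [AddCommGroup M] in
theorem symm_act_cancel
    (heqv : ∀ φ ∈ H, ∀ s m, φ (act s m) = s (φ m))
    (hsep : ∀ m m', (∀ φ ∈ H, φ m = φ m') → m = m')
    (s : Om ≃ₐ[F] Om) (m : M) : act s.symm (act s m) = m := by
  apply hsep
  intro φ hφ
  rw [heqv φ hφ, heqv φ hφ, AlgEquiv.symm_apply_apply]

end Act

section Trace

variable [AddCommGroup M] [AddCommGroup M'] [Fintype M] [DecidableEq M']
  (act : (Om ≃ₐ[F] Om) → M → M) (H : Subalgebra R (M → Om))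

omit [Algebra F Om] in
/-- Sum over a fibre of `f` = sum over the translate of the kernel. -/
theorem fiber_sum_eq (f : M →+ M') (φ : M → Om) (m : M) :
    ∑ x ∈ Finset.univ.filter (fun x => f x = f m), φ x =
      ∑ n ∈ Finset.univ.filter (fun n => f n = 0), φ (m + n) := by
  symm
  refine Finset.sum_equiv (Equiv.addLeft m) (fun n => ?_) (fun n _ => rfl)
  simp only [Finset.mem_filter, Finset.mem_univ, true_and, Equiv.coe_addLeft, map_add,
    add_eq_left]

omit [IsDomain R] [IsPrincipalIdealRing R] in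
/-- The trace over the fibres of `f` maps `H` into `H`. -/
theorem trace_mem [IsIntegrallyClosed R]
    (hfix : ∀ x : Om, (∀ s : Om ≃ₐ[F] Om, s x = x) → x ∈ Set.range (algebraMap F Om))
    (hfin : H.toSubmodule.FG)
    (heqv : ∀ φ ∈ H, ∀ s m, φ (act s m) = s (φ m))
    (hcomul : ∀ φ ∈ H, ∃ (n : ℕ) (a b : Fin n → (M → Om)), (∀ i, a i ∈ H) ∧ (∀ i, b i ∈ H) ∧
        ∀ m m', φ (m + m') = ∑ i, a i m * b i m')
    (f : M →+ M')
    (e : (Om ≃ₐ[F] Om) → M ≃ M) (he : ∀ s m, e s m = act s m)
    (hK : ∀ s n, f n = 0 ↔ f (act s n) = 0)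
    (φ : M → Om) (hφ : φ ∈ H) :
    (fun m => ∑ x ∈ Finset.univ.filter (fun x => f x = f m), φ x) ∈ H := by
  obtain ⟨n, a, b, ha, hb, hab⟩ := hcomul φ hφ
  have hc : ∀ i, ∃ r : R, algebraMap R Om r =
      ∑ x ∈ Finset.univ.filter (fun x : M => f x = 0), b i x := by
    intro i
    apply exists_algebraMap_eq_of_fixed_of_isIntegral hfix
    · intro s
      rw [map_sum]
      have h1 : ∀ x, s (b i x) = b i (e s x) := fun x => by rw [he, heqv _ (hb i) s x]
      simp only [h1]
      refine Finset.sum_equiv (e s) (fun x => ?_) (fun x _ => rfl)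
      simp only [Finset.mem_filter, Finset.mem_univ, true_and, he]
      exact hK s x
    · refine IsIntegral.sum _ fun x _ => ?_
      have h1 : IsIntegral R (b i) := IsIntegral.of_mem_of_fg H hfin _ (hb i)
      exact h1.map (Pi.evalAlgHom R (fun _ : M => Om) x)
  choose r hr using hc
  have hmain : (fun m => ∑ x ∈ Finset.univ.filter (fun x => f x = f m), φ x) =
      ∑ i, r i • a i := by
    funext m
    rw [fiber_sum_eq]
    simp only [Finset.sum_apply, Pi.smul_apply]
    simp only [Algebra.smul_def, hr, hab]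
    rw [Finset.sum_comm]
    refine Finset.sum_congr rfl fun i _ => ?_
    rw [Finset.sum_mul]
    refine Finset.sum_congr rfl fun x _ => ?_
    ring
  rw [hmain]
  exact H.sum_mem fun i _ => H.smul_mem (ha i) _

omit [IsDomain R] [IsPrincipalIdealRing R] [Algebra R F] [IsFractionRing R F]
  [IsScalarTower R F Om] [AddCommGroup M] [AddCommGroup M'] [Field F] [Algebra F Om] in
/-- Separation on the quotient: if every `f`-invariant element of `H` takes the same value
at `m₁` and `m₂`, then `f m₁ = f m₂` (Dedekind independence of the evaluation characters). -/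
theorem quot_sep_aux (f : M → M')
    (htr : ∀ φ ∈ H, (fun m => ∑ x ∈ Finset.univ.filter (fun x => f x = f m), φ x) ∈ H)
    (hsep : ∀ m m', (∀ φ ∈ H, φ m = φ m') → m = m')
    (m₁ m₂ : M)
    (h : ∀ χ ∈ H, (∀ x y, f x = f y → χ x = χ y) → χ m₁ = χ m₂) : f m₁ = f m₂ := by
  by_contra hne
  have hli : LinearIndependent Om (fun x : M => fun h : H => (h : M → Om) x) := by
    let ev : M → (H →* Om) := fun x =>
      { toFun := fun h => (h : M → Om) x
        map_one' := rfl
        map_mul' := fun _ _ => rfl }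
    have hinj : Function.Injective ev := by
      intro x y hxy
      apply hsep
      intro φ hφ
      exact DFunLike.congr_fun hxy ⟨φ, hφ⟩
    exact (linearIndependent_monoidHom H Om).comp ev hinj
  rw [Fintype.linearIndependent_iff] at hli
  have h0 := hli (fun x => (if f x = f m₁ then 1 else 0) - (if f x = f m₂ then 1 else 0)) ?_ m₁
  · simp only [if_true] at h0
    rw [if_neg hne, sub_zero] at h0
    exact one_ne_zero h0
  · funext ⟨φ, hφ⟩
    simp only [Finset.sum_apply, Pi.smul_apply, smul_eq_mul, Pi.zero_apply]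
    have h1 := h _ (htr φ hφ) (fun x y hxy => by simp only [hxy])
    simp only [sub_mul, ite_mul, one_mul, zero_mul, Finset.sum_sub_distrib, ← Finset.sum_filter]
    exact sub_eq_zero.mpr h1

end Trace

section Comul

variable [AddCommGroup M] [AddCommGroup M']
  (act : (Om ≃ₐ[F] Om) → M → M) (H : Subalgebra R (M → Om))

/-- The `f`-invariant functions, as an `R`-submodule. -/
def invSubmodule (R : Type*) (Om : Type*) [CommRing R] [Field Om] [Algebra R Om]
    {M M' : Type*} (f : M → M') : Submodule R (M → Om) where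
  carrier := {χ | ∀ x y, f x = f y → χ x = χ y}
  add_mem' := by
    intro a b ha hb x y hxy
    simp only [Pi.add_apply, ha x y hxy, hb x y hxy]
  zero_mem' := by intro x y _; rfl
  smul_mem' := by
    intro c a ha x y hxy
    simp only [Pi.smul_apply, ha x y hxy]

omit [AddCommGroup M] [AddCommGroup M'] [IsDomain R] [IsPrincipalIdealRing R] in
theorem mem_invSubmodule (f : M → M') (χ : M → Om) :
    χ ∈ invSubmodule R Om f ↔ ∀ x y, f x = f y → χ x = χ y := Iff.rfl

/-- Comultiplication closure of the invariants: an `f`-invariant element of `H` has a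
comultiplication formula with `f`-invariant tensor factors in `H`
(Galois descent + freeness over the principal ideal domain `R`). -/
theorem quot_comul_aux
    (hfix : ∀ x : Om, (∀ s : Om ≃ₐ[F] Om, s x = x) → x ∈ Set.range (algebraMap F Om))
    (hfin : H.toSubmodule.FG)
    (heqv : ∀ φ ∈ H, ∀ s m, φ (act s m) = s (φ m))
    (hsurj : ∀ s, Function.Surjective (act s))
    (hcomul : ∀ φ ∈ H, ∃ (n : ℕ) (a b : Fin n → (M → Om)), (∀ i, a i ∈ H) ∧ (∀ i, b i ∈ H) ∧
        ∀ m m', φ (m + m') = ∑ i, a i m * b i m')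
    (f : M →+ M')
    (φ : M → Om) (hφ : φ ∈ H) (hinv : ∀ x y, f x = f y → φ x = φ y) :
    ∃ (n : ℕ) (a b : Fin n → (M → Om)), (∀ i, a i ∈ H) ∧ (∀ i, b i ∈ H) ∧
      (∀ i x y, f x = f y → a i x = a i y) ∧ (∀ i x y, f x = f y → b i x = b i y) ∧
      ∀ m m', φ (m + m') = ∑ i, a i m * b i m' := by
  classical
  obtain ⟨n, a, b, ha, hb, hab⟩ := hcomul φ hφ
  obtain ⟨r, w, hw, hwind, hwspan⟩ :=
    exists_indep_spanning hfix act hsurj H.toSubmodule hfin heqv
  choose c hc using fun i => hwspan (b i) (hb i)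
  have hAH : ∀ k, (∑ i, c i k • a i) ∈ H := fun k =>
    H.sum_mem fun i _ => H.smul_mem (ha i) _
  have hφA : ∀ m m', φ (m + m') = ∑ k, (∑ i, c i k • a i) m * w k m' := by
    intro m m'
    rw [hab]
    calc ∑ i, a i m * b i m'
        = ∑ i, ∑ k, (algebraMap R Om (c i k) * a i m) * w k m' := by
          refine Finset.sum_congr rfl fun i _ => ?_
          conv_lhs => rw [hc i]
          simp only [Finset.sum_apply, Pi.smul_apply]
          simp only [Algebra.smul_def, Finset.mul_sum]
          refine Finset.sum_congr rfl fun k _ => ?_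
          ring
      _ = ∑ k, ∑ i, (algebraMap R Om (c i k) * a i m) * w k m' := Finset.sum_comm
      _ = ∑ k, (∑ i, c i k • a i) m * w k m' := by
          refine Finset.sum_congr rfl fun k _ => ?_
          simp only [Finset.sum_apply, Pi.smul_apply]
          simp only [Algebra.smul_def, Finset.sum_mul]
  have hAinv : ∀ k x y, f x = f y → (∑ i, c i k • a i) x = (∑ i, c i k • a i) y := by
    intro k x y hxy
    have hrel : ∑ k, ((∑ i, c i k • a i) x - (∑ i, c i k • a i) y) • w k = 0 := by
      funext m'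
      have h3 : φ (x + m') = φ (y + m') := hinv _ _ (by rw [map_add, map_add, hxy])
      simp only [Finset.sum_apply, Pi.smul_apply, smul_eq_mul, Pi.zero_apply, sub_mul,
        Finset.sum_sub_distrib]
      have h4 := hφA x m'
      have h5 := hφA y m'
      simp only [Finset.sum_apply, Pi.smul_apply] at h4 h5
      rw [← h4, ← h5, h3, sub_self]
    exact sub_eq_zero.mp ((Fintype.linearIndependent_iff.mp hwind) _ hrel k)
  -- the invariants of `H`
  have hnoeth : IsNoetherian R H.toSubmodule := isNoetherian_of_fg_of_noetherian _ hfin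
  have hPle : H.toSubmodule ⊓ invSubmodule R Om f ≤ H.toSubmodule := inf_le_left
  have hPfin : Module.Finite R ↥(H.toSubmodule ⊓ invSubmodule R Om f) :=
    Module.Finite.of_injective (Submodule.inclusion hPle) (Submodule.inclusion_injective hPle)
  have hPfg : (H.toSubmodule ⊓ invSubmodule R Om f).FG := Module.Finite.iff_fg.mp hPfin
  obtain ⟨r', u, hu, huind, huspan⟩ :=
    exists_indep_spanning hfix act hsurj (H.toSubmodule ⊓ invSubmodule R Om f) hPfg
      (fun χ hχ => heqv χ hχ.1)
  choose t ht using fun k => huspan (∑ i, c i k • a i) ⟨hAH k, hAinv k⟩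
  have hBH : ∀ j, (∑ k, t k j • w k) ∈ H := fun j =>
    H.sum_mem fun k _ => H.smul_mem (hw k) _
  have hφB : ∀ m m', φ (m + m') = ∑ j, u j m * (∑ k, t k j • w k) m' := by
    intro m m'
    rw [hφA]
    calc ∑ k, (∑ i, c i k • a i) m * w k m'
        = ∑ k, ∑ j, u j m * (algebraMap R Om (t k j) * w k m') := by
          refine Finset.sum_congr rfl fun k _ => ?_
          conv_lhs => rw [ht k]
          simp only [Finset.sum_apply, Pi.smul_apply]
          simp only [Algebra.smul_def, Finset.sum_mul]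
          refine Finset.sum_congr rfl fun j _ => ?_
          ring
      _ = ∑ j, ∑ k, u j m * (algebraMap R Om (t k j) * w k m') := Finset.sum_comm
      _ = ∑ j, u j m * (∑ k, t k j • w k) m' := by
          refine Finset.sum_congr rfl fun j _ => ?_
          simp only [Finset.sum_apply, Pi.smul_apply]
          simp only [Algebra.smul_def, Finset.mul_sum]
  have hBinv : ∀ j x y, f x = f y → (∑ k, t k j • w k) x = (∑ k, t k j • w k) y := by
    intro j x y hxy
    have hrel : ∑ j, ((∑ k, t k j • w k) x - (∑ k, t k j • w k) y) • u j = 0 := by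
      funext m
      have h3 : φ (m + x) = φ (m + y) := hinv _ _ (by rw [map_add, map_add, hxy])
      rw [hφB, hφB] at h3
      simp only [Finset.sum_apply, Pi.smul_apply, smul_eq_mul, Pi.zero_apply, sub_mul,
        Finset.sum_sub_distrib]
      simp only [Finset.sum_apply, Pi.smul_apply] at h3
      simp only [mul_comm _ (u _ m)]
      rw [h3, sub_self]
    exact sub_eq_zero.mp ((Fintype.linearIndependent_iff.mp huind) _ hrel j)
  exact ⟨r', u, fun j => ∑ k, t k j • w k, fun j => (hu j).1, hBH, fun j => (hu j).2, hBinv,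
    hφB⟩

end Comul

section Main

variable [AddCommGroup M] [Finite M] [AddCommGroup M']

/-- **Quotient closure of function models** (abstract form).  `H` is a function model of the
finite Galois module `M` (finite over `R`, equivariant, point-separating, closed under
comultiplication), `f : M → M'` is a surjective equivariant additive map and `H'` is the
subalgebra of all `ψ` with `ψ ∘ f ∈ H`.  Then `H'` is a function model of `M'`. -/
theorem quot_funModel
    (hfix : ∀ x : Om, (∀ s : Om ≃ₐ[F] Om, s x = x) → x ∈ Set.range (algebraMap F Om))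
    (act : (Om ≃ₐ[F] Om) → M → M) (act' : (Om ≃ₐ[F] Om) → M' → M')
    (H : Subalgebra R (M → Om))
    (hfin : H.toSubmodule.FG)
    (heqv : ∀ φ ∈ H, ∀ s m, φ (act s m) = s (φ m))
    (hsep : ∀ m m', (∀ φ ∈ H, φ m = φ m') → m = m')
    (hcomul : ∀ φ ∈ H, ∃ (n : ℕ) (a b : Fin n → (M → Om)), (∀ i, a i ∈ H) ∧ (∀ i, b i ∈ H) ∧
        ∀ m m', φ (m + m') = ∑ i, a i m * b i m')
    (f : M →+ M') (hf : Function.Surjective f) (hfeq : ∀ s m, f (act s m) = act' s (f m))
    (H' : Subalgebra R (M' → Om)) (hH' : ∀ ψ, ψ ∈ H' ↔ ψ ∘ f ∈ H) :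
    H'.toSubmodule.FG ∧
    (∀ ψ ∈ H', ∀ s m, ψ (act' s m) = s (ψ m)) ∧
    (∀ m m', (∀ ψ ∈ H', ψ m = ψ m') → m = m') ∧
    (∀ ψ ∈ H', ∃ (n : ℕ) (a b : Fin n → (M' → Om)), (∀ i, a i ∈ H') ∧ (∀ i, b i ∈ H') ∧
        ∀ m m', ψ (m + m') = ∑ i, a i m * b i m') := by
  classical
  have : Fintype M := Fintype.ofFinite M
  have hact0 : ∀ s, act s 0 = 0 := by
    intro s
    have h := act_add act H heqv hsep hcomul s 0 0
    rw [add_zero] at h
    exact add_eq_left.mp h.symm
  have hK1 : ∀ s n, f n = 0 → f (act s n) = 0 := by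
    intro s n hn
    calc f (act s n) = act' s (f n) := hfeq s n
      _ = act' s (f 0) := by rw [hn, map_zero]
      _ = f (act s 0) := (hfeq s 0).symm
      _ = 0 := by rw [hact0, map_zero]
  have hK : ∀ s n, f n = 0 ↔ f (act s n) = 0 := fun s n =>
    ⟨hK1 s n, fun h => by
      have h1 := hK1 s.symm _ h
      rwa [symm_act_cancel act H heqv hsep] at h1⟩
  have hsurj : ∀ s, Function.Surjective (act s) := fun s m =>
    ⟨act s.symm m, act_symm_cancel act H heqv hsep s m⟩
  have htr : ∀ φ ∈ H, (fun m => ∑ x ∈ Finset.univ.filter (fun x => f x = f m), φ x) ∈ H :=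
    fun φ hφ => trace_mem act H hfix hfin heqv hcomul f
      (fun s => ⟨act s, act s.symm, symm_act_cancel act H heqv hsep s,
        act_symm_cancel act H heqv hsep s⟩) (fun _ _ => rfl) hK φ hφ
  have hg : ∀ y, f (Function.surjInv hf y) = y := Function.surjInv_eq hf
  have hdesc : ∀ χ ∈ H, (∀ x y, f x = f y → χ x = χ y) → χ ∘ Function.surjInv hf ∈ H' := by
    intro χ hχ hinv
    rw [hH']
    have h1 : (χ ∘ Function.surjInv hf) ∘ f = χ := by
      funext m
      exact hinv _ _ (hg (f m))
    rw [h1]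
    exact hχ
  refine ⟨?_, ?_, ?_, ?_⟩
  · have hnoeth : IsNoetherian R H.toSubmodule := isNoetherian_of_fg_of_noetherian _ hfin
    let L : H'.toSubmodule →ₗ[R] H.toSubmodule :=
      LinearMap.codRestrict H.toSubmodule
        ((LinearMap.funLeft R Om f).comp H'.toSubmodule.subtype)
        (fun ψ => (hH' ψ.1).mp ψ.2)
    have hL : Function.Injective L := by
      intro ψ₁ ψ₂ h12
      have h1 : (ψ₁ : M' → Om) ∘ f = (ψ₂ : M' → Om) ∘ f := congrArg Subtype.val h12
      apply Subtype.ext
      funext y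
      obtain ⟨m, rfl⟩ := hf y
      exact congrFun h1 m
    have hfinite : Module.Finite R H'.toSubmodule := Module.Finite.of_injective L hL
    exact Module.Finite.iff_fg.mp hfinite
  · intro ψ hψ s y
    obtain ⟨m, rfl⟩ := hf y
    rw [← hfeq]
    exact heqv _ ((hH' ψ).mp hψ) s m
  · intro y₁ y₂ h
    obtain ⟨m₁, rfl⟩ := hf y₁
    obtain ⟨m₂, rfl⟩ := hf y₂
    apply quot_sep_aux H f htr hsep m₁ m₂
    intro χ hχ hinv
    calc χ m₁ = χ (Function.surjInv hf (f m₁)) := hinv _ _ (hg _).symm
      _ = χ (Function.surjInv hf (f m₂)) := h _ (hdesc χ hχ hinv)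
      _ = χ m₂ := hinv _ _ (hg _)
  · intro ψ hψ
    obtain ⟨n, a, b, ha, hb, hai, hbi, hab⟩ := quot_comul_aux act H hfix hfin heqv hsurj hcomul f
      (ψ ∘ f) ((hH' ψ).mp hψ) (fun x y hxy => congrArg ψ hxy)
    refine ⟨n, fun i => a i ∘ Function.surjInv hf, fun i => b i ∘ Function.surjInv hf,
      fun i => hdesc _ (ha i) (hai i), fun i => hdesc _ (hb i) (hbi i), ?_⟩
    intro y y'
    have h1 := hab (Function.surjInv hf y) (Function.surjInv hf y')
    simp only [Function.comp_apply, map_add, hg] at h1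
    exact h1

/-- Existence form of `quot_funModel`. -/
theorem exists_quot_funModel
    (hfix : ∀ x : Om, (∀ s : Om ≃ₐ[F] Om, s x = x) → x ∈ Set.range (algebraMap F Om))
    (act : (Om ≃ₐ[F] Om) → M → M) (act' : (Om ≃ₐ[F] Om) → M' → M')
    (H : Subalgebra R (M → Om))
    (hfin : H.toSubmodule.FG)
    (heqv : ∀ φ ∈ H, ∀ s m, φ (act s m) = s (φ m))
    (hsep : ∀ m m', (∀ φ ∈ H, φ m = φ m') → m = m')
    (hcomul : ∀ φ ∈ H, ∃ (n : ℕ) (a b : Fin n → (M → Om)), (∀ i, a i ∈ H) ∧ (∀ i, b i ∈ H) ∧
        ∀ m m', φ (m + m') = ∑ i, a i m * b i m')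
    (f : M →+ M') (hf : Function.Surjective f) (hfeq : ∀ s m, f (act s m) = act' s (f m)) :
    ∃ H' : Subalgebra R (M' → Om), (∀ ψ, ψ ∈ H' ↔ ψ ∘ f ∈ H) ∧
    H'.toSubmodule.FG ∧
    (∀ ψ ∈ H', ∀ s m, ψ (act' s m) = s (ψ m)) ∧
    (∀ m m', (∀ ψ ∈ H', ψ m = ψ m') → m = m') ∧
    (∀ ψ ∈ H', ∃ (n : ℕ) (a b : Fin n → (M' → Om)), (∀ i, a i ∈ H') ∧ (∀ i, b i ∈ H') ∧
        ∀ m m', ψ (m + m') = ∑ i, a i m * b i m') := by
  let pb : (M' → Om) →ₐ[R] (M → Om) :=
    { toFun := fun ψ => ψ ∘ f
      map_one' := rfl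
      map_mul' := fun _ _ => rfl
      map_zero' := rfl
      map_add' := fun _ _ => rfl
      commutes' := fun _ => rfl }
  have hmem : ∀ ψ, ψ ∈ H.comap pb ↔ ψ ∘ f ∈ H := fun ψ => Iff.rfl
  exact ⟨H.comap pb, hmem,
    quot_funModel hfix act act' H hfin heqv hsep hcomul f hf hfeq (H.comap pb) hmem⟩

omit [Finite M] in
/-- In a function model, `φ 0` lies in `R` for every `φ ∈ H` (it is Galois-fixed, because
`act s 0 = 0`, and integral over the integrally closed ring `R`). -/
theorem eval_zero_mem_range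
    (hfix : ∀ x : Om, (∀ s : Om ≃ₐ[F] Om, s x = x) → x ∈ Set.range (algebraMap F Om))
    (act : (Om ≃ₐ[F] Om) → M → M)
    (H : Subalgebra R (M → Om))
    (hfin : H.toSubmodule.FG)
    (heqv : ∀ φ ∈ H, ∀ s m, φ (act s m) = s (φ m))
    (hsep : ∀ m m', (∀ φ ∈ H, φ m = φ m') → m = m')
    (hcomul : ∀ φ ∈ H, ∃ (n : ℕ) (a b : Fin n → (M → Om)), (∀ i, a i ∈ H) ∧ (∀ i, b i ∈ H) ∧
        ∀ m m', φ (m + m') = ∑ i, a i m * b i m')
    (φ : M → Om) (hφ : φ ∈ H) : φ 0 ∈ Set.range (algebraMap R Om) := by
  have hact0 : ∀ s, act s 0 = 0 := by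
    intro s
    have h := act_add act H heqv hsep hcomul s 0 0
    rw [add_zero] at h
    exact add_eq_left.mp h.symm
  apply exists_algebraMap_eq_of_fixed_of_isIntegral hfix
  · intro s
    rw [← heqv φ hφ s 0, hact0]
  · have h1 : IsIntegral R φ := IsIntegral.of_mem_of_fg H hfin _ hφ
    exact h1.map (Pi.evalAlgHom R (fun _ : M => Om) 0)

omit [AddCommGroup M] [Finite M] in
/-- A function model is free over `R` on a basis which is linearly independent over `Ω`
as a family of functions (Galois descent). -/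
theorem exists_basis_linearIndependent
    (hfix : ∀ x : Om, (∀ s : Om ≃ₐ[F] Om, s x = x) → x ∈ Set.range (algebraMap F Om))
    (act : (Om ≃ₐ[F] Om) → M → M) (hsurj : ∀ s, Function.Surjective (act s))
    (H : Subalgebra R (M → Om))
    (hfin : H.toSubmodule.FG)
    (heqv : ∀ φ ∈ H, ∀ s m, φ (act s m) = s (φ m)) :
    ∃ (n : ℕ) (b : Module.Basis (Fin n) R H),
      LinearIndependent Om (fun i => ((b i : H) : M → Om)) := by
  have : Module.Finite R H := Module.Finite.of_fg hfin
  have hinj : Function.Injective (algebraMap R Om) := by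
    rw [IsScalarTower.algebraMap_eq R F Om]
    exact (algebraMap F Om).injective.comp (IsFractionRing.injective R F)
  have : Module.IsTorsionFree R Om := Module.isTorsionFree_iff_algebraMap_injective.mpr hinj
  have : Module.IsTorsionFree R (M → Om) := inferInstance
  have : Module.IsTorsionFree R H := inferInstance
  obtain ⟨n, b⟩ := Module.basisOfFiniteTypeTorsionFree' (R := R) (M := H)
  refine ⟨n, b, ?_⟩
  apply linearIndependent_of_equivariant hfix act hsurj _ (fun i s m => heqv _ (b i).2 s m)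
  have h1 : LinearIndependent R (fun j => ((b j : H) : M → Om)) :=
    b.linearIndependent.map' H.val.toLinearMap
      (LinearMap.ker_eq_bot.mpr Subtype.val_injective)
  exact h1.localization F (nonZeroDivisors R)

end Main

end Quot

section Concrete

open GaloisRep

/-- The fixed field of the absolute Galois group of `ℚ` is `ℚ`. -/
theorem fixed_Qbar (x : AlgebraicClosure ℚ)
    (hx : ∀ s : AlgebraicClosure ℚ ≃ₐ[ℚ] AlgebraicClosure ℚ, s x = x) :
    x ∈ Set.range (algebraMap ℚ (AlgebraicClosure ℚ)) := by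
  have : IsAlgClosure ℚ (AlgebraicClosure ℚ) := ⟨inferInstance, AlgebraicClosure.isAlgebraic ℚ⟩
  exact (InfiniteGalois.mem_range_algebraMap_iff_fixed x).mpr hx

theorem isFractionRing_ratLocalizedAt (p : ℕ) [Fact p.Prime] :
    IsFractionRing (ratLocalizedAt p) ℚ :=
  IsFractionRing.isFractionRing_of_isDomain_of_isLocalization
    (Ideal.span {(p : ℤ)}).primeCompl (ratLocalizedAt p) ℚ

/-- **Quotient closure of function models over `ℤ_(p)`** — the shape consumed by the S32
flatness chain: `R = GaloisRep.ratLocalizedAt p`, `Ω = AlgebraicClosure ℚ`. -/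
theorem quot_funModel_ratLocalizedAt (p : ℕ) [Fact p.Prime]
    {M M' : Type*} [AddCommGroup M] [Finite M] [AddCommGroup M']
    (act : (AlgebraicClosure ℚ ≃ₐ[ℚ] AlgebraicClosure ℚ) → M → M)
    (act' : (AlgebraicClosure ℚ ≃ₐ[ℚ] AlgebraicClosure ℚ) → M' → M')
    (H : Subalgebra (ratLocalizedAt p) (M → AlgebraicClosure ℚ))
    (hfin : H.toSubmodule.FG)
    (heqv : ∀ φ ∈ H, ∀ s m, φ (act s m) = s (φ m))
    (hsep : ∀ m m', (∀ φ ∈ H, φ m = φ m') → m = m')
    (hcomul : ∀ φ ∈ H, ∃ (n : ℕ) (a b : Fin n → (M → AlgebraicClosure ℚ)),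
        (∀ i, a i ∈ H) ∧ (∀ i, b i ∈ H) ∧ ∀ m m', φ (m + m') = ∑ i, a i m * b i m')
    (f : M →+ M') (hf : Function.Surjective f) (hfeq : ∀ s m, f (act s m) = act' s (f m)) :
    ∃ H' : Subalgebra (ratLocalizedAt p) (M' → AlgebraicClosure ℚ),
    (∀ ψ, ψ ∈ H' ↔ ψ ∘ f ∈ H) ∧
    H'.toSubmodule.FG ∧
    (∀ ψ ∈ H', ∀ s m, ψ (act' s m) = s (ψ m)) ∧
    (∀ m m', (∀ ψ ∈ H', ψ m = ψ m') → m = m') ∧
    (∀ ψ ∈ H', ∃ (n : ℕ) (a b : Fin n → (M' → AlgebraicClosure ℚ)),
        (∀ i, a i ∈ H') ∧ (∀ i, b i ∈ H') ∧ ∀ m m', ψ (m + m') = ∑ i, a i m * b i m') := by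
  have := isFractionRing_ratLocalizedAt p
  exact exists_quot_funModel (F := ℚ) fixed_Qbar act act' H hfin heqv hsep hcomul f hf hfeq

/-- `φ 0 ∈ ℤ_(p)` for every element of a function model over `ℤ_(p)`
(the `zero` hypothesis of the Hopf-order constructor). -/
theorem eval_zero_mem_range_ratLocalizedAt (p : ℕ) [Fact p.Prime]
    {M : Type*} [AddCommGroup M]
    (act : (AlgebraicClosure ℚ ≃ₐ[ℚ] AlgebraicClosure ℚ) → M → M)
    (H : Subalgebra (ratLocalizedAt p) (M → AlgebraicClosure ℚ))
    (hfin : H.toSubmodule.FG)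
    (heqv : ∀ φ ∈ H, ∀ s m, φ (act s m) = s (φ m))
    (hsep : ∀ m m', (∀ φ ∈ H, φ m = φ m') → m = m')
    (hcomul : ∀ φ ∈ H, ∃ (n : ℕ) (a b : Fin n → (M → AlgebraicClosure ℚ)),
        (∀ i, a i ∈ H) ∧ (∀ i, b i ∈ H) ∧ ∀ m m', φ (m + m') = ∑ i, a i m * b i m')
    (φ : M → AlgebraicClosure ℚ) (hφ : φ ∈ H) :
    φ 0 ∈ Set.range (algebraMap (ratLocalizedAt p) (AlgebraicClosure ℚ)) := by
  have := isFractionRing_ratLocalizedAt p
  exact eval_zero_mem_range (F := ℚ) fixed_Qbar act H hfin heqv hsep hcomul φ hφ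

/-- A function model over `ℤ_(p)` is free on a basis which is `ℚ̄`-linearly independent
(the `basis` hypothesis of the Hopf-order constructor). -/
theorem exists_basis_linearIndependent_ratLocalizedAt (p : ℕ) [Fact p.Prime]
    {M : Type*}
    (act : (AlgebraicClosure ℚ ≃ₐ[ℚ] AlgebraicClosure ℚ) → M → M)
    (H : Subalgebra (ratLocalizedAt p) (M → AlgebraicClosure ℚ))
    (hfin : H.toSubmodule.FG)
    (heqv : ∀ φ ∈ H, ∀ s m, φ (act s m) = s (φ m))
    (hsep : ∀ m m', (∀ φ ∈ H, φ m = φ m') → m = m') :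
    ∃ (n : ℕ) (b : Module.Basis (Fin n) (ratLocalizedAt p) H),
      LinearIndependent (AlgebraicClosure ℚ) (fun i => ((b i : H) : M → AlgebraicClosure ℚ)) := by
  have := isFractionRing_ratLocalizedAt p
  exact exists_basis_linearIndependent (F := ℚ) fixed_Qbar act
    (fun s m => ⟨act s.symm m, act_symm_cancel act H heqv hsep s m⟩) H hfin heqv

end Concrete

end Fermat.Agent.S32.helper1596
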