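import Fermat.Agent.S32.helper2804_LevelRep

/-!
# S32: the polynomial presentation of the coefficient ring of a Hecke–Galois datum

For a datum `H` of level `N` away from `S` (all primes of `N` in `S`), with
`ι := {ℓ // ℓ.Prime ∧ ¬ ℓ ∣ N ∧ ℓ ∉ S}`:

* `aeval_heckeT_surjective` : `MvPolynomial ι 𝒪 → T`, `X_ℓ ↦ π (T_ℓ)`, is surjective;
* `levelPi H I : MvPolynomial ι 𝒪 →+* T ⧸ I` and `levelPi_surjective`;
* `levelPi_dickson` : `levelPi` maps `D_a(X_ℓ, ℓ)` to the image of the Hecke Dickson element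
  (S31 `heckeDickson`), i.e. to the trace of `lvl H.ρ I (s ^ a)` for a Frobenius lift `s` at `ℓ`
  (`levelPi_dickson_eq_trace`), and `levelPi_natCast_pow`.
-/

set_option autoImplicit false

namespace Fermat.Agent.S32.helper2804

open Polynomial Fermat.Agent.S31.helper8024

variable {N : ℕ} [NeZero N] {S : Finset ℕ}
  {𝒪 : Type} [CommRing 𝒪] [IsDomain 𝒪] [IsDiscreteValuationRing 𝒪]
  [IsAdicComplete (IsLocalRing.maximalIdeal 𝒪) 𝒪]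
  {θ : CuspForm.heckeAlgebra N 2 (↑S : Set ℕ) →+* IsLocalRing.ResidueField 𝒪}
  {T : Type} [CommRing T] [IsLocalRing T] [IsNoetherianRing T]
  [IsAdicComplete (IsLocalRing.maximalIdeal T) T] [Algebra 𝒪 T] [IsLocalHom (algebraMap 𝒪 T)]
  [Module.Finite 𝒪 T] [Module.Free 𝒪 T]

/-- The images of the `T_ℓ` (`ℓ ∉ S`, `ℓ ∤ N`) generate `T` as an `𝒪`-algebra, when all primes
of `N` lie in `S`. -/
theorem adjoin_range_heckeT (hNS : ∀ q : ℕ, q.Prime → q ∣ N → q ∈ S)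
    (H : CuspForm.HeckeGaloisRepDatum N (↑S : Set ℕ) 𝒪 θ T) :
    Algebra.adjoin 𝒪 (Set.range fun i : {ℓ : ℕ // ℓ.Prime ∧ ¬ ℓ ∣ N ∧ ℓ ∉ (↑S : Set ℕ)} =>
      H.π (CuspForm.heckeAlgebra.T i.2.1 i.2.2.1 i.2.2.2)) = ⊤ := by
  set A : Subalgebra 𝒪 T :=
    Algebra.adjoin 𝒪 (Set.range fun i : {ℓ : ℕ // ℓ.Prime ∧ ¬ ℓ ∣ N ∧ ℓ ∉ (↑S : Set ℕ)} =>
      H.π (CuspForm.heckeAlgebra.T i.2.1 i.2.2.1 i.2.2.2)) with hA
  have key : ∀ (x : Module.End ℂ (CuspForm (CongruenceSubgroup.Gamma0 N) 2))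
      (hx : x ∈ CuspForm.heckeAlgebra N 2 (↑S : Set ℕ)), H.π ⟨x, hx⟩ ∈ A := by
    intro x hx
    induction hx using Algebra.adjoin_induction with
    | mem x hx =>
      rcases hx with ⟨ℓ, hℓ, hℓN, hℓS, rfl⟩ | ⟨q, hqN, hq, hqS, rfl⟩
      · exact Algebra.subset_adjoin ⟨⟨ℓ, hℓ, hℓN, hℓS⟩, rfl⟩
      · exact absurd (Finset.mem_coe.mpr (hNS q hq hqN)) hqS
    | algebraMap r =>
      have : (⟨algebraMap ℤ _ r, Subalgebra.algebraMap_mem _ r⟩ :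
          CuspForm.heckeAlgebra N 2 (↑S : Set ℕ)) = algebraMap ℤ _ r := rfl
      rw [this, eq_intCast, map_intCast]
      exact intCast_mem A r
    | add x y hx hy hx' hy' =>
      have : (⟨x + y, Subalgebra.add_mem _ hx hy⟩ : CuspForm.heckeAlgebra N 2 (↑S : Set ℕ)) =
          ⟨x, hx⟩ + ⟨y, hy⟩ := rfl
      rw [this, map_add]
      exact Subalgebra.add_mem _ hx' hy'
    | mul x y hx hy hx' hy' =>
      have : (⟨x * y, Subalgebra.mul_mem _ hx hy⟩ : CuspForm.heckeAlgebra N 2 (↑S : Set ℕ)) =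
          ⟨x, hx⟩ * ⟨y, hy⟩ := rfl
      rw [this, map_mul]
      exact Subalgebra.mul_mem _ hx' hy'
  rw [eq_top_iff, ← H.adjoin_range_π]
  refine Algebra.adjoin_le ?_
  rintro _ ⟨t, rfl⟩
  exact key t.1 t.2

/-- **Polynomial presentation**: `MvPolynomial ι 𝒪 → T`, `X_ℓ ↦ π (T_ℓ)`, is surjective. -/
theorem aeval_heckeT_surjective (hNS : ∀ q : ℕ, q.Prime → q ∣ N → q ∈ S)
    (H : CuspForm.HeckeGaloisRepDatum N (↑S : Set ℕ) 𝒪 θ T) :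
    Function.Surjective (MvPolynomial.aeval (R := 𝒪)
      fun i : {ℓ : ℕ // ℓ.Prime ∧ ¬ ℓ ∣ N ∧ ℓ ∉ (↑S : Set ℕ)} =>
        H.π (CuspForm.heckeAlgebra.T i.2.1 i.2.2.1 i.2.2.2)) := by
  intro t
  have ht : t ∈ (MvPolynomial.aeval (R := 𝒪)
      fun i : {ℓ : ℕ // ℓ.Prime ∧ ¬ ℓ ∣ N ∧ ℓ ∉ (↑S : Set ℕ)} =>
        H.π (CuspForm.heckeAlgebra.T i.2.1 i.2.2.1 i.2.2.2)).range := by
    rw [← Algebra.adjoin_range_eq_range_aeval, adjoin_range_heckeT hNS H]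
    exact Algebra.mem_top
  exact ht

/-- The ring hom `MvPolynomial ι 𝒪 → T ⧸ I`, `X_ℓ ↦ π (T_ℓ) mod I`. -/
noncomputable def levelPi (H : CuspForm.HeckeGaloisRepDatum N (↑S : Set ℕ) 𝒪 θ T) (I : Ideal T) :
    MvPolynomial {ℓ : ℕ // ℓ.Prime ∧ ¬ ℓ ∣ N ∧ ℓ ∉ (↑S : Set ℕ)} 𝒪 →+* T ⧸ I :=
  (Ideal.Quotient.mk I).comp (MvPolynomial.aeval (R := 𝒪)
    fun i : {ℓ : ℕ // ℓ.Prime ∧ ¬ ℓ ∣ N ∧ ℓ ∉ (↑S : Set ℕ)} =>
      H.π (CuspForm.heckeAlgebra.T i.2.1 i.2.2.1 i.2.2.2)).toRingHom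

theorem levelPi_apply (H : CuspForm.HeckeGaloisRepDatum N (↑S : Set ℕ) 𝒪 θ T) (I : Ideal T)
    (P : MvPolynomial {ℓ : ℕ // ℓ.Prime ∧ ¬ ℓ ∣ N ∧ ℓ ∉ (↑S : Set ℕ)} 𝒪) :
    levelPi H I P = Ideal.Quotient.mk I (MvPolynomial.aeval (R := 𝒪)
      (fun i : {ℓ : ℕ // ℓ.Prime ∧ ¬ ℓ ∣ N ∧ ℓ ∉ (↑S : Set ℕ)} =>
        H.π (CuspForm.heckeAlgebra.T i.2.1 i.2.2.1 i.2.2.2)) P) := rfl

theorem levelPi_X (H : CuspForm.HeckeGaloisRepDatum N (↑S : Set ℕ) 𝒪 θ T) (I : Ideal T)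
    (i : {ℓ : ℕ // ℓ.Prime ∧ ¬ ℓ ∣ N ∧ ℓ ∉ (↑S : Set ℕ)}) :
    levelPi H I (MvPolynomial.X i) =
      Ideal.Quotient.mk I (H.π (CuspForm.heckeAlgebra.T i.2.1 i.2.2.1 i.2.2.2)) := by
  rw [levelPi_apply, MvPolynomial.aeval_X]

theorem levelPi_surjective (hNS : ∀ q : ℕ, q.Prime → q ∣ N → q ∈ S)
    (H : CuspForm.HeckeGaloisRepDatum N (↑S : Set ℕ) 𝒪 θ T) (I : Ideal T) :
    Function.Surjective (levelPi H I) :=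
  Ideal.Quotient.mk_surjective.comp (aeval_heckeT_surjective hNS H)

/-- `levelPi` maps the polynomial Dickson element `D_a(X_ℓ, ℓ)` to the image of the Hecke
Dickson element. -/
theorem levelPi_dickson (H : CuspForm.HeckeGaloisRepDatum N (↑S : Set ℕ) 𝒪 θ T) (I : Ideal T)
    {ℓ : ℕ} (hℓ : ℓ.Prime) (hℓN : ¬ ℓ ∣ N) (hℓS : ℓ ∉ (↑S : Set ℕ)) (a : ℕ) :
    levelPi H I ((dickson 1
        ((ℓ : ℕ) : MvPolynomial {ℓ : ℕ // ℓ.Prime ∧ ¬ ℓ ∣ N ∧ ℓ ∉ (↑S : Set ℕ)} 𝒪) a).eval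
        (MvPolynomial.X ⟨ℓ, hℓ, hℓN, hℓS⟩)) =
      Ideal.Quotient.mk I (H.π (heckeDickson hℓ hℓN hℓS a)) := by
  rw [map_eval_dickson, levelPi_X, map_natCast, heckeDickson, map_eval_dickson,
    map_eval_dickson, map_natCast, map_natCast]

/-- `levelPi` of `D_a(X_ℓ, ℓ)` is the trace of the level representation at `s ^ a`, `s` a
Frobenius lift at `ℓ`. -/
theorem levelPi_dickson_eq_trace (H : CuspForm.HeckeGaloisRepDatum N (↑S : Set ℕ) 𝒪 θ T)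
    (I : Ideal T) {ℓ : ℕ} (hℓ : ℓ.Prime) (hℓN : ¬ ℓ ∣ N) (hℓS : ℓ ∉ (↑S : Set ℕ))
    (A : ValuationSubring (AlgebraicClosure ℚ)) (hA : A.LiesOverPrime ℓ)
    (s : AlgebraicClosure ℚ ≃ₐ[ℚ] AlgebraicClosure ℚ) (hs : A.IsFrobeniusAt s ℓ) (a : ℕ) :
    levelPi H I ((dickson 1
        ((ℓ : ℕ) : MvPolynomial {ℓ : ℕ // ℓ.Prime ∧ ¬ ℓ ∣ N ∧ ℓ ∉ (↑S : Set ℕ)} 𝒪) a).eval
        (MvPolynomial.X ⟨ℓ, hℓ, hℓN, hℓS⟩)) = (lvl H.ρ I (s ^ a)).trace := by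
  rw [levelPi_dickson, trace_lvl_frob_pow H I hℓ hℓN hℓS A hA s hs a]

theorem levelPi_natCast_pow (H : CuspForm.HeckeGaloisRepDatum N (↑S : Set ℕ) 𝒪 θ T) (I : Ideal T)
    (ℓ a : ℕ) :
    levelPi H I (((ℓ : ℕ) : MvPolynomial {ℓ : ℕ // ℓ.Prime ∧ ¬ ℓ ∣ N ∧ ℓ ∉ (↑S : Set ℕ)} 𝒪) ^ a) =
      (ℓ : T ⧸ I) ^ a := by
  rw [map_pow, map_natCast]

end Fermat.Agent.S32.helper2804
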