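import Fermat.Agent.S32.helper2804_LevelRep
import Fermat.Agent.S32.helper2036_XferLocal

/-!
# S32-LEVELREP, adapters to `helper2036.IsSubquotOfPow`

* `isSubquotOfPow_levelAction` : a subquotient presentation of the matrix model
  `(Fin 2 → T ⧸ I, lvl ρ I)` (the conclusion of FIN-CARAYOL applied to `ρ' := lvl ρ I`) is one of
  `(V ⧸ I V, levelAction I)` (the frozen action).
* `isSubquotOfPow_of_subsingleton` : the degenerate case (e.g. `I = ⊤`).
* `subsingleton_quot_top` : `V ⧸ ⊤ • ⊤` is a subsingleton.
-/

set_option autoImplicit false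

namespace Fermat.Agent.S32.helper2804

open Fermat.Agent.S32.helper2036

section

variable {T : Type} [CommRing T] [IsLocalRing T]

/-- Transport of a subquotient presentation from the matrix model of the level-`I`
representation to `V ⧸ I V` with the frozen `levelAction`. -/
theorem isSubquotOfPow_levelAction (ρ : GaloisRepAdic T) (I : Ideal T) {M : Type*}
    [AddCommGroup M] {actM : (AlgebraicClosure ℚ ≃ₐ[ℚ] AlgebraicClosure ℚ) → M → M}
    (h : IsSubquotOfPow M (Fin 2 → T ⧸ I) actM fun g v => (lvl ρ I g).mulVec v) :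
    IsSubquotOfPow M (ρ.V ⧸ I • (⊤ : Submodule T ρ.V)) actM
      fun g x => ρ.levelAction I g x := by
  refine IsSubquotOfPow.comp_surjective (coord ρ I).symm.toAddMonoidHom
    (coord ρ I).symm.surjective (fun g v => ?_) h
  apply (coord ρ I).injective
  show coord ρ I ((coord ρ I).symm ((lvl ρ I g).mulVec v)) =
    coord ρ I (ρ.levelAction I g ((coord ρ I).symm v))
  rw [coord_levelAction, AddEquiv.apply_symm_apply, AddEquiv.apply_symm_apply]

end

/-- Any subsingleton target is a subquotient of the zeroth power. -/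
theorem isSubquotOfPow_of_subsingleton {G : Type*} (M : Type*) (V : Type*) [AddCommGroup M]
    [AddCommGroup V] [Subsingleton V] (actM : G → M → M) (actV : G → V → V) :
    IsSubquotOfPow M V actM actV :=
  ⟨0, ⊥, fun _ _ hx => by
      rw [AddSubgroup.mem_bot] at hx ⊢
      funext i
      exact i.elim0,
    0, fun v => ⟨0, Subsingleton.elim _ _⟩, fun _ _ _ _ => Subsingleton.elim _ _⟩

/-- `V ⧸ ⊤ • ⊤` is trivial. -/
theorem subsingleton_quot_top {T : Type*} [CommRing T] (V : Type*) [AddCommGroup V] [Module T V] :
    Subsingleton (V ⧸ (⊤ : Ideal T) • (⊤ : Submodule T V)) := by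
  rw [Submodule.top_smul]
  exact Submodule.Quotient.subsingleton_iff.mpr rfl

end Fermat.Agent.S32.helper2804
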