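import Mathlib

/-!
# S32-COMMCORE (helper4165)

The transfer step of S32 needs a *finite* Galois module carrying a *commutative* Hecke action and
containing the image of the lattice `Λ / p^m Λ`.  Neither commutativity of the Hecke operators on
`J[p^m]` nor finiteness of `J[p^m]` is available from the shared machine.  Both come for free on
the subgroup

`W := AddSubgroup.closure {σ • j ψ | σ ∈ G, ψ ∈ Λ}`

where `j : Λ →+ J` is the equivariant map of the lattice into the `n`-torsion.  This file proves,
for an abstract group `G` acting on an abelian group `J`, operators `τ i` commuting with `G`, a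
finitely generated `Λ` with pairwise commuting operators `t i` and an intertwining `j` with
`n • j ψ = 0` (`n ≠ 0`):

* `core j` is stable under `G` and under every `τ i`, is killed by `n`, contains `j ψ`;
* the `τ i` commute on `core j`;
* `core j` is finite as soon as the `G`-orbits of the `j ψ` are finite;
* a quadratic relation valid on the `n`-torsion holds on `core j`.

It also provides the evaluation homomorphism `commAeval` of a polynomial ring at a pairwise
commuting family of a not necessarily commutative algebra.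
-/

set_option autoImplicit false

namespace Fermat.Agent.S32.helper4165

section Core

variable {G J Λ : Type*} [Group G] [AddCommGroup J] [DistribMulAction G J] [AddCommGroup Λ]

/-- The subgroup generated by the `G`-translates of the image of `j`. -/
def core (G : Type*) [Group G] [DistribMulAction G J] (j : Λ →+ J) : AddSubgroup J :=
  AddSubgroup.closure {x | ∃ (σ : G) (ψ : Λ), x = σ • j ψ}

theorem smul_map_mem_core (j : Λ →+ J) (σ : G) (ψ : Λ) : σ • j ψ ∈ core G j :=
  AddSubgroup.subset_closure ⟨σ, ψ, rfl⟩

theorem map_mem_core (j : Λ →+ J) (ψ : Λ) : j ψ ∈ core G j := by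
  have h := smul_map_mem_core (G := G) j 1 ψ
  rwa [one_smul] at h

/-- Induction principle for `core`. -/
theorem core_induction (j : Λ →+ J) {P : J → Prop} (hgen : ∀ (σ : G) (ψ : Λ), P (σ • j ψ))
    (hzero : P 0) (hadd : ∀ x y, P x → P y → P (x + y)) (hneg : ∀ x, P x → P (-x))
    {x : J} (hx : x ∈ core G j) : P x := by
  refine AddSubgroup.closure_induction (p := fun x _ => P x) ?_ hzero ?_ ?_ hx
  · rintro _ ⟨σ, ψ, rfl⟩
    exact hgen σ ψ
  · intro x y _ _ hx hy
    exact hadd x y hx hy
  · intro x _ hx
    exact hneg x hx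

/-- `core j` is `G`-stable. -/
theorem smul_mem_core (j : Λ →+ J) (σ : G) {x : J} (hx : x ∈ core G j) : σ • x ∈ core G j := by
  refine core_induction (G := G) j (P := fun x => σ • x ∈ core G j) ?_ ?_ ?_ ?_ hx
  · intro σ' ψ
    rw [← mul_smul]
    exact smul_map_mem_core j _ ψ
  · rw [smul_zero]
    exact (core G j).zero_mem
  · intro x y hx hy
    rw [smul_add]
    exact (core G j).add_mem hx hy
  · intro x hx
    rw [smul_neg]
    exact (core G j).neg_mem hx

/-- `core j` is killed by `n` if the image of `j` is. -/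
theorem nsmul_eq_zero_of_mem_core (j : Λ →+ J) (n : ℕ) (hn : ∀ ψ, n • j ψ = 0) {x : J}
    (hx : x ∈ core G j) : n • x = 0 := by
  refine core_induction (G := G) j (P := fun x => n • x = 0) ?_ ?_ ?_ ?_ hx
  · intro σ ψ
    rw [smul_comm, hn, smul_zero]
  · exact smul_zero _
  · intro x y hx hy
    rw [smul_add, hx, hy, add_zero]
  · intro x hx
    rw [smul_neg, hx, neg_zero]

variable {ι : Type*}

/-- `core j` is stable under every operator commuting with `G` and intertwined by `j`. -/
theorem map_mem_core_of_intertwine (j : Λ →+ J) (τ : J →+ J) (t : Λ → Λ)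
    (hGτ : ∀ (σ : G) (x : J), σ • τ x = τ (σ • x)) (hj : ∀ ψ, j (t ψ) = τ (j ψ)) {x : J}
    (hx : x ∈ core G j) : τ x ∈ core G j := by
  refine core_induction (G := G) j (P := fun x => τ x ∈ core G j) ?_ ?_ ?_ ?_ hx
  · intro σ ψ
    rw [← hGτ, ← hj]
    exact smul_map_mem_core j σ (t ψ)
  · rw [map_zero]
    exact (core G j).zero_mem
  · intro x y hx hy
    rw [map_add]
    exact (core G j).add_mem hx hy
  · intro x hx
    rw [map_neg]
    exact (core G j).neg_mem hx

/-- Two operators commuting with `G`, intertwined by `j` with commuting lattice operators,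
commute on `core j`. -/
theorem comm_on_core (j : Λ →+ J) (τ τ' : J →+ J) (t t' : Λ → Λ)
    (hGτ : ∀ (σ : G) (x : J), σ • τ x = τ (σ • x))
    (hGτ' : ∀ (σ : G) (x : J), σ • τ' x = τ' (σ • x))
    (hj : ∀ ψ, j (t ψ) = τ (j ψ)) (hj' : ∀ ψ, j (t' ψ) = τ' (j ψ))
    (htt' : ∀ ψ, t (t' ψ) = t' (t ψ)) {x : J} (hx : x ∈ core G j) :
    τ (τ' x) = τ' (τ x) := by
  refine core_induction (G := G) j (P := fun x => τ (τ' x) = τ' (τ x)) ?_ ?_ ?_ ?_ hx
  · intro σ ψ
    rw [← hGτ', ← hGτ, ← hGτ, ← hGτ', ← hj', ← hj, ← hj, ← hj', htt']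
  · simp only [map_zero]
  · intro x y hx hy
    simp only [map_add, hx, hy]
  · intro x hx
    simp only [map_neg, hx]

/-- `core j` is finite: `Λ` finitely generated, `n • j ψ = 0` with `n ≠ 0`, finite orbits. -/
theorem finite_core [AddGroup.FG Λ] (j : Λ →+ J) (n : ℕ) (hn0 : n ≠ 0) (hn : ∀ ψ, n • j ψ = 0)
    (horb : ∀ ψ : Λ, (Set.range fun σ : G => σ • j ψ).Finite) : Finite (core G j) := by
  classical
  -- the image of `j` is finite
  have hrange : Finite j.range := by
    have : AddGroup.FG j.range := AddGroup.fg_range j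
    refine AddCommGroup.finite_of_fg_isAddTorsion _ ?_
    rintro ⟨y, ψ, rfl⟩
    refine isOfFinAddOrder_iff_nsmul_eq_zero.mpr ⟨n, Nat.pos_of_ne_zero hn0, ?_⟩
    exact Subtype.ext (by simpa using hn ψ)
  -- the generating set is finite
  have hgen : {x | ∃ (σ : G) (ψ : Λ), x = σ • j ψ}.Finite := by
    have hsub : {x | ∃ (σ : G) (ψ : Λ), x = σ • j ψ} ⊆
        ⋃ y : j.range, Set.range fun σ : G => σ • (y : J) := by
      rintro _ ⟨σ, ψ, rfl⟩
      exact Set.mem_iUnion.mpr ⟨⟨j ψ, ψ, rfl⟩, σ, rfl⟩
    refine Set.Finite.subset (Set.finite_iUnion ?_) hsub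
    rintro ⟨y, ψ, rfl⟩
    exact horb ψ
  have : AddGroup.FG (core G j) := by
    rw [AddGroup.fg_iff_addSubgroup_fg, AddSubgroup.fg_iff]
    exact ⟨_, rfl, hgen⟩
  refine AddCommGroup.finite_of_fg_isAddTorsion _ ?_
  rintro ⟨x, hx⟩
  refine isOfFinAddOrder_iff_nsmul_eq_zero.mpr ⟨n, Nat.pos_of_ne_zero hn0, ?_⟩
  exact Subtype.ext (by simpa using nsmul_eq_zero_of_mem_core j n hn hx)

end Core

/-! ## Finite orbits from a finite level -/

section FiniteLevel

variable {K Ω J : Type*} [Field K] [Field Ω] [Algebra K Ω] [AddCommGroup J]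
  [DistribMulAction (Ω ≃ₐ[K] Ω) J]

/-- An element fixed by the Galois group of a finite-dimensional intermediate field has a finite
orbit. -/
theorem finite_orbit_of_finiteLevel (x : J)
    (h : ∃ L : IntermediateField K Ω, FiniteDimensional K L ∧
      ∀ σ : Ω ≃ₐ[K] Ω, (∀ y ∈ L, σ y = y) → σ • x = x) :
    (Set.range fun σ : Ω ≃ₐ[K] Ω => σ • x).Finite := by
  classical
  obtain ⟨L, hL, hfix⟩ := h
  have : Fintype (L →ₐ[K] Ω) := minpoly.AlgHom.fintype K L Ω
  let f : (Ω ≃ₐ[K] Ω) → (L →ₐ[K] Ω) := fun σ => (σ : Ω →ₐ[K] Ω).comp L.val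
  have hfac : ∀ σ σ' : Ω ≃ₐ[K] Ω, f σ = f σ' → σ • x = σ' • x := by
    intro σ σ' hσ
    have h1 : (σ'⁻¹ * σ) • x = x := by
      refine hfix _ fun y hy => ?_
      have h2 : σ y = σ' y := by
        have := congrArg (fun φ : L →ₐ[K] Ω => φ ⟨y, hy⟩) hσ
        simpa [f] using this
      rw [AlgEquiv.mul_apply, h2]
      exact σ'.symm_apply_apply y
    rw [mul_smul, inv_smul_eq_iff] at h1
    exact h1
  let g : (L →ₐ[K] Ω) → J := fun φ => if hφ : ∃ σ, f σ = φ then hφ.choose • x else 0
  refine Set.Finite.subset (Set.finite_range g) ?_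
  rintro _ ⟨σ, rfl⟩
  refine ⟨f σ, ?_⟩
  have hex : ∃ σ', f σ' = f σ := ⟨σ, rfl⟩
  simp only [g, dif_pos hex]
  exact hfac _ _ hex.choose_spec

end FiniteLevel

/-! ## Evaluation of polynomials at a commuting family -/

section CommAeval

variable {A E ι : Type*} [CommRing A] [Ring E] [Algebra A E]

open scoped IsMulCommutative in
/-- Evaluation of a multivariate polynomial at a pairwise commuting family of elements of a not
necessarily commutative algebra. -/
noncomputable def commAeval (a : ι → E) (h : ∀ i k, a i * a k = a k * a i) :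
    MvPolynomial ι A →ₐ[A] E :=
  haveI : IsMulCommutative (Algebra.adjoin A (Set.range a)) :=
    Algebra.isMulCommutative_adjoin A (by
      rintro _ ⟨i, rfl⟩ _ ⟨k, rfl⟩
      exact h i k)
  (Algebra.adjoin A (Set.range a)).val.comp
    (MvPolynomial.aeval fun i =>
      (⟨a i, Algebra.subset_adjoin (Set.mem_range_self i)⟩ : Algebra.adjoin A (Set.range a)))

open scoped IsMulCommutative in
@[simp]
theorem commAeval_X (a : ι → E) (h : ∀ i k, a i * a k = a k * a i) (i : ι) :
    commAeval (A := A) a h (MvPolynomial.X i) = a i := by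
  have : IsMulCommutative (Algebra.adjoin A (Set.range a)) :=
    Algebra.isMulCommutative_adjoin A (by
      rintro _ ⟨i, rfl⟩ _ ⟨k, rfl⟩
      exact h i k)
  show ((Algebra.adjoin A (Set.range a)).val
    (MvPolynomial.aeval (fun i =>
      (⟨a i, Algebra.subset_adjoin (Set.mem_range_self i)⟩ : Algebra.adjoin A (Set.range a)))
      (MvPolynomial.X i))) = a i
  rw [MvPolynomial.aeval_X]
  rfl

/-- An element commuting with the family commutes with every polynomial in it. -/
theorem commute_commAeval (a : ι → E) (h : ∀ i k, a i * a k = a k * a i) (x : E)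
    (hx : ∀ i, x * a i = a i * x) (P : MvPolynomial ι A) :
    x * commAeval (A := A) a h P = commAeval (A := A) a h P * x := by
  induction P using MvPolynomial.induction_on with
  | C c =>
    rw [← MvPolynomial.algebraMap_eq, AlgHom.commutes]
    exact (Algebra.commutes c x).symm
  | add P Q hP hQ => rw [map_add, mul_add, add_mul, hP, hQ]
  | mul_X P i hP =>
    rw [map_mul, commAeval_X, ← mul_assoc, hP, mul_assoc, hx, mul_assoc]

/-- Two polynomials in a commuting family commute. -/
theorem commAeval_comm (a : ι → E) (h : ∀ i k, a i * a k = a k * a i)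
    (P Q : MvPolynomial ι A) :
    commAeval (A := A) a h P * commAeval (A := A) a h Q =
      commAeval (A := A) a h Q * commAeval (A := A) a h P := by
  rw [← map_mul, ← map_mul, mul_comm]

end CommAeval

/-! ## The operators on the core -/

section Ops

variable {G J Λ ι : Type*} [Group G] [AddCommGroup J] [DistribMulAction G J] [AddCommGroup Λ]

/-- The hypotheses on the operators: `τ i` on `J` commutes with `G`, is intertwined with `t i`
by `j`, and the `t i` commute pairwise. -/
structure Intertwines (G : Type*) [Group G] [DistribMulAction G J] (j : Λ →+ J) (τ : ι → J →+ J)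
    (t : ι → Λ → Λ) : Prop where
  galois : ∀ (i : ι) (σ : G) (x : J), σ • τ i x = τ i (σ • x)
  map : ∀ (i : ι) (ψ : Λ), j (t i ψ) = τ i (j ψ)
  comm : ∀ (i k : ι) (ψ : Λ), t i (t k ψ) = t k (t i ψ)

variable {j : Λ →+ J} {τ : ι → J →+ J} {t : ι → Λ → Λ}

/-- The operator `τ i` restricted to the core. -/
def coreOp (h : Intertwines G j τ t) (i : ι) : Module.End ℤ (core G j) :=
  (((τ i).comp (core G j).subtype).codRestrict (core G j) fun x =>
    map_mem_core_of_intertwine j (τ i) (t i) (h.galois i) (h.map i) x.2).toIntLinearMap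

@[simp]
theorem coe_coreOp (h : Intertwines G j τ t) (i : ι) (x : core G j) :
    ((coreOp h i x : core G j) : J) = τ i (x : J) := rfl

/-- The restricted operators commute. -/
theorem coreOp_comm (h : Intertwines G j τ t) (i k : ι) :
    coreOp h i * coreOp h k = coreOp h k * coreOp h i := by
  refine LinearMap.ext fun x => Subtype.ext ?_
  exact comm_on_core j (τ i) (τ k) (t i) (t k) (h.galois i) (h.galois k) (h.map i) (h.map k)
    (h.comm i k) x.2

variable (G j) in
/-- The action of `G` on the core. -/
def coreRho : G →* Module.End ℤ (core G j) where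
  toFun σ := (((DistribSMul.toAddMonoidHom J σ).comp (core G j).subtype).codRestrict
    (core G j) fun x => smul_mem_core j σ x.2).toIntLinearMap
  map_one' := LinearMap.ext fun x => Subtype.ext (one_smul G (x : J))
  map_mul' σ σ' := LinearMap.ext fun x => Subtype.ext (mul_smul σ σ' (x : J))

@[simp]
theorem coe_coreRho (σ : G) (x : core G j) : ((coreRho G j σ x : core G j) : J) = σ • (x : J) :=
  rfl

/-- The action of `G` on the core commutes with the restricted operators. -/
theorem coreRho_mul_coreOp (h : Intertwines G j τ t) (σ : G) (i : ι) :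
    coreRho G j σ * coreOp h i = coreOp h i * coreRho G j σ :=
  LinearMap.ext fun x => Subtype.ext (h.galois i σ (x : J))

/-- A quadratic relation on the core, in operator form. -/
theorem coreRho_quad (h : Intertwines G j τ t) (s : G) (i : ι) (ℓ : ℤ)
    (hq : ∀ x ∈ core G j, s • s • x - τ i (s • x) + ℓ • x = 0) :
    coreRho G j s * coreRho G j s - coreOp h i * coreRho G j s
      + ℓ • (1 : Module.End ℤ (core G j)) = 0 :=
  LinearMap.ext fun x => Subtype.ext (hq x x.2)

end Ops

/-! ## Base change of the core to a coefficient ring -/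

section BaseChange

open TensorProduct

variable {G J Λ ι : Type*} [Group G] [AddCommGroup J] [DistribMulAction G J] [AddCommGroup Λ]
  {j : Λ →+ J} {τ : ι → J →+ J} {t : ι → Λ → Λ} (A : Type*) [CommRing A]

/-- The commuting operators `1 ⊗ τ i` on `A ⊗ core` assembled into an algebra homomorphism
from the polynomial ring. -/
noncomputable def coreEv (h : Intertwines G j τ t) :
    MvPolynomial ι A →ₐ[A] Module.End A (A ⊗[ℤ] core G j) :=
  commAeval (fun i => (coreOp h i).baseChange A) fun i k => by
    rw [← LinearMap.baseChange_mul, coreOp_comm h i k, LinearMap.baseChange_mul]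

@[simp]
theorem coreEv_X (h : Intertwines G j τ t) (i : ι) :
    coreEv A h (MvPolynomial.X i) = (coreOp h i).baseChange A :=
  commAeval_X _ _ i

theorem coreEv_comm (h : Intertwines G j τ t) (P Q : MvPolynomial ι A) :
    coreEv A h P * coreEv A h Q = coreEv A h Q * coreEv A h P :=
  commAeval_comm _ _ P Q

variable (G j) in
/-- The action of `G` on `A ⊗ core`. -/
noncomputable def coreRhoBC : G →* Module.End A (A ⊗[ℤ] core G j) where
  toFun σ := (coreRho G j σ).baseChange A
  map_one' := by rw [map_one, LinearMap.baseChange_one]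
  map_mul' σ σ' := by rw [map_mul, LinearMap.baseChange_mul]

@[simp]
theorem coreRhoBC_tmul (σ : G) (a : A) (x : core G j) :
    coreRhoBC G j A σ (a ⊗ₜ[ℤ] x) = a ⊗ₜ[ℤ] coreRho G j σ x := by
  show (coreRho G j σ).baseChange A (a ⊗ₜ[ℤ] x) = _
  rw [LinearMap.baseChange_tmul]

/-- The Galois action on `A ⊗ core` commutes with every polynomial in the operators. -/
theorem coreRhoBC_mul_coreEv (h : Intertwines G j τ t) (σ : G) (P : MvPolynomial ι A) :
    coreRhoBC G j A σ * coreEv A h P = coreEv A h P * coreRhoBC G j A σ := by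
  refine commute_commAeval _ _ _ (fun i => ?_) P
  show (coreRho G j σ).baseChange A * (coreOp h i).baseChange A =
    (coreOp h i).baseChange A * (coreRho G j σ).baseChange A
  rw [← LinearMap.baseChange_mul, coreRho_mul_coreOp h σ i, LinearMap.baseChange_mul]

/-- A quadratic relation on the core, after base change. -/
theorem coreRhoBC_quad (h : Intertwines G j τ t) (s : G) (i : ι) (ℓ : ℤ)
    (hq : ∀ x ∈ core G j, s • s • x - τ i (s • x) + ℓ • x = 0) :
    coreRhoBC G j A s * coreRhoBC G j A s
      - coreEv A h (MvPolynomial.X i) * coreRhoBC G j A s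
      + (ℓ : A) • (1 : Module.End A (A ⊗[ℤ] core G j)) = 0 := by
  have h0 := congrArg (LinearMap.baseChange A) (coreRho_quad h s i ℓ hq)
  rw [LinearMap.baseChange_add, LinearMap.baseChange_sub, LinearMap.baseChange_mul,
    LinearMap.baseChange_mul, LinearMap.baseChange_zero] at h0
  rw [coreEv_X]
  have h1 : (ℓ • (1 : Module.End ℤ (core G j))).baseChange A
      = (ℓ : A) • (1 : Module.End A (A ⊗[ℤ] core G j)) := by
    refine LinearMap.ext fun z => ?_
    induction z using TensorProduct.induction_on with
    | zero => simp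
    | tmul a x =>
      rw [LinearMap.baseChange_tmul, LinearMap.smul_apply, LinearMap.smul_apply,
        Module.End.one_apply, Module.End.one_apply, TensorProduct.tmul_smul,
        ← Int.cast_smul_eq_zsmul A ℓ (a ⊗ₜ[ℤ] x)]
    | add x y hx hy => rw [map_add, map_add, hx, hy]
  rw [h1] at h0
  exact h0

/-- `A ⊗ W` is finite when `W` is finite, killed by `n`, and `A / n A` is finite. -/
theorem finite_tensor_of_torsion (W : Type*) [AddCommGroup W] [Finite W] (n : ℕ)
    (hn : ∀ w : W, n • w = 0) [Finite (A ⧸ Ideal.span {(n : A)})] : Finite (A ⊗[ℤ] W) := by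
  classical
  have : Module.Finite ℤ W := Module.Finite.of_finite
  have : Module.Finite A (A ⊗[ℤ] W) := inferInstance
  obtain ⟨r, f, hf⟩ := Module.Finite.exists_fin' A (A ⊗[ℤ] W)
  -- `n` kills `A ⊗ W`
  have hkill : ∀ z : A ⊗[ℤ] W, (n : A) • z = 0 := by
    intro z
    induction z using TensorProduct.induction_on with
    | zero => simp
    | tmul a w =>
      have h1 : (n : A) * a = ((n : ℕ) : ℤ) • a := by rw [zsmul_eq_mul, Int.cast_natCast]
      rw [TensorProduct.smul_tmul', smul_eq_mul, h1, TensorProduct.smul_tmul, natCast_zsmul, hn,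
        TensorProduct.tmul_zero]
    | add x y hx hy => rw [smul_add, hx, hy, add_zero]
  let g : (Fin r → A ⧸ Ideal.span {(n : A)}) → A ⊗[ℤ] W := fun y => f fun i => (y i).out
  refine Finite.of_surjective g fun z => ?_
  obtain ⟨x, rfl⟩ := hf z
  refine ⟨fun i => Ideal.Quotient.mk _ (x i), ?_⟩
  show f (fun i => (Ideal.Quotient.mk (Ideal.span {(n : A)}) (x i)).out) = f x
  have hdiff : ∀ i, ∃ c : A, (Ideal.Quotient.mk (Ideal.span {(n : A)}) (x i)).out - x i
      = (n : A) * c := by
    intro i
    have hmem : (Ideal.Quotient.mk (Ideal.span {(n : A)}) (x i)).out - x i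
        ∈ Ideal.span {(n : A)} := by
      rw [← Ideal.Quotient.eq]
      exact Quotient.out_eq _
    exact Ideal.mem_span_singleton'.mp hmem |>.imp fun c hc => by rw [← hc, mul_comm]
  choose c hc using hdiff
  have h2 : (fun i => (Ideal.Quotient.mk (Ideal.span {(n : A)}) (x i)).out) = x + (n : A) • c := by
    funext i
    rw [Pi.add_apply, Pi.smul_apply, smul_eq_mul, ← hc i]
    ring
  rw [h2, map_add, map_smul, hkill, add_zero]

end BaseChange

/-! ## Powers of a root of a quadratic (Dickson) -/

section QuadPow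

variable {R E : Type*} [CommRing R] [Ring E] [Algebra R E]

/-- If `x² - t x + d = 0` in an `R`-algebra then `x ^ a` is a root of
`X² - D_a(t, d) X + d ^ a`, where `D_a` is the Dickson polynomial of the first kind. -/
theorem quad_pow (x : E) (t d : R) (hx : x * x - t • x + d • (1 : E) = 0) (a : ℕ) :
    x ^ a * x ^ a - ((Polynomial.dickson 1 d a).eval t) • x ^ a + d ^ a • (1 : E) = 0 := by
  set y : E := t • (1 : E) - x with hy
  have hxx : x * x = t • x - d • (1 : E) := by
    have := hx
    rw [add_eq_zero_iff_eq_neg, sub_eq_iff_eq_add] at this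
    rw [this]; abel
  have hxy : x * y = d • (1 : E) := by
    rw [hy, mul_sub, mul_smul_comm, mul_one, hxx]; abel
  have hyx : y * x = d • (1 : E) := by
    rw [hy, sub_mul, smul_mul_assoc, one_mul, hxx]; abel
  have hcomm : Commute x y := by rw [Commute, SemiconjBy, hxy, hyx]
  have hsum : x + y = t • (1 : E) := by rw [hy]; abel
  have key : ∀ a : ℕ, (x ^ a + y ^ a = ((Polynomial.dickson 1 d a).eval t) • (1 : E)) ∧
      (x ^ (a + 1) + y ^ (a + 1) = ((Polynomial.dickson 1 d (a + 1)).eval t) • (1 : E)) := by
    intro a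
    induction a with
    | zero =>
      refine ⟨?_, ?_⟩
      · rw [pow_zero, pow_zero, Polynomial.dickson_zero]
        simp only [Nat.cast_one, Polynomial.eval_sub, Polynomial.eval_ofNat, Polynomial.eval_one]
        rw [← two_smul R (1 : E)]
        norm_num
      · rw [zero_add, pow_one, pow_one, Polynomial.dickson_one, Polynomial.eval_X, hsum]
    | succ a ih =>
      refine ⟨ih.2, ?_⟩
      rw [Polynomial.dickson_add_two, Polynomial.eval_sub, Polynomial.eval_mul,
        Polynomial.eval_mul, Polynomial.eval_X, Polynomial.eval_C, sub_smul, mul_smul, mul_smul,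
        ← ih.1, ← ih.2]
      have e1 : x ^ (a + 1 + 1) + y ^ (a + 1 + 1)
          = (x + y) * (x ^ (a + 1) + y ^ (a + 1)) - (x * y) * (x ^ a + y ^ a) := by
        have p1 : x * x ^ (a + 1) = x ^ (a + 1 + 1) := (pow_succ' x (a + 1)).symm
        have p2 : y * y ^ (a + 1) = y ^ (a + 1 + 1) := (pow_succ' y (a + 1)).symm
        have p3 : x * y ^ (a + 1) = x * y * y ^ a := by rw [pow_succ', mul_assoc]
        have p4 : y * x ^ (a + 1) = x * y * x ^ a := by rw [pow_succ', ← mul_assoc, hcomm.eq]
        rw [add_mul, mul_add, mul_add, mul_add, p1, p2, p3, p4]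
        abel
      rw [e1, hsum, hxy, smul_mul_assoc, one_mul, smul_mul_assoc, one_mul]
  have hyxa : y ^ a * x ^ a = d ^ a • (1 : E) := by
    rw [← hcomm.symm.mul_pow, hyx, smul_pow, one_pow]
  have h1 : ((Polynomial.dickson 1 d a).eval t) • x ^ a = (x ^ a + y ^ a) * x ^ a := by
    rw [(key a).1, smul_mul_assoc, one_mul]
  rw [h1, add_mul, hyxa]
  abel

end QuadPow

/-! ## The core as a module over the polynomial ring, with its Galois action -/

section CoreMod

open TensorProduct

universe uG uJ uL uι uA

variable {G : Type uG} {J : Type uJ} {Λ : Type uL} {ι : Type uι} [Group G] [AddCommGroup J]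
  [DistribMulAction G J] [AddCommGroup Λ] {j : Λ →+ J} {τ : ι → J →+ J} {t : ι → Λ → Λ}
  (A : Type uA) [CommRing A]

/-- `A ⊗ core`, regarded as a module over the polynomial ring `MvPolynomial ι A` through the
commuting operators `1 ⊗ τ i`. -/
def CoreMod (_h : Intertwines G j τ t) : Type (max uA uJ) := A ⊗[ℤ] core G j

namespace CoreMod

variable (h : Intertwines G j τ t)

noncomputable instance : AddCommGroup (CoreMod A h) :=
  inferInstanceAs (AddCommGroup (A ⊗[ℤ] core G j))

noncomputable instance : Module A (CoreMod A h) :=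
  inferInstanceAs (Module A (A ⊗[ℤ] core G j))

noncomputable instance : Module (MvPolynomial ι A) (CoreMod A h) :=
  Module.compHom (A ⊗[ℤ] core G j) (coreEv A h).toRingHom

/-- The identity map `A ⊗ core → CoreMod`. -/
def of : A ⊗[ℤ] core G j ≃+ CoreMod A h := AddEquiv.refl _

theorem smul_def (P : MvPolynomial ι A) (z : CoreMod A h) : P • z = coreEv A h P z := rfl

theorem C_smul (a : A) (z : CoreMod A h) :
    (MvPolynomial.C a : MvPolynomial ι A) • z = a • z := by
  rw [smul_def, ← MvPolynomial.algebraMap_eq, AlgHom.commutes]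
  rfl

theorem X_smul_tmul (i : ι) (a : A) (x : core G j) :
    (MvPolynomial.X i : MvPolynomial ι A) • (of A h (a ⊗ₜ[ℤ] x)) = of A h (a ⊗ₜ[ℤ] coreOp h i x) := by
  rw [smul_def, coreEv_X]
  show (coreOp h i).baseChange A (a ⊗ₜ[ℤ] x) = _
  rw [LinearMap.baseChange_tmul]
  rfl

/-- `CoreMod` is finite when the core is finite, killed by `n`, and `A / n A` is finite. -/
theorem finite [Finite (core G j)] (n : ℕ) (hn : ∀ w : core G j, n • w = 0)
    [Finite (A ⧸ Ideal.span {(n : A)})] : Finite (CoreMod A h) :=
  finite_tensor_of_torsion A (core G j) n hn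

/-- The Galois action on `CoreMod`, linear over the polynomial ring. -/
noncomputable def rho : G →* Module.End (MvPolynomial ι A) (CoreMod A h) where
  toFun σ :=
    { toFun := fun z => coreRhoBC G j A σ z
      map_add' := fun x y => map_add (coreRhoBC G j A σ) x y
      map_smul' := fun P z => by
        show coreRhoBC G j A σ (coreEv A h P z) = coreEv A h P (coreRhoBC G j A σ z)
        exact congrArg (fun f : Module.End A (A ⊗[ℤ] core G j) => f z)
          (coreRhoBC_mul_coreEv A h σ P) }
  map_one' := by
    refine LinearMap.ext fun z => ?_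
    show coreRhoBC G j A 1 z = z
    rw [map_one]
    rfl
  map_mul' σ σ' := by
    refine LinearMap.ext fun z => ?_
    show coreRhoBC G j A (σ * σ') z = coreRhoBC G j A σ (coreRhoBC G j A σ' z)
    rw [map_mul]
    rfl

theorem rho_apply (σ : G) (z : CoreMod A h) : rho A h σ z = coreRhoBC G j A σ z := rfl

theorem rho_of_tmul (σ : G) (a : A) (x : core G j) :
    rho A h σ (of A h (a ⊗ₜ[ℤ] x)) = of A h (a ⊗ₜ[ℤ] coreRho G j σ x) :=
  coreRhoBC_tmul A σ a x

/-- Elements of `G` acting in the same way on the core act in the same way on `CoreMod`. -/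
theorem rho_congr {g g' : G} (hg : ∀ x ∈ core G j, g • x = g' • x) : rho A h g = rho A h g' := by
  have h1 : coreRho G j g = coreRho G j g' :=
    LinearMap.ext fun x => Subtype.ext (hg x x.2)
  refine LinearMap.ext fun z => ?_
  show (coreRho G j g).baseChange A z = (coreRho G j g').baseChange A z
  rw [h1]

/-- The quadratic relation of a Frobenius element, as an identity of endomorphisms. -/
theorem rho_quad_end (s : G) (i : ι) (ℓ : ℤ)
    (hq : ∀ x ∈ core G j, s • s • x - τ i (s • x) + ℓ • x = 0) :
    rho A h s * rho A h s - (MvPolynomial.X i : MvPolynomial ι A) • rho A h s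
      + (MvPolynomial.C (ℓ : A) : MvPolynomial ι A) •
        (1 : Module.End (MvPolynomial ι A) (CoreMod A h)) = 0 := by
  refine LinearMap.ext fun z => ?_
  have h0 := congrArg (fun f : Module.End A (A ⊗[ℤ] core G j) => f z) (coreRhoBC_quad A h s i ℓ hq)
  simp only [LinearMap.add_apply, LinearMap.sub_apply, Module.End.mul_apply, LinearMap.smul_apply,
    Module.End.one_apply, LinearMap.zero_apply] at h0 ⊢
  rw [C_smul]
  exact h0

/-- The quadratic relation satisfied on `CoreMod` by an element acting as the `a`-th power of a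
Frobenius element: exactly the per-element hypothesis of the local-factor device. -/
theorem rho_quad_pow (s g : G) (a : ℕ) (i : ι) (ℓ : ℤ)
    (hq : ∀ x ∈ core G j, s • s • x - τ i (s • x) + ℓ • x = 0)
    (hg : ∀ x ∈ core G j, g • x = s ^ a • x) (z : CoreMod A h) :
    rho A h g (rho A h g z)
      - ((Polynomial.dickson 1 (MvPolynomial.C (ℓ : A) : MvPolynomial ι A) a).eval
          (MvPolynomial.X i)) • rho A h g z
      + (MvPolynomial.C (ℓ : A) : MvPolynomial ι A) ^ a • z = 0 := by
  have h1 : rho A h g = rho A h s ^ a := by rw [rho_congr A h hg, map_pow]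
  have h2 := quad_pow (rho A h s) (MvPolynomial.X i : MvPolynomial ι A)
    (MvPolynomial.C (ℓ : A)) (rho_quad_end A h s i ℓ hq) a
  have h3 := congrArg (fun f : Module.End (MvPolynomial ι A) (CoreMod A h) => f z) h2
  simp only [LinearMap.add_apply, LinearMap.sub_apply, Module.End.mul_apply, LinearMap.smul_apply,
    Module.End.one_apply, LinearMap.zero_apply] at h3
  rw [h1]
  exact h3

end CoreMod

end CoreMod

end Fermat.Agent.S32.helper4165
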