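import Fermat.Agent.S32.helper4165_CommCore
import Fermat.Agent.S32.helper1429_HeckeFaithful
import Fermat.Agent.S32.helper2804_LevelSubquot
import Fermat.Agent.S32.helper2804_DatumPoly
import Fermat.Agent.S32.helper929_FinCarayolSubquot
import Fermat.Agent.S32.helper1215_Top
import Fermat.Agent.S31.helper5307_Spec
import Fermat.Agent.S29.helper5500_GalHecke

/-!
# S32-XFER-B (helper4165): the finite-level transfer on the Hecke core

Second design of the transfer step of S32 (captain ruling R7).  Instead of the full torsion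
`J₀(N)[p^m]` the carrier is the *core* `W_m ⊆ J₀(N)[p^m]`: the additive closure of the Galois
orbit of the image of the Kummer lattice map `ι_m : Λ → J₀(N)` of (K5).

* `W_m` is finite because every point has a finite Galois orbit (finite level) and `Λ` is
  finitely generated: finiteness of `J₀(N)[p^m]` is not used.
* The Hecke operators `T_ℓ` (`ℓ ∤ N`, `ℓ ∉ S`) commute on `W_m` by transport from the lattice:
  no Frobenius lift at `ℓ` is needed for commutativity.

Inputs: the two machine `Prop`s of S31 (`Stmt_Frob N p`, `Stmt_K5 N p`) and landed facts (K6,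
Galois-equivariance of the Hecke operators, finite level, generator-Chebotarev).  Output:
`helper1215.Stmt_Subquot p H`.
-/

set_option autoImplicit false

namespace Fermat.Agent.S32.helper4165

open scoped TensorProduct

/-! ### Pure algebra: `A ⊗ U` as a quotient of a power of `U` -/

section D3

variable (A : Type*) [CommRing A] (U : Type*) [AddCommGroup U]

/-- If `U` is killed by `n` and `A / n A` is finite, then `A ⊗ U` is a quotient of a finite power
of `U`, naturally in the endomorphisms of `U`. -/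
theorem exists_pow_surjective_tensor (n : ℕ) (hn : ∀ u : U, n • u = 0)
    [Finite (A ⧸ Ideal.span {(n : A)})] :
    ∃ (d : ℕ) (q : (Fin d → U) →+ A ⊗[ℤ] U), Function.Surjective q ∧
      ∀ (f : Module.End ℤ U) (x : Fin d → U), q (fun i => f (x i)) = f.baseChange A (q x) := by
  classical
  obtain ⟨d, ⟨e⟩⟩ := Finite.exists_equiv_fin (A ⧸ Ideal.span {(n : A)})
  let a : Fin d → A := fun i => (e.symm i).out
  let q : (Fin d → U) →+ A ⊗[ℤ] U :=
    { toFun := fun x => ∑ i, a i ⊗ₜ[ℤ] x i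
      map_zero' := by simp
      map_add' := fun x y => by simp [TensorProduct.tmul_add, Finset.sum_add_distrib] }
  have q_apply : ∀ x : Fin d → U, q x = ∑ i, a i ⊗ₜ[ℤ] x i := fun _ => rfl
  refine ⟨d, q, ?_, ?_⟩
  · intro z
    induction z using TensorProduct.induction_on with
    | zero => exact ⟨0, map_zero q⟩
    | tmul b u =>
      have hmem : b - a (e (Ideal.Quotient.mk _ b)) ∈ Ideal.span {(n : A)} := by
        rw [← Ideal.Quotient.eq]
        show _ = Ideal.Quotient.mk _ ((e.symm (e (Ideal.Quotient.mk _ b))).out)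
        rw [Equiv.symm_apply_apply]
        exact (Quotient.out_eq _).symm
      obtain ⟨c, hc⟩ := Ideal.mem_span_singleton'.mp hmem
      refine ⟨Pi.single (e (Ideal.Quotient.mk _ b)) u, ?_⟩
      rw [q_apply, Finset.sum_eq_single (e (Ideal.Quotient.mk _ b))]
      · rw [Pi.single_eq_same]
        have hb : b = a (e (Ideal.Quotient.mk _ b)) + ((n : ℕ) : ℤ) • c := by
          rw [zsmul_eq_mul, Int.cast_natCast, mul_comm, hc]
          ring
        conv_rhs => rw [hb]
        rw [TensorProduct.add_tmul, TensorProduct.smul_tmul, natCast_zsmul, hn,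
          TensorProduct.tmul_zero, add_zero]
      · intro k _ hk
        rw [Pi.single_eq_of_ne hk, TensorProduct.tmul_zero]
      · intro h
        exact absurd (Finset.mem_univ _) h
    | add x y hx hy =>
      obtain ⟨x', rfl⟩ := hx
      obtain ⟨y', rfl⟩ := hy
      exact ⟨x' + y', map_add q x' y'⟩
  · intro f x
    rw [q_apply, q_apply, map_sum]
    refine Finset.sum_congr rfl fun i _ => ?_
    rw [LinearMap.baseChange_tmul]

end D3

/-! ### Finite quotients of a discrete valuation ring -/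

section DVR

/-- A nonzero principal ideal of a discrete valuation ring with finite residue field has finite
index. -/
theorem finite_quotient_span_singleton (𝒪 : Type*) [CommRing 𝒪] [IsDomain 𝒪]
    [IsDiscreteValuationRing 𝒪] [Finite (IsLocalRing.ResidueField 𝒪)] {x : 𝒪} (hx : x ≠ 0) :
    Finite (𝒪 ⧸ Ideal.span {x}) := by
  obtain ⟨ϖ, hϖ⟩ := IsDiscreteValuationRing.exists_irreducible 𝒪
  have hne : Ideal.span {x} ≠ ⊥ := by
    rw [Ne, Ideal.span_singleton_eq_bot]
    exact hx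
  obtain ⟨n, hn⟩ := IsDiscreteValuationRing.ideal_eq_span_pow_irreducible hne hϖ
  have hmax : IsLocalRing.maximalIdeal 𝒪 = Ideal.span {ϖ} := hϖ.maximalIdeal_eq
  have h : Ideal.span {x} = IsLocalRing.maximalIdeal 𝒪 ^ n := by
    rw [hn, hmax, Ideal.span_singleton_pow]
  rw [h]
  have : Finite (𝒪 ⧸ IsLocalRing.maximalIdeal 𝒪) := ‹Finite (IsLocalRing.ResidueField 𝒪)›
  exact Ideal.finite_quotient_pow (IsNoetherian.noetherian _) n

end DVR

/-! ### The modular instance -/

section Modular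

open ModularCurve CongruenceSubgroup CuspForm
open Fermat.Agent.S31.helper6356 Fermat.Agent.S32.helper2036 Fermat.Agent.S32.helper2804

local notation "GQ" => (AlgebraicClosure ℚ ≃ₐ[ℚ] AlgebraicClosure ℚ)

/-- The index set of the good Hecke operators. -/
abbrev GoodIdx (N : ℕ) (S : Finset ℕ) : Type := {ℓ : ℕ // ℓ.Prime ∧ ¬ ℓ ∣ N ∧ ℓ ∉ (↑S : Set ℕ)}

variable (N : ℕ) [NeZero N] (S : Finset ℕ)

/-- The good Hecke operators on `J₀(N)`, as additive maps. -/
noncomputable def heckeTau (i : GoodIdx N S) : JZero N →+ JZero N :=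
  (heckeOperatorBar N ⟨i.1, i.2.1⟩).toAddMonoidHom

@[simp]
theorem heckeTau_apply (i : GoodIdx N S) (x : JZero N) :
    heckeTau N S i x = heckeOperatorBar N ⟨i.1, i.2.1⟩ x := rfl

/-- The good Hecke operators on the lattice of integral parabolic homs. -/
noncomputable def latOps (i : GoodIdx N S) (ψ : Lam N) : Lam N :=
  heckeLatticeHom N (↑S : Set ℕ) (heckeAlgebra.T i.2.1 i.2.2.1 i.2.2.2) ψ

variable {N S}

/-- The Kummer lattice map of (K5) intertwines the Hecke operators. -/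
theorem intertwines_of_k5 (ι : Lam N →+ JZero N)
    (h3 : ∀ (ℓ : ℕ) (hℓ : ℓ.Prime) (hℓN : ¬ ℓ ∣ N) (ψ ψ' : Lam N),
      (ψ' : Additive (Gamma0 N) →+ ℤ) =
        (haveI : Fact ℓ.Prime := ⟨hℓ⟩;
          Fermat.Agent.S16.helper2138.heckeHomT N ℓ hℓN ℤ (ψ : Additive (Gamma0 N) →+ ℤ)) →
      ι ψ' = heckeOperatorBar N ⟨ℓ, hℓ⟩ (ι ψ)) :
    Intertwines GQ ι (heckeTau N S) (latOps N S) where
  galois i σ x :=
    Fermat.Agent.S29.helper5500.galois_smul_heckeOperatorBar N ⟨i.1, i.2.1⟩ σ x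
  map i ψ := h3 i.1 i.2.1 i.2.2.1 ψ _
    (coe_heckeLatticeHom_T N (↑S : Set ℕ) i.2.1 i.2.2.1 i.2.2.2 ψ)
  comm i k ψ := by
    show heckeLatticeHom N (↑S : Set ℕ) _ (heckeLatticeHom N (↑S : Set ℕ) _ ψ) =
      heckeLatticeHom N (↑S : Set ℕ) _ (heckeLatticeHom N (↑S : Set ℕ) _ ψ)
    rw [← Module.End.mul_apply, ← Module.End.mul_apply, ← map_mul, ← map_mul, mul_comm]

variable {p : ℕ}
  {𝒪 : Type} [CommRing 𝒪] [IsDomain 𝒪] [IsDiscreteValuationRing 𝒪]
  [IsAdicComplete (IsLocalRing.maximalIdeal 𝒪) 𝒪]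
  {θ : CuspForm.heckeAlgebra N 2 (↑S : Set ℕ) →+* IsLocalRing.ResidueField 𝒪}
  {T : Type} [CommRing T] [IsLocalRing T] [IsNoetherianRing T]
  [IsAdicComplete (IsLocalRing.maximalIdeal T) T] [Algebra 𝒪 T] [IsLocalHom (algebraMap 𝒪 T)]
  [Module.Finite 𝒪 T] [Module.Free 𝒪 T]

omit [IsDiscreteValuationRing 𝒪] [IsAdicComplete (IsLocalRing.maximalIdeal 𝒪) 𝒪]
  [IsLocalRing T] [IsNoetherianRing T] [IsAdicComplete (IsLocalRing.maximalIdeal T) T]
  [IsLocalHom (algebraMap 𝒪 T)] [Module.Finite 𝒪 T] in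
/-- `p` is a non-zero-divisor on `T` (free over the characteristic-zero domain `𝒪`). -/
theorem natCast_mul_eq_zero_of_free [CharZero 𝒪] {n : ℕ} (hn : n ≠ 0) (x : T)
    (hx : (n : T) * x = 0) : x = 0 := by
  have h1 : (n : 𝒪) • x = 0 := by
    rw [Nat.cast_smul_eq_nsmul, nsmul_eq_mul, hx]
  have h2 : (n : 𝒪) ≠ 0 := Nat.cast_ne_zero.mpr hn
  exact (smul_eq_zero.mp h1).resolve_left h2

omit [IsDomain 𝒪] [IsAdicComplete (IsLocalRing.maximalIdeal 𝒪) 𝒪]
  [IsNoetherianRing T] [IsAdicComplete (IsLocalRing.maximalIdeal T) T]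
  [Module.Finite 𝒪 T] [Module.Free 𝒪 T] in
/-- `p` lies in the maximal ideal of `T`. -/
theorem natCast_mem_maximalIdeal_of_localHom [IsLocalRing 𝒪] {n : ℕ}
    (hn : (n : 𝒪) ∈ IsLocalRing.maximalIdeal 𝒪) : (n : T) ∈ IsLocalRing.maximalIdeal T := by
  rw [IsLocalRing.mem_maximalIdeal, mem_nonunits_iff]
  intro hu
  have h1 : IsUnit (algebraMap 𝒪 T (n : 𝒪)) := by rwa [map_natCast]
  exact ((IsLocalRing.mem_maximalIdeal _).mp hn) (IsLocalHom.map_nonunit _ h1)

/-- Unfolding `helper1215.Stmt_Subquot` from the subquotient calculus of `helper2036`. -/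
theorem stmt_subquot_of_isSubquotOfPow
    (H : CuspForm.HeckeGaloisRepDatum N (↑S : Set ℕ) 𝒪 θ T)
    (h : ∀ I : Ideal T, Finite (T ⧸ I) → ∃ m : ℕ,
      IsSubquotOfPow ↥(Submodule.torsionBy ℤ (JZero N) ((p : ℤ) ^ m))
        (H.ρ.V ⧸ (I • (⊤ : Submodule T H.ρ.V)))
        (fun g x => helper1215.torsAct N ((p : ℤ) ^ m) g x)
        (fun g x => H.ρ.levelAction I g x)) :
    helper1215.Stmt_Subquot p H := by
  unfold helper1215.Stmt_Subquot
  intro I hI
  refine Exists.elim (h I hI) fun m hm => ?_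
  unfold IsSubquotOfPow at hm
  refine Exists.elim hm fun r hr => Exists.elim hr fun Nsub hN => ?_
  refine ⟨m, r, Nsub, ?_, ?_⟩
  · intro σ x hx y hy
    have : y = fun i => helper1215.torsAct N ((p : ℤ) ^ m) σ (x i) :=
      funext fun i => Subtype.ext (hy i)
    rw [this]
    exact hN.1 σ x hx
  · exact Exists.elim hN.2 fun f hf =>
      ⟨f, hf.1, fun σ x y hxy => hf.2 σ x y fun i => Subtype.ext (hxy i)⟩

/-- **XFER-B.** The finite-level transfer, from the Eichler–Shimura relation (FQ) and the Kummer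
lattice maps (K5) at all moduli `p ^ m`. -/
theorem stmt_subquot [Finite (IsLocalRing.ResidueField 𝒪)] [CharZero 𝒪]
    (hp : p.Prime) (hp𝒪 : (p : 𝒪) ∈ IsLocalRing.maximalIdeal 𝒪) (hpS : p ∈ S)
    (hNS : ∀ q : ℕ, q.Prime → q ∣ N → q ∈ S)
    (H : CuspForm.HeckeGaloisRepDatum N (↑S : Set ℕ) 𝒪 θ T)
    (hFQ : Fermat.Agent.S31.helper5307.Stmt_Frob N p)
    (hK5 : Fermat.Agent.S31.helper5307.Stmt_K5 N p) :
    helper1215.Stmt_Subquot p H := by
  classical
  refine stmt_subquot_of_isSubquotOfPow H fun I hI => ?_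
  -- the degenerate case `I = ⊤`
  by_cases hItop : I = ⊤
  · subst hItop
    have := subsingleton_quot_top (T := T) H.ρ.V
    exact ⟨0, isSubquotOfPow_of_subsingleton _ _ _ _⟩
  have : Nontrivial (T ⧸ I) := Ideal.Quotient.nontrivial_iff.mpr hItop
  have : IsLocalRing (T ⧸ I) :=
    IsLocalRing.of_surjective' (Ideal.Quotient.mk I) Ideal.Quotient.mk_surjective
  have hpT : (p : T) ∈ IsLocalRing.maximalIdeal T := natCast_mem_maximalIdeal_of_localHom hp𝒪
  -- the constants
  obtain ⟨c, hc⟩ := helper1429.exists_pow_bound_aeval.{0, 0, 0, 0}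
    (heckeLatticeHom N (↑S : Set ℕ)) (heckeLatticeHom_injective N (↑S : Set ℕ)) p hp
  obtain ⟨j₀, hj₀⟩ := exists_natCast_pow_mem hpT I
  obtain ⟨ι, h1, h2, h3⟩ := hK5 (j₀ + c)
  have hW := intertwines_of_k5 (S := S) ι h3
  -- the core is finite
  have : AddGroup.FG (Lam N) := Module.Finite.iff_addGroup_fg.mp inferInstance
  have hWfin : Finite (core GQ ι) :=
    finite_core ι (p ^ (j₀ + c)) (pow_ne_zero _ hp.ne_zero) h1 fun ψ =>
      finite_orbit_of_finiteLevel _
        (Fermat.Agent.S29.helper8527.exists_finiteLevel_point N (ι ψ))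
  have hWtors : ∀ w : core GQ ι, (p ^ (j₀ + c)) • w = 0 := fun w =>
    Subtype.ext (nsmul_eq_zero_of_mem_core ι (p ^ (j₀ + c)) h1 w.2)
  have : Finite (𝒪 ⧸ Ideal.span {((p ^ (j₀ + c) : ℕ) : 𝒪)}) :=
    finite_quotient_span_singleton 𝒪 (Nat.cast_ne_zero.mpr (pow_ne_zero _ hp.ne_zero))
  have : Finite (CoreMod 𝒪 hW) := CoreMod.finite 𝒪 hW (p ^ (j₀ + c)) hWtors
  -- faithfulness up to `π`
  have hfaith : ∀ P : MvPolynomial (GoodIdx N S) 𝒪,
      (∀ x : CoreMod 𝒪 hW, P • x = 0) → levelPi H I P = 0 := by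
    intro P hP
    let jc : Lam N →+ core GQ ι := ι.codRestrict (core GQ ι) fun ψ => map_mem_core ι ψ
    have hmem := hc 𝒪 (core GQ ι) jc (j₀ + c)
      (fun ψ hψ => by
        obtain ⟨φ, hφ⟩ := h2 ψ (congrArg Subtype.val hψ)
        refine ⟨φ, ?_⟩
        rw [hφ, ← natCast_zsmul, Nat.cast_pow])
      (GoodIdx N S) (fun i => heckeAlgebra.T i.2.1 i.2.2.1 i.2.2.2) (fun i => coreOp hW i)
      (fun i ψ => Subtype.ext (hW.map i ψ))
      (coreEv 𝒪 hW) (coreEv_X 𝒪 hW) P (fun x => hP _) T H.π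
      (natCast_mul_eq_zero_of_free (𝒪 := 𝒪) hp.ne_zero)
      (helper1429.isUnit_natCast_of_not_dvd p hp hpT)
    rw [Nat.add_sub_cancel] at hmem
    rw [levelPi_apply, Ideal.Quotient.eq_zero_iff_mem]
    exact (Ideal.span_singleton_le_iff_mem I).mpr hj₀ hmem
  have := locB_isLocalRing (levelPi H I) (CoreMod 𝒪 hW) hfaith
  -- a common level field for the core
  obtain ⟨L₀, hL₀fin, hL₀⟩ := Fermat.Agent.S29.helper8527.exists_finiteLevel_of_finite N
    (S := ((core GQ ι : AddSubgroup (JZero N)) : Set (JZero N))) (Set.toFinite _)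
  -- the quadratic relations
  have hquad : ∀ g : GQ, ∃ t d : MvPolynomial (GoodIdx N S) 𝒪,
      (∀ x : CoreMod 𝒪 hW,
        CoreMod.rho 𝒪 hW g (CoreMod.rho 𝒪 hW g x) - t • CoreMod.rho 𝒪 hW g x + d • x = 0) ∧
      levelPi H I t = (lvl H.ρ I g).trace ∧ levelPi H I d = (lvl H.ρ I g).det := by
    intro g
    obtain ⟨ℓ, hℓ, hℓN, hℓS, A, s, a, hA, hs, hgs, htr, hdet⟩ :=
      exists_frob_pow_lvl H I L₀ hL₀fin g
    have hℓp : ℓ ≠ p := fun h => hℓS (by rw [h]; exact Finset.mem_coe.mpr hpS)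
    have hℓNp : ¬ ℓ ∣ N * p := by
      intro hdvd
      rcases (Nat.Prime.dvd_mul hℓ).mp hdvd with h | h
      · exact hℓN h
      · exact hℓp ((Nat.prime_dvd_prime_iff_eq hℓ hp).mp h)
    have hcast : (MvPolynomial.C (((ℓ : ℕ) : ℤ) : 𝒪) : MvPolynomial (GoodIdx N S) 𝒪) =
        ((ℓ : ℕ) : MvPolynomial (GoodIdx N S) 𝒪) := by
      rw [Int.cast_natCast, map_natCast]
    refine ⟨(Polynomial.dickson 1 (MvPolynomial.C (((ℓ : ℕ) : ℤ) : 𝒪)) a).eval
        (MvPolynomial.X ⟨ℓ, hℓ, hℓN, hℓS⟩), MvPolynomial.C (((ℓ : ℕ) : ℤ) : 𝒪) ^ a, ?_, ?_, ?_⟩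
    · refine CoreMod.rho_quad_pow 𝒪 hW s g a ⟨ℓ, hℓ, hℓN, hℓS⟩ ((ℓ : ℕ) : ℤ) ?_ ?_
      · intro x hx
        rw [natCast_zsmul]
        exact hFQ ℓ hℓ hℓNp A hA s hs x
          ⟨j₀ + c, nsmul_eq_zero_of_mem_core ι (p ^ (j₀ + c)) h1 hx⟩
      · intro x hx
        have hfix : ((s ^ a)⁻¹ * g) • x = x := by
          refine hL₀ _ (fun y hy => ?_) x hx
          rw [AlgEquiv.mul_apply, hgs y hy]
          exact (s ^ a).symm_apply_apply y
        rw [mul_smul, inv_smul_eq_iff] at hfix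
        exact hfix
    · rw [hcast, levelPi_dickson H I hℓ hℓN hℓS a, htr]
    · rw [hcast, levelPi_natCast_pow, hdet]
  -- FIN-CARAYOL on the local factor
  have hres := helper929.fin_carayol_isSubquotOfPow
    (locB_faithful (levelPi H I) (CoreMod 𝒪 hW))
    (locRho (levelPi H I) (CoreMod 𝒪 hW) (CoreMod.rho 𝒪 hW))
    (piB (levelPi H I) (CoreMod 𝒪 hW) hfaith)
    (piB_surjective (levelPi H I) (CoreMod 𝒪 hW) hfaith (levelPi_surjective hNS H I))
    (lvl H.ρ I) (lvl_lift_surjective H.ρ H.residual_absIrr I)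
    (fun g => exists_quad_descend (levelPi H I) (CoreMod 𝒪 hW) (CoreMod.rho 𝒪 hW) hfaith g _ _
      (hquad g))
  -- back to the core, then to the torsion
  obtain ⟨d, q, hq, hqe⟩ := exists_pow_surjective_tensor 𝒪 (core GQ ι) (p ^ (j₀ + c)) hWtors
  have h4 : IsSubquotOfPow (core GQ ι) (Fin 2 → T ⧸ I) (fun g x => coreRho GQ ι g x)
      (fun g v => (lvl H.ρ I g).mulVec v) :=
    isSubquotOfPow_of_loc_of_pow (levelPi H I) (CoreMod 𝒪 hW) (CoreMod.rho 𝒪 hW) _
      (fun g x => coreRho GQ ι g x) d ((CoreMod.of 𝒪 hW).toAddMonoidHom.comp q)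
      (fun z => hq z) (fun g x => hqe (coreRho GQ ι g) x) hres
  have h5 := isSubquotOfPow_levelAction H.ρ I h4
  let inc : core GQ ι →+ ↥(Submodule.torsionBy ℤ (JZero N) ((p : ℤ) ^ (j₀ + c))) :=
    { toFun := fun w => ⟨(w : JZero N), by
        rw [Submodule.mem_torsionBy_iff]
        have h := nsmul_eq_zero_of_mem_core ι (p ^ (j₀ + c)) h1 w.2
        rw [← natCast_zsmul, Nat.cast_pow] at h
        exact h⟩
      map_zero' := rfl
      map_add' := fun _ _ => rfl }
  exact ⟨j₀ + c, IsSubquotOfPow.of_injective inc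
    (fun x y hxy => Subtype.ext (congrArg
      (fun z : ↥(Submodule.torsionBy ℤ (JZero N) ((p : ℤ) ^ (j₀ + c))) => (z : JZero N)) hxy))
    (fun g x => rfl) h5⟩

end Modular

end Fermat.Agent.S32.helper4165
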