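import Mathlib

/-!
# S32-FINCARAYOL (helper929): UNIV + FIN-CARAYOL, pure algebra

Route #2777 (D1).  Mathlib only.

* `univ_ker_le` / `univ_exists_algHom` (UNIV): a monoid hom `ψ : G →* R` into a `T`-algebra whose
  values satisfy the characteristic polynomials of a "full" two-dimensional representation
  `ρ : G →* M₂(T)` factors through `M₂(T)`.
-/

set_option autoImplicit false

namespace Fermat.Agent.S32.helper929

open Matrix

section TwoByTwo

variable {T : Type*} [CommRing T]

theorem det_add_fin_two (X Y : Matrix (Fin 2) (Fin 2) T) :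
    (X + Y).det = X.det + Y.det + (X.trace * Y.trace - (X * Y).trace) := by
  simp only [Matrix.det_fin_two, Matrix.trace_fin_two, Matrix.mul_apply, Fin.sum_univ_two,
    Matrix.add_apply]
  ring

theorem det_smul_fin_two (c : T) (X : Matrix (Fin 2) (Fin 2) T) :
    (c • X).det = c * c * X.det := by
  simp only [Matrix.det_fin_two, Matrix.smul_apply, smul_eq_mul]
  ring

theorem zero_fin_two_eq : (!![0, 0; 0, 0] : Matrix (Fin 2) (Fin 2) T) = 0 := by
  ext i j; fin_cases i <;> fin_cases j <;> rfl

theorem e11_mul_e11 :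
    (!![1, 0; 0, 0] : Matrix (Fin 2) (Fin 2) T) * !![1, 0; 0, 0] = !![1, 0; 0, 0] := by
  rw [Matrix.mul_fin_two]; simp

theorem e11_mul_mul_e11 (X : Matrix (Fin 2) (Fin 2) T) :
    !![1, 0; 0, 0] * X * !![1, 0; 0, 0]
      = X 0 0 • (!![1, 0; 0, 0] : Matrix (Fin 2) (Fin 2) T) := by
  conv_lhs => rw [Matrix.eta_fin_two X]
  rw [Matrix.mul_fin_two, Matrix.mul_fin_two]
  ext i j; fin_cases i <;> fin_cases j <;> simp

theorem one_sub_e11_sub :
    (1 : Matrix (Fin 2) (Fin 2) T) - !![1, 0; 0, 0]
      - !![0, 0; 1, 0] * !![1, 0; 0, 0] * !![0, 1; 0, 0] = 0 := by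
  ext i j; fin_cases i <;> fin_cases j <;> simp

theorem single_mul_mul_single_fin_two (X : Matrix (Fin 2) (Fin 2) T) (i j : Fin 2) :
    Matrix.single 0 i (1 : T) * X * Matrix.single j 0 1
      = X i j • (!![1, 0; 0, 0] : Matrix (Fin 2) (Fin 2) T) := by
  rw [Matrix.single_mul_mul_single]
  ext a b; fin_cases a <;> fin_cases b <;> simp [Matrix.single]

end TwoByTwo

section Univ

variable {G : Type*} [Group G] {T : Type*} [CommRing T] {R : Type*} [Ring R] [Algebra T R]

/-- Polar identity on group elements. -/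
theorem polar_group (ρ : G →* Matrix (Fin 2) (Fin 2) T) (ψ : G →* R)
    (hψ : ∀ g, ψ g * ψ g - (ρ g).trace • ψ g + (ρ g).det • (1 : R) = 0) (g h : G) :
    ψ g * ψ h + ψ h * ψ g = (ρ g).trace • ψ h + (ρ h).trace • ψ g
      - ((ρ g).trace * (ρ h).trace - (ρ g * ρ h).trace) • (1 : R) := by
  have inv_rel : ∀ g : G, (ρ g).trace • (1 : R) - ψ g = (ρ g).det • ψ g⁻¹ := by
    intro g
    have hg' : ψ g * ψ g⁻¹ = 1 := by rw [← map_mul, mul_inv_cancel, map_one]
    have := congrArg (· * ψ g⁻¹) (hψ g)
    simp only [sub_mul, add_mul, zero_mul, mul_assoc, hg', mul_one, smul_mul_assoc, one_mul]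
      at this
    linear_combination (norm := module) - this
  have h1 := inv_rel g
  have h2 := inv_rel h
  have h3 := inv_rel (h * g)
  have h4 : ((ρ g).trace • (1 : R) - ψ g) * ((ρ h).trace • (1 : R) - ψ h)
      = (ρ (h * g)).trace • (1 : R) - ψ (h * g) := by
    rw [h1, h2, h3, _root_.mul_inv_rev, map_mul ψ g⁻¹ h⁻¹, map_mul ρ h g, Matrix.det_mul,
      smul_mul_smul_comm, mul_comm (ρ g).det]
  rw [map_mul ψ h g, map_mul ρ h g, Matrix.trace_mul_comm] at h4
  simp only [sub_mul, mul_sub, smul_mul_assoc, mul_smul_comm, one_mul, mul_one] at h4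
  linear_combination (norm := module) h4

variable (ρ : G →* Matrix (Fin 2) (Fin 2) T) (ψ : G →* R)

/-- The matrix side `T[G] → M₂(T)`. -/
noncomputable abbrev matLift : MonoidAlgebra T G →ₐ[T] Matrix (Fin 2) (Fin 2) T :=
  MonoidAlgebra.lift T (Matrix (Fin 2) (Fin 2) T) G ρ

/-- The ring side `T[G] → R`. -/
noncomputable abbrev ringLift : MonoidAlgebra T G →ₐ[T] R :=
  MonoidAlgebra.lift T R G ψ

variable {ρ ψ}

theorem polar (hψ : ∀ g, ψ g * ψ g - (ρ g).trace • ψ g + (ρ g).det • (1 : R) = 0)
    (x y : MonoidAlgebra T G) :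
    ringLift ψ x * ringLift ψ y + ringLift ψ y * ringLift ψ x
      = (matLift ρ x).trace • ringLift ψ y + (matLift ρ y).trace • ringLift ψ x
        - ((matLift ρ x).trace * (matLift ρ y).trace - (matLift ρ x * matLift ρ y).trace)
          • (1 : R) := by
  induction x using MonoidAlgebra.induction_on with
  | of g =>
    induction y using MonoidAlgebra.induction_on with
    | of h => simpa only [matLift, ringLift, MonoidAlgebra.lift_of] using polar_group ρ ψ hψ g h
    | add y1 y2 h1 h2 =>
      simp only [map_add, mul_add, add_mul, Matrix.trace_add, smul_add, add_smul]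
      linear_combination (norm := module) h1 + h2
    | smul c y h =>
      simp only [map_smul, Matrix.trace_smul, smul_eq_mul, mul_smul_comm, smul_mul_assoc]
      linear_combination (norm := module) c • h
  | add x1 x2 h1 h2 =>
    simp only [map_add, mul_add, add_mul, Matrix.trace_add, smul_add, add_smul]
    linear_combination (norm := module) h1 + h2
  | smul c x h =>
    simp only [map_smul, Matrix.trace_smul, smul_eq_mul, mul_smul_comm, smul_mul_assoc]
    linear_combination (norm := module) c • h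

theorem cayley (hψ : ∀ g, ψ g * ψ g - (ρ g).trace • ψ g + (ρ g).det • (1 : R) = 0)
    (x : MonoidAlgebra T G) :
    ringLift ψ x * ringLift ψ x - (matLift ρ x).trace • ringLift ψ x
      + (matLift ρ x).det • (1 : R) = 0 := by
  induction x using MonoidAlgebra.induction_on with
  | of g => simpa only [matLift, ringLift, MonoidAlgebra.lift_of] using hψ g
  | add x y hx hy =>
    have hp := polar hψ x y
    simp only [map_add, det_add_fin_two, mul_add, add_mul, Matrix.trace_add]
    linear_combination (norm := module) hx + hy + hp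
  | smul c x h =>
    simp only [map_smul, det_smul_fin_two, Matrix.trace_smul, smul_eq_mul, mul_smul_comm,
      smul_mul_assoc]
    linear_combination (norm := module) (c * c) • h


/-- **UNIV**, kernel form: if `T[G] → M₂(T)` is onto and `ψ` satisfies the quadratic relations
of `ρ`, then everything in the kernel of `T[G] → M₂(T)` is killed by `ψ`. -/
theorem univ_ker (hψ : ∀ g, ψ g * ψ g - (ρ g).trace • ψ g + (ρ g).det • (1 : R) = 0)
    (hsurj : Function.Surjective (matLift ρ)) (x : MonoidAlgebra T G)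
    (hx : matLift ρ x = 0) : ringLift ψ x = 0 := by
  obtain ⟨e, he⟩ := hsurj !![1, 0; 0, 0]
  obtain ⟨u, hu⟩ := hsurj !![0, 1; 0, 0]
  obtain ⟨v, hv⟩ := hsurj !![0, 0; 1, 0]
  -- the relation `(K)` for kernel elements
  have hK : ∀ z y : MonoidAlgebra T G, matLift ρ z = 0 →
      ringLift ψ z * ringLift ψ y + ringLift ψ y * ringLift ψ z
        = (matLift ρ y).trace • ringLift ψ z := by
    intro z y hz
    have := polar hψ z y
    rw [hz] at this
    simpa using this
  set a := ringLift ψ e with ha
  set b := ringLift ψ u with hb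
  set c := ringLift ψ v with hc
  have haa : a * a = a := by
    have := cayley hψ e
    rw [he] at this
    simp only [Matrix.trace_fin_two_of, Matrix.det_fin_two_of] at this
    simpa [sub_eq_zero] using this
  have hbb : b * b = 0 := by
    have := cayley hψ u
    rw [hu] at this
    simp only [Matrix.trace_fin_two_of, Matrix.det_fin_two_of] at this
    simpa using this
  have hcc : c * c = 0 := by
    have := cayley hψ v
    rw [hv] at this
    simp only [Matrix.trace_fin_two_of, Matrix.det_fin_two_of] at this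
    simpa using this
  have hbc : b * c + c * b = 1 := by
    have := polar hψ u v
    rw [hu, hv] at this
    simp only [Matrix.trace_fin_two_of, Matrix.mul_fin_two] at this
    simpa using this
  have hab : a * b + b * a = b := by
    have := polar hψ e u
    rw [he, hu] at this
    simp only [Matrix.trace_fin_two_of, Matrix.mul_fin_two] at this
    simpa using this
  have hac : a * c + c * a = c := by
    have := polar hψ e v
    rw [he, hv] at this
    simp only [Matrix.trace_fin_two_of, Matrix.mul_fin_two] at this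
    simpa using this
  -- `u * e` and `e * v` lie in the kernel
  have hue : matLift ρ (u * e) = 0 := by
    rw [map_mul, hu, he, Matrix.mul_fin_two]; simp [zero_fin_two_eq]
  have hev : matLift ρ (e * v) = 0 := by
    rw [map_mul, he, hv, Matrix.mul_fin_two]; simp [zero_fin_two_eq]
  have hK1 : b * a * c + c * (b * a) = 0 := by
    have := hK (u * e) v hue
    rw [hv] at this
    simpa [Matrix.trace_fin_two_of] using this
  have hK2 : a * c * b + b * (a * c) = 0 := by
    have := hK (e * v) u hev
    rw [hu] at this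
    simpa [Matrix.trace_fin_two_of] using this
  have h1 : a = b * (c * a - a * c) := by
    linear_combination (norm := noncomm_ring) (-(hbc)) * a + hK1
  have hba : b * a = 0 := by
    rw [h1, ← mul_assoc, hbb, zero_mul]
  have h2 : a = (a * b - b * a) * c := by
    linear_combination (norm := noncomm_ring) a * (-(hbc)) + hK2
  have hac0 : a * c = 0 := by
    rw [h2, mul_assoc, hcc, mul_zero]
  have hab' : a * b = b := by rw [hba, add_zero] at hab; exact hab
  have hca : c * a = c := by rw [hac0, zero_add] at hac; exact hac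
  have ha_eq : a = b * c := by
    rw [hac0, sub_zero, hca] at h1; exact h1
  have hf_eq : 1 - a = c * b := by
    rw [ha_eq]; linear_combination (norm := noncomm_ring) - hbc
  -- now a general kernel element
  set w := ringLift ψ x with hw
  have hwa : w * a + a * w = w := by
    have := hK x e hx
    rw [he] at this
    simpa [Matrix.trace_fin_two_of] using this
  have hwc : w * c + c * w = 0 := by
    have := hK x v hx
    rw [hv] at this
    simpa [Matrix.trace_fin_two_of] using this
  have hwb : w * b + b * w = 0 := by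
    have := hK x u hx
    rw [hu] at this
    simpa [Matrix.trace_fin_two_of] using this
  have e1 : a * w * a = 0 := by
    have : a * (w * a + a * w) = a * w := by rw [hwa]
    rw [mul_add, ← mul_assoc a a w, haa] at this
    rw [mul_assoc]
    exact add_eq_right.mp this
  have e2 : a * w * (1 - a) = 0 := by
    rw [hf_eq]
    have h : c * w = - (w * c) := eq_neg_of_add_eq_zero_right hwc
    calc a * w * (c * b) = b * (c * w) * c * b := by rw [ha_eq]; noncomm_ring
      _ = - (b * w * (c * c) * b) := by rw [h]; noncomm_ring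
      _ = 0 := by rw [hcc]; simp
  have e3 : (1 - a) * w * a = 0 := by
    have h : b * w = - (w * b) := eq_neg_of_add_eq_zero_right hwb
    calc (1 - a) * w * a = c * (b * w) * b * c := by rw [hf_eq, ha_eq]; noncomm_ring
      _ = - (c * w * (b * b) * c) := by rw [h]; noncomm_ring
      _ = 0 := by rw [hbb]; simp
  have e4 : (1 - a) * w * (1 - a) = 0 := by
    have : (1 - a) * w * (1 - a) = w - (w * a + a * w) + a * w * a := by noncomm_ring
    rw [this, hwa, e1]; simp
  have : w = a * w * a + a * w * (1 - a) + (1 - a) * w * a + (1 - a) * w * (1 - a) := by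
    noncomm_ring
  rw [this, e1, e2, e3, e4]; simp


/-- `T[G] → M₂(T)` is onto as soon as the `T`-span of the image of `ρ` is everything. -/
theorem matLift_surjective_of_span (ρ : G →* Matrix (Fin 2) (Fin 2) T)
    (hspan : Submodule.span T (Set.range ρ) = ⊤) : Function.Surjective (matLift ρ) := by
  have hle : Submodule.span T (Set.range ρ) ≤ LinearMap.range (matLift ρ).toLinearMap := by
    rw [Submodule.span_le]
    rintro _ ⟨g, rfl⟩
    exact ⟨MonoidAlgebra.of T G g, by simp [matLift]⟩
  rw [hspan, top_le_iff] at hle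
  exact LinearMap.range_eq_top.mp hle

/-- **UNIV**, factorisation form: `ψ` factors through a `T`-algebra hom `M₂(T) → R`. -/
theorem univ_exists_algHom (hψ : ∀ g, ψ g * ψ g - (ρ g).trace • ψ g + (ρ g).det • (1 : R) = 0)
    (hsurj : Function.Surjective (matLift ρ)) :
    ∃ Φ : Matrix (Fin 2) (Fin 2) T →ₐ[T] R, ∀ g, Φ (ρ g) = ψ g := by
  let Φ₀ : Matrix (Fin 2) (Fin 2) T →+* R :=
    RingHom.liftOfRightInverse (matLift ρ).toRingHom
      (Function.surjInv hsurj) (Function.rightInverse_surjInv hsurj)
      ⟨(ringLift (T := T) ψ).toRingHom, fun x hx => by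
        rw [RingHom.mem_ker] at hx ⊢
        exact univ_ker hψ hsurj x hx⟩
  have key : ∀ x, Φ₀ (matLift ρ x) = ringLift ψ x := fun x =>
    RingHom.liftOfRightInverse_comp_apply _ _ _ _ x
  refine ⟨AlgHom.mk' Φ₀ (fun t X => ?_), fun g => ?_⟩
  · obtain ⟨x, rfl⟩ := hsurj X
    rw [← map_smul, key, key, map_smul]
  · have := key (MonoidAlgebra.of T G g)
    simpa [matLift, ringLift, MonoidAlgebra.lift_of] using this

end Univ


section SmulTop

variable {B : Type*} [CommRing B] {E : Type*} [Ring E] [Algebra B E]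

theorem mul_mem_smul_top_right (J : Ideal B) {y : E}
    (hy : y ∈ (J • ⊤ : Submodule B E)) (z : E) : y * z ∈ (J • ⊤ : Submodule B E) := by
  refine Submodule.smul_induction_on hy (fun a ha w _ => ?_) (fun y1 y2 h1 h2 => ?_)
  · rw [smul_mul_assoc]
    exact Submodule.smul_mem_smul ha Submodule.mem_top
  · rw [add_mul]
    exact add_mem h1 h2

theorem mul_mem_smul_top_left (J : Ideal B) {y : E}
    (hy : y ∈ (J • ⊤ : Submodule B E)) (z : E) : z * y ∈ (J • ⊤ : Submodule B E) := by
  refine Submodule.smul_induction_on hy (fun a ha w _ => ?_) (fun y1 y2 h1 h2 => ?_)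
  · rw [mul_smul_comm]
    exact Submodule.smul_mem_smul ha Submodule.mem_top
  · rw [mul_add]
    exact add_mem h1 h2

theorem mul_mem_mul_smul_top (J J' : Ideal B) {y x : E}
    (hy : y ∈ (J • ⊤ : Submodule B E)) (hx : x ∈ (J' • ⊤ : Submodule B E)) :
    y * x ∈ ((J * J') • ⊤ : Submodule B E) := by
  refine Submodule.smul_induction_on hy (fun a ha w _ => ?_) (fun y1 y2 h1 h2 => ?_)
  · rw [smul_mul_assoc, Submodule.mul_smul]
    exact Submodule.smul_mem_smul ha (mul_mem_smul_top_left J' hx w)
  · rw [add_mul]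
    exact add_mem h1 h2

theorem pow_succ_mem_smul_top (J : Ideal B) {x : E} (hx : x ∈ (J • ⊤ : Submodule B E)) (k : ℕ) :
    x ^ (k + 1) ∈ ((J ^ (k + 1)) • ⊤ : Submodule B E) := by
  induction k with
  | zero => simpa using hx
  | succ k ih =>
    rw [pow_succ x (k + 1), pow_succ J (k + 1)]
    exact mul_mem_mul_smul_top _ _ ih hx

theorem isNilpotent_of_mem_smul_top {J : Ideal B} (hJ : ∃ n : ℕ, J ^ n = ⊥) {x : E}
    (hx : x ∈ (J • ⊤ : Submodule B E)) : IsNilpotent x := by
  obtain ⟨n, hn⟩ := hJ
  refine ⟨n + 1, ?_⟩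
  have h := pow_succ_mem_smul_top J hx n
  rw [pow_succ J n, hn, Ideal.bot_mul, Submodule.bot_smul, Submodule.mem_bot] at h
  exact h

/-- The ring congruence `x ≡ y mod J E` on a `B`-algebra `E`. -/
def conSmulTop (J : Ideal B) : RingCon E where
  r x y := x - y ∈ (J • ⊤ : Submodule B E)
  iseqv :=
    { refl := fun x => by rw [sub_self]; exact Submodule.zero_mem _
      symm := fun {x y} h => by
        have := Submodule.neg_mem _ h
        rwa [neg_sub] at this
      trans := fun {x y z} h1 h2 => by
        have := Submodule.add_mem _ h1 h2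
        rwa [sub_add_sub_cancel] at this }
  add' := fun {w x y z} h1 h2 => by
    have := Submodule.add_mem _ h1 h2
    rwa [← add_sub_add_comm] at this
  mul' := fun {w x y z} h1 h2 => by
    have := Submodule.add_mem _ (mul_mem_smul_top_right J h1 y) (mul_mem_smul_top_left J h2 x)
    have h3 : (w - x) * y + x * (y - z) = w * y - x * z := by noncomm_ring
    rwa [h3] at this

theorem conSmulTop_mk_eq_zero_iff (J : Ideal B) (x : E) :
    (conSmulTop (E := E) J).mk' x = 0 ↔ x ∈ (J • ⊤ : Submodule B E) := by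
  rw [← map_zero (conSmulTop (E := E) J).mk']
  show ((x : E) : (conSmulTop (E := E) J).Quotient) = ((0 : E) : (conSmulTop (E := E) J).Quotient) ↔ _
  rw [RingCon.eq]
  show x - 0 ∈ (J • ⊤ : Submodule B E) ↔ _
  rw [sub_zero]

end SmulTop


section Core

variable {G : Type*} [Group G] {B : Type*} [CommRing B] {T' : Type*} [CommRing T']
variable {E : Type*} [Ring E] [Algebra B E] {S : Type*} [Ring S] [Algebra T' S]

/-- Core of FIN-CARAYOL, with the quotient `S = E / I E` passed as data. -/
theorem core_aux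
    (π' : B →+* T') (hπ : Function.Surjective π')
    (hnil : ∃ n : ℕ, RingHom.ker π' ^ n = ⊥)
    (ρ' : G →* Matrix (Fin 2) (Fin 2) T') (hspan : Submodule.span T' (Set.range ρ') = ⊤)
    (γ : G →* E) (hγ : Submodule.span B (Set.range γ) = ⊤)
    (hfaith : ∀ b : B, b • (1 : E) = 0 → b = 0)
    (hquad : ∀ g, ∃ t d : B, γ g * γ g - t • γ g + d • (1 : E) = 0 ∧
      π' t = (ρ' g).trace ∧ π' d = (ρ' g).det)
    (q : E →+* S) (hq : Function.Surjective q)
    (hqker : ∀ x, q x = 0 ↔ x ∈ (RingHom.ker π' • ⊤ : Submodule B E))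
    (hqsmul : ∀ (b : B) (x : E), q (b • x) = π' b • q x) :
    ∃ Θ : E →+* Matrix (Fin 2) (Fin 2) T', Function.Surjective Θ ∧ (∀ g, Θ (γ g) = ρ' g) ∧
      (∀ (b : B) (x : E), Θ (b • x) = π' b • Θ x) ∧
      ∃ e : E, e * e = e ∧ Θ e = !![1, 0; 0, 0] := by
  set I : Ideal B := RingHom.ker π' with hI
  -- the monoid hom into the quotient and its quadratic relations
  let ψ : G →* S := (q : E →* S).comp γ
  have hψ : ∀ g, ψ g * ψ g - (ρ' g).trace • ψ g + (ρ' g).det • (1 : S) = 0 := by
    intro g
    obtain ⟨t, d, h, ht, hd⟩ := hquad g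
    have h' := congrArg q h
    rw [map_zero, map_add, map_sub, map_mul, hqsmul, hqsmul, map_one, ht, hd] at h'
    exact h'
  obtain ⟨φ, hφ⟩ := univ_exists_algHom hψ (matLift_surjective_of_span ρ' hspan)
  have hφ' : ∀ g, φ (ρ' g) = q (γ g) := hφ
  -- `φ` is onto
  have hφsurj : Function.Surjective φ := by
    intro s
    obtain ⟨x, rfl⟩ := hq s
    have hx : x ∈ Submodule.span B (Set.range γ) := hγ ▸ Submodule.mem_top
    induction hx using Submodule.span_induction with
    | mem x hx =>
      obtain ⟨g, rfl⟩ := hx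
      exact ⟨ρ' g, hφ' g⟩
    | zero => exact ⟨0, by simp⟩
    | add x y _ _ hx hy =>
      obtain ⟨X, hX⟩ := hx
      obtain ⟨Y, hY⟩ := hy
      exact ⟨X + Y, by rw [map_add, map_add, hX, hY]⟩
    | smul b x _ hx =>
      obtain ⟨X, hX⟩ := hx
      exact ⟨π' b • X, by rw [map_smul, hX, hqsmul]⟩
  -- lifting the idempotent
  have hker_nil : ∀ x ∈ RingHom.ker q, IsNilpotent x := fun x hx =>
    isNilpotent_of_mem_smul_top hnil ((hqker x).mp hx)
  obtain ⟨e, he, hqe⟩ := exists_isIdempotentElem_eq_of_ker_isNilpotent q hker_nil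
    (φ !![1, 0; 0, 0]) (hq _) (by
      show φ !![1, 0; 0, 0] * φ !![1, 0; 0, 0] = φ !![1, 0; 0, 0]
      rw [← map_mul, e11_mul_e11])
  have hee : e * e = e := he
  -- `e E e ⊆ B e + I E`
  have claimA : ∀ x : E, ∃ b : B, e * x * e - b • e ∈ (I • ⊤ : Submodule B E) := by
    intro x
    obtain ⟨X, hX⟩ := hφsurj (q x)
    obtain ⟨b, hb⟩ := hπ (X 0 0)
    refine ⟨b, (hqker _).mp ?_⟩
    rw [map_sub, map_mul, map_mul, hqsmul, hqe, ← hX, hb, ← map_mul, ← map_mul, ← map_smul,
      ← map_sub, e11_mul_mul_e11, sub_self, map_zero]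
  have stepk : ∀ k : ℕ, ∀ y ∈ ((I ^ k) • ⊤ : Submodule B E),
      ∃ b : B, e * y * e - b • e ∈ ((I ^ (k + 1)) • ⊤ : Submodule B E) := by
    intro k y hy
    refine Submodule.smul_induction_on hy (fun a ha z _ => ?_) (fun y1 y2 h1 h2 => ?_)
    · obtain ⟨b, hb⟩ := claimA z
      refine ⟨a * b, ?_⟩
      have h1 : e * (a • z) * e - (a * b) • e = a • (e * z * e - b • e) := by
        rw [mul_smul_comm, smul_mul_assoc, mul_smul, smul_sub]
      rw [h1, pow_succ, Submodule.mul_smul]
      exact Submodule.smul_mem_smul ha hb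
    · obtain ⟨b1, h1⟩ := h1
      obtain ⟨b2, h2⟩ := h2
      refine ⟨b1 + b2, ?_⟩
      have h3 : e * (y1 + y2) * e - (b1 + b2) • e
          = (e * y1 * e - b1 • e) + (e * y2 * e - b2 • e) := by
        rw [mul_add, add_mul, add_smul]; abel
      rw [h3]
      exact add_mem h1 h2
  have claimk : ∀ k : ℕ, ∀ x : E, ∃ b : B, e * x * e - b • e ∈ ((I ^ k) • ⊤ : Submodule B E) := by
    intro k
    induction k with
    | zero =>
      intro x
      exact ⟨0, by rw [pow_zero, Ideal.one_eq_top, Submodule.top_smul]; exact Submodule.mem_top⟩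
    | succ k ih =>
      intro x
      obtain ⟨b, hb⟩ := ih x
      obtain ⟨b', hb'⟩ := stepk k _ hb
      refine ⟨b + b', ?_⟩
      have h3 : e * (e * x * e - b • e) * e - b' • e = e * x * e - (b + b') • e := by
        have h4 : e * (e * x * e - b • e) * e = e * x * e - b • e := by
          rw [mul_sub, sub_mul, mul_smul_comm, smul_mul_assoc, hee, hee]
          have : e * (e * x * e) * e = e * x * e := by
            calc e * (e * x * e) * e = (e * e) * x * (e * e) := by noncomm_ring
              _ = e * x * e := by rw [hee]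
          rw [this]
        rw [h4, add_smul]; abel
      rw [← h3]
      exact hb'
  obtain ⟨n, hn⟩ := hnil
  have hW : ∀ x : E, ∃ b : B, e * x * e = b • e := by
    intro x
    obtain ⟨b, hb⟩ := claimk n x
    rw [hn, Submodule.bot_smul, Submodule.mem_bot, sub_eq_zero] at hb
    exact ⟨b, hb⟩
  -- `b ↦ b • e` is injective
  have hinj_e : ∀ b : B, b • e = 0 → b = 0 := by
    intro b hb
    obtain ⟨u0, hu0⟩ := hq (φ !![0, 1; 0, 0])
    obtain ⟨v0, hv0⟩ := hq (φ !![0, 0; 1, 0])
    have hnn : IsNilpotent (1 - e - v0 * e * u0) := hker_nil _ (by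
      rw [RingHom.mem_ker, map_sub, map_sub, map_one, map_mul, map_mul, hqe, hu0, hv0,
        ← map_mul, ← map_mul, ← map_one φ, ← map_sub, ← map_sub, one_sub_e11_sub, map_zero])
    set nn := 1 - e - v0 * e * u0 with hnn_def
    have h1 : b • (1 : E) = b • nn := by
      have h2 : (1 : E) = e + v0 * e * u0 + nn := by rw [hnn_def]; abel
      have h3 : b • (v0 * e * u0) = v0 * (b • e) * u0 := by
        rw [mul_smul_comm, smul_mul_assoc]
      calc b • (1 : E) = b • (e + v0 * e * u0 + nn) := by rw [← h2]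
        _ = b • e + v0 * (b • e) * u0 + b • nn := by rw [smul_add, smul_add, h3]
        _ = b • nn := by rw [hb, mul_zero, zero_mul, add_zero, zero_add]
    have h2 : (b • (1 : E)) * (1 - nn) = 0 := by
      rw [mul_sub, mul_one, smul_mul_assoc, one_mul, h1, sub_self]
    exact hfaith b ((hnn.isUnit_one_sub.mul_left_eq_zero).mp h2)
  -- `t ↦ t • φ E₁₁` is injective
  have hinj_eps : ∀ t : T', t • φ !![1, 0; 0, 0] = 0 → t = 0 := by
    intro t ht
    obtain ⟨b, rfl⟩ := hπ t
    have hbe : b • e ∈ (I • ⊤ : Submodule B E) := (hqker _).mp (by rw [hqsmul, hqe, ht])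
    have key : ∀ y ∈ (I • ⊤ : Submodule B E), ∃ a ∈ I, e * y * e = a • e := by
      intro y hy
      refine Submodule.smul_induction_on hy (fun a ha z _ => ?_) (fun y1 y2 h1 h2 => ?_)
      · obtain ⟨c, hc⟩ := hW z
        exact ⟨a * c, I.mul_mem_right _ ha, by rw [mul_smul_comm, smul_mul_assoc, hc, mul_smul]⟩
      · obtain ⟨a1, ha1, h1⟩ := h1
        obtain ⟨a2, ha2, h2⟩ := h2
        exact ⟨a1 + a2, I.add_mem ha1 ha2, by rw [mul_add, add_mul, h1, h2, add_smul]⟩
    obtain ⟨a, ha, hae⟩ := key _ hbe
    have h0 : (b - a) • e = 0 := by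
      rw [sub_smul, ← hae, mul_smul_comm, smul_mul_assoc, hee, hee, sub_self]
    have hba := hinj_e _ h0
    rw [sub_eq_zero] at hba
    rw [hba]
    exact RingHom.mem_ker.mp ha
  -- `φ` is injective
  have hφinj : Function.Injective φ := by
    rw [injective_iff_map_eq_zero]
    intro X hX
    ext i j
    have h0 : X i j • φ !![1, 0; 0, 0] = 0 := by
      rw [← map_smul, ← single_mul_mul_single_fin_two X i j, map_mul, map_mul, hX, mul_zero,
        zero_mul]
    simpa using hinj_eps _ h0
  let φe : Matrix (Fin 2) (Fin 2) T' ≃+* S := RingEquiv.ofBijective φ ⟨hφinj, hφsurj⟩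
  have hφe : ∀ X, φe X = φ X := fun _ => rfl
  refine ⟨φe.symm.toRingHom.comp q, ?_, ?_, ?_, e, hee, ?_⟩
  · intro X
    obtain ⟨x, hx⟩ := hq (φ X)
    refine ⟨x, ?_⟩
    show φe.symm (q x) = X
    rw [hx, ← hφe, RingEquiv.symm_apply_apply]
  · intro g
    show φe.symm (q (γ g)) = ρ' g
    rw [← hφ', ← hφe, RingEquiv.symm_apply_apply]
  · intro b x
    show φe.symm (q (b • x)) = π' b • φe.symm (q x)
    rw [hqsmul, RingEquiv.symm_apply_eq, hφe, map_smul, ← hφe, RingEquiv.apply_symm_apply]
  · show φe.symm (q e) = !![1, 0; 0, 0]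
    rw [hqe, ← hφe, RingEquiv.symm_apply_apply]

/-- **Core of FIN-CARAYOL** (ring-theoretic form).  `B` a commutative ring, `π' : B → T'` onto
with nilpotent kernel, `ρ' : G → GL₂(T')` "full" (its `T'`-span is `M₂(T')`), `E` a `B`-algebra
spanned by the image of `γ : G → E`, faithful over `B`, such that every `γ g` satisfies a quadratic
relation lifting the characteristic polynomial of `ρ' g`.  Then `γ` followed by a surjective ring
hom `Θ : E → M₂(T')`, semilinear along `π'`, is `ρ'`; and `E₁₁` lifts to an idempotent of `E`. -/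
theorem core
    (π' : B →+* T') (hπ : Function.Surjective π')
    (hnil : ∃ n : ℕ, RingHom.ker π' ^ n = ⊥)
    (ρ' : G →* Matrix (Fin 2) (Fin 2) T') (hspan : Submodule.span T' (Set.range ρ') = ⊤)
    (γ : G →* E) (hγ : Submodule.span B (Set.range γ) = ⊤)
    (hfaith : ∀ b : B, b • (1 : E) = 0 → b = 0)
    (hquad : ∀ g, ∃ t d : B, γ g * γ g - t • γ g + d • (1 : E) = 0 ∧
      π' t = (ρ' g).trace ∧ π' d = (ρ' g).det) :
    ∃ Θ : E →+* Matrix (Fin 2) (Fin 2) T', Function.Surjective Θ ∧ (∀ g, Θ (γ g) = ρ' g) ∧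
      (∀ (b : B) (x : E), Θ (b • x) = π' b • Θ x) ∧
      ∃ e : E, e * e = e ∧ Θ e = !![1, 0; 0, 0] := by
  let c : RingCon E := conSmulTop (RingHom.ker π')
  let q : E →+* c.Quotient := c.mk'
  have hqker : ∀ x, q x = 0 ↔ x ∈ (RingHom.ker π' • ⊤ : Submodule B E) :=
    conSmulTop_mk_eq_zero_iff _
  let ι : T' →+* c.Quotient :=
    RingHom.liftOfRightInverse π' (Function.surjInv hπ) (Function.rightInverse_surjInv hπ)
      ⟨q.comp (algebraMap B E), fun a ha => by
        rw [RingHom.mem_ker]
        show q (algebraMap B E a) = 0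
        rw [hqker, Algebra.algebraMap_eq_smul_one]
        exact Submodule.smul_mem_smul ha Submodule.mem_top⟩
  have hι : ∀ b, ι (π' b) = q (algebraMap B E b) := fun b =>
    RingHom.liftOfRightInverse_comp_apply _ _ _ _ b
  have hcentral : ∀ (t : T') (s : c.Quotient), ι t * s = s * ι t := by
    intro t s
    obtain ⟨b, rfl⟩ := hπ t
    obtain ⟨x, rfl⟩ := c.mk'_surjective s
    show ι (π' b) * q x = q x * ι (π' b)
    rw [hι, ← map_mul, ← map_mul, Algebra.commutes]
  let _ : Algebra T' c.Quotient := ι.toAlgebra' hcentral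
  have hqsmul : ∀ (b : B) (x : E), q (b • x) = π' b • q x := by
    intro b x
    rw [Algebra.smul_def, Algebra.smul_def, map_mul]
    show q (algebraMap B E b) * q x = ι (π' b) * q x
    rw [hι]
  exact core_aux π' hπ hnil ρ' hspan γ hγ hfaith hquad q c.mk'_surjective hqker hqsmul

end Core


section FinCarayol

variable {G : Type*} [Group G] {B : Type*} [CommRing B] {T' : Type*} [CommRing T']
variable {M' : Type*} [AddCommGroup M'] [Module B M']

/-- The `B`-algebra generated by the image of a monoid hom from a group is spanned by it. -/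
theorem span_range_codRestrict_adjoin (ρM : G →* Module.End B M')
    (γ : G →* (Algebra.adjoin B (Set.range ρM) : Subalgebra B (Module.End B M')))
    (hγ : ∀ g, (γ g : Module.End B M') = ρM g) :
    Submodule.span B (Set.range γ) = ⊤ := by
  have hcl : (Submonoid.closure (Set.range ρM) : Set (Module.End B M')) = Set.range ρM := by
    rw [← MonoidHom.coe_mrange, Submonoid.closure_eq]
  have key : ∀ x : Module.End B M', x ∈ Submodule.span B (Set.range ρM) →
      ∀ hx : x ∈ Algebra.adjoin B (Set.range ρM),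
        (⟨x, hx⟩ : (Algebra.adjoin B (Set.range ρM) : Subalgebra B (Module.End B M')))
          ∈ Submodule.span B (Set.range γ) := by
    intro x hx
    induction hx using Submodule.span_induction with
    | mem x hx =>
      intro hxE
      obtain ⟨g, rfl⟩ := hx
      exact Submodule.subset_span ⟨g, Subtype.ext (hγ g)⟩
    | zero =>
      intro hxE
      exact Submodule.zero_mem _
    | add x y hx hy ihx ihy =>
      intro hxE
      have hxE' : x ∈ Algebra.adjoin B (Set.range ρM) := by
        have : x ∈ Subalgebra.toSubmodule (Algebra.adjoin B (Set.range ρM)) := by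
          rw [Algebra.adjoin_eq_span, hcl]; exact hx
        exact this
      have hyE' : y ∈ Algebra.adjoin B (Set.range ρM) := by
        have : y ∈ Subalgebra.toSubmodule (Algebra.adjoin B (Set.range ρM)) := by
          rw [Algebra.adjoin_eq_span, hcl]; exact hy
        exact this
      exact Submodule.add_mem _ (ihx hxE') (ihy hyE')
    | smul b x hx ihx =>
      intro hxE
      have hxE' : x ∈ Algebra.adjoin B (Set.range ρM) := by
        have : x ∈ Subalgebra.toSubmodule (Algebra.adjoin B (Set.range ρM)) := by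
          rw [Algebra.adjoin_eq_span, hcl]; exact hx
        exact this
      exact Submodule.smul_mem _ b (ihx hxE')
  rw [eq_top_iff]
  rintro ⟨x, hx⟩ -
  refine key x ?_ hx
  have : x ∈ Subalgebra.toSubmodule (Algebra.adjoin B (Set.range ρM)) := hx
  rw [Algebra.adjoin_eq_span, hcl] at this
  exact this

/-- **FIN-CARAYOL** (route #2777 (D1)).  `B` a commutative ring, `M'` a finitely generated faithful
`B`-module with a `B`-linear action `ρM` of a group `G`; `π' : B → T'` onto with nilpotent kernel;
`ρ' : G → GL₂(T')` with full span.  If every `g` satisfies on `M'` a quadratic relation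
`g² - t g + d = 0` with `π' t = tr ρ'(g)`, `π' d = det ρ'(g)`, then `ρ'` (acting on `T'²`) is a
`G`-equivariant quotient of a `G`-stable `B`-submodule `N` of `M'^k`. -/
theorem fin_carayol [Module.Finite B M']
    (hfaith : ∀ b : B, (∀ x : M', b • x = 0) → b = 0)
    (ρM : G →* Module.End B M')
    (π' : B →+* T') (hπ : Function.Surjective π')
    (hnil : ∃ n : ℕ, RingHom.ker π' ^ n = ⊥)
    (ρ' : G →* Matrix (Fin 2) (Fin 2) T')
    (hspan : Submodule.span T' (Set.range ρ') = ⊤)
    (hquad : ∀ g, ∃ t d : B, ρM g * ρM g - t • ρM g + d • (1 : Module.End B M') = 0 ∧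
      π' t = (ρ' g).trace ∧ π' d = (ρ' g).det) :
    ∃ (k : ℕ) (N : Submodule B (Fin k → M')),
      (∀ g, ∀ n ∈ N, (fun i => ρM g (n i)) ∈ N) ∧
      ∃ Λ : N →+ (Fin 2 → T'), Function.Surjective Λ ∧
        (∀ (b : B) (n : N), Λ (b • n) = π' b • Λ n) ∧
        (∀ (g : G) (n : N) (hn : (fun i => ρM g (n.1 i)) ∈ N),
          Λ ⟨_, hn⟩ = (ρ' g).mulVec (Λ n)) := by
  let E : Subalgebra B (Module.End B M') := Algebra.adjoin B (Set.range ρM)
  have hmem : ∀ g, ρM g ∈ E := fun g => Algebra.subset_adjoin ⟨g, rfl⟩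
  let γ : G →* E :=
    { toFun := fun g => ⟨ρM g, hmem g⟩
      map_one' := Subtype.ext (map_one ρM)
      map_mul' := fun g h => Subtype.ext (map_mul ρM g h) }
  have hγ : Submodule.span B (Set.range γ) = ⊤ :=
    span_range_codRestrict_adjoin ρM γ (fun _ => rfl)
  have hfaithE : ∀ b : B, b • (1 : E) = 0 → b = 0 := by
    intro b hb
    refine hfaith b (fun x => ?_)
    have h1 : ((b • (1 : E) : E) : Module.End B M') x = 0 := by rw [hb]; rfl
    simpa using h1
  have hquadE : ∀ g, ∃ t d : B, γ g * γ g - t • γ g + d • (1 : E) = 0 ∧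
      π' t = (ρ' g).trace ∧ π' d = (ρ' g).det := by
    intro g
    obtain ⟨t, d, h, ht, hd⟩ := hquad g
    exact ⟨t, d, Subtype.ext h, ht, hd⟩
  obtain ⟨Θ, hΘsurj, hΘγ, hΘsmul, e, hee, hΘe⟩ :=
    core π' hπ hnil ρ' hspan γ hγ hfaithE hquadE
  obtain ⟨k, s, hs⟩ := Module.Finite.exists_fin (R := B) (M := M')
  let m : Fin k → M' := fun i => (e : Module.End B M') (s i)
  let L : E →ₗ[B] (Fin k → M') :=
    { toFun := fun x i => (x : Module.End B M') (m i)
      map_add' := fun x y => by ext i; simp
      map_smul' := fun b x => by ext i; simp }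
  have hL0 : ∀ x : E, L x = 0 → x * e = 0 := by
    intro x hx
    apply Subtype.ext
    show (x : Module.End B M') * (e : Module.End B M') = 0
    apply LinearMap.ext_on hs
    rintro _ ⟨i, rfl⟩
    show (x : Module.End B M') ((e : Module.End B M') (s i)) = 0
    exact congrFun hx i
  let col : E →+ (Fin 2 → T') :=
    { toFun := fun x i => Θ x i 0
      map_zero' := by ext i; simp
      map_add' := fun x y => by ext i; simp }
  have hcol : ∀ x : E, L x = 0 → col x = 0 := by
    intro x hx
    have h1 : Θ x * !![1, 0; 0, 0] = 0 := by rw [← hΘe, ← map_mul, hL0 x hx, map_zero]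
    funext i
    have h2 := congrFun (congrFun h1 i) 0
    show Θ x i 0 = 0
    simpa [Matrix.mul_apply, Fin.sum_univ_two] using h2
  let f : E →+ LinearMap.range L := L.rangeRestrict.toAddMonoidHom
  have hf : Function.Surjective f := L.surjective_rangeRestrict
  let Λ : LinearMap.range L →+ (Fin 2 → T') :=
    AddMonoidHom.liftOfRightInverse f (Function.surjInv hf) (Function.rightInverse_surjInv hf)
      ⟨col, fun x hx => by
        rw [AddMonoidHom.mem_ker] at hx ⊢
        exact hcol x (congrArg Subtype.val hx)⟩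
  have hΛ : ∀ x, Λ (f x) = col x := fun x =>
    AddMonoidHom.liftOfRightInverse_comp_apply _ _ _ _ x
  refine ⟨k, LinearMap.range L, ?_, Λ, ?_, ?_, ?_⟩
  · rintro g _ ⟨x, rfl⟩
    exact ⟨γ g * x, rfl⟩
  · intro w
    obtain ⟨x, hx⟩ := hΘsurj (Matrix.of fun i _ => w i)
    refine ⟨f x, ?_⟩
    rw [hΛ]
    funext i
    show Θ x i 0 = w i
    rw [hx]; rfl
  · intro b n
    obtain ⟨x, rfl⟩ := hf n
    have h1 : b • f x = f (b • x) := by
      apply Subtype.ext; show b • L x = L (b • x); rw [map_smul]
    rw [h1, hΛ, hΛ]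
    funext i
    show Θ (b • x) i 0 = π' b • Θ x i 0
    rw [hΘsmul]; rfl
  · intro g n hn
    obtain ⟨x, rfl⟩ := hf n
    have h1 : (⟨_, hn⟩ : LinearMap.range L) = f (γ g * x) := Subtype.ext rfl
    rw [h1, hΛ, hΛ]
    funext i
    show Θ (γ g * x) i 0 = ((ρ' g).mulVec fun j => Θ x j 0) i
    rw [map_mul, hΘγ, Matrix.mul_apply]
    rfl

end FinCarayol

end Fermat.Agent.S32.helper929
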